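/-
S28 / MP (helper14), formal part: sections of a Laurent series modulo `p`, the matrix `M` of
multiplication by `f(t)` on `R((t))` over `R((t^p))`, the eigenvector identity
`f(t) t^k = ∑_i t^i M_{ik}(t^p)` and its consequence `charpoly (M(t^p)) (f(t)) = 0`.
Mathlib + Prelude (`qExpand`, `coeffMap`) only.
-/
import Mathlib
import Fermat.Prelude.Def_ModularCurve_X0
import Fermat.Prelude.Def_ModularCurve_LaurentCoeff

set_option autoImplicit false

open HahnSeries ModularCurve

namespace Fermat.Agent.S28x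

noncomputable section

section formal

variable {R : Type*} [CommRing R] (p : ℕ) [NeZero p]

theorem mp_sec_bdd (r : ℤ) (f : LaurentSeries R) :
    BddBelow (Function.support fun m : ℤ => f.coeff ((p : ℤ) * m + r)) := by
  refine ⟨min (f.order - r) 0, fun m hm => ?_⟩
  by_contra hlt
  rw [not_le] at hlt
  apply hm
  apply HahnSeries.coeff_eq_zero_of_lt_order
  have hp : (1 : ℤ) ≤ p := by exact_mod_cast Nat.one_le_iff_ne_zero.mpr (NeZero.ne p)
  have h1 : m < f.order - r := lt_of_lt_of_le hlt (min_le_left _ _)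
  have h2 : m < 0 := lt_of_lt_of_le hlt (min_le_right _ _)
  nlinarith

/-- the `r`-th section modulo `p`: `coeff m ↦ f.coeff (p m + r)` -/
def mp_sec (r : ℤ) (f : LaurentSeries R) : LaurentSeries R :=
  HahnSeries.ofSuppBddBelow (fun m : ℤ => f.coeff ((p : ℤ) * m + r)) (mp_sec_bdd p r f)

@[simp] theorem mp_sec_coeff (r : ℤ) (f : LaurentSeries R) (m : ℤ) :
    (mp_sec p r f).coeff m = f.coeff ((p : ℤ) * m + r) := rfl

/-- the matrix of multiplication by `f(t)` in the basis `1, t, …, t^{p-1}` over `R((t^p))` -/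
def mp_mat (f : LaurentSeries R) : Matrix (Fin p) (Fin p) (LaurentSeries R) :=
  fun i k => mp_sec p ((i : ℤ) - (k : ℤ)) f

theorem mp_coeff_qExpand (g : LaurentSeries R) (n : ℤ) :
    (qExpand R p g).coeff n = if (p : ℤ) ∣ n then g.coeff (n / p) else 0 := by
  split_ifs with h
  · obtain ⟨m, rfl⟩ := h
    have hp : (p : ℤ) ≠ 0 := by exact_mod_cast NeZero.ne p
    rw [qExpand_coeff_mul, Int.mul_ediv_cancel_left _ hp]
  · exact qExpand_coeff_of_not_dvd p g h

/-- **the eigenvector identity** `f(t) t^k = ∑_i t^i M_{ik}(t^p)` -/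
theorem mp_eigen (f : LaurentSeries R) (k : Fin p) :
    f * HahnSeries.single ((k : ℕ) : ℤ) (1 : R) =
      ∑ i : Fin p, HahnSeries.single ((i : ℕ) : ℤ) (1 : R) * qExpand R p (mp_mat p f i k) := by
  ext n
  have hp0 : (p : ℤ) ≠ 0 := by exact_mod_cast NeZero.ne p
  have hppos : (0 : ℤ) < p := by exact_mod_cast Nat.pos_of_ne_zero (NeZero.ne p)
  have hL : (f * HahnSeries.single ((k : ℕ) : ℤ) (1 : R)).coeff n = f.coeff (n - (k : ℕ)) := by
    have := HahnSeries.coeff_mul_single_add (r := (1 : R)) (x := f) (a := n - (k : ℕ))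
      (b := ((k : ℕ) : ℤ))
    rw [sub_add_cancel, mul_one] at this
    exact this
  rw [hL, HahnSeries.coeff_sum]
  have hterm : ∀ i : Fin p,
      (HahnSeries.single ((i : ℕ) : ℤ) (1 : R) * qExpand R p (mp_mat p f i k)).coeff n =
        if (p : ℤ) ∣ n - (i : ℕ) then f.coeff (n - (k : ℕ)) else 0 := by
    intro i
    have := HahnSeries.coeff_single_mul_add (r := (1 : R)) (x := qExpand R p (mp_mat p f i k))
      (a := n - (i : ℕ)) (b := ((i : ℕ) : ℤ))
    rw [sub_add_cancel, one_mul] at this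
    rw [this, mp_coeff_qExpand]
    split_ifs with h
    · rw [mp_mat, mp_sec_coeff, Int.mul_ediv_cancel' h]
      congr 1
      ring
    · rfl
  simp_rw [hterm]
  -- exactly one `i` with `p ∣ n - i`
  have hi0 : (n % p).toNat < p := by
    have h1 : n % (p : ℤ) < p := Int.emod_lt_of_pos n hppos
    have h2 : 0 ≤ n % (p : ℤ) := Int.emod_nonneg n hp0
    omega
  rw [Finset.sum_eq_single (⟨(n % p).toNat, hi0⟩ : Fin p)]
  · rw [if_pos]
    have h2 : 0 ≤ n % (p : ℤ) := Int.emod_nonneg n hp0
    show (p : ℤ) ∣ n - (((n % (p : ℤ)).toNat : ℕ) : ℤ)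
    rw [Int.toNat_of_nonneg h2]
    exact ⟨n / p, by have := Int.emod_add_mul_ediv n p; linarith⟩
  · intro i _ hi
    rw [if_neg]
    intro hdvd
    apply hi
    ext
    show (i : ℕ) = (n % (p : ℤ)).toNat
    have h1 : n % (p : ℤ) = ((i : ℕ) : ℤ) % (p : ℤ) := by
      obtain ⟨c, hc⟩ := hdvd
      have hn : n = ((i : ℕ) : ℤ) + (p : ℤ) * c := by linarith
      rw [hn, Int.add_mul_emod_self_left]
    have h3 : ((i : ℕ) : ℤ) % (p : ℤ) = (i : ℕ) := Int.emod_eq_of_lt (by positivity)
      (by exact_mod_cast i.2)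
    rw [h1, h3]
    simp
  · intro h
    exact absurd (Finset.mem_univ _) h

/-- naturality in the coefficient ring -/
theorem mp_sec_coeffMap {S : Type*} [CommRing S] (φ : R →+* S) (r : ℤ) (f : LaurentSeries R) :
    mp_sec p r (coeffMap φ f) = coeffMap φ (mp_sec p r f) := by
  ext m
  rw [mp_sec_coeff, coeffMap_coeff, coeffMap_coeff, mp_sec_coeff]

theorem mp_mat_coeffMap {S : Type*} [CommRing S] (φ : R →+* S) (f : LaurentSeries R) :
    mp_mat p (coeffMap φ f) = (mp_mat p f).map (coeffMap φ) := by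
  funext i k
  exact mp_sec_coeffMap p φ _ f

end formal

section field

variable {K : Type*} [Field K] (p : ℕ) [NeZero p]

/-- `f(t)` is a root of the characteristic polynomial of `M(t^p)` -/
theorem mp_charpoly_eval (f : LaurentSeries K) :
    (((mp_mat p f).map (qExpand K p)).charpoly).eval f = 0 := by
  classical
  rw [Matrix.eval_charpoly]
  apply Matrix.exists_vecMul_eq_zero_iff.mp
  refine ⟨fun i : Fin p => HahnSeries.single ((i : ℕ) : ℤ) (1 : K), ?_, ?_⟩
  · intro h
    have h0 := congrFun h ⟨0, Nat.pos_of_ne_zero (NeZero.ne p)⟩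
    simp only [Pi.zero_apply] at h0
    have : (HahnSeries.single (((0 : ℕ) : ℤ)) (1 : K)) ≠ 0 := by
      rw [Ne, HahnSeries.single_eq_zero_iff]
      exact one_ne_zero
    exact this h0
  · funext k
    have h := mp_eigen p f k
    simp only [Matrix.vecMul, dotProduct, Matrix.sub_apply, Matrix.scalar_apply,
      Matrix.diagonal_apply, Matrix.map_apply, mul_sub, Finset.sum_sub_distrib, Pi.zero_apply]
    rw [← h]
    simp [Finset.sum_ite_eq', mul_comm]

end field

end

end Fermat.Agent.S28x
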