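/-
S28 / MP (helper14), analytic evaluation of the formal part: the sections of a convergent Laurent
series converge, the matrix `M` of `j` has entries in `convLaurent`, and the evaluated eigenvector
identity `j(w) t^k = ∑_i t^i M_{ik}(q)` for `t = e^{2πiw}`, `t^p = q`.
-/
import Fermat.Agent.S28x.ModPolyFormal
import Fermat.Agent.S24x.JqConv

set_option autoImplicit false

open HahnSeries ModularCurve UpperHalfPlane

namespace Fermat.Agent.S28x

open Fermat.Agent.S24x

noncomputable section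

variable (p : ℕ) [NeZero p]

/-- sections of a convergent Laurent series converge -/
theorem mp_lconv_sec {f : LaurentSeries ℂ} (hf : LConv f) (r : ℤ) : LConv (mp_sec p r f) := by
  intro q hq0 hq
  obtain ⟨t, ht⟩ := IsAlgClosed.exists_pow_nat_eq q (Nat.pos_of_ne_zero (NeZero.ne p))
  have ht0 : t ≠ 0 := by
    rintro rfl
    rw [zero_pow (NeZero.ne p)] at ht
    exact hq0 ht.symm
  have ht1 : ‖t‖ < 1 := by
    have h1 : ‖t‖ ^ p < 1 := by rw [← norm_pow, ht]; exact hq
    exact (pow_lt_one_iff_of_nonneg (norm_nonneg t) (NeZero.ne p)).mp h1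
  have hinj : Function.Injective (fun m : ℤ => (p : ℤ) * m + r) := by
    intro a b hab
    have hp : (p : ℤ) ≠ 0 := by exact_mod_cast NeZero.ne p
    have : (p : ℤ) * a = (p : ℤ) * b := by simpa using hab
    exact mul_left_cancel₀ hp this
  have h1 := ((hf t ht0 ht1).comp_injective hinj).mul_right ‖t ^ (-r)‖
  refine h1.congr fun m => ?_
  simp only [Function.comp_apply]
  rw [← norm_mul]
  congr 1
  unfold lTerm
  rw [mp_sec_coeff, mul_assoc]
  congr 1
  rw [← zpow_add₀ ht0, ← ht]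
  rw [← zpow_natCast t p, ← zpow_mul]
  congr 1
  ring

/-- the evaluated eigenvector identity -/
theorem mp_eval_eigen {f : LaurentSeries ℂ} (hf : LConv f) (k : Fin p) {t : ℂ} (ht0 : t ≠ 0)
    (ht1 : ‖t‖ < 1) :
    ∑ i : Fin p, t ^ (i : ℕ) * lEval (mp_mat p f i k) (t ^ p) = lEval f t * t ^ (k : ℕ) := by
  have h : lEval (f * HahnSeries.single ((k : ℕ) : ℤ) (1 : ℂ)) t =
      lEval (∑ i : Fin p, HahnSeries.single ((i : ℕ) : ℤ) (1 : ℂ) *
        qExpand ℂ p (mp_mat p f i k)) t := by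
    rw [mp_eigen p f k]
  have hc : ∀ i : Fin p, LConv (qExpand ℂ p (mp_mat p f i k)) :=
    fun i => (mp_lconv_sec p hf ((i : ℤ) - (k : ℤ))).qExpand p
  rw [lEval_mul hf (lconv_single _ _) ht0 ht1, lEval_single, one_mul, zpow_natCast,
    lEval_sum Finset.univ
      (fun i : Fin p => HahnSeries.single ((i : ℕ) : ℤ) (1 : ℂ) * qExpand ℂ p (mp_mat p f i k))
      (fun i _ => (lconv_single _ _).mul (hc i)) ht0 ht1] at h
  rw [h]
  refine Finset.sum_congr rfl fun i _ => ?_
  rw [lEval_mul (lconv_single _ _) (hc i) ht0 ht1, lEval_single, one_mul,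
    zpow_natCast, lEval_qExpand]

/-- the matrix `M` of `j`, with entries in the algebra of convergent Laurent series -/
def mp_matC : Matrix (Fin p) (Fin p) convLaurent :=
  fun i k => ⟨mp_mat p jqc_jqC i k, mp_lconv_sec p jqc_lconv_jqC _⟩

theorem mp_matC_val : (mp_matC p).map (convLaurent.val) = mp_mat p jqc_jqC := rfl

omit [NeZero p] in
/-- `e^{2πiw}` is a `p`-th root of `e^{2πiz}` when `p w = z + b` -/
theorem mp_qOf_pow (w z : ℍ) (b : ℕ) (h : (p : ℂ) * (w : ℂ) = (z : ℂ) + b) :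
    qOf w ^ p = qOf z := by
  unfold qOf Function.Periodic.qParam
  rw [← Complex.exp_nat_mul]
  have : (p : ℂ) * (2 * Real.pi * Complex.I * (w : ℂ) / (1 : ℝ)) =
      2 * Real.pi * Complex.I * (z : ℂ) / (1 : ℝ) + (b : ℂ) * (2 * Real.pi * Complex.I) := by
    have h2 : (p : ℂ) * (2 * Real.pi * Complex.I * (w : ℂ) / (1 : ℝ)) =
        2 * Real.pi * Complex.I * ((p : ℂ) * (w : ℂ)) / (1 : ℝ) := by ring
    rw [h2, h]
    push_cast
    ring
  rw [this, Complex.exp_add, Complex.exp_nat_mul, Complex.exp_two_pi_mul_I, one_pow, mul_one]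

/-- the `p` roots `e^{2πi(z+b)/p}`, `0 ≤ b < p`, are pairwise distinct -/
theorem mp_qOf_injective (z : ℍ) (w : Fin p → ℍ)
    (h : ∀ b : Fin p, (p : ℂ) * (w b : ℂ) = (z : ℂ) + ((b : ℕ) : ℂ)) :
    Function.Injective (fun b : Fin p => qOf (w b)) := by
  intro b b' hbb
  simp only at hbb
  unfold qOf Function.Periodic.qParam at hbb
  rw [Complex.exp_eq_exp_iff_exists_int] at hbb
  obtain ⟨n, hn⟩ := hbb
  have hp0 : (p : ℂ) ≠ 0 := by exact_mod_cast NeZero.ne p
  have hI : (2 * (Real.pi : ℂ) * Complex.I) ≠ 0 := Complex.two_pi_I_ne_zero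
  have h1 : (w b : ℂ) = (w b' : ℂ) + n := by
    have e : 2 * (Real.pi : ℂ) * Complex.I * (w b : ℂ) =
        2 * (Real.pi : ℂ) * Complex.I * ((w b' : ℂ) + n) := by
      have := hn
      simp only [Complex.ofReal_one, div_one] at this
      rw [this]; ring
    exact mul_left_cancel₀ hI e
  have h2 : ((b : ℕ) : ℂ) = ((b' : ℕ) : ℂ) + (p : ℂ) * n := by
    have e1 := h b
    have e2 := h b'
    rw [h1, mul_add, e2] at e1
    have : (z : ℂ) + ((b' : ℕ) : ℂ) + (p : ℂ) * n = (z : ℂ) + ((b : ℕ) : ℂ) := e1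
    linear_combination -this
  have h3 : ((b : ℕ) : ℤ) = ((b' : ℕ) : ℤ) + (p : ℤ) * n := by exact_mod_cast h2
  have hb := b.2
  have hb' := b'.2
  have hn0 : n = 0 := by
    by_contra hne
    rcases lt_or_gt_of_ne hne with hlt | hgt
    · have : (p : ℤ) * n ≤ -(p : ℤ) := by nlinarith
      omega
    · have : (p : ℤ) ≤ (p : ℤ) * n := by nlinarith
      omega
  rw [hn0, mul_zero, add_zero] at h3
  exact Fin.ext (by exact_mod_cast h3)

end

end Fermat.Agent.S28x
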