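import Fermat.Agent.S24x.JqConv
import Fermat.Agent.S16x.CosetPerm

/-!
# S28 / MP (I) (helper97): the conjugates of `j(pz)` and their permutation under `SL₂(ℤ)`

`mp_conj p none z = j(pz)`, `mp_conj p (some b) z = j((z+b)/p)`; the polynomial
`∏_x (X - mp_conj p x z)` is `SL₂(ℤ)`-invariant (`mp_prod_invariant`).
-/

set_option autoImplicit false

open UpperHalfPlane ModularCurve Polynomial
open scoped MatrixGroups

namespace Fermat.Agent.S28x

open Fermat.Agent.S24x Fermat.Agent.S16x CongruenceSubgroup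

noncomputable section

/-- the point `(z + b) / p` -/
def mp_pt (p : ℕ) [NeZero p] (b : ℕ) (z : ℍ) : ℍ :=
  ⟨((z : ℂ) + b) / p, by
    have hp : (0 : ℝ) < p := by exact_mod_cast Nat.pos_of_ne_zero (NeZero.ne p)
    have : (((z : ℂ) + b) / p).im = z.im / p := by
      rw [show ((z : ℂ) + b) / p = (((z : ℂ) + b) : ℂ) / ((p : ℝ) : ℂ) by norm_cast, Complex.div_ofReal_im]
      simp
    rw [this]
    exact div_pos z.im_pos hp⟩

/-- the `p + 1` conjugates of `j(pz)`: `j_∞ = j(pz)`, `j_b = j((z+b)/p)` -/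
def mp_conj (p : ℕ) [NeZero p] : Option (Fin p) → ℍ → ℂ
  | none, z => jFun (jqc_mulPt p z)
  | some b, z => jFun (mp_pt p (b : ℕ) z)

theorem mpi_coe_pt (p : ℕ) [NeZero p] (b : ℕ) (z : ℍ) :
    ((mp_pt p b z : ℍ) : ℂ) = ((z : ℂ) + b) / p := rfl

/-- the Möbius action of `SL₂(ℤ)` in coordinates -/
theorem mpi_coe_smul (g : SL(2, ℤ)) (z : ℍ) :
    ((g • z : ℍ) : ℂ) = (((g 0 0 : ℤ) : ℂ) * z + ((g 0 1 : ℤ) : ℂ)) /
      (((g 1 0 : ℤ) : ℂ) * z + ((g 1 1 : ℤ) : ℂ)) := by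
  rw [UpperHalfPlane.coe_specialLinearGroup_apply]
  simp

/-- `z ↦ j(pz)` is `Γ₀(p)`-invariant -/
theorem mpi_gamma0_invariant (p : ℕ) [NeZero p] (δ : SL(2, ℤ)) (hδ : δ ∈ Gamma0 p) (w : ℍ) :
    jFun (jqc_mulPt p (δ • w)) = jFun (jqc_mulPt p w) := by
  rw [Gamma0_mem] at hδ
  obtain ⟨c', hc'⟩ : (p : ℤ) ∣ δ 1 0 := (ZMod.intCast_zmod_eq_zero_iff_dvd _ p).mp hδ
  have hdet : (δ 0 0) * (δ 1 1) - (δ 0 1) * (δ 1 0) = 1 := by
    have := δ.det_coe
    rwa [Matrix.det_fin_two] at this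
  let δ' : SL(2, ℤ) := ⟨!![δ 0 0, (p : ℤ) * δ 0 1; c', δ 1 1], by
    rw [Matrix.det_fin_two_of]
    rw [hc'] at hdet
    linarith [hdet]⟩
  have key : δ' • (jqc_mulPt p w) = jqc_mulPt p (δ • w) := by
    apply UpperHalfPlane.ext
    rw [mpi_coe_smul, jqc_coe_mulPt, jqc_coe_mulPt, mpi_coe_smul]
    have e00 : (δ' 0 0 : ℤ) = δ 0 0 := rfl
    have e01 : (δ' 0 1 : ℤ) = (p : ℤ) * δ 0 1 := rfl
    have e10 : (δ' 1 0 : ℤ) = c' := rfl
    have e11 : (δ' 1 1 : ℤ) = δ 1 1 := rfl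
    rw [e00, e01, e10, e11, hc']
    push_cast
    rw [← mul_div_assoc]
    congr 1 <;> ring
  rw [← key, jFun_smul]

/-- the conjugates are the values of `z ↦ j(pz)` at the coset representatives -/
theorem mpi_conj_eq (p : ℕ) [NeZero p] (x : Option (Fin p)) (z : ℍ) :
    mp_conj p x z = jFun (jqc_mulPt p (cp_rep p x • z)) := by
  cases x with
  | none => rw [cp_rep_none, one_smul]; rfl
  | some b =>
    show jFun (mp_pt p (b : ℕ) z) = _
    have key : jqc_mulPt p (cp_rep p (some b) • z) = ModularGroup.S • (mp_pt p (b : ℕ) z) := by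
      apply UpperHalfPlane.ext
      rw [jqc_coe_mulPt, mpi_coe_smul, cp_rep_some, UpperHalfPlane.modular_S_smul]
      have e00 : ((ModularGroup.S * ModularGroup.T ^ (b : ℕ) : SL(2, ℤ)) 0 0 : ℤ) = 0 := by
        rw [cp_coe_S_mul_T_pow]; rfl
      have e01 : ((ModularGroup.S * ModularGroup.T ^ (b : ℕ) : SL(2, ℤ)) 0 1 : ℤ) = -1 := by
        rw [cp_coe_S_mul_T_pow]; rfl
      have e10 : ((ModularGroup.S * ModularGroup.T ^ (b : ℕ) : SL(2, ℤ)) 1 0 : ℤ) = 1 := by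
        rw [cp_coe_S_mul_T_pow]; rfl
      have e11 : ((ModularGroup.S * ModularGroup.T ^ (b : ℕ) : SL(2, ℤ)) 1 1 : ℤ) = (b : ℕ) := by
        rw [cp_coe_S_mul_T_pow]; rfl
      rw [e00, e01, e10, e11]
      show _ = (-((mp_pt p (b : ℕ) z : ℍ) : ℂ))⁻¹
      rw [mpi_coe_pt]
      have hp : (p : ℂ) ≠ 0 := Nat.cast_ne_zero.mpr (NeZero.ne p)
      have hzb : (z : ℂ) + ((b : ℕ) : ℂ) ≠ 0 := by
        intro h
        have him := congrArg Complex.im h
        simp at him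
        exact z.im_pos.ne' him
      push_cast
      field_simp
      ring
    rw [key, jFun_smul]

/-- `∏_x (X - j_x(z))` is `SL₂(ℤ)`-invariant. -/
theorem mp_prod_invariant (p : ℕ) [hp : Fact p.Prime] (γ : SL(2, ℤ)) (z : ℍ) :
    haveI : NeZero p := ⟨hp.out.ne_zero⟩
    ∏ x : Option (Fin p), (Polynomial.X - Polynomial.C (mp_conj p x (γ • z))) =
      ∏ x : Option (Fin p), (Polynomial.X - Polynomial.C (mp_conj p x z)) := by
  have : NeZero p := ⟨hp.out.ne_zero⟩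
  obtain ⟨σ, hσ⟩ := cp_exists_perm p γ
  have key : ∀ x : Option (Fin p), mp_conj p x (γ • z) = mp_conj p (σ x) z := by
    intro x
    obtain ⟨δ, hδ, e⟩ := hσ x
    rw [mpi_conj_eq, mpi_conj_eq, ← mul_smul, e, mul_smul, mpi_gamma0_invariant p δ hδ]
  simp_rw [key]
  exact Equiv.prod_comp σ (fun x => (Polynomial.X - Polynomial.C (mp_conj p x z)))

end

end Fermat.Agent.S28x
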