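/-
S28 project (Igusa: the special fibre of the Igusa model of `X₀(N)` at `ℓ ∤ N` is integral):
core definitions shared by all `S28x` files.  Captain: helper19.
See table `s28_plan`, doc `S28_blueprint_elementary_helper19`, and `Fermat/Agent/S28x/Spec.lean`.
-/
import Mathlib
import Fermat.Prelude.Def_ModularCurve_IgusaScheme
import Fermat.Prelude.Def_ModularCurve_X0ModL

set_option autoImplicit false

namespace Fermat.Agent.S28x

open ModularCurve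

noncomputable section

/-! ### `ℤ_(ℓ)`, its residue map, Laurent series with `ℓ`-integral coefficients -/

/-- `ℤ_(ℓ)` as a type (the Prelude's subring of `ℚ`). -/
abbrev ZL (ℓ : ℕ) : Type := ↥(GaloisRep.ratLocalizedAt ℓ)

/-- The residue map `ℤ_(ℓ) → 𝔽_ℓ` (`Rat.cast` is additive and multiplicative on `ℓ`-integral
rationals). -/
def resZL (ℓ : ℕ) [Fact ℓ.Prime] : ZL ℓ →+* ZMod ℓ where
  toFun x := ((x : ℚ) : ZMod ℓ)
  map_one' := by simp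
  map_zero' := by simp
  map_mul' x y := by
    have hx : ((x : ℚ).den : ZMod ℓ) ≠ 0 := by
      rw [Ne, ZMod.natCast_eq_zero_iff]
      exact fun h => (Fact.out : ℓ.Prime).one_lt.ne'
        (Nat.Coprime.eq_one_of_dvd (Nat.Coprime.symm x.2) h)
    have hy : ((y : ℚ).den : ZMod ℓ) ≠ 0 := by
      rw [Ne, ZMod.natCast_eq_zero_iff]
      exact fun h => (Fact.out : ℓ.Prime).one_lt.ne'
        (Nat.Coprime.eq_one_of_dvd (Nat.Coprime.symm y.2) h)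
    simpa using Rat.cast_mul_of_ne_zero hx hy
  map_add' x y := by
    have hx : ((x : ℚ).den : ZMod ℓ) ≠ 0 := by
      rw [Ne, ZMod.natCast_eq_zero_iff]
      exact fun h => (Fact.out : ℓ.Prime).one_lt.ne'
        (Nat.Coprime.eq_one_of_dvd (Nat.Coprime.symm x.2) h)
    have hy : ((y : ℚ).den : ZMod ℓ) ≠ 0 := by
      rw [Ne, ZMod.natCast_eq_zero_iff]
      exact fun h => (Fact.out : ℓ.Prime).one_lt.ne'
        (Nat.Coprime.eq_one_of_dvd (Nat.Coprime.symm y.2) h)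
    simpa using Rat.cast_add_of_ne_zero hx hy

/-- `ℤ_(ℓ)((q)) → ℚ((q))` (injective). -/
def toQ (ℓ : ℕ) : LaurentSeries (ZL ℓ) →+* LaurentSeries ℚ :=
  coeffMap (GaloisRep.ratLocalizedAt ℓ).subtype

/-- coefficientwise reduction `ℤ_(ℓ)((q)) → 𝔽_ℓ((q))`. -/
def red (ℓ : ℕ) [Fact ℓ.Prime] : LaurentSeries (ZL ℓ) →+* LaurentSeries (ZMod ℓ) :=
  coeffMap (resZL ℓ)

theorem toQ_coeff (ℓ : ℕ) (u : LaurentSeries (ZL ℓ)) (n : ℤ) :
    (toQ ℓ u).coeff n = ((u.coeff n : ZL ℓ) : ℚ) := by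
  simp [toQ, coeffMap_coeff]

theorem red_coeff (ℓ : ℕ) [Fact ℓ.Prime] (u : LaurentSeries (ZL ℓ)) (n : ℤ) :
    (red ℓ u).coeff n = resZL ℓ (u.coeff n) := by
  simp [red, coeffMap_coeff]

theorem toQ_injective (ℓ : ℕ) : Function.Injective (toQ ℓ) := by
  intro u v h
  ext n
  have := congrArg (fun x => x.coeff n) h
  simpa [toQ_coeff] using this

/-! ### The Gauss ring `W` and the reduction map `ρ : W → 𝔽_ℓ((q))` -/

/-- `W`: Laurent series `x` over `ℚ` such that `u * x` has `ℓ`-integral coefficients for some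
`ℓ`-integral series `u` which is non-zero modulo `ℓ`.  (A discrete valuation ring with
uniformiser `ℓ`; it contains `ℤ_(ℓ)((q))` and the Gauss valuation ring of `ℚ(j)`.) -/
def gaussRing (ℓ : ℕ) [Fact ℓ.Prime] : Subring (LaurentSeries ℚ) where
  carrier := {x | ∃ u v : LaurentSeries (ZL ℓ), red ℓ u ≠ 0 ∧ toQ ℓ u * x = toQ ℓ v}
  mul_mem' := by
    rintro x y ⟨u, v, hu, h⟩ ⟨u', v', hu', h'⟩
    refine ⟨u * u', v * v', ?_, ?_⟩
    · rw [map_mul]; exact mul_ne_zero hu hu'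
    · rw [map_mul, map_mul, ← h, ← h']; ring
  one_mem' := ⟨1, 1, by simp, by simp⟩
  add_mem' := by
    rintro x y ⟨u, v, hu, h⟩ ⟨u', v', hu', h'⟩
    refine ⟨u * u', v * u' + u * v', ?_, ?_⟩
    · rw [map_mul]; exact mul_ne_zero hu hu'
    · rw [map_mul, map_add, map_mul, map_mul, ← h, ← h']; ring
  zero_mem' := ⟨1, 0, by simp, by simp⟩
  neg_mem' := by
    rintro x ⟨u, v, hu, h⟩
    exact ⟨u, -v, hu, by rw [map_neg, ← h]; ring⟩

theorem mem_gaussRing_iff {ℓ : ℕ} [Fact ℓ.Prime] {x : LaurentSeries ℚ} :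
    x ∈ gaussRing ℓ ↔ ∃ u v : LaurentSeries (ZL ℓ), red ℓ u ≠ 0 ∧ toQ ℓ u * x = toQ ℓ v :=
  Iff.rfl

/-- `ℤ_(ℓ)((q)) ⊆ W`. -/
theorem toQ_mem_gaussRing (ℓ : ℕ) [Fact ℓ.Prime] (v : LaurentSeries (ZL ℓ)) :
    toQ ℓ v ∈ gaussRing ℓ :=
  ⟨1, v, by simp, by simp⟩

/-- the underlying function of `rho` -/
def rhoFun (ℓ : ℕ) [Fact ℓ.Prime] (x : gaussRing ℓ) : LaurentSeries (ZMod ℓ) :=
  red ℓ (Classical.choose (Classical.choose_spec x.2)) / red ℓ (Classical.choose x.2)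

theorem rhoFun_eq (ℓ : ℕ) [Fact ℓ.Prime] (x : gaussRing ℓ) {u v : LaurentSeries (ZL ℓ)}
    (hu : red ℓ u ≠ 0) (h : toQ ℓ u * (x : LaurentSeries ℚ) = toQ ℓ v) :
    rhoFun ℓ x = red ℓ v / red ℓ u := by
  obtain ⟨hu₀, h₀⟩ := Classical.choose_spec (Classical.choose_spec x.2)
  set u₀ := Classical.choose x.2
  set v₀ := Classical.choose (Classical.choose_spec x.2)
  have key : u * v₀ = u₀ * v := by
    apply toQ_injective
    rw [map_mul, map_mul, ← h₀, ← h]; ring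
  have key' : red ℓ u * red ℓ v₀ = red ℓ u₀ * red ℓ v := by
    rw [← map_mul, ← map_mul, key]
  rw [rhoFun, div_eq_div_iff hu₀ hu]
  rw [mul_comm (red ℓ v₀), key']; ring

/-- **The reduction map** `ρ : W → 𝔽_ℓ((q))`: `ρ x = (u x mod ℓ) / (u mod ℓ)`. -/
def rho (ℓ : ℕ) [Fact ℓ.Prime] : gaussRing ℓ →+* LaurentSeries (ZMod ℓ) where
  toFun := rhoFun ℓ
  map_one' := by
    rw [rhoFun_eq ℓ 1 (u := 1) (v := 1) (by simp) (by simp)]; simp
  map_zero' := by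
    rw [rhoFun_eq ℓ 0 (u := 1) (v := 0) (by simp) (by simp)]; simp
  map_mul' x y := by
    obtain ⟨u, v, hu, h⟩ := x.2
    obtain ⟨u', v', hu', h'⟩ := y.2
    rw [rhoFun_eq ℓ x hu h, rhoFun_eq ℓ y hu' h',
      rhoFun_eq ℓ (x * y) (u := u * u') (v := v * v')
        (by rw [map_mul]; exact mul_ne_zero hu hu')
        (by rw [map_mul, map_mul, ← h, ← h']; push_cast; ring)]
    rw [map_mul, map_mul]; field_simp
  map_add' x y := by
    obtain ⟨u, v, hu, h⟩ := x.2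
    obtain ⟨u', v', hu', h'⟩ := y.2
    rw [rhoFun_eq ℓ x hu h, rhoFun_eq ℓ y hu' h',
      rhoFun_eq ℓ (x + y) (u := u * u') (v := v * u' + u * v')
        (by rw [map_mul]; exact mul_ne_zero hu hu')
        (by rw [map_mul, map_add, map_mul, map_mul, ← h, ← h']; push_cast; ring)]
    rw [map_mul, map_add, map_mul, map_mul]; field_simp

theorem rho_eq (ℓ : ℕ) [Fact ℓ.Prime] (x : gaussRing ℓ) {u v : LaurentSeries (ZL ℓ)}
    (hu : red ℓ u ≠ 0) (h : toQ ℓ u * (x : LaurentSeries ℚ) = toQ ℓ v) :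
    rho ℓ x = red ℓ v / red ℓ u :=
  rhoFun_eq ℓ x hu h

/-- `ρ` on `ℤ_(ℓ)((q))` is the coefficientwise reduction. -/
theorem rho_toQ (ℓ : ℕ) [Fact ℓ.Prime] (v : LaurentSeries (ZL ℓ)) :
    rho ℓ ⟨toQ ℓ v, toQ_mem_gaussRing ℓ v⟩ = red ℓ v := by
  rw [rho_eq ℓ _ (u := 1) (v := v) (by simp) (by simp)]; simp

/-! ### Characteristic `0`: the Gauss valuation ring `V` of `ℚ(j)` and the orders `A_V(N)` -/

/-- `ℚ(j) ⊆ ℚ((q))`. -/
abbrev Qj : IntermediateField ℚ (LaurentSeries ℚ) := IntermediateField.adjoin ℚ {jq}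

/-- `V = W ∩ ℚ(j)`: the Gauss valuation ring of `ℚ(j)` at `ℓ`. -/
def gaussV (ℓ : ℕ) [Fact ℓ.Prime] : Subring (LaurentSeries ℚ) :=
  gaussRing ℓ ⊓ Qj.toSubring

theorem gaussV_le_gaussRing (ℓ : ℕ) [Fact ℓ.Prime] : gaussV ℓ ≤ gaussRing ℓ := inf_le_left

/-- `A_V(N) = V[j(q^d) : d ∣ N]`, as a `V`-subalgebra of `ℚ((q))`. -/
def AV (ℓ : ℕ) [Fact ℓ.Prime] (N : ℕ) : Subalgebra (gaussV ℓ) (LaurentSeries ℚ) :=
  Algebra.adjoin (gaussV ℓ) (divisorExpansions N)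

/-- **The `q`-expansion principle at level `N`** (for the order `A_V(N)`): an element of `A_V(N)`
whose `q`-expansion vanishes modulo `ℓ` is divisible by `ℓ` in `A_V(N)`. -/
def QEP (ℓ : ℕ) [Fact ℓ.Prime] (N : ℕ) : Prop :=
  ∀ x : LaurentSeries ℚ, x ∈ AV ℓ N → ∀ hx : x ∈ gaussRing ℓ, rho ℓ ⟨x, hx⟩ = 0 →
    ∃ y : LaurentSeries ℚ, y ∈ AV ℓ N ∧ x = (ℓ : LaurentSeries ℚ) * y

/-! ### Characteristic `ℓ`: the fields `𝔽_ℓ(j̃) ⊆ F̃_N ⊆ 𝔽_ℓ((q))` -/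

/-- `𝔽_ℓ(j̃) ⊆ 𝔽_ℓ((q))`. -/
abbrev Kj (ℓ : ℕ) [Fact ℓ.Prime] : IntermediateField (ZMod ℓ) (LaurentSeries (ZMod ℓ)) :=
  IntermediateField.adjoin (ZMod ℓ) {jqModC (ZMod ℓ)}

/-- `F̃_N = 𝔽_ℓ(j̃(q^d) : d ∣ N) ⊆ 𝔽_ℓ((q))` (the Prelude's `modularFunctionFieldFullC`). -/
abbrev Ft (ℓ : ℕ) [Fact ℓ.Prime] (N : ℕ) : IntermediateField (ZMod ℓ) (LaurentSeries (ZMod ℓ)) :=
  modularFunctionFieldFullC (ZMod ℓ) N

/-- **The degree statement** `[F̃_N : 𝔽_ℓ(j̃)] ≥ ψ(N)` (Igusa's irreducibility theorem in the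
language of `q`-expansions). -/
def DEG (ℓ : ℕ) [Fact ℓ.Prime] (N : ℕ) : Prop :=
  dedekindPsi N ≤ IntermediateField.relfinrank (Kj ℓ) (Ft ℓ N)

end

end Fermat.Agent.S28x
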