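/-
S28 / MP part (L) (helper38): a convergent Laurent series whose sum is `SL₂(ℤ)`-invariant on `ℍ`
is a polynomial in `j`.  Prefix `mpl_`.  Exact statement of `ModPolySpec.mp_exists_poly_of_lconv`.
-/
import Mathlib
import Fermat.Agent.S24x.JqConv
import Fermat.Agent.S24x.LevelOneInvariant
import Fermat.Agent.S28x.Defs

set_option autoImplicit false

open UpperHalfPlane ModularCurve Polynomial
open scoped MatrixGroups

namespace Fermat.Agent.S28x

open Fermat.Agent.S24x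
open Filter Topology

noncomputable section

theorem mpl_qOf_tendsto : Tendsto qOf atImInfty (𝓝[≠] 0) :=
  (Function.Periodic.qParam_tendsto one_pos).comp tendsto_coe_atImInfty

/-- `q^m · f(q)` has a limit at `q → 0` as soon as `m + order f ≥ 0`. -/
theorem mpl_tendsto_pow_mul {f : LaurentSeries ℂ} (hf : LConv f) (m : ℕ)
    (hm : 0 ≤ (m : ℤ) + f.order) :
    ∃ c : ℂ, Tendsto (fun q : ℂ => q ^ m * lEval f q) (𝓝[≠] 0) (𝓝 c) := by
  obtain ⟨k, hk⟩ := Int.eq_ofNat_of_zero_le hm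
  refine ⟨0 ^ k * f.coeff f.order, ?_⟩
  have h1 : Tendsto (fun q : ℂ => q ^ k) (𝓝[≠] 0) (𝓝 (0 ^ k)) :=
    ((continuous_pow k).tendsto 0).mono_left nhdsWithin_le_nhds
  have h2 := h1.mul hf.tendsto_div_zpow_order
  refine h2.congr' ?_
  filter_upwards [self_mem_nhdsWithin] with q hq
  have hq0 : q ≠ 0 := hq
  have e1 : q ^ k = q ^ ((m : ℤ) + f.order) := by rw [hk, zpow_natCast]
  rw [e1, zpow_add₀ hq0, zpow_natCast]
  field_simp

theorem mpl_lconv_aeval (P : Polynomial ℂ) : LConv (Polynomial.aeval jqc_jqC P) := by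
  have h := Polynomial.aeval_subalgebra_coe P convLaurent ⟨jqc_jqC, jqc_lconv_jqC⟩
  have hmem : ((Polynomial.aeval (⟨jqc_jqC, jqc_lconv_jqC⟩ : convLaurent) P : convLaurent) :
      LaurentSeries ℂ) ∈ convLaurent := Subtype.property _
  rw [h] at hmem
  exact hmem

theorem mpl_lEval_aeval (P : Polynomial ℂ) (τ : ℍ) :
    lEval (Polynomial.aeval jqc_jqC P) (qOf τ) = P.eval (jFun τ) := by
  have h := Polynomial.aeval_subalgebra_coe P convLaurent ⟨jqc_jqC, jqc_lconv_jqC⟩
  have h2 := Polynomial.aeval_algHom_apply (lEvalHom (qOf τ) (qOf_ne_zero τ) (norm_qOf_lt_one τ))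
    (⟨jqc_jqC, jqc_lconv_jqC⟩ : convLaurent) P
  rw [lEvalHom_apply, lEvalHom_apply, h] at h2
  simp only at h2
  rw [← h2, jqc_lEval_jqC, Polynomial.coe_aeval_eq_eval]

/-- **(L)** A convergent Laurent series whose sum is `SL₂(ℤ)`-invariant on `ℍ` is a polynomial in
`j`. -/
theorem mp_exists_poly_of_lconv (f : LaurentSeries ℂ) (hf : LConv f)
    (hinv : ∀ (γ : SL(2, ℤ)) (z : ℍ), lEval f (qOf (γ • z)) = lEval f (qOf z)) :
    ∃ P : Polynomial ℂ, f = Polynomial.aeval jqc_jqC P := by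
  set m : ℕ := (-f.order).toNat with hm
  have hm0 : 0 ≤ (m : ℤ) + f.order := by
    rw [hm]
    have := Int.self_le_toNat (-f.order)
    omega
  obtain ⟨c, hc⟩ := mpl_tendsto_pow_mul hf m hm0
  have hbd : IsBoundedAtImInfty
      (fun z : ℍ => Function.Periodic.qParam 1 (z : ℂ) ^ m * lEval f (qOf z)) :=
    jf_isBoundedAtImInfty_of_tendsto (hc.comp mpl_qOf_tendsto)
  obtain ⟨P, -, hP⟩ := exists_polynomial_jFun m (fun z : ℍ => lEval f (qOf z)) hf.mdifferentiable
    hinv hbd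
  refine ⟨P, ?_⟩
  have hsub : LConv (f - Polynomial.aeval jqc_jqC P) := hf.sub (mpl_lconv_aeval P)
  have h0 : f - Polynomial.aeval jqc_jqC P = 0 := by
    apply hsub.eq_zero_of_forall_uhp
    intro τ
    rw [lEval_sub hf (mpl_lconv_aeval P) (qOf_ne_zero τ) (norm_qOf_lt_one τ), mpl_lEval_aeval,
      hP τ, sub_self]
  exact sub_eq_zero.mp h0

end

end Fermat.Agent.S28x
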