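/-
S28x/ModPolyVdm.lean (helper18): S28 / MP sub-lemma (V), Vandermonde.
If the rows `(t_b^i)_i` (`t` injective) are left eigenvectors of `A` with eigenvalues `μ_b`, then
`charpoly A = ∏_b (X - μ_b)`.  Mathlib only.
-/
import Mathlib

set_option autoImplicit false

open Polynomial Matrix

namespace Fermat.Agent.S28x

/-- General form over any field: `W A = D W` with `W` the Vandermonde matrix of an injective
family, hence `A = W⁻¹ D W` and `charpoly A = charpoly D`. -/
theorem mpv_charpoly_eq_prod {K : Type*} [Field K] {n : ℕ} (A : Matrix (Fin n) (Fin n) K)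
    (t μ : Fin n → K) (ht : Function.Injective t)
    (h : ∀ b k : Fin n, ∑ i : Fin n, t b ^ (i : ℕ) * A i k = μ b * t b ^ (k : ℕ)) :
    A.charpoly = ∏ b, (Polynomial.X - Polynomial.C (μ b)) := by
  classical
  set W : Matrix (Fin n) (Fin n) K := Matrix.vandermonde t with hW
  have hdet : IsUnit W.det := by
    rw [isUnit_iff_ne_zero]
    exact Matrix.det_vandermonde_ne_zero_iff.mpr ht
  have hWA : W * A = Matrix.diagonal μ * W := by
    ext b k
    rw [Matrix.mul_apply, Matrix.diagonal_mul]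
    simp only [hW, Matrix.vandermonde_apply]
    exact h b k
  -- `A = W⁻¹ * diagonal μ * W`
  have hA : A = W⁻¹ * Matrix.diagonal μ * W := by
    rw [Matrix.mul_assoc, ← hWA, ← Matrix.mul_assoc, Matrix.nonsing_inv_mul _ hdet, Matrix.one_mul]
  have hWu : IsUnit W := (Matrix.isUnit_iff_isUnit_det W).mpr hdet
  obtain ⟨U, hU⟩ := hWu
  rw [hA, ← Matrix.charpoly_diagonal μ, ← Matrix.charpoly_units_conj' U (Matrix.diagonal μ)]
  rw [← hU]

/-- **(V)** exact statement of `MPSpec.mp_charpoly_eq_prod`. -/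
theorem mp_charpoly_eq_prod {n : ℕ} (A : Matrix (Fin n) (Fin n) ℂ) (t μ : Fin n → ℂ)
    (ht : Function.Injective t)
    (h : ∀ b k : Fin n, ∑ i : Fin n, t b ^ (i : ℕ) * A i k = μ b * t b ^ (k : ℕ)) :
    A.charpoly = ∏ b, (Polynomial.X - Polynomial.C (μ b)) :=
  mpv_charpoly_eq_prod A t μ ht h

end Fermat.Agent.S28x
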