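/-
S28 / MP (helper14), analytic assembly: every coefficient of
`Θ = (X - j(q^p)) · charpoly M ∈ ℤ((q))[X]` is an integer polynomial in `j`.
Inputs: (V) `mp_charpoly_eq_prod` (ModPolyVdm), (T) `mp_exists_int_poly` (ModPolyInt),
(I) `mp_prod_invariant` (ModPolyInv), (L) `mp_exists_poly_of_lconv` (ModPolyLevelOne).
-/
import Fermat.Agent.S28x.ModPolyEval
import Fermat.Agent.S28x.ModPolyInv
import Fermat.Agent.S28x.ModPolyLevelOne
import Fermat.Agent.S28x.ModPolyVdm
import Fermat.Agent.S28x.ModPolyInt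
import Fermat.Prelude.Thm_ModularCurve_coeffMap_qExpand

set_option autoImplicit false

open ModularCurve UpperHalfPlane Polynomial
open scoped MatrixGroups

namespace Fermat.Agent.S28x

open Fermat.Agent.S24x

noncomputable section

/-- help instance search (the generic path through `Subalgebra.toRing` is slow) -/
local instance mp_instCommRing : CommRing ↥convLaurent := convLaurent.toCommRing

variable (p : ℕ) [NeZero p]

/-- `Θ = (X - j(q^p)) · charpoly M` over `ℤ((q))` -/
def mp_thetaZ : Polynomial (LaurentSeries ℤ) :=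
  (X - C (qExpand ℤ p (jqModC ℤ))) * (mp_mat p (jqModC ℤ)).charpoly

/-- `j(q^p)` as a convergent Laurent series -/
def mp_jpC : convLaurent := ⟨qExpand ℂ p jqc_jqC, jqc_lconv_jqC.qExpand p⟩

/-- `Θ` over the algebra of convergent complex Laurent series -/
def mp_thetaC : Polynomial convLaurent :=
  ((X : Polynomial convLaurent) - C (mp_jpC p)) * (mp_matC p).charpoly

theorem mp_jqC_eq : jqc_jqC = jqModC ℂ := by
  rw [jqc_jqC, ← jqModC_rat, coeffMap_jqModC]

theorem mp_thetaC_val :
    (mp_thetaC p).map (convLaurent.val : convLaurent →+* LaurentSeries ℂ) =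
      (mp_thetaZ p).map (coeffMap (Int.castRingHom ℂ)) := by
  rw [mp_thetaC, mp_thetaZ, Polynomial.map_mul, Polynomial.map_mul, Polynomial.map_sub,
    Polynomial.map_sub, Polynomial.map_X, Polynomial.map_X, Polynomial.map_C, Polynomial.map_C,
    ← Matrix.charpoly_map, ← Matrix.charpoly_map, ← mp_mat_coeffMap, coeffMap_qExpand,
    coeffMap_jqModC, ← mp_jqC_eq]
  rfl

/-- evaluation at a point of the upper half plane -/
def mp_ev (z : ℍ) : convLaurent →+* ℂ :=
  (lEvalHom (qOf z) (qOf_ne_zero z) (norm_qOf_lt_one z) : convLaurent →ₐ[ℂ] ℂ)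

theorem mp_ev_apply (z : ℍ) (f : convLaurent) : mp_ev z f = lEval (f : LaurentSeries ℂ) (qOf z) :=
  rfl

theorem mp_pt_mul (b : ℕ) (z : ℍ) : (p : ℂ) * ((mp_pt p b z : ℍ) : ℂ) = (z : ℂ) + b := by
  have hp0 : (p : ℂ) ≠ 0 := by exact_mod_cast NeZero.ne p
  rw [mpi_coe_pt]
  field_simp

/-- **the value of `Θ` at `z`** is `∏_x (X - j_x(z))` -/
theorem mp_thetaC_eval (z : ℍ) :
    (mp_thetaC p).map (mp_ev z) = ∏ x : Option (Fin p), (X - C (mp_conj p x z)) := by
  rw [mp_thetaC, Polynomial.map_mul, Polynomial.map_sub, Polynomial.map_X, Polynomial.map_C,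
    ← Matrix.charpoly_map, Fintype.prod_option]
  congr 1
  · congr 2
    rw [mp_ev_apply]
    show lEval (qExpand ℂ p jqc_jqC) (qOf z) = jFun (jqc_mulPt p z)
    rw [lEval_qExpand, jqc_qOf_pow p z (jqc_mulPt p z) (jqc_coe_mulPt p z), jqc_lEval_jqC]
  · refine mp_charpoly_eq_prod _ (fun b : Fin p => qOf (mp_pt p (b : ℕ) z))
      (fun b : Fin p => jFun (mp_pt p (b : ℕ) z))
      (mp_qOf_injective p z (fun b : Fin p => mp_pt p (b : ℕ) z) (fun b => mp_pt_mul p b z))
      (fun b k => ?_)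
    have h := mp_eval_eigen p jqc_lconv_jqC k (qOf_ne_zero (mp_pt p (b : ℕ) z))
      (norm_qOf_lt_one (mp_pt p (b : ℕ) z))
    rw [mp_qOf_pow p _ z (b : ℕ) (mp_pt_mul p b z), jqc_lEval_jqC] at h
    exact h

omit [NeZero p] in
theorem mp_coeffMap_int_injective :
    Function.Injective (coeffMap (Int.castRingHom ℂ) : LaurentSeries ℤ → LaurentSeries ℂ) := by
  intro x y h
  ext n
  have := congrArg (fun u => u.coeff n) h
  simp only [coeffMap_coeff, eq_intCast] at this
  exact_mod_cast this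

omit [NeZero p] in
theorem mp_coeffMap_aeval (P : Polynomial ℤ) :
    coeffMap (Int.castRingHom ℂ) (Polynomial.aeval (jqModC ℤ) P) =
      Polynomial.aeval (jqModC ℂ) (P.map (Int.castRingHom ℂ)) := by
  rw [Polynomial.aeval_def, Polynomial.aeval_def, Polynomial.hom_eval₂, Polynomial.eval₂_map,
    coeffMap_jqModC]
  congr 1
  exact RingHom.ext_int _ _

end

/-- **every coefficient of `Θ` is an integer polynomial in `j`** -/
theorem mp_theta_coeff (p : ℕ) [hp : Fact p.Prime] (k : ℕ) :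
    haveI : NeZero p := ⟨hp.out.ne_zero⟩
    ∃ P : Polynomial ℤ, Polynomial.aeval (jqModC ℤ) P = (mp_thetaZ p).coeff k := by
  have : NeZero p := ⟨hp.out.ne_zero⟩
  set d : convLaurent := (mp_thetaC p).coeff k with hd
  have hval : (d : LaurentSeries ℂ) = coeffMap (Int.castRingHom ℂ) ((mp_thetaZ p).coeff k) := by
    have := congrArg (fun Q => Q.coeff k) (mp_thetaC_val p)
    simpa [Polynomial.coeff_map] using this
  have hev : ∀ z : ℍ, lEval (d : LaurentSeries ℂ) (qOf z) =
      (∏ x : Option (Fin p), (X - C (mp_conj p x z))).coeff k := by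
    intro z
    have := congrArg (fun Q => Q.coeff k) (mp_thetaC_eval p z)
    simpa [Polynomial.coeff_map, mp_ev_apply] using this
  have hinv : ∀ (γ : SL(2, ℤ)) (z : ℍ),
      lEval (d : LaurentSeries ℂ) (qOf (γ • z)) = lEval (d : LaurentSeries ℂ) (qOf z) := by
    intro γ z
    rw [hev, hev, mp_prod_invariant p γ z]
  obtain ⟨P, hP⟩ := mp_exists_poly_of_lconv (d : LaurentSeries ℂ) d.2 hinv
  obtain ⟨P', hP'⟩ := mp_exists_int_poly P ((mp_thetaZ p).coeff k)
    (by rw [← mp_jqC_eq, ← hP, hval])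
  refine ⟨P', mp_coeffMap_int_injective ?_⟩
  rw [mp_coeffMap_aeval, hP', ← mp_jqC_eq, ← hP, hval]

end Fermat.Agent.S28x
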