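/-
S28 / MP (helper14): `exists_modPoly` (exact Spec statement): the modular polynomial
`Φ_p ∈ ℤ[Y][X]`, monic of degree `p + 1`, with `Φ_p(j(q^p), j(q)) = 0 = Φ_p(j(q), j(q^p))`.
`Φ_p` is obtained from `Θ = (X - j(q^p)) · charpoly M ∈ ℤ((q))[X]` (ModPolyCoef: every coefficient
of `Θ` is an integer polynomial in `j`).
-/
import Fermat.Agent.S28x.ModPolyCoef

set_option autoImplicit false

open ModularCurve Polynomial

namespace Fermat.Agent.S28x

noncomputable section

/-- algebraic assembly: a monic `Θ ∈ ℤ((q))[X]` whose coefficients are integer polynomials in `j`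
comes from a monic `Φ ∈ ℤ[Y][X]` -/
theorem mpf_assemble (p : ℕ) [NeZero p] (Θ : Polynomial (LaurentSeries ℤ)) (hΘm : Θ.Monic)
    (hΘd : Θ.natDegree = p + 1)
    (hcoef : ∀ k, ∃ P : Polynomial ℤ, Polynomial.aeval (jqModC ℤ) P = Θ.coeff k)
    (h1 : (Θ.map (coeffMap (Int.castRingHom ℚ))).eval (qExpand ℚ p jq) = 0)
    (h2 : ((Θ.map (coeffMap (Int.castRingHom ℚ))).map (qExpand ℚ p)).eval jq = 0) :
    ∃ Φ : Polynomial (Polynomial ℤ), Φ.Monic ∧ Φ.natDegree = p + 1 ∧
      Φ.eval₂ (Polynomial.aeval (R := ℤ) jq).toRingHom (qExpand ℚ p jq) = 0 ∧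
      Φ.eval₂ (Polynomial.aeval (R := ℤ) (qExpand ℚ p jq)).toRingHom jq = 0 := by
  choose P hP using hcoef
  set Φ : Polynomial (Polynomial ℤ) :=
    X ^ (p + 1) + ∑ i ∈ Finset.range (p + 1), C (P i) * X ^ i with hΦ
  have hdeg : (∑ i ∈ Finset.range (p + 1), C (P i) * (X : Polynomial (Polynomial ℤ)) ^ i).degree
      < ((p + 1 : ℕ) : WithBot ℕ) := by
    refine lt_of_le_of_lt (Polynomial.degree_sum_le _ _) ?_
    rw [Finset.sup_lt_iff (WithBot.bot_lt_coe _)]
    intro i hi
    exact lt_of_le_of_lt (Polynomial.degree_C_mul_X_pow_le _ _)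
      (by exact_mod_cast Finset.mem_range.mp hi)
  have hmonic : Φ.Monic := Polynomial.monic_X_pow_add hdeg
  have hnat : Φ.natDegree = p + 1 := by
    rw [hΦ, Polynomial.natDegree_add_eq_left_of_degree_lt
      (by rw [Polynomial.degree_X_pow]; exact hdeg), Polynomial.natDegree_X_pow]
  -- `Φ` maps to `Θ`
  have hmap : Φ.map (Polynomial.aeval (R := ℤ) (jqModC ℤ)).toRingHom = Θ := by
    conv_rhs => rw [hΘm.as_sum, hΘd]
    rw [hΦ, Polynomial.map_add, Polynomial.map_pow, Polynomial.map_X, Polynomial.map_sum]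
    congr 1
    refine Finset.sum_congr rfl fun i _ => ?_
    rw [Polynomial.map_mul, Polynomial.map_pow, Polynomial.map_X, Polynomial.map_C]
    congr 2
    exact hP i
  have hcomp1 : (coeffMap (Int.castRingHom ℚ)).comp
      (Polynomial.aeval (R := ℤ) (jqModC ℤ)).toRingHom = (Polynomial.aeval (R := ℤ) jq).toRingHom := by
    refine Polynomial.ringHom_ext (fun a => ?_) ?_
    · have : ∀ f g : ℤ →+* LaurentSeries ℚ, f a = g a := fun f g => by rw [RingHom.ext_int f g]
      exact this (((coeffMap (Int.castRingHom ℚ)).comp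
        (Polynomial.aeval (R := ℤ) (jqModC ℤ)).toRingHom).comp Polynomial.C)
        ((Polynomial.aeval (R := ℤ) jq).toRingHom.comp Polynomial.C)
    · simp only [RingHom.comp_apply, AlgHom.toRingHom_eq_coe, RingHom.coe_coe, Polynomial.aeval_X]
      rw [coeffMap_jqModC, jqModC_rat]
  have hcomp2 : (qExpand ℚ p).comp (Polynomial.aeval (R := ℤ) jq).toRingHom =
      (Polynomial.aeval (R := ℤ) (qExpand ℚ p jq)).toRingHom := by
    refine Polynomial.ringHom_ext (fun a => ?_) ?_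
    · have : ∀ f g : ℤ →+* LaurentSeries ℚ, f a = g a := fun f g => by rw [RingHom.ext_int f g]
      exact this (((qExpand ℚ p).comp (Polynomial.aeval (R := ℤ) jq).toRingHom).comp Polynomial.C)
        ((Polynomial.aeval (R := ℤ) (qExpand ℚ p jq)).toRingHom.comp Polynomial.C)
    · simp only [RingHom.comp_apply, AlgHom.toRingHom_eq_coe, RingHom.coe_coe, Polynomial.aeval_X]
  refine ⟨Φ, hmonic, hnat, ?_, ?_⟩
  · rw [Polynomial.eval₂_eq_eval_map, ← hcomp1, ← Polynomial.map_map, hmap]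
    exact h1
  · rw [Polynomial.eval₂_eq_eval_map, ← hcomp2, ← hcomp1, ← Polynomial.map_map, ← Polynomial.map_map,
      hmap]
    exact h2

/-- **MP**: the modular polynomial `Φ_p`. -/
theorem exists_modPoly (p : ℕ) [Fact p.Prime] :
    haveI : NeZero p := ⟨(Fact.out : p.Prime).ne_zero⟩
    ∃ Φ : Polynomial (Polynomial ℤ), Φ.Monic ∧ Φ.natDegree = p + 1 ∧
      Φ.eval₂ (Polynomial.aeval (R := ℤ) jq).toRingHom (qExpand ℚ p jq) = 0 ∧
      Φ.eval₂ (Polynomial.aeval (R := ℤ) (qExpand ℚ p jq)).toRingHom jq = 0 := by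
  have : NeZero p := ⟨(Fact.out : p.Prime).ne_zero⟩
  have hm1 : ((X : Polynomial (LaurentSeries ℤ)) - C (qExpand ℤ p (jqModC ℤ))).Monic :=
    Polynomial.monic_X_sub_C _
  have hm2 : (mp_mat p (jqModC ℤ)).charpoly.Monic := Matrix.charpoly_monic _
  refine mpf_assemble p (mp_thetaZ p) (hm1.mul hm2) ?_ (mp_theta_coeff p) ?_ ?_
  · rw [mp_thetaZ, hm1.natDegree_mul hm2, Polynomial.natDegree_X_sub_C,
      Matrix.charpoly_natDegree_eq_dim, Fintype.card_fin, add_comm]
  · rw [mp_thetaZ, Polynomial.map_mul, Polynomial.eval_mul, Polynomial.map_sub, Polynomial.map_X,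
      Polynomial.map_C, coeffMap_qExpand, coeffMap_jqModC, jqModC_rat]
    simp
  · rw [mp_thetaZ, Polynomial.map_mul, Polynomial.map_mul, Polynomial.eval_mul,
      ← Matrix.charpoly_map, ← Matrix.charpoly_map, ← mp_mat_coeffMap, coeffMap_jqModC, jqModC_rat,
      mp_charpoly_eval, mul_zero]

end

end Fermat.Agent.S28x
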