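/-
S28 project, module GR: algebra of the Gauss ring `W`, the reduction map `ρ` and `V = W ∩ ℚ(j)`.
Owner: helper19.  Exact `Spec` names for the interface statements; auxiliary lemmas `gr_*`.
-/
import Fermat.Agent.S28x.Defs
import Fermat.Prelude.Thm_ModularCurve_coeffMap_qExpand

set_option autoImplicit false

namespace Fermat.Agent.S28x

open ModularCurve

noncomputable section

open scoped Classical

variable (ℓ : ℕ) [Fact ℓ.Prime]

/-! ### The kernel of the residue map -/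

theorem gr_natCast_den_ne_zero (a : ZL ℓ) : (((a : ℚ).den : ℕ) : ZMod ℓ) ≠ 0 := by
  rw [Ne, ZMod.natCast_eq_zero_iff]
  exact fun h => (Fact.out : ℓ.Prime).one_lt.ne'
    (Nat.Coprime.eq_one_of_dvd (Nat.Coprime.symm a.2) h)

theorem gr_resZL_apply (a : ZL ℓ) : resZL ℓ a = ((a : ℚ) : ZMod ℓ) := rfl

theorem gr_resZL_natCast_self : resZL ℓ (ℓ : ZL ℓ) = 0 := by
  rw [map_natCast]; exact ZMod.natCast_self ℓ

theorem gr_resZL_eq_zero_iff (a : ZL ℓ) :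
    resZL ℓ a = 0 ↔ ∃ b : ZL ℓ, a = (ℓ : ZL ℓ) * b := by
  constructor
  · intro h
    have hden := gr_natCast_den_ne_zero ℓ a
    have h1 : (((a : ℚ).num : ℤ) : ZMod ℓ) = 0 := by
      rw [gr_resZL_apply, Rat.cast_def, div_eq_zero_iff] at h
      exact h.resolve_right hden
    obtain ⟨k, hk⟩ := (ZMod.intCast_zmod_eq_zero_iff_dvd _ _).mp h1
    have hℓ0 : (ℓ : ℚ) ≠ 0 := Nat.cast_ne_zero.mpr (Fact.out : ℓ.Prime).ne_zero
    have hden0 : ((a : ℚ).den : ℚ) ≠ 0 := Nat.cast_ne_zero.mpr (a : ℚ).den_ne_zero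
    have hmem : (Rat.divInt k (a : ℚ).den) ∈ GaloisRep.ratLocalizedAt ℓ := by
      show (Rat.divInt k (a : ℚ).den).den.Coprime ℓ
      have hd : ((Rat.divInt k (a : ℚ).den).den : ℤ) ∣ ((a : ℚ).den : ℤ) := Rat.den_dvd k _
      exact Nat.Coprime.coprime_dvd_left (by exact_mod_cast hd) a.2
    refine ⟨⟨Rat.divInt k (a : ℚ).den, hmem⟩, ?_⟩
    apply Subtype.ext
    push_cast
    rw [Rat.divInt_eq_div]
    have h2 : (a : ℚ) * ((a : ℚ).den : ℚ) = ((a : ℚ).num : ℚ) := Rat.mul_den_eq_num _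
    have h3 : ((a : ℚ).num : ℚ) = (ℓ : ℚ) * (k : ℚ) := by rw [hk]; push_cast; ring
    rw [h3] at h2
    field_simp
    push_cast
    linarith
  · rintro ⟨b, rfl⟩
    rw [map_mul, gr_resZL_natCast_self, zero_mul]

/-- division by `ℓ` on `ℤ_(ℓ)` (junk value `0` when not divisible) -/
def gr_divL : ZeroHom (ZL ℓ) (ZL ℓ) where
  toFun a := if h : ∃ b : ZL ℓ, a = (ℓ : ZL ℓ) * b then h.choose else 0
  map_zero' := by
    have h : ∃ b : ZL ℓ, (0 : ZL ℓ) = (ℓ : ZL ℓ) * b := ⟨0, by simp⟩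
    rw [dif_pos h]
    have h2 := h.choose_spec
    have hℓ : (ℓ : ZL ℓ) ≠ 0 := by
      intro h0
      have := congrArg (Subtype.val) h0
      simp at this
      exact (Fact.out : ℓ.Prime).ne_zero this
    exact (mul_eq_zero.mp h2.symm).resolve_left hℓ

theorem gr_divL_spec {a : ZL ℓ} (h : resZL ℓ a = 0) : a = (ℓ : ZL ℓ) * gr_divL ℓ a := by
  have h' := (gr_resZL_eq_zero_iff ℓ a).mp h
  show a = (ℓ : ZL ℓ) * (if h : ∃ b : ZL ℓ, a = (ℓ : ZL ℓ) * b then h.choose else 0)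
  rw [dif_pos h']
  exact h'.choose_spec

theorem gr_natCast_mul_coeff {R : Type*} [CommRing R] (n : ℕ) (x : LaurentSeries R) (k : ℤ) :
    ((n : LaurentSeries R) * x).coeff k = (n : R) * x.coeff k := by
  have h : (n : LaurentSeries R) = HahnSeries.C (n : R) := (map_natCast _ n).symm
  rw [h, HahnSeries.C_mul_eq_smul, HahnSeries.coeff_smul, smul_eq_mul]

theorem gr_red_natCast_self : red ℓ (ℓ : LaurentSeries (ZL ℓ)) = 0 := by
  rw [map_natCast]
  have : ((ℓ : ZMod ℓ)) = 0 := ZMod.natCast_self ℓ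
  rw [← map_natCast (HahnSeries.C (Γ := ℤ) (R := ZMod ℓ)), this, map_zero]

/-- `ker red = ℓ · ℤ_(ℓ)((q))` -/
theorem gr_red_eq_zero_iff (v : LaurentSeries (ZL ℓ)) :
    red ℓ v = 0 ↔ ∃ v' : LaurentSeries (ZL ℓ), v = (ℓ : LaurentSeries (ZL ℓ)) * v' := by
  constructor
  · intro h
    refine ⟨v.map (gr_divL ℓ), ?_⟩
    refine HahnSeries.ext ?_
    funext k
    rw [gr_natCast_mul_coeff, HahnSeries.map_coeff]
    apply gr_divL_spec
    have := congrArg (fun x => x.coeff k) h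
    simpa [red_coeff] using this
  · rintro ⟨v', rfl⟩
    rw [map_mul, gr_red_natCast_self, zero_mul]

/-! ### `ker ρ = ℓ W` -/

theorem gr_natCast_mem_gaussRing (n : ℕ) : (n : LaurentSeries ℚ) ∈ gaussRing ℓ :=
  natCast_mem _ n

theorem gr_natCast_ne_zero : (ℓ : LaurentSeries ℚ) ≠ 0 := by
  have h := (algebraMap ℚ (LaurentSeries ℚ)).injective
  intro h0
  have h1 : algebraMap ℚ (LaurentSeries ℚ) (ℓ : ℚ) = algebraMap ℚ (LaurentSeries ℚ) 0 := by
    rw [map_natCast, h0, map_zero]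
  exact (Fact.out : ℓ.Prime).ne_zero (by exact_mod_cast h h1)

theorem gr_rho_natCast_self : rho ℓ (ℓ : gaussRing ℓ) = 0 := by
  rw [map_natCast]
  have : ((ℓ : ZMod ℓ)) = 0 := ZMod.natCast_self ℓ
  rw [← map_natCast (HahnSeries.C (Γ := ℤ) (R := ZMod ℓ)), this, map_zero]

/-- `ker ρ = ℓ W` -/
theorem rho_eq_zero_iff (x : gaussRing ℓ) :
    rho ℓ x = 0 ↔ ∃ y : gaussRing ℓ, x = (ℓ : gaussRing ℓ) * y := by
  constructor
  · intro h
    obtain ⟨u, v, hu, huv⟩ := x.2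
    rw [rho_eq ℓ x hu huv, div_eq_zero_iff] at h
    have hv : red ℓ v = 0 := h.resolve_right hu
    obtain ⟨v', rfl⟩ := (gr_red_eq_zero_iff ℓ v).mp hv
    have hℓ0 : (ℓ : LaurentSeries ℚ) ≠ 0 := gr_natCast_ne_zero ℓ
    have hy : (ℓ : LaurentSeries ℚ)⁻¹ * (x : LaurentSeries ℚ) ∈ gaussRing ℓ := by
      refine ⟨u, v', hu, ?_⟩
      rw [map_mul, map_natCast] at huv
      rw [← mul_assoc, mul_comm (toQ ℓ u), mul_assoc, huv, ← mul_assoc, inv_mul_cancel₀ hℓ0,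
        one_mul]
    refine ⟨⟨_, hy⟩, ?_⟩
    apply Subtype.ext
    push_cast
    rw [← mul_assoc, mul_inv_cancel₀ hℓ0, one_mul]
  · rintro ⟨y, rfl⟩
    rw [map_mul, gr_rho_natCast_self, zero_mul]

/-! ### Compatibility with `q ↦ qⁿ` -/

theorem gr_toQ_qExpand (n : ℕ) [NeZero n] (u : LaurentSeries (ZL ℓ)) :
    toQ ℓ (qExpand (ZL ℓ) n u) = qExpand ℚ n (toQ ℓ u) :=
  coeffMap_qExpand _ n u

theorem gr_red_qExpand (n : ℕ) [NeZero n] (u : LaurentSeries (ZL ℓ)) :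
    red ℓ (qExpand (ZL ℓ) n u) = qExpand (ZMod ℓ) n (red ℓ u) :=
  coeffMap_qExpand _ n u

/-- `W` is stable under `q ↦ qⁿ` -/
theorem qExpand_mem_gaussRing (n : ℕ) [NeZero n] {x : LaurentSeries ℚ}
    (hx : x ∈ gaussRing ℓ) : qExpand ℚ n x ∈ gaussRing ℓ := by
  obtain ⟨u, v, hu, huv⟩ := hx
  refine ⟨qExpand (ZL ℓ) n u, qExpand (ZL ℓ) n v, ?_, ?_⟩
  · rw [gr_red_qExpand]
    exact fun h => hu (qExpand_injective (R := ZMod ℓ) n (by rw [h, map_zero]))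
  · rw [gr_toQ_qExpand, gr_toQ_qExpand, ← map_mul, huv]

/-- `ρ` commutes with `q ↦ qⁿ` -/
theorem rho_qExpand (n : ℕ) [NeZero n] {x : LaurentSeries ℚ} (hx : x ∈ gaussRing ℓ) :
    rho ℓ ⟨qExpand ℚ n x, qExpand_mem_gaussRing ℓ n hx⟩ =
      qExpand (ZMod ℓ) n (rho ℓ ⟨x, hx⟩) := by
  obtain ⟨u, v, hu, huv⟩ := hx
  have hu' : red ℓ (qExpand (ZL ℓ) n u) ≠ 0 := by
    rw [gr_red_qExpand]
    exact fun h => hu (qExpand_injective (R := ZMod ℓ) n (by rw [h, map_zero]))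
  rw [rho_eq ℓ _ hu' (v := qExpand (ZL ℓ) n v)
    (by rw [gr_toQ_qExpand, gr_toQ_qExpand, ← map_mul, huv]),
    rho_eq ℓ ⟨x, _⟩ hu huv, gr_red_qExpand, gr_red_qExpand, map_div₀]

/-! ### `j(q^d)` -/

theorem gr_toQ_jqModC : toQ ℓ (jqModC (ZL ℓ)) = jq := by
  rw [toQ, coeffMap_jqModC]; rfl

theorem gr_red_jqModC : red ℓ (jqModC (ZL ℓ)) = jqModC (ZMod ℓ) := by
  rw [red, coeffMap_jqModC]

theorem jqd_mem_gaussRing (d : ℕ) [NeZero d] : qExpand ℚ d jq ∈ gaussRing ℓ := by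
  rw [← gr_toQ_jqModC ℓ, ← gr_toQ_qExpand]
  exact toQ_mem_gaussRing ℓ _

theorem rho_jqd (d : ℕ) [NeZero d] :
    rho ℓ ⟨qExpand ℚ d jq, jqd_mem_gaussRing ℓ d⟩ = qExpand (ZMod ℓ) d (jqModC (ZMod ℓ)) := by
  have h : qExpand ℚ d jq = toQ ℓ (qExpand (ZL ℓ) d (jqModC (ZL ℓ))) := by
    rw [gr_toQ_qExpand, gr_toQ_jqModC]
  rw [rho_eq ℓ _ (u := 1) (v := qExpand (ZL ℓ) d (jqModC (ZL ℓ))) (by simp) (by simp [h])]
  rw [gr_red_qExpand, gr_red_jqModC]; simp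

/-! ### The valuation structure of `W` -/

theorem gr_padicValRat_nonneg (c : ZL ℓ) : 0 ≤ padicValRat ℓ (c : ℚ) := by
  rw [padicValRat]
  have h : padicValNat ℓ (c : ℚ).den = 0 := by
    apply padicValNat.eq_zero_of_not_dvd
    intro hd
    exact (Fact.out : ℓ.Prime).one_lt.ne' (Nat.Coprime.eq_one_of_dvd (Nat.Coprime.symm c.2) hd)
  rw [h]; simp

theorem gr_exists_pow_mul_aux : ∀ (n : ℕ) (w : LaurentSeries (ZL ℓ)) (k : ℤ), w.coeff k ≠ 0 →
    padicValRat ℓ ((w.coeff k : ZL ℓ) : ℚ) = n →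
    ∃ (a : ℕ) (w' : LaurentSeries (ZL ℓ)), w = (ℓ : LaurentSeries (ZL ℓ)) ^ a * w' ∧
      red ℓ w' ≠ 0 := by
  intro n
  induction n with
  | zero =>
    intro w k hk hval
    by_cases hr : red ℓ w = 0
    · exfalso
      obtain ⟨w₁, rfl⟩ := (gr_red_eq_zero_iff ℓ w).mp hr
      rw [gr_natCast_mul_coeff] at hk hval
      have h1 : (w₁.coeff k : ZL ℓ) ≠ 0 := right_ne_zero_of_mul hk
      have h1' : ((w₁.coeff k : ZL ℓ) : ℚ) ≠ 0 := fun h => h1 (Subtype.ext h)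
      have hℓ : ((ℓ : ℕ) : ℚ) ≠ 0 := Nat.cast_ne_zero.mpr (Fact.out : ℓ.Prime).ne_zero
      push_cast at hval
      rw [padicValRat.mul hℓ h1', padicValRat.self (Fact.out : ℓ.Prime).one_lt] at hval
      have := gr_padicValRat_nonneg ℓ (w₁.coeff k)
      omega
    · exact ⟨0, w, by simp, hr⟩
  | succ n ih =>
    intro w k hk hval
    by_cases hr : red ℓ w = 0
    · obtain ⟨w₁, rfl⟩ := (gr_red_eq_zero_iff ℓ w).mp hr
      rw [gr_natCast_mul_coeff] at hk hval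
      have h1 : (w₁.coeff k : ZL ℓ) ≠ 0 := right_ne_zero_of_mul hk
      have h1' : ((w₁.coeff k : ZL ℓ) : ℚ) ≠ 0 := fun h => h1 (Subtype.ext h)
      have hℓ : ((ℓ : ℕ) : ℚ) ≠ 0 := Nat.cast_ne_zero.mpr (Fact.out : ℓ.Prime).ne_zero
      push_cast at hval
      rw [padicValRat.mul hℓ h1', padicValRat.self (Fact.out : ℓ.Prime).one_lt] at hval
      obtain ⟨a, w', hw', hr'⟩ := ih w₁ k h1 (by omega)
      exact ⟨a + 1, w', by rw [hw', pow_succ]; ring, hr'⟩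
    · exact ⟨0, w, by simp, hr⟩

/-- every non-zero `ℓ`-integral series is `ℓ^a` times a series which is non-zero modulo `ℓ` -/
theorem gr_exists_pow_mul (w : LaurentSeries (ZL ℓ)) (hw : w ≠ 0) :
    ∃ (a : ℕ) (w' : LaurentSeries (ZL ℓ)), w = (ℓ : LaurentSeries (ZL ℓ)) ^ a * w' ∧
      red ℓ w' ≠ 0 := by
  obtain ⟨k, hk⟩ : ∃ k, w.coeff k ≠ 0 := by
    by_contra h
    exact hw (HahnSeries.ext (funext fun k => not_not.mp (fun hk => h ⟨k, hk⟩)))
  have h0 := gr_padicValRat_nonneg ℓ (w.coeff k)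
  obtain ⟨n, hn⟩ := Int.eq_ofNat_of_zero_le h0
  exact gr_exists_pow_mul_aux ℓ n w k hk hn

/-- `W` is a valuation ring of `Frac(ℤ_(ℓ)((q)))`: every non-zero quotient is `ℓ^m · (unit of W)`. -/
theorem exists_zpow_mul_unit {z : LaurentSeries ℚ} (hz : z ≠ 0)
    (hfrac : ∃ u v : LaurentSeries (ZL ℓ), u ≠ 0 ∧ toQ ℓ u * z = toQ ℓ v) :
    ∃ (m : ℤ) (y : LaurentSeries ℚ) (hy : y ∈ gaussRing ℓ), y⁻¹ ∈ gaussRing ℓ ∧
      rho ℓ ⟨y, hy⟩ ≠ 0 ∧ z = (ℓ : LaurentSeries ℚ) ^ m * y := by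
  obtain ⟨u, v, hu, huv⟩ := hfrac
  have hu' : toQ ℓ u ≠ 0 := fun h => hu (toQ_injective ℓ (by rw [h, map_zero]))
  have hv : v ≠ 0 := by
    rintro rfl
    rw [map_zero] at huv
    exact (mul_ne_zero hu' hz) huv
  have hv' : toQ ℓ v ≠ 0 := fun h => hv (toQ_injective ℓ (by rw [h, map_zero]))
  obtain ⟨a, u₁, rfl, hu₁⟩ := gr_exists_pow_mul ℓ u hu
  obtain ⟨b, v₁, rfl, hv₁⟩ := gr_exists_pow_mul ℓ v hv
  have hu₁' : toQ ℓ u₁ ≠ 0 := fun h => hu₁ (by
    have : u₁ = 0 := toQ_injective ℓ (by rw [h, map_zero])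
    rw [this, map_zero])
  have hv₁' : toQ ℓ v₁ ≠ 0 := fun h => hv₁ (by
    have : v₁ = 0 := toQ_injective ℓ (by rw [h, map_zero])
    rw [this, map_zero])
  have hℓ0 := gr_natCast_ne_zero ℓ
  set y : LaurentSeries ℚ := toQ ℓ v₁ / toQ ℓ u₁ with hy
  have hyW : y ∈ gaussRing ℓ := ⟨u₁, v₁, hu₁, by rw [hy]; field_simp⟩
  have hyW' : y⁻¹ ∈ gaussRing ℓ := ⟨v₁, u₁, hv₁, by rw [hy, inv_div]; field_simp⟩
  refine ⟨(b : ℤ) - a, y, hyW, hyW', ?_, ?_⟩
  · rw [rho_eq ℓ ⟨y, hyW⟩ hu₁ (v := v₁) (by simp only [hy]; field_simp)]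
    exact div_ne_zero hv₁ hu₁
  · rw [map_mul, map_mul, map_pow, map_pow, map_natCast] at huv
    rw [zpow_sub₀ hℓ0, zpow_natCast, zpow_natCast, hy]
    field_simp
    rw [← huv]; ring

/-! ### `W` is integrally closed (among quotients of `ℓ`-integral series) -/

omit [Fact ℓ.Prime] in
/-- an element of a field which is integral over a subring containing its inverse lies in it -/
theorem gr_mem_of_isIntegral_of_inv_mem {K : Type*} [Field K] (A : Subring K) {z : K}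
    (hz : IsIntegral A z) (hinv : z⁻¹ ∈ A) : z ∈ A := by
  by_cases h0 : z = 0
  · rw [h0]; exact A.zero_mem
  obtain ⟨p, hmonic, hp⟩ := hz
  have hsum := hmonic.as_sum
  set d := p.natDegree with hd
  rw [hsum] at hp
  simp only [Polynomial.eval₂_add, Polynomial.eval₂_pow, Polynomial.eval₂_X,
    Polynomial.eval₂_finsetSum, Polynomial.eval₂_mul, Polynomial.eval₂_C] at hp
  have hd0 : d ≠ 0 := by
    intro hd0
    rw [hd0] at hp
    simp at hp
  obtain ⟨e, he⟩ := Nat.exists_eq_succ_of_ne_zero hd0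
  have key : z = -∑ i ∈ Finset.range d, (algebraMap A K (p.coeff i)) * (z⁻¹) ^ (e - i) := by
    have h1 : z ^ d * (z⁻¹) ^ e = z := by
      rw [he, pow_succ, mul_assoc, mul_comm z, ← mul_assoc, ← mul_pow, mul_inv_cancel₀ h0, one_pow,
        one_mul]
    have h2 : ∀ i ∈ Finset.range d, z ^ i * (z⁻¹) ^ e = (z⁻¹) ^ (e - i) := by
      intro i hi
      have hie : i ≤ e := by
        have := Finset.mem_range.mp hi; omega
      obtain ⟨t, rfl⟩ := Nat.exists_eq_add_of_le hie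
      rw [Nat.add_sub_cancel_left, pow_add, ← mul_assoc, ← mul_pow, mul_inv_cancel₀ h0, one_pow,
        one_mul]
    have h3 := congrArg (fun x => x * (z⁻¹) ^ e) hp
    simp only [add_mul, zero_mul, Finset.sum_mul] at h3
    rw [h1] at h3
    rw [eq_neg_iff_add_eq_zero, ← h3]
    congr 1
    apply Finset.sum_congr rfl
    intro i hi
    rw [mul_assoc, h2 i hi]
  rw [key]
  apply A.neg_mem
  apply A.sum_mem
  intro i _
  exact A.mul_mem (p.coeff i).2 (A.pow_mem hinv _)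

/-- `W` is integrally closed among quotients of `ℓ`-integral series. -/
theorem mem_gaussRing_of_isIntegral {z : LaurentSeries ℚ}
    (hfrac : ∃ u v : LaurentSeries (ZL ℓ), u ≠ 0 ∧ toQ ℓ u * z = toQ ℓ v)
    (hint : IsIntegral (gaussRing ℓ) z) : z ∈ gaussRing ℓ := by
  by_cases hz : z = 0
  · rw [hz]; exact (gaussRing ℓ).zero_mem
  obtain ⟨m, y, hy, hy', -, rfl⟩ := exists_zpow_mul_unit ℓ hz hfrac
  have hℓW : (ℓ : LaurentSeries ℚ) ∈ gaussRing ℓ := gr_natCast_mem_gaussRing ℓ ℓ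
  rcases le_or_gt 0 m with hm | hm
  · obtain ⟨n, rfl⟩ := Int.eq_ofNat_of_zero_le hm
    rw [zpow_natCast]
    exact (gaussRing ℓ).mul_mem ((gaussRing ℓ).pow_mem hℓW n) hy
  · apply gr_mem_of_isIntegral_of_inv_mem (gaussRing ℓ) hint
    obtain ⟨n, hn⟩ := Int.eq_ofNat_of_zero_le (by omega : 0 ≤ -m)
    rw [mul_inv, ← zpow_neg, hn, zpow_natCast]
    exact (gaussRing ℓ).mul_mem ((gaussRing ℓ).pow_mem hℓW n) hy'

/-! ### Every element of `F_N` is a quotient of `ℓ`-integral series -/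

/-- the field of quotients of `ℓ`-integral series inside `ℚ((q))` -/
def gr_fracField : IntermediateField ℚ (LaurentSeries ℚ) where
  carrier := {z | ∃ u v : LaurentSeries (ZL ℓ), u ≠ 0 ∧ toQ ℓ u * z = toQ ℓ v}
  mul_mem' := by
    rintro x y ⟨u, v, hu, h⟩ ⟨u', v', hu', h'⟩
    refine ⟨u * u', v * v', mul_ne_zero hu hu', ?_⟩
    rw [map_mul, map_mul, ← h, ← h']; ring
  one_mem' := ⟨1, 1, one_ne_zero, by simp⟩
  add_mem' := by
    rintro x y ⟨u, v, hu, h⟩ ⟨u', v', hu', h'⟩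
    refine ⟨u * u', v * u' + u * v', mul_ne_zero hu hu', ?_⟩
    rw [map_mul, map_add, map_mul, map_mul, ← h, ← h']; ring
  zero_mem' := ⟨1, 0, one_ne_zero, by simp⟩
  inv_mem' := by
    rintro x ⟨u, v, hu, h⟩
    by_cases hx : x = 0
    · rw [hx, inv_zero]; exact ⟨1, 0, one_ne_zero, by simp⟩
    · have hu' : toQ ℓ u ≠ 0 := fun h0 => hu (toQ_injective ℓ (by rw [h0, map_zero]))
      have hv : v ≠ 0 := by
        rintro rfl
        rw [map_zero] at h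
        exact (mul_ne_zero hu' hx) h
      refine ⟨v, u, hv, ?_⟩
      rw [← h]; field_simp
  algebraMap_mem' c := by
    have hden : (c.den : LaurentSeries (ZL ℓ)) ≠ 0 := by
      intro h0
      have h1 : toQ ℓ (c.den : LaurentSeries (ZL ℓ)) = 0 := by rw [h0, map_zero]
      rw [map_natCast] at h1
      have h2 := (algebraMap ℚ (LaurentSeries ℚ)).injective
      have h3 : algebraMap ℚ (LaurentSeries ℚ) (c.den : ℚ) = algebraMap ℚ (LaurentSeries ℚ) 0 := by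
        rw [map_natCast, h1, map_zero]
      exact c.den_ne_zero (by exact_mod_cast h2 h3)
    refine ⟨(c.den : LaurentSeries (ZL ℓ)), (c.num : LaurentSeries (ZL ℓ)), hden, ?_⟩
    rw [map_natCast, map_intCast, ← map_natCast (algebraMap ℚ (LaurentSeries ℚ)),
      ← map_intCast (algebraMap ℚ (LaurentSeries ℚ)), ← map_mul]
    congr 1
    rw [mul_comm]; exact Rat.mul_den_eq_num c

/-- every element of `ℚ(j(q^d) : d ∣ N)` is a quotient of `ℓ`-integral series -/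
theorem exists_frac_of_mem_full (N : ℕ) [NeZero N] {z : LaurentSeries ℚ}
    (hz : z ∈ modularFunctionFieldFull N) :
    ∃ u v : LaurentSeries (ZL ℓ), u ≠ 0 ∧ toQ ℓ u * z = toQ ℓ v := by
  have hle : modularFunctionFieldFull N ≤ gr_fracField ℓ := by
    rw [modularFunctionFieldFull, IntermediateField.adjoin_le_iff]
    rintro x ⟨d, hd, -, rfl⟩
    refine ⟨1, qExpand (ZL ℓ) d (jqModC (ZL ℓ)), one_ne_zero, ?_⟩
    rw [gr_toQ_qExpand, gr_toQ_jqModC, map_one, one_mul]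
  exact hle hz

end

end Fermat.Agent.S28x
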