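/-
S28 project (Igusa), helper10: CONSEQUENCES of the modular polynomial `Φ_p` (module MP,
`Spec.exists_modPoly`), in HYPOTHESIS FORM: `mpc_MP p` is verbatim the Spec statement of
`exists_modPoly p`, so every theorem here applies as `... (fun p _ => exists_modPoly p) ...` once MP lands.

* `mpc_exists_modPoly_ring`: `Φ_p` over ANY commutative ring `R` (in particular `R = ZMod ℓ`, in exactly
  the shape of the hypotheses `Φ hΦm hΦd h1 h2` of `sad_only_root` / `sad_dichotomy` with `J = jqModC k`);
* `mpc_isIntegral_jqd`: `j(q^d)` is integral over `R[j]` for EVERY `d ≥ 1` (induction on the prime factors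
  of `d`); `mpc_exists_monic_jqd`: the same as a two-variable polynomial, monic in `X`;
* `mpc_isIntegral_intermediateField`: over a field, `j(q^d)` is integral over every intermediate field
  containing `j`; `mpc_finiteDimensional_extendScalars`, `mpc_relfinrank_pos`: `F̃_N` is finite over it;
* `mpc_isIntegral_gaussV`, `mpc_isIntegral_AV`: `j(q^d)` and every element of `A_V(N)` are integral over `V`.
-/
import Fermat.Agent.S28x.GaussRing

set_option autoImplicit false

open ModularCurve Polynomial

namespace Fermat.Agent.S28x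

noncomputable section


/-- Spec shape of `exists_modPoly` for one prime `p`, as a `Prop`. -/
def mpc_MP (p : ℕ) [Fact p.Prime] : Prop :=
  haveI : NeZero p := ⟨(Fact.out : p.Prime).ne_zero⟩
  ∃ Φ : Polynomial (Polynomial ℤ), Φ.Monic ∧ Φ.natDegree = p + 1 ∧
    Φ.eval₂ (Polynomial.aeval (R := ℤ) jq).toRingHom (qExpand ℚ p jq) = 0 ∧
    Φ.eval₂ (Polynomial.aeval (R := ℤ) (qExpand ℚ p jq)).toRingHom jq = 0

theorem mpc_algebraMap_eq_C {R : Type*} [CommRing R] (a : R) :
    algebraMap R (LaurentSeries R) a = HahnSeries.C a := by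
  have h1 : algebraMap R (PowerSeries R) a = PowerSeries.C a := by simp
  rw [HahnSeries.algebraMap_apply', h1, HahnSeries.ofPowerSeries_C]

theorem mpc_coeffMap_injective {R S : Type*} [CommRing R] [CommRing S] (f : R →+* S)
    (hf : Function.Injective f) : Function.Injective (coeffMap f) := by
  intro u v h
  ext n
  have := congrArg (fun x => x.coeff n) h
  simp only [coeffMap_coeff] at this
  exact hf this

/-- ring homs out of `ℤ[Y]` are determined by the image of `Y`. -/
theorem mpc_ringHom_ext_int {S : Type*} [Semiring S] (f g : Polynomial ℤ →+* S)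
    (h : f Polynomial.X = g Polynomial.X) : f = g := by
  refine Polynomial.ringHom_ext (fun a => ?_) h
  have := RingHom.ext_int (f.comp Polynomial.C) (g.comp Polynomial.C)
  exact congrFun (congrArg DFunLike.coe this) a

/-- base change of a two-variable integral identity along `ℤ → R`. -/
theorem mpc_eval₂_baseChange {R : Type*} [CommRing R] (Φ : Polynomial (Polynomial ℤ))
    (x y : LaurentSeries ℤ) :
    coeffMap (Int.castRingHom R) (Φ.eval₂ (Polynomial.aeval (R := ℤ) y).toRingHom x) =
      (Φ.map (Polynomial.mapRingHom (Int.castRingHom R))).eval₂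
        (Polynomial.aeval (R := R) (coeffMap (Int.castRingHom R) y)).toRingHom
        (coeffMap (Int.castRingHom R) x) := by
  rw [Polynomial.hom_eval₂, Polynomial.eval₂_map]
  congr 1
  refine mpc_ringHom_ext_int _ _ ?_
  simp

/-- the same identity seen in `ℚ((q))` with the `ℤ`-algebra structure used by the Spec. -/
theorem mpc_eval₂_toRat (Φ : Polynomial (Polynomial ℤ)) (x y : LaurentSeries ℤ) :
    coeffMap (Int.castRingHom ℚ) (Φ.eval₂ (Polynomial.aeval (R := ℤ) y).toRingHom x) =
      Φ.eval₂ (Polynomial.aeval (R := ℤ) (coeffMap (Int.castRingHom ℚ) y)).toRingHom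
        (coeffMap (Int.castRingHom ℚ) x) := by
  rw [Polynomial.hom_eval₂]
  congr 1
  refine mpc_ringHom_ext_int _ _ ?_
  simp

/-- **`Φ_p` over an arbitrary commutative ring.** -/
theorem mpc_exists_modPoly_ring (R : Type*) [CommRing R] [Nontrivial R] (p : ℕ) [Fact p.Prime]
    (h : mpc_MP p) :
    haveI : NeZero p := ⟨(Fact.out : p.Prime).ne_zero⟩
    ∃ Φ : Polynomial (Polynomial R), Φ.Monic ∧ Φ.natDegree = p + 1 ∧
      Φ.eval₂ (Polynomial.aeval (jqModC R)).toRingHom (qExpand R p (jqModC R)) = 0 ∧
      Φ.eval₂ (Polynomial.aeval (qExpand R p (jqModC R))).toRingHom (jqModC R) = 0 := by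
  have : NeZero p := ⟨(Fact.out : p.Prime).ne_zero⟩
  obtain ⟨Φ, hm, hd, h1, h2⟩ := h
  have hinj := mpc_coeffMap_injective (Int.castRingHom ℚ) Int.cast_injective
  have hjQ : coeffMap (Int.castRingHom ℚ) (jqModC ℤ) = jq := by
    rw [coeffMap_jqModC]; rfl
  have hjpQ : coeffMap (Int.castRingHom ℚ) (qExpand ℤ p (jqModC ℤ)) = qExpand ℚ p jq := by
    rw [coeffMap_qExpand, hjQ]
  -- the identities hold over `ℤ`
  have h1Z : Φ.eval₂ (Polynomial.aeval (R := ℤ) (jqModC ℤ)).toRingHom
      (qExpand ℤ p (jqModC ℤ)) = 0 := by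
    apply hinj
    rw [mpc_eval₂_toRat, hjQ, hjpQ, h1, map_zero]
  have h2Z : Φ.eval₂ (Polynomial.aeval (R := ℤ) (qExpand ℤ p (jqModC ℤ))).toRingHom
      (jqModC ℤ) = 0 := by
    apply hinj
    rw [mpc_eval₂_toRat, hjQ, hjpQ, h2, map_zero]
  have hjR : coeffMap (Int.castRingHom R) (jqModC ℤ) = jqModC R := coeffMap_jqModC _
  have hjpR : coeffMap (Int.castRingHom R) (qExpand ℤ p (jqModC ℤ)) =
      qExpand R p (jqModC R) := by
    rw [coeffMap_qExpand, hjR]
  refine ⟨Φ.map (Polynomial.mapRingHom (Int.castRingHom R)), hm.map _, ?_, ?_, ?_⟩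
  · rw [(hm).natDegree_map, hd]
  · have := mpc_eval₂_baseChange (R := R) Φ (qExpand ℤ p (jqModC ℤ)) (jqModC ℤ)
    rw [h1Z, map_zero, hjR, hjpR] at this
    exact this.symm
  · have := mpc_eval₂_baseChange (R := R) Φ (jqModC ℤ) (qExpand ℤ p (jqModC ℤ))
    rw [h2Z, map_zero, hjR, hjpR] at this
    exact this.symm

/-- transitivity of integrality in "two-variable polynomial" form: if `y` is integral over the
subalgebra `A` and `z` is a root of a polynomial, monic in `X`, with coefficients in `R[y]`, then `z` is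
integral over `A`. -/
theorem mpc_isIntegral_of_eval₂ {R L : Type*} [CommRing R] [CommRing L] [Algebra R L]
    (A : Subalgebra R L) (y z : L) (hy : IsIntegral A y) (Φ : Polynomial (Polynomial R))
    (hΦ : Φ.Monic) (hz : Φ.eval₂ (Polynomial.aeval y).toRingHom z = 0) : IsIntegral A z := by
  set IC : Subalgebra A L := integralClosure A L with hIC
  have hmem : ∀ P : Polynomial R, (Polynomial.aeval y).toRingHom P ∈ IC.toSubring := by
    intro P
    have h1 : Polynomial.aeval y P ∈ Algebra.adjoin R {y} := Polynomial.aeval_mem_adjoin_singleton R y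
    have h2 : Algebra.adjoin R {y} ≤ IC.restrictScalars R := by
      apply Algebra.adjoin_le
      rintro _ rfl
      exact hy
    exact h2 h1
  let g : Polynomial R →+* IC.toSubring := RingHom.codRestrict (Polynomial.aeval y).toRingHom IC.toSubring hmem
  have hzIC : IsIntegral IC z := by
    refine ⟨Φ.map g, hΦ.map _, ?_⟩
    rw [Polynomial.eval₂_map]
    have : (algebraMap IC L).comp g = (Polynomial.aeval y).toRingHom := by
      ext <;> rfl
    rw [this, hz]
  exact isIntegral_trans z hzIC

/-- `qExpand` commutes with `aeval`. -/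
theorem mpc_qExpand_comp_aeval {R : Type*} [CommRing R] (n : ℕ) [NeZero n] (y : LaurentSeries R) :
    (qExpand R n).comp (Polynomial.aeval (R := R) y).toRingHom =
      (Polynomial.aeval (R := R) (qExpand R n y)).toRingHom := by
  refine Polynomial.ringHom_ext (fun a => ?_) ?_
  · simp only [RingHom.comp_apply, AlgHom.toRingHom_eq_coe, RingHom.coe_coe, Polynomial.aeval_C,
      mpc_algebraMap_eq_C, qExpand_C]
  · simp

/-- one prime step -/
theorem mpc_step (R : Type*) [CommRing R] [Nontrivial R] (p : ℕ) [Fact p.Prime] (h : mpc_MP p)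
    (n : ℕ) [NeZero n] (A : Subalgebra R (LaurentSeries R))
    (hy : IsIntegral A (qExpand R n (jqModC R))) (m : ℕ) [NeZero m] (hm : m = n * p) :
    IsIntegral A (qExpand R m (jqModC R)) := by
  haveI : NeZero p := ⟨(Fact.out : p.Prime).ne_zero⟩
  subst hm
  obtain ⟨Φ, hΦm, -, h1, -⟩ := mpc_exists_modPoly_ring R p h
  refine mpc_isIntegral_of_eval₂ A _ _ hy Φ hΦm ?_
  have := congrArg (qExpand R n) h1
  rw [Polynomial.hom_eval₂, mpc_qExpand_comp_aeval, qExpand_qExpand, map_zero] at this
  exact this

/-- `j(q^d)` is integral over `R[j]` for every `d ≥ 1`. -/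
theorem mpc_isIntegral_jqd (R : Type*) [CommRing R] [Nontrivial R]
    (hMP : ∀ (p : ℕ) [Fact p.Prime], mpc_MP p) (d : ℕ) [NeZero d] :
    IsIntegral (Algebra.adjoin R {jqModC R}) (qExpand R d (jqModC R)) := by
  have key : ∀ (d : ℕ) (hd : d ≠ 0), haveI : NeZero d := ⟨hd⟩
      IsIntegral (Algebra.adjoin R {jqModC R}) (qExpand R d (jqModC R)) := by
    intro d
    induction d using Nat.strong_induction_on with
    | _ d ih =>
      intro hd
      haveI : NeZero d := ⟨hd⟩
      by_cases h1 : d = 1
      · subst h1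
        rw [qExpand_one_apply]
        have hJ : jqModC R ∈ Algebra.adjoin R {jqModC R} := Algebra.subset_adjoin rfl
        exact isIntegral_algebraMap (x := (⟨jqModC R, hJ⟩ : Algebra.adjoin R {jqModC R}))
      · have hp : (d.minFac).Prime := Nat.minFac_prime h1
        haveI : Fact (d.minFac).Prime := ⟨hp⟩
        have hdvd : d.minFac ∣ d := Nat.minFac_dvd d
        have hn0 : d / d.minFac ≠ 0 := by
          intro h0
          have := Nat.div_mul_cancel hdvd
          rw [h0, zero_mul] at this
          exact hd this.symm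
        haveI : NeZero (d / d.minFac) := ⟨hn0⟩
        have hlt : d / d.minFac < d := Nat.div_lt_self (Nat.pos_of_ne_zero hd) hp.one_lt
        exact mpc_step R d.minFac (hMP d.minFac) (d / d.minFac) _ (ih _ hlt hn0) d
          (Nat.div_mul_cancel hdvd).symm
  exact key d (NeZero.ne d)

/-- integrality over `R[y]` in two-variable polynomial form -/
theorem mpc_exists_poly_of_isIntegral {R L : Type*} [CommRing R] [CommRing L] [Algebra R L]
    (y z : L) (hz : IsIntegral (Algebra.adjoin R {y}) z) :
    ∃ P : Polynomial (Polynomial R), P.Monic ∧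
      P.eval₂ (Polynomial.aeval (R := R) y).toRingHom z = 0 := by
  obtain ⟨Q, hQ, hQz⟩ := hz
  have hmem : ∀ P : Polynomial R,
      (Polynomial.aeval (R := R) y).toRingHom P ∈ (Algebra.adjoin R {y}).toSubring := fun P =>
    Polynomial.aeval_mem_adjoin_singleton R y
  let g : Polynomial R →+* (Algebra.adjoin R {y}).toSubring :=
    RingHom.codRestrict (Polynomial.aeval (R := R) y).toRingHom _ hmem
  have hg : Function.Surjective g := by
    rintro ⟨x, hx⟩
    have hx' : x ∈ (Polynomial.aeval (R := R) y).range := by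
      rw [← Algebra.adjoin_singleton_eq_range_aeval]; exact hx
    obtain ⟨P, hP⟩ := hx'
    exact ⟨P, Subtype.ext hP⟩
  have hlift : Q ∈ Polynomial.lifts g := by
    rw [Polynomial.lifts_iff_coeff_lifts]
    intro n
    exact hg _
  obtain ⟨P, hPQ, -, hPm⟩ := Polynomial.lifts_and_natDegree_eq_and_monic hlift hQ
  refine ⟨P, hPm, ?_⟩
  have hcomp : (algebraMap (Algebra.adjoin R {y}) L).comp g =
      (Polynomial.aeval (R := R) y).toRingHom := by
    ext <;> rfl
  rw [← hcomp, ← Polynomial.eval₂_map, hPQ]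
  exact hQz

/-- **`(★)`**: a polynomial in `R[Y][X]`, monic in `X`, with `P(j, j(q^d)) = 0`. -/
theorem mpc_exists_monic_jqd (R : Type*) [CommRing R] [Nontrivial R]
    (hMP : ∀ (p : ℕ) [Fact p.Prime], mpc_MP p) (d : ℕ) [NeZero d] :
    ∃ P : Polynomial (Polynomial R), P.Monic ∧
      P.eval₂ (Polynomial.aeval (R := R) (jqModC R)).toRingHom (qExpand R d (jqModC R)) = 0 :=
  mpc_exists_poly_of_isIntegral _ _ (mpc_isIntegral_jqd R hMP d)

/-- A root of a two-variable polynomial over `ℤ`, monic in `X`, evaluated at `Y = y` through any ring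
hom `f : ℤ[Y] → L`, is integral over every subring of `L` containing `y = f Y`. -/
theorem mpc_isIntegral_subring_of_eval₂ {L : Type*} [CommRing L] (A : Subring L)
    (f : Polynomial ℤ →+* L) (hy : f Polynomial.X ∈ A) {z : L}
    (P : Polynomial (Polynomial ℤ)) (hP : P.Monic) (hz : P.eval₂ f z = 0) : IsIntegral A z := by
  have hC : ∀ a : ℤ, f (Polynomial.C a) = (a : L) := fun a =>
    RingHom.congr_fun (RingHom.ext_int (f.comp Polynomial.C) (Int.castRingHom L)) a
  have hmem : ∀ Q : Polynomial ℤ, f Q ∈ A := by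
    intro Q
    induction Q using Polynomial.induction_on' with
    | add p q hp hq => rw [map_add]; exact A.add_mem hp hq
    | monomial n a =>
      rw [← Polynomial.C_mul_X_pow_eq_monomial, map_mul, map_pow, hC]
      exact A.mul_mem (intCast_mem A a) (A.pow_mem hy n)
  let g : Polynomial ℤ →+* A := RingHom.codRestrict f A hmem
  refine ⟨P.map g, hP.map _, ?_⟩
  rw [Polynomial.eval₂_map]
  have : (algebraMap A L).comp g = f := by
    ext <;> rfl
  rw [this, hz]

/-- `j(q^d)` is integral over the Gauss valuation ring `V` of `ℚ(j)`. -/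
theorem mpc_isIntegral_gaussV (ℓ : ℕ) [Fact ℓ.Prime]
    (hMP : ∀ (p : ℕ) [Fact p.Prime], mpc_MP p) (d : ℕ) [NeZero d] :
    IsIntegral (gaussV ℓ) (qExpand ℚ d jq) := by
  obtain ⟨P, hPm, hP⟩ := mpc_exists_monic_jqd ℤ hMP d
  have hjQ : coeffMap (Int.castRingHom ℚ) (jqModC ℤ) = jq := by
    rw [coeffMap_jqModC]; rfl
  have hjV : jq ∈ gaussV ℓ := by
    refine ⟨?_, IntermediateField.subset_adjoin ℚ _ rfl⟩
    have := jqd_mem_gaussRing ℓ 1
    rwa [qExpand_one_apply] at this
  refine mpc_isIntegral_subring_of_eval₂ (gaussV ℓ)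
    (Polynomial.aeval (R := ℤ) jq).toRingHom (by simpa using hjV) P hPm ?_
  have := congrArg (coeffMap (Int.castRingHom ℚ)) hP
  rwa [mpc_eval₂_toRat, coeffMap_qExpand, hjQ, map_zero] at this

/-- every element of `A_V(N)` is integral over `V`. -/
theorem mpc_isIntegral_AV (ℓ N : ℕ) [Fact ℓ.Prime]
    (hMP : ∀ (p : ℕ) [Fact p.Prime], mpc_MP p) {x : LaurentSeries ℚ} (hx : x ∈ AV ℓ N) :
    IsIntegral (gaussV ℓ) x := by
  have hle : AV ℓ N ≤ integralClosure (gaussV ℓ) (LaurentSeries ℚ) := by
    apply Algebra.adjoin_le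
    rintro _ ⟨d, hd, -, rfl⟩
    exact mpc_isIntegral_gaussV ℓ hMP d
  exact hle hx

/-- over a field `k`: `j(q^d)` is integral over every intermediate field containing `j`. -/
theorem mpc_isIntegral_intermediateField (k : Type*) [Field k]
    (hMP : ∀ (p : ℕ) [Fact p.Prime], mpc_MP p) (d : ℕ) [NeZero d]
    (E : IntermediateField k (LaurentSeries k)) (hJ : jqModC k ∈ E) :
    IsIntegral E (qExpand k d (jqModC k)) := by
  obtain ⟨P, hPm, hP⟩ := mpc_exists_monic_jqd k hMP d
  have hmem : ∀ Q : Polynomial k, (Polynomial.aeval (R := k) (jqModC k)).toRingHom Q ∈ E := by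
    intro Q
    have h1 : Polynomial.aeval (jqModC k) Q ∈ Algebra.adjoin k {jqModC k} :=
      Polynomial.aeval_mem_adjoin_singleton k _
    have h2 : Algebra.adjoin k {jqModC k} ≤ E.toSubalgebra :=
      Algebra.adjoin_le (Set.singleton_subset_iff.mpr hJ)
    exact h2 h1
  let g : Polynomial k →+* E :=
    RingHom.codRestrict (Polynomial.aeval (R := k) (jqModC k)).toRingHom E hmem
  refine ⟨P.map g, hPm.map _, ?_⟩
  rw [Polynomial.eval₂_map]
  have : (algebraMap E (LaurentSeries k)).comp g =
      (Polynomial.aeval (R := k) (jqModC k)).toRingHom := by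
    ext <;> rfl
  rw [this, hP]

theorem mpc_finite_divisorExpansionsC (k : Type*) [Field k] (N : ℕ) [NeZero N] :
    (divisorExpansionsC k N).Finite := by
  classical
  let f : ℕ → LaurentSeries k := fun d =>
    if h : d = 0 then 0 else (haveI : NeZero d := ⟨h⟩; qExpand k d (jqModC k))
  refine Set.Finite.subset (Finset.finite_toSet (N.divisors.image f)) ?_
  rintro _ ⟨d, hd, hdN, rfl⟩
  rw [Finset.mem_coe, Finset.mem_image]
  refine ⟨d, Nat.mem_divisors.mpr ⟨hdN, NeZero.ne N⟩, ?_⟩
  simp only [f, dif_neg (NeZero.ne d)]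

/-- `F̃_N` (over any field `k`) is finite-dimensional over every intermediate field `E ∋ j`. -/
theorem mpc_finiteDimensional_extendScalars (k : Type*) [Field k]
    (hMP : ∀ (p : ℕ) [Fact p.Prime], mpc_MP p) (N : ℕ) [NeZero N]
    (E : IntermediateField k (LaurentSeries k)) (hJ : jqModC k ∈ E)
    (hE : E ≤ modularFunctionFieldFullC k N) :
    FiniteDimensional E (IntermediateField.extendScalars hE) := by
  have hE' : E ≤ IntermediateField.adjoin k (divisorExpansionsC k N) := hE
  have h1 : IntermediateField.extendScalars hE =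
      IntermediateField.adjoin E (divisorExpansionsC k N) :=
    IntermediateField.extendScalars_adjoin hE'
  rw [h1]
  haveI : Finite (divisorExpansionsC k N) := (mpc_finite_divisorExpansionsC k N).to_subtype
  apply IntermediateField.finiteDimensional_adjoin
  rintro _ ⟨d, hd, -, rfl⟩
  exact mpc_isIntegral_intermediateField k hMP d E hJ

/-- `0 < [F̃_N : E]` (i.e. the relative degree is finite) for `j ∈ E ≤ F̃_N`. -/
theorem mpc_relfinrank_pos (k : Type*) [Field k]
    (hMP : ∀ (p : ℕ) [Fact p.Prime], mpc_MP p) (N : ℕ) [NeZero N]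
    (E : IntermediateField k (LaurentSeries k)) (hJ : jqModC k ∈ E)
    (hE : E ≤ modularFunctionFieldFullC k N) :
    0 < IntermediateField.relfinrank E (modularFunctionFieldFullC k N) := by
  rw [IntermediateField.relfinrank_eq_finrank_of_le hE]
  haveI := mpc_finiteDimensional_extendScalars k hMP N E hJ hE
  exact Module.finrank_pos

end

end Fermat.Agent.S28x
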