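/-
S28 project (Igusa), helper10: UNCONDITIONAL forms of `ModPolyCons.lean` (MP = `exists_modPoly` is landed).
Prefix `mpcf_`; nothing here has a hypothesis on `Φ_p` any more.
-/
import Fermat.Agent.S28x.ModPoly
import Fermat.Agent.S28x.ModPolyCons

set_option autoImplicit false

open ModularCurve Polynomial

namespace Fermat.Agent.S28x

noncomputable section

/-- the hypothesis of all `mpc_` theorems -/
theorem mpcf_hMP : ∀ (p : ℕ) [Fact p.Prime], mpc_MP p := fun p _ => exists_modPoly p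

/-- **`Φ_p` over an arbitrary (nontrivial) commutative ring `R`**, e.g. `R = ZMod ℓ`: monic of degree
`p + 1` in `X` with `Φ(j(q^p), j) = 0 = Φ(j, j(q^p))`, `j = jqModC R`. -/
theorem mpcf_exists_modPoly_ring (R : Type*) [CommRing R] [Nontrivial R] (p : ℕ) [Fact p.Prime] :
    haveI : NeZero p := ⟨(Fact.out : p.Prime).ne_zero⟩
    ∃ Φ : Polynomial (Polynomial R), Φ.Monic ∧ Φ.natDegree = p + 1 ∧
      Φ.eval₂ (Polynomial.aeval (jqModC R)).toRingHom (qExpand R p (jqModC R)) = 0 ∧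
      Φ.eval₂ (Polynomial.aeval (qExpand R p (jqModC R))).toRingHom (jqModC R) = 0 :=
  mpc_exists_modPoly_ring R p (mpcf_hMP p)

/-- `j(q^d)` is integral over `R[j]`, all `d ≥ 1`. -/
theorem mpcf_isIntegral_adjoin_jqd (R : Type*) [CommRing R] [Nontrivial R] (d : ℕ) [NeZero d] :
    IsIntegral (Algebra.adjoin R {jqModC R}) (qExpand R d (jqModC R)) :=
  mpc_isIntegral_jqd R mpcf_hMP d

/-- two-variable form: `P ∈ R[Y][X]` monic in `X` with `P(j, j(q^d)) = 0`. -/
theorem mpcf_exists_monic_jqd (R : Type*) [CommRing R] [Nontrivial R] (d : ℕ) [NeZero d] :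
    ∃ P : Polynomial (Polynomial R), P.Monic ∧
      P.eval₂ (Polynomial.aeval (R := R) (jqModC R)).toRingHom (qExpand R d (jqModC R)) = 0 :=
  mpc_exists_monic_jqd R mpcf_hMP d

/-- `j(q^d)` is integral over the Gauss valuation ring `V` of `ℚ(j)`. -/
theorem mpcf_isIntegral_gaussV_jqd (ℓ : ℕ) [Fact ℓ.Prime] (d : ℕ) [NeZero d] :
    IsIntegral (gaussV ℓ) (qExpand ℚ d jq) :=
  mpc_isIntegral_gaussV ℓ mpcf_hMP d

/-- every element of `A_V(N)` is integral over `V`. -/
theorem mpcf_isIntegral_gaussV_of_mem_AV (ℓ N : ℕ) [Fact ℓ.Prime] {x : LaurentSeries ℚ}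
    (hx : x ∈ AV ℓ N) : IsIntegral (gaussV ℓ) x :=
  mpc_isIntegral_AV ℓ N mpcf_hMP hx

/-- over a field: `j(q^d)` is integral over every intermediate field containing `j`. -/
theorem mpcf_isIntegral_intermediateField_jqd (k : Type*) [Field k] (d : ℕ) [NeZero d]
    (E : IntermediateField k (LaurentSeries k)) (hJ : jqModC k ∈ E) :
    IsIntegral E (qExpand k d (jqModC k)) :=
  mpc_isIntegral_intermediateField k mpcf_hMP d E hJ

/-- `F̃_N` is finite-dimensional over every intermediate field `j ∈ E ≤ F̃_N`. -/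
theorem mpcf_finiteDimensional_fullC_extendScalars (k : Type*) [Field k] (N : ℕ) [NeZero N]
    (E : IntermediateField k (LaurentSeries k)) (hJ : jqModC k ∈ E)
    (hE : E ≤ modularFunctionFieldFullC k N) :
    FiniteDimensional E (IntermediateField.extendScalars hE) :=
  mpc_finiteDimensional_extendScalars k mpcf_hMP N E hJ hE

/-- `0 < [F̃_N : E]` for `j ∈ E ≤ F̃_N`. -/
theorem mpcf_relfinrank_fullC_pos (k : Type*) [Field k] (N : ℕ) [NeZero N]
    (E : IntermediateField k (LaurentSeries k)) (hJ : jqModC k ∈ E)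
    (hE : E ≤ modularFunctionFieldFullC k N) :
    0 < IntermediateField.relfinrank E (modularFunctionFieldFullC k N) :=
  mpc_relfinrank_pos k mpcf_hMP N E hJ hE

/-- `0 < [F̃_N : 𝔽_ℓ(j̃)]`. -/
theorem mpcf_relfinrank_Kj_Ft_pos (ℓ N : ℕ) [Fact ℓ.Prime] [NeZero N] :
    0 < IntermediateField.relfinrank (Kj ℓ) (Ft ℓ N) :=
  mpcf_relfinrank_fullC_pos (ZMod ℓ) N (Kj ℓ) (IntermediateField.subset_adjoin _ _ rfl)
    (IntermediateField.adjoin_le_iff.mpr
      (Set.singleton_subset_iff.mpr (jqModC_mem_full (ZMod ℓ) N)))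

end

end Fermat.Agent.S28x
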