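/-
S28 project, module IND (helper12): the induction over the levels `N` prime to `ℓ`.

`deg_one` : `DEG ℓ 1` (unconditional).
`ind_deg_all_of_steps` : `DEG ℓ N` for all `N` prime to `ℓ`, GIVEN the two step theorems of the
Spec (`deg_step_coprime` = StepA, `deg_step_dvd` = StepB) as hypotheses.  The final `deg_all` is then
the one-line application `ind_deg_all_of_steps ℓ (deg_step_coprime ℓ) (deg_step_dvd ℓ) N hℓN`
(see the end of this file for the exact shapes expected).

Strategy: first squarefree `N` by strong induction (peel off the LARGEST prime factor, so that the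
remaining `M = N / p` is squarefree with all prime factors `< p`: StepA), then general `N` by strong
induction (if `p² ∣ N` then `N = p * (N / p)` with `p ∣ N / p`: StepB).
-/
import Fermat.Agent.S28x.Defs

set_option autoImplicit false

namespace Fermat.Agent.S28x

open ModularCurve

/-- `divisorExpansionsC K 1 = {j̃}`. -/
theorem ind_divisorExpansionsC_one (K : Type*) [Field K] :
    divisorExpansionsC K 1 = {jqModC K} := by
  ext x
  constructor
  · rintro ⟨d, hd, hd1, rfl⟩
    have h1 : d = 1 := Nat.dvd_one.mp hd1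
    subst h1
    rw [Set.mem_singleton_iff, qExpand_one_apply]
  · intro hx
    rw [Set.mem_singleton_iff] at hx
    subst hx
    exact ⟨1, ⟨one_ne_zero⟩, dvd_rfl, (qExpand_one_apply _).symm⟩

/-- `F̃_1 = 𝔽_ℓ(j̃)`. -/
theorem ind_Ft_one (ℓ : ℕ) [Fact ℓ.Prime] : Ft ℓ 1 = Kj ℓ := by
  show IntermediateField.adjoin (ZMod ℓ) (divisorExpansionsC (ZMod ℓ) 1) = _
  rw [ind_divisorExpansionsC_one]

/-- **`DEG ℓ 1`**: `ψ(1) = 1 = [𝔽_ℓ(j̃) : 𝔽_ℓ(j̃)]`. -/
theorem deg_one (ℓ : ℕ) [Fact ℓ.Prime] : DEG ℓ 1 := by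
  show dedekindPsi 1 ≤ IntermediateField.relfinrank (Kj ℓ) (Ft ℓ 1)
  rw [ind_Ft_one, IntermediateField.relfinrank_self, dedekindPsi_one]

/-- The shape of StepA (`deg_step_coprime` of the Spec, for a fixed `ℓ`). -/
def ind_StepA (ℓ : ℕ) [Fact ℓ.Prime] : Prop :=
  ∀ (p M : ℕ) [NeZero M], p.Prime → ℓ ≠ p → ¬ ℓ ∣ M → Squarefree M →
    (∀ q ∈ M.primeFactors, q < p) → DEG ℓ M → DEG ℓ (p * M)

/-- The shape of StepB (`deg_step_dvd` of the Spec, for a fixed `ℓ`). -/
def ind_StepB (ℓ : ℕ) [Fact ℓ.Prime] : Prop :=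
  ∀ (p M : ℕ) [NeZero M], p.Prime → p ∣ M → DEG ℓ M → DEG ℓ (p * M)

/-- Squarefree levels prime to `ℓ`, from StepA alone: peel off the largest prime factor. -/
theorem ind_deg_squarefree (ℓ : ℕ) [Fact ℓ.Prime] (hA : ind_StepA ℓ) :
    ∀ N : ℕ, Squarefree N → ¬ ℓ ∣ N → DEG ℓ N := by
  intro N
  induction N using Nat.strong_induction_on with
  | _ N ih =>
    intro hsq hℓN
    rcases eq_or_ne N 1 with rfl | hN1
    · exact deg_one ℓ
    have hN0 : N ≠ 0 := fun h => by subst h; exact not_squarefree_zero hsq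
    -- the largest prime factor
    have hne : N.primeFactors.Nonempty := Nat.nonempty_primeFactors.mpr
      (lt_of_le_of_ne (Nat.pos_of_ne_zero hN0) (Ne.symm hN1))
    set p := N.primeFactors.max' hne with hp_def
    have hpmem : p ∈ N.primeFactors := Finset.max'_mem _ hne
    have hp : p.Prime := (Nat.mem_primeFactors.mp hpmem).1
    have hpN : p ∣ N := (Nat.mem_primeFactors.mp hpmem).2.1
    obtain ⟨M, hM⟩ := id hpN
    have hM0 : M ≠ 0 := by rintro rfl; exact hN0 (by simpa using hM)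
    have : NeZero M := ⟨hM0⟩
    have hMN : M ∣ N := ⟨p, by rw [hM, mul_comm]⟩
    have hMlt : M < N := by
      rw [hM]
      exact lt_mul_of_one_lt_left (Nat.pos_of_ne_zero hM0) hp.one_lt
    have hsqM : Squarefree M := hsq.squarefree_of_dvd hMN
    have hℓM : ¬ ℓ ∣ M := fun h => hℓN (h.trans hMN)
    have hℓp : ℓ ≠ p := by
      intro h
      exact hℓN (h ▸ hpN)
    have hpM : ¬ p ∣ M := by
      intro h
      have h2 : p * p ∣ N := by rw [hM]; exact mul_dvd_mul_left p h
      have := hsq p h2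
      exact hp.one_lt.ne' (Nat.isUnit_iff.mp this)
    have hlt : ∀ q ∈ M.primeFactors, q < p := by
      intro q hq
      have hq' := Nat.mem_primeFactors.mp hq
      have hqN : q ∣ N := hq'.2.1.trans hMN
      have hle : q ≤ p :=
        Finset.le_max' _ q (Nat.mem_primeFactors.mpr ⟨hq'.1, hqN, hN0⟩)
      rcases hle.lt_or_eq with h | h
      · exact h
      · exact absurd (h ▸ hq'.2.1) hpM
    have hDM : DEG ℓ M := ih M hMlt hsqM hℓM
    rw [hM]
    exact hA p M hp hℓp hℓM hsqM hlt hDM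

/-- **All levels prime to `ℓ`**, from StepA and StepB. -/
theorem ind_deg_all_of_steps (ℓ : ℕ) [Fact ℓ.Prime] (hA : ind_StepA ℓ) (hB : ind_StepB ℓ) :
    ∀ N : ℕ, N ≠ 0 → ¬ ℓ ∣ N → DEG ℓ N := by
  intro N
  induction N using Nat.strong_induction_on with
  | _ N ih =>
    intro hN0 hℓN
    by_cases hsq : Squarefree N
    · exact ind_deg_squarefree ℓ hA N hsq hℓN
    -- a prime `p` with `p * p ∣ N`
    rw [Nat.squarefree_iff_prime_squarefree] at hsq
    push Not at hsq
    obtain ⟨p, hp, hppN⟩ := hsq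
    obtain ⟨K, hK⟩ := hppN
    set M := p * K with hM_def
    have hNM : N = p * M := by rw [hK, hM_def, mul_assoc]
    have hM0 : M ≠ 0 := by rintro h; exact hN0 (by rw [hNM, h, mul_zero])
    have : NeZero M := ⟨hM0⟩
    have hMN : M ∣ N := ⟨p, by rw [hNM, mul_comm]⟩
    have hMlt : M < N := by
      rw [hNM]
      exact lt_mul_of_one_lt_left (Nat.pos_of_ne_zero hM0) hp.one_lt
    have hℓM : ¬ ℓ ∣ M := fun h => hℓN (h.trans hMN)
    have hDM : DEG ℓ M := ih M hMlt hM0 hℓM
    rw [hNM]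
    exact hB p M hp ⟨K, rfl⟩ hDM

/-- The Spec form of `deg_all`, with the two steps as hypotheses.  Once `StepA.lean` and
`StepB.lean` are on main, `deg_all ℓ N hℓN` is
`ind_deg_all ℓ N (fun p M _ => deg_step_coprime ℓ p M) (fun p M _ => deg_step_dvd ℓ p M) hℓN`. -/
theorem ind_deg_all (ℓ N : ℕ) [Fact ℓ.Prime] [NeZero N] (hA : ind_StepA ℓ) (hB : ind_StepB ℓ)
    (hℓN : ¬ ℓ ∣ N) : DEG ℓ N :=
  ind_deg_all_of_steps ℓ hA hB N (NeZero.ne N) hℓN

end Fermat.Agent.S28x
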