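/-
S28 project, module DU (helper90), generic algebra part (Mathlib only).

For a field extension `A / R` and `t ∈ A`:
* `du_linearIndependent_pow`: powers of a transcendental element are `R`-linearly independent;
* `du_linearIndependent_pow_mul`: an `R⟮t⟯`-linearly independent family `x` gives the
  `R`-linearly independent family `t ^ k * x i` (for `t` transcendental);
* `du_linearIndependent_adjoin_of_pow_mul`: conversely, if the family `t ^ k * x i` is
  `R`-linearly independent then `x` is `R⟮t⟯`-linearly independent.
-/
import Mathlib

set_option autoImplicit false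

namespace Fermat.Agent.S28x

open Polynomial IntermediateField

section Generic

variable {R A : Type*} [Field R] [Field A] [Algebra R A]

/-- Powers of a transcendental element are linearly independent. -/
theorem du_linearIndependent_pow {t : A} (ht : Transcendental R t) :
    LinearIndependent R (fun k : ℕ => t ^ k) := by
  rw [linearIndependent_iff'']
  intro s g hg h k
  have hp : (∑ i ∈ s, Polynomial.monomial i (g i) : R[X]) = 0 := by
    apply (transcendental_iff.mp ht)
    rw [map_sum, ← h]
    refine Finset.sum_congr rfl fun i _ => ?_
    rw [Polynomial.aeval_monomial, Algebra.smul_def]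
  have hk := congrArg (fun p : R[X] => p.coeff k) hp
  simp only [Polynomial.finsetSum_coeff, Polynomial.coeff_monomial, Polynomial.coeff_zero] at hk
  by_cases hks : k ∈ s
  · rw [Finset.sum_eq_single k (fun b _ hb => by rw [if_neg hb])
      (fun h => absurd hks h)] at hk
    simpa using hk
  · exact hg k hks

/-- If `x` is linearly independent over `R⟮t⟯` (with `t` transcendental over `R`) then the
products `t ^ k * x i` are linearly independent over `R`. -/
theorem du_linearIndependent_pow_mul {t : A} (ht : Transcendental R t) {ι : Type*} {x : ι → A}
    (hx : LinearIndependent R⟮t⟯ x) :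
    LinearIndependent R (fun p : ℕ × ι => t ^ p.1 * x p.2) := by
  have hb : LinearIndependent R (fun k : ℕ => (AdjoinSimple.gen R t) ^ k) := by
    refine LinearIndependent.of_comp (R⟮t⟯.val.toLinearMap) ?_
    have : (R⟮t⟯.val.toLinearMap ∘ fun k : ℕ => (AdjoinSimple.gen R t) ^ k)
        = fun k : ℕ => t ^ k := by
      funext k
      simp
    rw [this]
    exact du_linearIndependent_pow ht
  have h := linearIndependent_smul hb hx
  have heq : (fun p : ℕ × ι => (AdjoinSimple.gen R t) ^ p.1 • x p.2)
      = fun p : ℕ × ι => t ^ p.1 * x p.2 := by
    funext p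
    rw [Algebra.smul_def]
    simp
  rwa [heq] at h

/-- If the products `t ^ k * x i` are linearly independent over `R` then `x` is linearly
independent over `R⟮t⟯`. -/
theorem du_linearIndependent_adjoin_of_pow_mul {t : A} {n : ℕ} {x : Fin n → A}
    (hx : LinearIndependent R (fun p : ℕ × Fin n => t ^ p.1 * x p.2)) :
    LinearIndependent R⟮t⟯ x := by
  open scoped IntermediateField.algebraAdjoinAdjoin in
  rw [← LinearIndependent.iff_fractionRing (Algebra.adjoin R {t}) R⟮t⟯]
  rw [Fintype.linearIndependent_iff]
  intro g hg
  -- choose polynomials
  have hP : ∀ i, ∃ P : R[X], Polynomial.aeval t P = (g i : A) := by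
    intro i
    have h1 : (g i : A) ∈ (Algebra.adjoin R {t} : Subalgebra R A) := (g i).2
    have h2 : (g i : A) ∈ (Polynomial.aeval t : R[X] →ₐ[R] A).range := by
      rw [← Algebra.adjoin_singleton_eq_range_aeval]; exact h1
    exact h2
  choose P hP using hP
  set D := (Finset.univ : Finset (Fin n)).sup (fun i => (P i).natDegree) with hD
  have hdeg : ∀ i, (P i).natDegree < D + 1 := fun i =>
    Nat.lt_succ_of_le (Finset.le_sup (f := fun i => (P i).natDegree) (Finset.mem_univ i))
  have key := (linearIndependent_iff''.mp hx) (Finset.range (D + 1) ×ˢ Finset.univ)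
    (fun p => (P p.2).coeff p.1)
    (by
      intro p hp
      simp only [Finset.mem_product, Finset.mem_range, Finset.mem_univ, and_true, not_lt] at hp
      exact Polynomial.coeff_eq_zero_of_natDegree_lt (lt_of_lt_of_le (hdeg p.2) hp))
    (by
      rw [Finset.sum_product_right, ← hg]
      refine Finset.sum_congr rfl fun i _ => ?_
      have h3 : (g i • x i : A) = (g i : A) * x i := rfl
      rw [h3, ← hP i, Polynomial.aeval_eq_sum_range' (hdeg i), Finset.sum_mul]
      refine Finset.sum_congr rfl fun k _ => ?_
      rw [smul_mul_assoc])
  intro i
  have hPi : P i = 0 := by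
    ext k
    simpa using key (k, i)
  apply Subtype.ext
  rw [← hP i, hPi, map_zero]
  rfl

end Generic

end Fermat.Agent.S28x
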