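/-
S28 project, module DU (helper90): `[F_N : ℚ(j)] ≤ ψ(N)`.

From S24 (`cdeg Q̄ (FBar N) (jBar N) = ψ(N)`) by descent of linear independence along
`ℚ((q)) → Q̄((q))` (S24x `LinDisjoint`).  Exports the two Spec statements
`finiteDimensional_full`, `relfinrank_full_le` and the elementary form `du_card_le`.
-/
import Fermat.Agent.S24
import Fermat.Agent.S24x.JBarTranscendental
import Fermat.Agent.S28x.Defs
import Fermat.Agent.S28x.DegreeUpperAlg

set_option autoImplicit false

namespace Fermat.Agent.S28x

open ModularCurve IntermediateField Fermat.Agent.S24x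

/-- `j` is transcendental over `ℚ` in `ℚ((q))`. -/
theorem du_transcendental_jq : Transcendental ℚ jq := by
  have h := jbt_transcendental_coeffEmb_jq ℚ
  have h2 : coeffEmb ℚ jq = jq := by
    ext k
    simp
  rwa [h2] at h

/-- `ℚ(j) ≤ F_N`. -/
theorem du_Qj_le_full (N : ℕ) [NeZero N] : Qj ≤ modularFunctionFieldFull N :=
  IntermediateField.adjoin_le_iff.mpr (Set.singleton_subset_iff.mpr
    (by simpa [qExpand_one_apply] using jqd_mem_full N (one_dvd N)))

/-- **Elementary form of the degree bound**: a `ℚ(j)`-linearly independent family of elements of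
`F_N` has at most `ψ(N)` members. -/
theorem du_card_le (N : ℕ) [NeZero N] (n : ℕ) (x : Fin n → LaurentSeries ℚ)
    (hx : ∀ i, x i ∈ modularFunctionFieldFull N) (hli : LinearIndependent Qj x) :
    n ≤ dedekindPsi N := by
  -- (a) the products `j ^ k * x i` are `ℚ`-linearly independent
  have h1 := du_linearIndependent_pow_mul du_transcendental_jq hli
  -- (b) extend the coefficients to `Q̄`
  rw [fbf_module_eq ℚ] at h1
  have h2 := ld_linearIndependent_coeffMap (L := Qbar) h1
  rw [← fbf_module_eq Qbar] at h2
  -- move into `FBar N`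
  let y : Fin n → FBar N := fun i =>
    ⟨coeffEmb Qbar (x i), coeffEmb_mem_laurentBaseChange Qbar (hx i)⟩
  have h3 : LinearIndependent Qbar (fun p : ℕ × Fin n => (jBar N) ^ p.1 * y p.2) := by
    let _ : Module Qbar (LaurentSeries Qbar) := Algebra.toModule
    refine LinearIndependent.of_comp ((modularFunctionFieldBar N).val.toLinearMap) ?_
    have heq : ((modularFunctionFieldBar N).val.toLinearMap ∘
        fun p : ℕ × Fin n => (jBar N) ^ p.1 * y p.2)
        = fun p : ℕ × Fin n => coeffMap (algebraMap ℚ Qbar) (jq ^ p.1 * x p.2) := by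
      funext p
      simp only [Function.comp_apply, AlgHom.toLinearMap_apply, map_mul, map_pow,
        IntermediateField.coe_val, coe_jBar, y]
      rfl
    rw [heq]
    exact h2
  -- (c) linear independence over `Q̄(j)`
  have h4 := du_linearIndependent_adjoin_of_pow_mul h3
  have hfin := fbf_finiteDimensional_jBar N
  have h5 := h4.fintype_card_le_finrank
  rw [Fintype.card_fin] at h5
  have h6 : Module.finrank Qbar⟮jBar N⟯ (FBar N) = dedekindPsi N :=
    (Fermat.Agent.S24.cInputs N).cdeg_jBar
  omega

/-- the rank of `F_N` over `ℚ(j)` is at most `ψ(N)` -/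
theorem du_rank_le (N : ℕ) [NeZero N] :
    Module.rank Qj (IntermediateField.extendScalars (du_Qj_le_full N)) ≤ (dedekindPsi N : ℕ) := by
  classical
  apply rank_le
  intro s hs
  -- push to `ℚ((q))`
  have h1 : LinearIndependent Qj
      (fun i : s => ((i : IntermediateField.extendScalars (du_Qj_le_full N)) :
        LaurentSeries ℚ)) := by
    have := hs.map' ((IntermediateField.extendScalars (du_Qj_le_full N)).val.toLinearMap)
      (LinearMap.ker_eq_bot.mpr
        (IntermediateField.extendScalars (du_Qj_le_full N)).val.injective)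
    exact this
  have h2 := h1.comp (s.equivFin.symm) s.equivFin.symm.injective
  exact du_card_le N s.card _ (fun i => (s.equivFin.symm i).1.2) h2

/-- **DU, Spec statement 1**: `F_N` is finite over `ℚ(j)`. -/
theorem finiteDimensional_full (N : ℕ) [NeZero N] :
    FiniteDimensional Qj (IntermediateField.extendScalars
      (show Qj ≤ modularFunctionFieldFull N from
        IntermediateField.adjoin_le_iff.mpr (Set.singleton_subset_iff.mpr
          (by simpa [qExpand_one_apply] using jqd_mem_full N (one_dvd N))))) := by
  rw [FiniteDimensional, ← Module.rank_lt_aleph0_iff]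
  exact lt_of_le_of_lt (du_rank_le N) Cardinal.natCast_lt_aleph0

/-- **DU, Spec statement 2**: `[F_N : ℚ(j)] ≤ ψ(N)`. -/
theorem relfinrank_full_le (N : ℕ) [NeZero N] :
    IntermediateField.relfinrank Qj (modularFunctionFieldFull N) ≤ dedekindPsi N := by
  rw [IntermediateField.relfinrank_eq_finrank_of_le (du_Qj_le_full N)]
  exact Module.finrank_le_of_rank_le (du_rank_le N)

/-- the form consumed by the reduction (`hrank`): `ψ(N) + 1` elements of `F_N` are never
`ℚ(j)`-linearly independent. -/
theorem du_not_linearIndependent (N : ℕ) [NeZero N]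
    (c : Fin (dedekindPsi N + 1) → LaurentSeries ℚ)
    (hc : ∀ i, c i ∈ modularFunctionFieldFull N) : ¬ LinearIndependent Qj c := by
  intro h
  have := du_card_le N _ c hc h
  omega

end Fermat.Agent.S28x
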