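/-
S28 project, module FR (analytic core): the Fricke substitution `z ↦ -1/(N z)` on the modular function field
`F_N = ℚ(j(q^d) : d ∣ N) ⊆ ℚ((q))`: a ring homomorphism `F_N → ℚ((q))` with
`j(q^d) ↦ j(q^{N/d})`.  Owner: helper76, prefix `fr_`.

Route: a polynomial relation `P(j(q^d))_d = 0` between the `q`-expansions is (identity theorem for
convergent Laurent series, `S24x/ConvLaurent`) the same as the relation `P(j(dτ))_d = 0` between
functions on the upper half plane; substituting `τ ↦ -1/(Nτ)` and using `j(-1/z) = j(z)` gives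
`P(j((N/d)τ))_d = 0`.  Hence `j(q^d) ↦ j(q^{N/d})` is a well defined injective ring homomorphism on
`ℚ[j(q^d) : d ∣ N]`, which extends to the fraction field.
-/
import Mathlib
import Fermat.Prelude.Def_ModularCurve_X0
import Fermat.Prelude.Def_ModularCurve_LaurentCoeff
import Fermat.Prelude.Thm_ModularCurve_coeffMap_qExpand
import Fermat.Agent.S24x.ConvLaurent
import Fermat.Agent.S24x.JqConv
import Fermat.Agent.S24x.JFun

set_option autoImplicit false

namespace Fermat.Agent.S28x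

open ModularCurve UpperHalfPlane HahnSeries
open Fermat.Agent.S24x
open scoped MatrixGroups

noncomputable section

/-! ### complex coefficients -/

/-- `ℚ((q)) → ℂ((q))` -/
def fr_c : LaurentSeries ℚ →+* LaurentSeries ℂ := coeffMap (algebraMap ℚ ℂ)

theorem fr_c_injective : Function.Injective fr_c := by
  intro a b h
  ext k
  have h1 := congrArg (fun z : LaurentSeries ℂ => z.coeff k) h
  simp only [fr_c, coeffMap_coeff] at h1
  exact (algebraMap ℚ ℂ).injective h1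

theorem fr_c_gen (d : ℕ) [NeZero d] : fr_c (qExpand ℚ d jq) = qExpand ℂ d jqc_jqC := by
  unfold fr_c
  rw [coeffMap_qExpand]
  rfl

theorem fr_lconv_gen (d : ℕ) [NeZero d] : LConv (fr_c (qExpand ℚ d jq)) := by
  rw [fr_c_gen]
  exact jqc_lconv_jqC.qExpand d

theorem fr_lEval_gen (d : ℕ) [NeZero d] (τ : ℍ) :
    lEval (fr_c (qExpand ℚ d jq)) (qOf τ) = jFun (jqc_mulPt d τ) := by
  rw [fr_c_gen, lEval_qExpand, jqc_qOf_pow d τ _ (jqc_coe_mulPt d τ), jqc_lEval_jqC]

/-! ### evaluation of polynomial expressions -/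

theorem fr_eval_poly {ι : Type*} (x : ι → LaurentSeries ℚ) (v : ι → ℍ → ℂ)
    (hx : ∀ i, LConv (fr_c (x i))) (hv : ∀ i τ, lEval (fr_c (x i)) (qOf τ) = v i τ)
    (P : MvPolynomial ι ℚ) :
    LConv (fr_c (MvPolynomial.aeval x P)) ∧
      ∀ τ : ℍ, lEval (fr_c (MvPolynomial.aeval x P)) (qOf τ) =
        MvPolynomial.eval₂ (algebraMap ℚ ℂ) (fun i => v i τ) P := by
  induction P using MvPolynomial.induction_on with
  | C a =>
    have h1 : fr_c (MvPolynomial.aeval x (MvPolynomial.C a)) =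
        HahnSeries.single (0 : ℤ) ((algebraMap ℚ ℂ) a) := by
      rw [MvPolynomial.aeval_C, algebraMap_laurentSeries_eq_single]
      unfold fr_c
      rw [coeffMap_single]
    rw [h1]
    refine ⟨lconv_single 0 _, fun τ => ?_⟩
    rw [lEval_single, MvPolynomial.eval₂_C, zpow_zero, mul_one]
  | add p q hp hq =>
    rw [map_add, map_add]
    refine ⟨hp.1.add hq.1, fun τ => ?_⟩
    rw [lEval_add hp.1 hq.1 (qOf_ne_zero τ) (norm_qOf_lt_one τ), hp.2 τ, hq.2 τ,
      MvPolynomial.eval₂_add]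
  | mul_X p i hp =>
    rw [map_mul, map_mul, MvPolynomial.aeval_X]
    refine ⟨hp.1.mul (hx i), fun τ => ?_⟩
    rw [lEval_mul hp.1 (hx i) (qOf_ne_zero τ) (norm_qOf_lt_one τ), hp.2 τ, hv i τ,
      MvPolynomial.eval₂_mul, MvPolynomial.eval₂_X]

/-! ### the Fricke point -/

/-- `τ ↦ -1/(Nτ)` -/
def fr_W (N : ℕ) [NeZero N] (τ : ℍ) : ℍ := ModularGroup.S • jqc_mulPt N τ

theorem fr_mulPt_W (N d e : ℕ) [NeZero N] [NeZero d] [NeZero e] (hde : d * e = N) (τ : ℍ) :
    jqc_mulPt d (fr_W N τ) = ModularGroup.S • jqc_mulPt e τ := by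
  apply UpperHalfPlane.ext
  rw [jqc_coe_mulPt]
  unfold fr_W
  rw [UpperHalfPlane.modular_S_smul, UpperHalfPlane.modular_S_smul]
  simp only [jqc_coe_mulPt]
  have hd : (d : ℂ) ≠ 0 := Nat.cast_ne_zero.mpr (NeZero.ne d)
  have he : (e : ℂ) ≠ 0 := Nat.cast_ne_zero.mpr (NeZero.ne e)
  have hτ : (τ : ℂ) ≠ 0 := UpperHalfPlane.ne_zero τ
  subst hde
  push_cast
  field_simp

theorem fr_jFun_W (N d e : ℕ) [NeZero N] [NeZero d] [NeZero e] (hde : d * e = N) (τ : ℍ) :
    jFun (jqc_mulPt d (fr_W N τ)) = jFun (jqc_mulPt e τ) := by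
  rw [fr_mulPt_W N d e hde τ, jFun_smul]

/-! ### generators indexed by the divisors of `N` -/

/-- `j(q^d)`; junk value `0` for `d = 0` -/
def fr_gen (d : ℕ) : LaurentSeries ℚ := if h : d = 0 then 0 else @qExpand ℚ _ d ⟨h⟩ jq

theorem fr_gen_eq (d : ℕ) [NeZero d] : fr_gen d = qExpand ℚ d jq := by
  unfold fr_gen
  rw [dif_neg (NeZero.ne d)]

/-- index type: the divisors of `N` -/
abbrev fr_I (N : ℕ) : Type := {d : ℕ // d ∈ N.divisors}

instance fr_neZero_fst (N : ℕ) (i : fr_I N) : NeZero i.1 :=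
  ⟨(Nat.pos_of_mem_divisors i.2).ne'⟩

instance fr_neZero_snd (N : ℕ) (i : fr_I N) : NeZero (N / i.1) :=
  ⟨(Nat.div_pos (Nat.le_of_dvd (Nat.pos_of_ne_zero (Nat.mem_divisors.mp i.2).2)
    (Nat.mem_divisors.mp i.2).1) (Nat.pos_of_mem_divisors i.2)).ne'⟩

theorem fr_mul_div (N : ℕ) (i : fr_I N) : i.1 * (N / i.1) = N :=
  Nat.mul_div_cancel' (Nat.mem_divisors.mp i.2).1

/-- the complementary divisor -/
def fr_inv (N : ℕ) (i : fr_I N) : fr_I N :=
  ⟨N / i.1, Nat.mem_divisors.mpr ⟨Dvd.intro_left i.1 (fr_mul_div N i), (Nat.mem_divisors.mp i.2).2⟩⟩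

theorem fr_inv_inv (N : ℕ) (i : fr_I N) : fr_inv N (fr_inv N i) = i := by
  apply Subtype.ext
  show N / (N / i.1) = i.1
  exact Nat.div_div_self (Nat.mem_divisors.mp i.2).1 (Nat.mem_divisors.mp i.2).2

/-- the generators `j(q^d)` -/
def fr_x (N : ℕ) (i : fr_I N) : LaurentSeries ℚ := fr_gen i.1

/-- the images `j(q^{N/d})` -/
def fr_y (N : ℕ) (i : fr_I N) : LaurentSeries ℚ := fr_gen (N / i.1)

theorem fr_y_eq (N : ℕ) (i : fr_I N) : fr_y N i = fr_x N (fr_inv N i) := rfl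

theorem fr_range_x (N : ℕ) [NeZero N] : Set.range (fr_x N) = divisorExpansions N := by
  ext z
  constructor
  · rintro ⟨i, rfl⟩
    exact ⟨i.1, fr_neZero_fst N i, (Nat.mem_divisors.mp i.2).1, fr_gen_eq i.1⟩
  · rintro ⟨d, hd, hdN, rfl⟩
    exact ⟨⟨d, Nat.mem_divisors.mpr ⟨hdN, NeZero.ne N⟩⟩, fr_gen_eq d⟩

/-! ### relations are preserved -/

theorem fr_rel (N : ℕ) [NeZero N] (P : MvPolynomial (fr_I N) ℚ)
    (h : MvPolynomial.aeval (fr_x N) P = 0) : MvPolynomial.aeval (fr_y N) P = 0 := by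
  have hX := fr_eval_poly (fr_x N) (fun i τ => jFun (jqc_mulPt i.1 τ))
    (fun i => by rw [fr_x, fr_gen_eq]; exact fr_lconv_gen i.1)
    (fun i τ => by rw [fr_x, fr_gen_eq]; exact fr_lEval_gen i.1 τ) P
  have hY := fr_eval_poly (fr_y N) (fun i τ => jFun (jqc_mulPt (N / i.1) τ))
    (fun i => by rw [fr_y, fr_gen_eq]; exact fr_lconv_gen (N / i.1))
    (fun i τ => by rw [fr_y, fr_gen_eq]; exact fr_lEval_gen (N / i.1) τ) P
  apply fr_c_injective
  rw [map_zero]
  refine hY.1.eq_zero_of_forall_uhp fun τ => ?_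
  rw [hY.2 τ]
  have h1 := hX.2 (fr_W N τ)
  rw [h, map_zero, lEval_zero] at h1
  rw [h1]
  congr 1
  funext i
  exact (fr_jFun_W N i.1 (N / i.1) (fr_mul_div N i) τ).symm

theorem fr_rel_iff (N : ℕ) [NeZero N] (P : MvPolynomial (fr_I N) ℚ) :
    MvPolynomial.aeval (fr_x N) P = 0 ↔ MvPolynomial.aeval (fr_y N) P = 0 := by
  refine ⟨fr_rel N P, fun h => ?_⟩
  -- apply `fr_rel` to the renamed polynomial
  have h1 : MvPolynomial.aeval (fr_x N) (MvPolynomial.rename (fr_inv N) P) = 0 := by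
    rw [MvPolynomial.aeval_rename]
    exact h
  have h2 := fr_rel N _ h1
  rw [MvPolynomial.aeval_rename] at h2
  have h3 : (fr_y N) ∘ (fr_inv N) = fr_x N := by
    funext i
    show fr_x N (fr_inv N (fr_inv N i)) = fr_x N i
    rw [fr_inv_inv]
  rw [h3] at h2
  exact h2

end

end Fermat.Agent.S28x
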