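/-
S28 project, module FR: the Fricke substitution `z ↦ -1/(N z)` on the modular function field
`F_N = ℚ(j(q^d) : d ∣ N) ⊆ ℚ((q))`: a ring homomorphism `w : F_N → ℚ((q))` with
`w (j(q^d)) = j(q^{N/d})` (the exact statement of `Spec.exists_fricke`).
Owner: helper76, prefix `fr_`.

The analytic input (`fr_rel_iff`: the families `j(q^d)` and `j(q^{N/d})` satisfy the same polynomial
relations over `ℚ`) is in `S28x/FrickeCore.lean`; here is the (generic) algebra: two families in a
field with the same polynomial relations give a ring homomorphism from the field generated by the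
first family, mapping the first family to the second.
-/
import Mathlib
import Fermat.Agent.S28x.FrickeCore

set_option autoImplicit false

namespace Fermat.Agent.S28x

open ModularCurve HahnSeries
open scoped IntermediateField.algebraAdjoinAdjoin

noncomputable section

/-- Two families `x`, `y` in a field `A` over `K` with the same polynomial relations: there is a
ring homomorphism `K(x) → A` with `x i ↦ y i`. -/
theorem fr_exists_lift {K A : Type*} [Field K] [Field A] [Algebra K A] {ι : Type*} (x y : ι → A)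
    (h : ∀ P : MvPolynomial ι K, MvPolynomial.aeval x P = 0 ↔ MvPolynomial.aeval y P = 0) :
    ∃ w : ↥(IntermediateField.adjoin K (Set.range x)) →+* A,
      ∀ i, w ⟨x i, IntermediateField.subset_adjoin K _ ⟨i, rfl⟩⟩ = y i := by
  classical
  -- the surjection `K[X_i] → K[x]`
  have hmem : ∀ P : MvPolynomial ι K,
      MvPolynomial.aeval x P ∈ Algebra.adjoin K (Set.range x) := fun P => by
    rw [Algebra.adjoin_range_eq_range_aeval]
    exact ⟨P, rfl⟩
  let f : MvPolynomial ι K →ₐ[K] ↥(Algebra.adjoin K (Set.range x)) :=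
    (MvPolynomial.aeval x).codRestrict (Algebra.adjoin K (Set.range x)) hmem
  have hf_coe : ∀ P, ((f P : ↥(Algebra.adjoin K (Set.range x))) : A) = MvPolynomial.aeval x P :=
    fun P => rfl
  have hf : Function.Surjective f := by
    rintro ⟨b, hb⟩
    rw [Algebra.adjoin_range_eq_range_aeval] at hb
    obtain ⟨P, rfl⟩ := hb
    exact ⟨P, Subtype.ext rfl⟩
  have hker : RingHom.ker f.toRingHom ≤ RingHom.ker (MvPolynomial.aeval (R := K) y).toRingHom := by
    intro P hP
    rw [RingHom.mem_ker] at hP ⊢
    have hP' : f P = 0 := hP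
    have h1 : MvPolynomial.aeval x P = 0 := by
      rw [← hf_coe, hP']
      rfl
    exact (h P).mp h1
  let φ : ↥(Algebra.adjoin K (Set.range x)) →ₐ[K] A :=
    AlgHom.liftOfSurjective f hf (MvPolynomial.aeval y) hker
  have hφ : ∀ P, φ (f P) = MvPolynomial.aeval y P := fun P =>
    AlgHom.liftOfSurjective_apply f hf (MvPolynomial.aeval y) hker P
  have hφ_inj : Function.Injective φ.toRingHom := by
    rw [injective_iff_map_eq_zero]
    intro b hb
    obtain ⟨P, rfl⟩ := hf b
    have h1 : MvPolynomial.aeval y P = 0 := by rw [← hφ P]; exact hb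
    have h2 := (h P).mpr h1
    exact Subtype.ext (by rw [hf_coe, h2]; rfl)
  refine ⟨IsFractionRing.lift hφ_inj, fun i => ?_⟩
  have h1 : (⟨x i, IntermediateField.subset_adjoin K _ ⟨i, rfl⟩⟩ :
      ↥(IntermediateField.adjoin K (Set.range x))) =
      algebraMap ↥(Algebra.adjoin K (Set.range x)) ↥(IntermediateField.adjoin K (Set.range x))
        (f (MvPolynomial.X i)) := by
    apply Subtype.ext
    show x i = ((f (MvPolynomial.X i) : ↥(Algebra.adjoin K (Set.range x))) : A)
    rw [hf_coe, MvPolynomial.aeval_X]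
  rw [h1, IsFractionRing.lift_algebraMap]
  show φ (f (MvPolynomial.X i)) = y i
  rw [hφ, MvPolynomial.aeval_X]

/-- variant of `fr_exists_lift` with the generated field given up to equality -/
theorem fr_exists_lift' {K A : Type*} [Field K] [Field A] [Algebra K A] {ι : Type*} (x y : ι → A)
    (h : ∀ P : MvPolynomial ι K, MvPolynomial.aeval x P = 0 ↔ MvPolynomial.aeval y P = 0)
    (E : IntermediateField K A) (hE : IntermediateField.adjoin K (Set.range x) = E) :
    ∃ w : ↥E →+* A, ∀ (i : ι) (hi : x i ∈ E), w ⟨x i, hi⟩ = y i := by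
  subst hE
  obtain ⟨w, hw⟩ := fr_exists_lift x y h
  exact ⟨w, fun i _ => hw i⟩

/-- **FR**: the Fricke substitution on `F_N`. -/
theorem exists_fricke (N : ℕ) [NeZero N] :
    ∃ w : ↥(modularFunctionFieldFull N) →+* LaurentSeries ℚ,
      ∀ (d e : ℕ) (hd : NeZero d) (_ : NeZero e) (hde : d * e = N),
        w ⟨qExpand ℚ d jq, jqd_mem_full N (Dvd.intro e hde)⟩ = qExpand ℚ e jq := by
  have hE : IntermediateField.adjoin ℚ (Set.range (fr_x N)) = modularFunctionFieldFull N := by
    rw [fr_range_x]
    rfl
  obtain ⟨w, hw⟩ := fr_exists_lift' (K := ℚ) (fr_x N) (fr_y N) (fr_rel_iff N) _ hE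
  refine ⟨w, ?_⟩
  intro d e hd he hde
  have hdN : d ∈ N.divisors := Nat.mem_divisors.mpr ⟨Dvd.intro e hde, NeZero.ne N⟩
  have hx : fr_x N ⟨d, hdN⟩ = qExpand ℚ d jq := fr_gen_eq d
  have hy : fr_y N ⟨d, hdN⟩ = qExpand ℚ e jq := by
    have h3 : N / d = e := by
      rw [← hde]
      exact Nat.mul_div_cancel_left e (Nat.pos_of_ne_zero (NeZero.ne d))
    show fr_gen (N / d) = _
    rw [h3, fr_gen_eq]
  have h1 := hw ⟨d, hdN⟩ (by rw [hx]; exact jqd_mem_full N (Dvd.intro e hde))
  rw [← hy, ← h1]
  congr 1
  exact Subtype.ext hx.symm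

end

end Fermat.Agent.S28x
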