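import Fermat.Agent.S28x.Defs

set_option autoImplicit false

namespace Fermat.Agent.S28x

open ModularCurve Polynomial

noncomputable section

theorem gv_toQ_J (ℓ : ℕ) : toQ ℓ (jqModC (ZL ℓ)) = jq := by
  rw [toQ, coeffMap_jqModC]; rfl

theorem gv_red_J (ℓ : ℕ) [Fact ℓ.Prime] : red ℓ (jqModC (ZL ℓ)) = jqModC (ZMod ℓ) := by
  rw [red, coeffMap_jqModC]

theorem gv_map_eval₂ {R S : Type*} [CommRing R] [CommRing S] (f : R →+* S) (x : R) (P : ℤ[X]) :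
    f (P.eval₂ (Int.castRingHom R) x) = P.eval₂ (Int.castRingHom S) (f x) := by
  rw [Polynomial.hom_eval₂, RingHom.ext_int (f.comp (Int.castRingHom R)) (Int.castRingHom S)]

theorem gv_natCast_zmod (ℓ : ℕ) [Fact ℓ.Prime] : ((ℓ : ℕ) : LaurentSeries (ZMod ℓ)) = 0 := by
  rw [← map_natCast (HahnSeries.C : ZMod ℓ →+* LaurentSeries (ZMod ℓ)), ZMod.natCast_self, map_zero]

/-- transcendence of `j̃` over a field -/
theorem gv_aeval_jqModC_ne_zero (k : Type*) [Field k] {Q : k[X]} (hQ : Q ≠ 0) :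
    aeval (jqModC k) Q ≠ 0 := by
  intro hP
  have hlead : Q.leadingCoeff ≠ 0 := leadingCoeff_ne_zero.mpr hQ
  apply hlead
  have h := congrArg (fun x : LaurentSeries k => x.coeff (-(Q.natDegree : ℤ))) hP
  simp only [HahnSeries.coeff_zero] at h
  rw [aeval_def, eval₂_eq_sum_range, ← HahnSeries.coeff.addMonoidHom_apply, map_sum] at h
  simp only [HahnSeries.coeff.addMonoidHom_apply, algebraMap_laurentSeries_eq_single,
    HahnSeries.coeff_single_mul, sub_zero] at h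
  rw [Finset.sum_range_succ, coeff_jqModC_pow_self, mul_one] at h
  rw [Finset.sum_eq_zero, zero_add] at h
  · exact h
  · intro i hi
    rw [Finset.mem_range] at hi
    rw [coeff_jqModC_pow_of_lt k (by exact_mod_cast neg_lt_neg (Int.ofNat_lt.mpr hi)), mul_zero]

theorem gv_map_eq_zero_iff (ℓ : ℕ) [Fact ℓ.Prime] (P : ℤ[X]) :
    P.map (Int.castRingHom (ZMod ℓ)) = 0 ↔ C (ℓ : ℤ) ∣ P := by
  rw [Polynomial.C_dvd_iff_dvd_coeff, Polynomial.ext_iff]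
  refine forall_congr' fun i => ?_
  rw [coeff_map, coeff_zero, eq_intCast, ZMod.intCast_zmod_eq_zero_iff_dvd]

theorem gv_exists_primitive (ℓ : ℕ) [Fact ℓ.Prime] {P : ℤ[X]} (hP : P ≠ 0) :
    ∃ (k : ℕ) (P₀ : ℤ[X]), P = C ((ℓ : ℤ) ^ k) * P₀ ∧
      P₀.map (Int.castRingHom (ZMod ℓ)) ≠ 0 := by
  obtain ⟨i, hi⟩ : ∃ i, P.coeff i ≠ 0 := by
    by_contra h
    exact hP (Polynomial.ext fun j => by
      rw [coeff_zero]; exact not_not.mp fun hj => h ⟨j, hj⟩)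
  induction hn : (P.coeff i).natAbs using Nat.strong_induction_on generalizing P with
  | _ n ih =>
    by_cases hmap : P.map (Int.castRingHom (ZMod ℓ)) = 0
    · rw [gv_map_eq_zero_iff] at hmap
      obtain ⟨P', rfl⟩ := hmap
      have hℓ : 2 ≤ ℓ := (Fact.out : ℓ.Prime).two_le
      have hP' : P' ≠ 0 := fun h => hP (by rw [h, mul_zero])
      have hci : (C (ℓ : ℤ) * P').coeff i = (ℓ : ℤ) * P'.coeff i := coeff_C_mul _
      have hi' : P'.coeff i ≠ 0 := fun h => hi (by rw [hci, h, mul_zero])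
      have hlt : (P'.coeff i).natAbs < n := by
        rw [← hn, hci, Int.natAbs_mul, Int.natAbs_natCast]
        have : 0 < (P'.coeff i).natAbs := Int.natAbs_pos.mpr hi'
        nlinarith
      obtain ⟨k, P₀, hk, hP₀⟩ := ih _ hlt hP' hi' rfl
      refine ⟨k + 1, P₀, ?_, hP₀⟩
      rw [hk, pow_succ, C_mul]; ring
    · exact ⟨0, P, by simp, hmap⟩

/-- clearing denominators -/
theorem gv_exists_int_poly (P : ℚ[X]) :
    ∃ (D : ℤ) (P₁ : ℤ[X]), D ≠ 0 ∧ P₁.map (Int.castRingHom ℚ) = C (D : ℚ) * P := by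
  obtain ⟨b, hbM, hb⟩ := IsLocalization.integerNormalization_spec (nonZeroDivisors ℤ) P
  refine ⟨b, IsLocalization.integerNormalization (nonZeroDivisors ℤ) P,
    nonZeroDivisors.ne_zero hbM, ?_⟩
  rw [← algebraMap_int_eq, hb]
  ext i
  simp

theorem gv_toQ_natCast (ℓ : ℕ) (n : ℕ) : toQ ℓ (n : LaurentSeries (ZL ℓ)) = (n : LaurentSeries ℚ) :=
  map_natCast _ n

theorem gv_red_natCast_self (ℓ : ℕ) [Fact ℓ.Prime] : red ℓ (ℓ : LaurentSeries (ZL ℓ)) = 0 := by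
  rw [map_natCast, gv_natCast_zmod]

theorem gv_natCast_ne_zero' {n : ℕ} (hn : n ≠ 0) : (n : LaurentSeries ℚ) ≠ 0 := by
  rw [← map_natCast (HahnSeries.C : ℚ →+* LaurentSeries ℚ)]
  exact (map_ne_zero_iff _ HahnSeries.C_injective).mpr (Nat.cast_ne_zero.mpr hn)

theorem gv_natCast_ne_zero (ℓ : ℕ) [Fact ℓ.Prime] : (ℓ : LaurentSeries ℚ) ≠ 0 :=
  gv_natCast_ne_zero' (Fact.out : ℓ.Prime).ne_zero

/-- core valuation lemma: if `y ∈ W` and `y * (ℓ^t * β) = ℓ^s * α` with `α, β` integral series,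
non-zero modulo `ℓ`, then `t ≤ s` and `ρ y = ℓ^(s-t) * red α / red β`. -/
theorem gv_core (ℓ : ℕ) [Fact ℓ.Prime] {y : LaurentSeries ℚ} (hy : y ∈ gaussRing ℓ)
    (α β : LaurentSeries (ZL ℓ)) (hα : red ℓ α ≠ 0) (hβ : red ℓ β ≠ 0) (s t : ℕ)
    (h : y * ((ℓ : LaurentSeries ℚ) ^ t * toQ ℓ β) = (ℓ : LaurentSeries ℚ) ^ s * toQ ℓ α) :
    t ≤ s ∧ rho ℓ ⟨y, hy⟩ = (ℓ : LaurentSeries (ZMod ℓ)) ^ (s - t) * red ℓ α / red ℓ β := by
  have hℓ0 := gv_natCast_ne_zero ℓ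
  have hts : t ≤ s := by
    by_contra hlt
    push Not at hlt
    obtain ⟨u, v, hu, huv⟩ := hy
    obtain ⟨d, rfl⟩ := Nat.exists_eq_add_of_lt hlt
    have h1 : toQ ℓ (v * (ℓ : LaurentSeries (ZL ℓ)) ^ (d + 1) * β) = toQ ℓ (u * α) := by
      rw [map_mul, map_mul, map_mul, map_pow, gv_toQ_natCast, ← huv]
      have h2 : (ℓ : LaurentSeries ℚ) ^ s * (toQ ℓ u * y * (ℓ : LaurentSeries ℚ) ^ (d + 1) * toQ ℓ β)
          = (ℓ : LaurentSeries ℚ) ^ s * (toQ ℓ u * toQ ℓ α) := by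
        calc (ℓ : LaurentSeries ℚ) ^ s * (toQ ℓ u * y * (ℓ : LaurentSeries ℚ) ^ (d + 1) * toQ ℓ β)
            = toQ ℓ u * (y * ((ℓ : LaurentSeries ℚ) ^ (s + d + 1) * toQ ℓ β)) := by ring
          _ = toQ ℓ u * ((ℓ : LaurentSeries ℚ) ^ s * toQ ℓ α) := by rw [h]
          _ = _ := by ring
      exact mul_left_cancel₀ (pow_ne_zero s hℓ0) h2
    have h3 := congrArg (red ℓ) (toQ_injective ℓ h1)
    rw [map_mul, map_mul, map_mul, map_pow, gv_red_natCast_self, zero_pow (Nat.succ_ne_zero d),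
      mul_zero, zero_mul] at h3
    exact mul_ne_zero hu hα h3.symm
  refine ⟨hts, ?_⟩
  obtain ⟨d, rfl⟩ := Nat.exists_eq_add_of_le hts
  have h1 : toQ ℓ β * y = toQ ℓ ((ℓ : LaurentSeries (ZL ℓ)) ^ d * α) := by
    rw [map_mul, map_pow, gv_toQ_natCast]
    have h2 : (ℓ : LaurentSeries ℚ) ^ t * (toQ ℓ β * y)
        = (ℓ : LaurentSeries ℚ) ^ t * ((ℓ : LaurentSeries ℚ) ^ d * toQ ℓ α) := by
      calc (ℓ : LaurentSeries ℚ) ^ t * (toQ ℓ β * y)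
          = y * ((ℓ : LaurentSeries ℚ) ^ t * toQ ℓ β) := by ring
        _ = (ℓ : LaurentSeries ℚ) ^ (t + d) * toQ ℓ α := h
        _ = _ := by ring
    exact mul_left_cancel₀ (pow_ne_zero t hℓ0) h2
  rw [rho_eq ℓ ⟨y, hy⟩ hβ h1, map_mul, map_pow, map_natCast, Nat.add_sub_cancel_left]

/-! ### evaluation of integer polynomials at `j` -/

theorem gv_eval₂_toQ (ℓ : ℕ) (P : ℤ[X]) :
    toQ ℓ (P.eval₂ (Int.castRingHom _) (jqModC (ZL ℓ))) = P.eval₂ (Int.castRingHom _) jq := by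
  rw [gv_map_eval₂, gv_toQ_J]

theorem gv_eval₂_red (ℓ : ℕ) [Fact ℓ.Prime] (P : ℤ[X]) :
    red ℓ (P.eval₂ (Int.castRingHom _) (jqModC (ZL ℓ))) =
      P.eval₂ (Int.castRingHom _) (jqModC (ZMod ℓ)) := by
  rw [gv_map_eval₂, gv_red_J]

theorem gv_aeval_map_int {k : Type*} [Field k] (x : LaurentSeries k) (P : ℤ[X]) :
    aeval x (P.map (Int.castRingHom k)) = P.eval₂ (Int.castRingHom _) x := by
  rw [aeval_def, eval₂_map,
    RingHom.ext_int ((algebraMap k (LaurentSeries k)).comp (Int.castRingHom k))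
      (Int.castRingHom (LaurentSeries k))]

theorem gv_eval₂_red_ne_zero (ℓ : ℕ) [Fact ℓ.Prime] {P : ℤ[X]}
    (hP : P.map (Int.castRingHom (ZMod ℓ)) ≠ 0) :
    red ℓ (P.eval₂ (Int.castRingHom _) (jqModC (ZL ℓ))) ≠ 0 := by
  rw [gv_eval₂_red, ← gv_aeval_map_int]
  exact gv_aeval_jqModC_ne_zero (ZMod ℓ) hP

theorem gv_eval₂_jq_ne_zero {P : ℤ[X]} (hP : P ≠ 0) : P.eval₂ (Int.castRingHom _) jq ≠ 0 := by
  rw [← gv_aeval_map_int]
  exact gv_aeval_jqModC_ne_zero ℚ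
    ((Polynomial.map_ne_zero_iff (RingHom.injective_int (Int.castRingHom ℚ))).mpr hP)

theorem gv_eval₂_mem_Kj (ℓ : ℕ) [Fact ℓ.Prime] (P : ℤ[X]) :
    P.eval₂ (Int.castRingHom _) (jqModC (ZMod ℓ)) ∈ Kj ℓ := by
  rw [← gv_aeval_map_int]
  exact IntermediateField.algebra_adjoin_le_adjoin _ _ (aeval_mem_adjoin_singleton _ _)

theorem gv_eval₂_mem_Qj (P : ℤ[X]) : P.eval₂ (Int.castRingHom _) jq ∈ Qj := by
  rw [← gv_aeval_map_int]
  exact IntermediateField.algebra_adjoin_le_adjoin _ _ (aeval_mem_adjoin_singleton _ _)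

/-- every element of `ℚ(j)` is a quotient of integer polynomials in `j` -/
theorem gv_exists_int_frac {y : LaurentSeries ℚ} (hy : y ∈ Qj) :
    ∃ a b : ℤ[X], b ≠ 0 ∧
      y * b.eval₂ (Int.castRingHom _) jq = a.eval₂ (Int.castRingHom _) jq := by
  obtain ⟨r, s, rfl⟩ := (IntermediateField.mem_adjoin_simple_iff ℚ _).mp hy
  by_cases hs : aeval jq s = 0
  · exact ⟨0, 1, one_ne_zero, by simp [hs]⟩
  obtain ⟨Dr, r₁, hDr, hr₁⟩ := gv_exists_int_poly r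
  obtain ⟨Ds, s₁, hDs, hs₁⟩ := gv_exists_int_poly s
  have hr : r₁.eval₂ (Int.castRingHom _) jq = algebraMap ℚ _ (Dr : ℚ) * aeval jq r := by
    rw [← gv_aeval_map_int, hr₁, map_mul, aeval_C]
  have hs' : s₁.eval₂ (Int.castRingHom _) jq = algebraMap ℚ _ (Ds : ℚ) * aeval jq s := by
    rw [← gv_aeval_map_int, hs₁, map_mul, aeval_C]
  have hDr' : algebraMap ℚ (LaurentSeries ℚ) (Dr : ℚ) ≠ 0 :=
    (map_ne_zero_iff _ (algebraMap ℚ (LaurentSeries ℚ)).injective).mpr (by exact_mod_cast hDr)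
  have hDs' : algebraMap ℚ (LaurentSeries ℚ) (Ds : ℚ) ≠ 0 :=
    (map_ne_zero_iff _ (algebraMap ℚ (LaurentSeries ℚ)).injective).mpr (by exact_mod_cast hDs)
  have e1 : ((Dr : ℤ) : LaurentSeries ℚ) = algebraMap ℚ _ (Dr : ℚ) := by simp
  have e2 : ((Ds : ℤ) : LaurentSeries ℚ) = algebraMap ℚ _ (Ds : ℚ) := by simp
  have hb : (C Dr * s₁).eval₂ (Int.castRingHom _) jq ≠ 0 := by
    rw [eval₂_mul, eval₂_C, hs', eq_intCast, e1]
    exact mul_ne_zero hDr' (mul_ne_zero hDs' hs)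
  refine ⟨C Ds * r₁, C Dr * s₁, fun h => hb (by rw [h, eval₂_zero]), ?_⟩
  rw [eval₂_mul, eval₂_mul, eval₂_C, eval₂_C, hr, hs', eq_intCast, eq_intCast, e1, e2]
  field_simp

/-- **`ρ(V) ⊆ 𝔽_ℓ(j̃)`** -/
theorem gv_rho_mem_Kj (ℓ : ℕ) [Fact ℓ.Prime] {y : LaurentSeries ℚ} (hy : y ∈ gaussV ℓ) :
    rho ℓ ⟨y, gaussV_le_gaussRing ℓ hy⟩ ∈ Kj ℓ := by
  obtain ⟨a, b, hb, hab⟩ := gv_exists_int_frac hy.2
  by_cases ha : a = 0
  · have hy0 : y = 0 := by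
      rw [ha, eval₂_zero] at hab
      exact (mul_eq_zero.mp hab).resolve_right (gv_eval₂_jq_ne_zero hb)
    have : (⟨y, gaussV_le_gaussRing ℓ hy⟩ : gaussRing ℓ) = 0 := Subtype.ext hy0
    rw [this, map_zero]
    exact zero_mem _
  obtain ⟨s, a₀, rfl, ha₀⟩ := gv_exists_primitive ℓ ha
  obtain ⟨t, b₀, rfl, hb₀⟩ := gv_exists_primitive ℓ hb
  have hcore := gv_core ℓ (gaussV_le_gaussRing ℓ hy) (a₀.eval₂ (Int.castRingHom _) (jqModC (ZL ℓ)))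
    (b₀.eval₂ (Int.castRingHom _) (jqModC (ZL ℓ)))
    (gv_eval₂_red_ne_zero ℓ ha₀) (gv_eval₂_red_ne_zero ℓ hb₀) s t (by
      rw [gv_eval₂_toQ, gv_eval₂_toQ]
      rw [eval₂_mul, eval₂_mul, eval₂_C, eval₂_C] at hab
      simpa using hab)
  rw [hcore.2, gv_eval₂_red, gv_eval₂_red]
  exact div_mem (mul_mem (pow_mem (natCast_mem _ ℓ) _) (gv_eval₂_mem_Kj ℓ a₀))
    (gv_eval₂_mem_Kj ℓ b₀)

/-- **`ρ(V) ⊇ 𝔽_ℓ(j̃)`** -/
theorem gv_exists_gaussV_rho_eq (ℓ : ℕ) [Fact ℓ.Prime] {c : LaurentSeries (ZMod ℓ)}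
    (hc : c ∈ Kj ℓ) :
    ∃ (y : LaurentSeries ℚ) (hy : y ∈ gaussV ℓ), rho ℓ ⟨y, gaussV_le_gaussRing ℓ hy⟩ = c := by
  obtain ⟨r, s, rfl⟩ := (IntermediateField.mem_adjoin_simple_iff (ZMod ℓ) _).mp hc
  by_cases hs : aeval (jqModC (ZMod ℓ)) s = 0
  · refine ⟨0, zero_mem _, ?_⟩
    rw [hs, div_zero]
    exact map_zero (rho ℓ)
  obtain ⟨a, rfl⟩ := Polynomial.map_surjective (Int.castRingHom (ZMod ℓ)) ZMod.intCast_surjective r
  obtain ⟨b, rfl⟩ := Polynomial.map_surjective (Int.castRingHom (ZMod ℓ)) ZMod.intCast_surjective s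
  rw [gv_aeval_map_int] at hs ⊢
  rw [gv_aeval_map_int]
  have hβ : red ℓ (b.eval₂ (Int.castRingHom _) (jqModC (ZL ℓ))) ≠ 0 := by
    rw [gv_eval₂_red]; exact hs
  have hβQ : toQ ℓ (b.eval₂ (Int.castRingHom _) (jqModC (ZL ℓ))) ≠ 0 := by
    intro h0
    apply hβ
    rw [(map_eq_zero_iff _ (toQ_injective ℓ)).mp h0, map_zero]
  have hyW : toQ ℓ (a.eval₂ (Int.castRingHom _) (jqModC (ZL ℓ))) /
      toQ ℓ (b.eval₂ (Int.castRingHom _) (jqModC (ZL ℓ))) ∈ gaussRing ℓ :=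
    ⟨b.eval₂ (Int.castRingHom _) (jqModC (ZL ℓ)), a.eval₂ (Int.castRingHom _) (jqModC (ZL ℓ)), hβ,
      by field_simp⟩
  have hyQ : toQ ℓ (a.eval₂ (Int.castRingHom _) (jqModC (ZL ℓ))) /
      toQ ℓ (b.eval₂ (Int.castRingHom _) (jqModC (ZL ℓ))) ∈ Qj := by
    rw [gv_eval₂_toQ, gv_eval₂_toQ]
    exact div_mem (gv_eval₂_mem_Qj a) (gv_eval₂_mem_Qj b)
  refine ⟨_, ⟨hyW, hyQ⟩, ?_⟩
  rw [rho_eq ℓ _ hβ (v := a.eval₂ (Int.castRingHom _) (jqModC (ZL ℓ))) (by field_simp),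
    gv_eval₂_red, gv_eval₂_red]

/-! ### `1/j` with integral coefficients -/

/-- the inverse of the numerator of `j` -/
def gv_jNumInv : PowerSeries ℤ := jNum.invOfUnit 1

theorem gv_jNum_mul_inv : jNum * gv_jNumInv = 1 :=
  PowerSeries.mul_invOfUnit _ _ (by rw [constantCoeff_jNum]; rfl)

/-- `1/j` as a Laurent series over any commutative ring -/
def gv_Jinv (R : Type*) [CommRing R] : LaurentSeries R :=
  HahnSeries.single (1 : ℤ) 1 * HahnSeries.ofPowerSeries ℤ R (gv_jNumInv.map (Int.castRingHom R))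

theorem gv_J_mul_Jinv (R : Type*) [CommRing R] : jqModC R * gv_Jinv R = 1 := by
  rw [jqModC, gv_Jinv]
  have h1 : HahnSeries.ofPowerSeries ℤ R (jNum.map (Int.castRingHom R)) *
      HahnSeries.ofPowerSeries ℤ R (gv_jNumInv.map (Int.castRingHom R)) = 1 := by
    rw [← map_mul, ← map_mul, gv_jNum_mul_inv, map_one, map_one]
  calc HahnSeries.single (-1 : ℤ) (1 : R) * HahnSeries.ofPowerSeries ℤ R (jNum.map (Int.castRingHom R)) *
      (HahnSeries.single (1 : ℤ) 1 *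
        HahnSeries.ofPowerSeries ℤ R (gv_jNumInv.map (Int.castRingHom R)))
      = (HahnSeries.single (-1 : ℤ) (1 : R) * HahnSeries.single (1 : ℤ) 1) *
        (HahnSeries.ofPowerSeries ℤ R (jNum.map (Int.castRingHom R)) *
          HahnSeries.ofPowerSeries ℤ R (gv_jNumInv.map (Int.castRingHom R))) := by ring
    _ = 1 := by
      rw [h1, mul_one, HahnSeries.single_mul_single]
      simp

theorem gv_coeffMap_Jinv {R S : Type*} [CommRing R] [CommRing S] (f : R →+* S) :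
    coeffMap f (gv_Jinv R) = gv_Jinv S := by
  rw [gv_Jinv, map_mul, coeffMap_single, map_one, coeffMap_ofPowerSeries,
    ← RingHom.comp_apply (PowerSeries.map f) (PowerSeries.map (Int.castRingHom R)),
    ← PowerSeries.map_comp, RingHom.ext_int (f.comp (Int.castRingHom R)) (Int.castRingHom S)]
  rfl

theorem gv_Jinv_eq_inv (k : Type*) [Field k] : gv_Jinv k = (jqModC k)⁻¹ :=
  eq_inv_of_mul_eq_one_right (gv_J_mul_Jinv k)

theorem gv_toQ_Jinv (ℓ : ℕ) : toQ ℓ (gv_Jinv (ZL ℓ)) = jq⁻¹ := by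
  rw [toQ, gv_coeffMap_Jinv, gv_Jinv_eq_inv]; rfl

theorem gv_red_Jinv (ℓ : ℕ) [Fact ℓ.Prime] : red ℓ (gv_Jinv (ZL ℓ)) = (jqModC (ZMod ℓ))⁻¹ := by
  rw [red, gv_coeffMap_Jinv, gv_Jinv_eq_inv]

/-- transcendence of `1/j̃` -/
theorem gv_aeval_inv_jqModC_ne_zero (k : Type*) [Field k] {Q : k[X]} (hQ : Q ≠ 0) :
    aeval (jqModC k)⁻¹ Q ≠ 0 := by
  intro h
  have halg : IsAlgebraic k (jqModC k)⁻¹ := ⟨Q, hQ, h⟩
  obtain ⟨Q', hQ', h'⟩ := halg.inv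
  rw [inv_inv] at h'
  exact gv_aeval_jqModC_ne_zero k hQ' h'

/-! ### `V ∩ ℚ[S] = ℤ_(ℓ)[S]` -/

theorem gv_algebraMap_ZL (ℓ : ℕ) (a : ZL ℓ) :
    algebraMap (ZL ℓ) (LaurentSeries ℚ) a = HahnSeries.C (a : ℚ) := by
  rw [HahnSeries.algebraMap_apply']
  have h1 : algebraMap (ZL ℓ) (PowerSeries ℚ) a = PowerSeries.C (a : ℚ) := by
    rw [PowerSeries.algebraMap_apply]
    rfl
  rw [h1, HahnSeries.ofPowerSeries_C]

theorem gv_exists_nat_poly (P : ℚ[X]) :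
    ∃ (D : ℕ) (P₁ : ℤ[X]), D ≠ 0 ∧ P₁.map (Int.castRingHom ℚ) = C (D : ℚ) * P ∧
      P₁.natDegree ≤ P.natDegree := by
  obtain ⟨D, P₁, hD, h⟩ := gv_exists_int_poly P
  have hDQ : (D : ℚ) ≠ 0 := by exact_mod_cast hD
  have hdeg : P₁.natDegree ≤ P.natDegree := by
    have h1 := congrArg natDegree h
    rw [natDegree_map_eq_of_injective (RingHom.injective_int (Int.castRingHom ℚ)),
      natDegree_C_mul hDQ] at h1
    exact h1.le
  rcases Int.natAbs_eq D with hD' | hD'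
  · have e : (D : ℚ) = ((D.natAbs : ℕ) : ℚ) := by
      conv_lhs => rw [hD']
      exact Int.cast_natCast _
    exact ⟨D.natAbs, P₁, Int.natAbs_ne_zero.mpr hD, by rw [h, e], hdeg⟩
  · have e : -(D : ℚ) = ((D.natAbs : ℕ) : ℚ) := by
      conv_lhs => rw [hD']
      simp
    refine ⟨D.natAbs, -P₁, Int.natAbs_ne_zero.mpr hD, ?_, by rwa [natDegree_neg]⟩
    rw [Polynomial.map_neg, h, ← e, C_neg, neg_mul]

theorem gv_eval₂_mem_closure {R : Type*} [CommRing R] (T : Subring R) {t : R} (ht : t ∈ T)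
    (P : ℤ[X]) : P.eval₂ (Int.castRingHom R) t ∈ T := by
  rw [eval₂_eq_sum_range]
  exact sum_mem fun i _ => mul_mem (by rw [eq_intCast]; exact intCast_mem T _) (pow_mem ht i)

/-- master lemma: a `ℚ`-polynomial in `t = toQ τ` (with `red τ` transcendental) lying in `W` is
`a * ℓ^d * P₀(t)` with `a ∈ ℤ_(ℓ)` and `P₀ ∈ ℤ[X]`. -/
theorem gv_master (ℓ : ℕ) [Fact ℓ.Prime] (τ : LaurentSeries (ZL ℓ))
    (hτ : ∀ Q : (ZMod ℓ)[X], Q ≠ 0 → aeval (red ℓ τ) Q ≠ 0) (P : ℚ[X])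
    (hy : aeval (toQ ℓ τ) P ∈ gaussRing ℓ) :
    ∃ (a : ZL ℓ) (d : ℕ) (P₀ : ℤ[X]), P₀.natDegree ≤ P.natDegree ∧
      aeval (toQ ℓ τ) P = algebraMap (ZL ℓ) (LaurentSeries ℚ) a * (ℓ : LaurentSeries ℚ) ^ d *
        P₀.eval₂ (Int.castRingHom _) (toQ ℓ τ) := by
  obtain ⟨D, P₁, hD, hP₁, hdeg⟩ := gv_exists_nat_poly P
  have hDy : (D : LaurentSeries ℚ) * aeval (toQ ℓ τ) P =
      P₁.eval₂ (Int.castRingHom _) (toQ ℓ τ) := by
    rw [← gv_aeval_map_int, hP₁, map_mul, aeval_C]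
    simp
  by_cases hP₁0 : P₁ = 0
  · refine ⟨0, 0, 0, Nat.zero_le _, ?_⟩
    rw [hP₁0, eval₂_zero] at hDy
    rw [(mul_eq_zero.mp hDy).resolve_left (gv_natCast_ne_zero' hD)]
    simp
  obtain ⟨k, P₀, rfl, hP₀⟩ := gv_exists_primitive ℓ hP₁0
  obtain ⟨s, D', hD', rfl⟩ :=
    Nat.exists_eq_pow_mul_and_not_dvd hD ℓ (Fact.out : ℓ.Prime).ne_one
  have hD'0 : D' ≠ 0 := fun h => hD' (h ▸ dvd_zero _)
  have hα : red ℓ (P₀.eval₂ (Int.castRingHom _) τ) ≠ 0 := by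
    rw [gv_map_eval₂, ← gv_aeval_map_int]
    exact hτ _ hP₀
  have hβ : red ℓ ((D' : ℕ) : LaurentSeries (ZL ℓ)) ≠ 0 := by
    rw [map_natCast, ← map_natCast (HahnSeries.C : ZMod ℓ →+* LaurentSeries (ZMod ℓ)), Ne,
      map_eq_zero_iff _ HahnSeries.C_injective, ZMod.natCast_eq_zero_iff]
    exact hD'
  have hℓ0 := gv_natCast_ne_zero ℓ
  rw [eval₂_mul, eval₂_C, eq_intCast] at hDy
  push_cast at hDy
  have hcore := gv_core ℓ hy _ _ hα hβ k s (by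
      rw [gv_toQ_natCast, gv_map_eval₂]
      linear_combination hDy)
  obtain ⟨d, rfl⟩ := Nat.exists_eq_add_of_le hcore.1
  have h1 : (D' : LaurentSeries ℚ) * aeval (toQ ℓ τ) P =
      (ℓ : LaurentSeries ℚ) ^ d * P₀.eval₂ (Int.castRingHom _) (toQ ℓ τ) := by
    apply mul_left_cancel₀ (pow_ne_zero s hℓ0)
    linear_combination hDy
  let a : ZL ℓ := ⟨((D' : ℕ) : ℚ)⁻¹, by
      show (((D' : ℕ) : ℚ)⁻¹).den.Coprime ℓ
      rw [Rat.inv_natCast_den, if_neg hD'0]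
      exact ((Nat.Prime.coprime_iff_not_dvd Fact.out).mpr hD').symm⟩
  refine ⟨a, d, P₀, ?_, ?_⟩
  · refine le_trans (le_of_eq ?_) hdeg
    rw [natDegree_C_mul (pow_ne_zero _ (by exact_mod_cast (Fact.out : ℓ.Prime).ne_zero))]
  · have hD'Q : (D' : LaurentSeries ℚ) ≠ 0 := gv_natCast_ne_zero' hD'0
    have ha : algebraMap (ZL ℓ) (LaurentSeries ℚ) a * (D' : LaurentSeries ℚ) = 1 := by
      rw [gv_algebraMap_ZL, ← map_natCast (HahnSeries.C : ℚ →+* LaurentSeries ℚ), ← map_mul]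
      show HahnSeries.C (((D' : ℕ) : ℚ)⁻¹ * (D' : ℚ)) = 1
      rw [inv_mul_cancel₀ (Nat.cast_ne_zero.mpr hD'0), map_one]
    calc aeval (toQ ℓ τ) P
        = (algebraMap (ZL ℓ) (LaurentSeries ℚ) a * (D' : LaurentSeries ℚ)) *
            aeval (toQ ℓ τ) P := by rw [ha, one_mul]
      _ = algebraMap (ZL ℓ) (LaurentSeries ℚ) a * ((D' : LaurentSeries ℚ) *
            aeval (toQ ℓ τ) P) := by ring
      _ = _ := by rw [h1]; ring

theorem gv_jq_mem_gaussRing (ℓ : ℕ) [Fact ℓ.Prime] : jq ∈ gaussRing ℓ :=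
  gv_toQ_J ℓ ▸ toQ_mem_gaussRing ℓ _

theorem gv_hτ_J (ℓ : ℕ) [Fact ℓ.Prime] :
    ∀ Q : (ZMod ℓ)[X], Q ≠ 0 → aeval (red ℓ (jqModC (ZL ℓ))) Q ≠ 0 := fun Q hQ => by
  rw [gv_red_J]; exact gv_aeval_jqModC_ne_zero _ hQ

theorem gv_hτ_Jinv (ℓ : ℕ) [Fact ℓ.Prime] :
    ∀ Q : (ZMod ℓ)[X], Q ≠ 0 → aeval (red ℓ (gv_Jinv (ZL ℓ))) Q ≠ 0 := fun Q hQ => by
  rw [gv_red_Jinv]; exact gv_aeval_inv_jqModC_ne_zero _ hQ

/-- one generator -/
theorem gv_single (ℓ : ℕ) [Fact ℓ.Prime] (τ : LaurentSeries (ZL ℓ))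
    (hτ : ∀ Q : (ZMod ℓ)[X], Q ≠ 0 → aeval (red ℓ τ) Q ≠ 0) {y : LaurentSeries ℚ}
    (hyW : y ∈ gaussRing ℓ) (hyS : y ∈ Algebra.adjoin ℚ {toQ ℓ τ})
    (T : Subring (LaurentSeries ℚ))
    (hT : Set.range (algebraMap (ZL ℓ) (LaurentSeries ℚ)) ⊆ T) (ht : toQ ℓ τ ∈ T) : y ∈ T := by
  rw [Algebra.adjoin_singleton_eq_range_aeval] at hyS
  obtain ⟨P, rfl⟩ := hyS
  obtain ⟨a, d, P₀, -, h⟩ := gv_master ℓ τ hτ P hyW
  show aeval (toQ ℓ τ) P ∈ T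
  rw [h]
  exact mul_mem (mul_mem (hT ⟨a, rfl⟩) (pow_mem (natCast_mem T ℓ) d))
    (gv_eval₂_mem_closure T ht P₀)

/-- no generator -/
theorem gv_const (ℓ : ℕ) [Fact ℓ.Prime] {y : LaurentSeries ℚ}
    (hyW : y ∈ gaussRing ℓ) (hyS : y ∈ Algebra.adjoin ℚ (∅ : Set (LaurentSeries ℚ)))
    (T : Subring (LaurentSeries ℚ))
    (hT : Set.range (algebraMap (ZL ℓ) (LaurentSeries ℚ)) ⊆ T) : y ∈ T := by
  rw [Algebra.adjoin_empty, Algebra.mem_bot] at hyS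
  obtain ⟨r, rfl⟩ := hyS
  have e : algebraMap ℚ (LaurentSeries ℚ) r = aeval (toQ ℓ (jqModC (ZL ℓ))) (C r) := by
    rw [aeval_C]
  rw [e] at hyW ⊢
  obtain ⟨a, d, P₀, hdeg, h⟩ := gv_master ℓ _ (gv_hτ_J ℓ) (C r) hyW
  rw [natDegree_C] at hdeg
  rw [h, eq_C_of_natDegree_le_zero hdeg, eval₂_C, eq_intCast]
  exact mul_mem (mul_mem (hT ⟨a, rfl⟩) (pow_mem (natCast_mem T ℓ) d)) (intCast_mem T _)

theorem gv_exists_pow_mul {y : LaurentSeries ℚ} (hy : y ∈ Algebra.adjoin ℚ {jq, jq⁻¹}) :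
    ∃ n : ℕ, jq ^ n * y ∈ Algebra.adjoin ℚ {jq} := by
  have hj : jq ∈ Algebra.adjoin ℚ ({jq} : Set (LaurentSeries ℚ)) :=
    Algebra.subset_adjoin rfl
  induction hy using Algebra.adjoin_induction with
  | mem z hz =>
    rcases hz with rfl | hz
    · exact ⟨0, by rw [pow_zero, one_mul]; exact hj⟩
    · rw [Set.mem_singleton_iff] at hz
      subst hz
      exact ⟨1, by rw [pow_one, mul_inv_cancel₀ jq_ne_zero]; exact one_mem _⟩
  | algebraMap a => exact ⟨0, by rw [pow_zero, one_mul]; exact Subalgebra.algebraMap_mem _ a⟩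
  | add z w _ _ hz hw =>
    obtain ⟨m, hm⟩ := hz
    obtain ⟨n, hn⟩ := hw
    refine ⟨m + n, ?_⟩
    have : jq ^ (m + n) * (z + w) = jq ^ n * (jq ^ m * z) + jq ^ m * (jq ^ n * w) := by ring
    rw [this]
    exact add_mem (mul_mem (pow_mem hj n) hm) (mul_mem (pow_mem hj m) hn)
  | mul z w _ _ hz hw =>
    obtain ⟨m, hm⟩ := hz
    obtain ⟨n, hn⟩ := hw
    refine ⟨m + n, ?_⟩
    have : jq ^ (m + n) * (z * w) = (jq ^ m * z) * (jq ^ n * w) := by ring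
    rw [this]
    exact mul_mem hm hn

/-- **`V ∩ ℚ[S] = ℤ_(ℓ)[S]`** for `S ⊆ {j, 1/j}`. -/
theorem gv_mem_adjoin_ZL_of_mem_gaussV (ℓ : ℕ) [Fact ℓ.Prime] (S : Set (LaurentSeries ℚ))
    (hS : S ⊆ {jq, jq⁻¹}) {y : LaurentSeries ℚ} (hy : y ∈ gaussV ℓ)
    (hyS : y ∈ Algebra.adjoin ℚ S) :
    y ∈ Subring.closure (Set.range (algebraMap (ZL ℓ) (LaurentSeries ℚ)) ∪ S) := by
  have hyW : y ∈ gaussRing ℓ := gaussV_le_gaussRing ℓ hy
  have hT : Set.range (algebraMap (ZL ℓ) (LaurentSeries ℚ)) ⊆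
      Subring.closure (Set.range (algebraMap (ZL ℓ) (LaurentSeries ℚ)) ∪ S) :=
    fun x hx => Subring.subset_closure (Or.inl hx)
  rcases Set.subset_pair_iff_eq.mp hS with rfl | rfl | rfl | rfl
  · exact gv_const ℓ hyW hyS _ hT
  · rw [← gv_toQ_J ℓ] at hyS
    exact gv_single ℓ _ (gv_hτ_J ℓ) hyW hyS _ hT
      (by rw [gv_toQ_J]; exact Subring.subset_closure (Or.inr rfl))
  · rw [← gv_toQ_Jinv ℓ] at hyS
    exact gv_single ℓ _ (gv_hτ_Jinv ℓ) hyW hyS _ hT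
      (by rw [gv_toQ_Jinv]; exact Subring.subset_closure (Or.inr rfl))
  · obtain ⟨n, hn⟩ := gv_exists_pow_mul hyS
    have hjT : jq ∈ Subring.closure
        (Set.range (algebraMap (ZL ℓ) (LaurentSeries ℚ)) ∪ {jq, jq⁻¹}) :=
      Subring.subset_closure (Or.inr (Set.mem_insert _ _))
    have hjiT : jq⁻¹ ∈ Subring.closure
        (Set.range (algebraMap (ZL ℓ) (LaurentSeries ℚ)) ∪ {jq, jq⁻¹}) :=
      Subring.subset_closure (Or.inr (Set.mem_insert_of_mem _ rfl))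
    have h1 : jq ^ n * y ∈ Subring.closure
        (Set.range (algebraMap (ZL ℓ) (LaurentSeries ℚ)) ∪ {jq, jq⁻¹}) := by
      have hn' : jq ^ n * y ∈ Algebra.adjoin ℚ {toQ ℓ (jqModC (ZL ℓ))} := by
        rw [gv_toQ_J]; exact hn
      exact gv_single ℓ _ (gv_hτ_J ℓ) (mul_mem (pow_mem (gv_jq_mem_gaussRing ℓ) n) hyW) hn' _ hT
        (by rw [gv_toQ_J]; exact hjT)
    have h2 : y = jq⁻¹ ^ n * (jq ^ n * y) := by
      rw [← mul_assoc, ← mul_pow, inv_mul_cancel₀ jq_ne_zero, one_pow, one_mul]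
    rw [h2]
    exact mul_mem (pow_mem hjiT n) h1

end

end Fermat.Agent.S28x
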