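import Fermat.Agent.S28x.PrimeCaseCore
import Fermat.Agent.S24x.DeltaQExp
import Fermat.Prelude.Def_ModularCurve_X0ModL

/-!
# S28 project, step (P): the prime case

`pc_main`: for primes `ℓ ≠ p` there is no polynomial `f` over `ZMod ℓ` with
`j(q^p) = f(j(q))` in `(ZMod ℓ)((q))`, i.e.
`qExpand (ZMod ℓ) p (jqModC (ZMod ℓ)) ≠ aeval (jqModC (ZMod ℓ)) f`.

Proof: pole orders force `f` monic of degree `p`; clearing denominators with `j Δ = E₄³` gives
`Δ^p V_p(E₄³) ≡ A V_p(Δ) mod ℓ` with `A = f₀(j) Δ^p` a level-one form, contradicting `pc_core`.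
-/

set_option autoImplicit false

noncomputable section

open Fermat.Agent.S16x ModularCurve
open scoped ArithmeticFunction.sigma

namespace Fermat.Agent.S28x

/-! ### bridges to the Prelude's formal `j` -/

theorem pc_E4_eq : lo_E4 = ModularCurve.eisenstein4 := by
  ext n
  have h240 : (240 : PowerSeries ℤ) = ((240 : ℕ) : PowerSeries ℤ) := by norm_num
  rw [lo_E4, eisenstein4, PowerSeries.coeff_mk, map_add, h240, lo_coeff_natCast_mul, lo_A,
    PowerSeries.coeff_mk, PowerSeries.coeff_one, ArithmeticFunction.sigma_apply]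
  by_cases hn : n = 0
  · subst hn; simp
  · simp [hn]

theorem pc_D_eq : lo_D = PowerSeries.X * ModularCurve.etaProd ^ 24 := by
  have h1 := lo_qExpansion_discriminant
  have h2 := Fermat.Agent.S24x.qExpansion_discriminant
  have h3 : lo_map lo_D = lo_map (PowerSeries.X * ModularCurve.etaProd ^ 24) := by
    rw [← h1, map_mul, PowerSeries.map_X]
    exact h2
  exact PowerSeries.map_injective _ Int.cast_injective h3

theorem pc_jNum_mul_D : ModularCurve.jNum * lo_D = PowerSeries.X * pc_e := by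
  have h := ModularCurve.dedekindEtaUnit_mul_inv
  rw [ModularCurve.dedekindEtaUnit] at h
  rw [pc_D_eq, pc_e, pc_E4_eq, ModularCurve.jNum]
  calc eisenstein4 ^ 3 * dedekindEtaUnitInv * (PowerSeries.X * etaProd ^ 24)
      = PowerSeries.X * eisenstein4 ^ 3 * (etaProd ^ 24 * dedekindEtaUnitInv) := by ring
    _ = PowerSeries.X * eisenstein4 ^ 3 := by rw [h, mul_one]

/-! ### Laurent series plumbing -/

theorem pc_qExpand_ofPowerSeries {R : Type*} [CommRing R] (p : ℕ) [NeZero p] (P : PowerSeries R) :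
    qExpand R p (HahnSeries.ofPowerSeries ℤ R P) =
      HahnSeries.ofPowerSeries ℤ R (PowerSeries.expand p (NeZero.ne p) P) := by
  ext k
  by_cases hk : (p : ℤ) ∣ k
  · obtain ⟨m, rfl⟩ := hk
    rw [qExpand_coeff_mul]
    rcases le_or_gt 0 m with hm | hm
    · lift m to ℕ using hm
      rw [HahnSeries.ofPowerSeries_apply_coeff, show (p : ℤ) * (m : ℤ) = ((p * m : ℕ) : ℤ) by push_cast; ring,
        HahnSeries.ofPowerSeries_apply_coeff, PowerSeries.coeff_expand_mul]
    · rw [ofPowerSeries_coeff_of_neg _ hm, ofPowerSeries_coeff_of_neg]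
      exact mul_neg_of_pos_of_neg (by exact_mod_cast Nat.pos_of_ne_zero (NeZero.ne p)) hm
  · rw [qExpand_coeff_of_not_dvd p _ hk]
    rcases le_or_gt 0 k with hk0 | hk0
    · lift k to ℕ using hk0
      rw [HahnSeries.ofPowerSeries_apply_coeff, PowerSeries.coeff_expand_of_not_dvd]
      intro h
      exact hk (by exact_mod_cast h)
    · rw [ofPowerSeries_coeff_of_neg _ hk0]

theorem pc_jq_mul_D (R : Type*) [CommRing R] :
    jqModC R * HahnSeries.ofPowerSeries ℤ R (lo_D.map (Int.castRingHom R)) =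
      HahnSeries.ofPowerSeries ℤ R (pc_e.map (Int.castRingHom R)) := by
  rw [jqModC, mul_assoc, ← map_mul, ← map_mul, pc_jNum_mul_D, map_mul, PowerSeries.map_X, map_mul,
    HahnSeries.ofPowerSeries_X, ← mul_assoc, HahnSeries.single_mul_single]
  simp

section Main

theorem pc_algebraMap_eq {K : Type*} [Field K] (a : K) :
    algebraMap K (LaurentSeries K) a = HahnSeries.ofPowerSeries ℤ K (PowerSeries.C a) := by
  have h1 : algebraMap K (PowerSeries K) a = PowerSeries.C a := by simp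
  rw [HahnSeries.algebraMap_apply', h1]

theorem pc_coeff_algebraMap_mul {K : Type*} [Field K] (a : K) (x : LaurentSeries K) (k : ℤ) :
    (algebraMap K (LaurentSeries K) a * x).coeff k = a * x.coeff k := by
  rw [pc_algebraMap_eq, HahnSeries.ofPowerSeries_C, HahnSeries.C_mul_eq_smul,
    HahnSeries.coeff_smul, smul_eq_mul]

variable (ℓ : ℕ) [hℓ : Fact ℓ.Prime] (p : ℕ)

theorem pc_coeff_aeval (f : Polynomial (ZMod ℓ)) (k : ℤ) :
    (Polynomial.aeval (jqModC (ZMod ℓ)) f).coeff k =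
      ∑ i ∈ Finset.range (f.natDegree + 1), f.coeff i * ((jqModC (ZMod ℓ)) ^ i).coeff k := by
  rw [Polynomial.aeval_eq_sum_range, HahnSeries.coeff_sum]
  refine Finset.sum_congr rfl fun i _ => ?_
  rw [Algebra.smul_def, pc_coeff_algebraMap_mul]

theorem pc_coeff_aeval_of_lt (f : Polynomial (ZMod ℓ)) {k : ℤ} (hk : k < -(f.natDegree : ℤ)) :
    (Polynomial.aeval (jqModC (ZMod ℓ)) f).coeff k = 0 := by
  rw [pc_coeff_aeval]
  refine Finset.sum_eq_zero fun i hi => ?_
  have hi' : i ≤ f.natDegree := Nat.lt_succ_iff.mp (Finset.mem_range.mp hi)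
  rw [coeff_jqModC_pow_of_lt (ZMod ℓ) (b := i) (m := k) (by omega), mul_zero]

theorem pc_coeff_aeval_natDegree (f : Polynomial (ZMod ℓ)) :
    (Polynomial.aeval (jqModC (ZMod ℓ)) f).coeff (-(f.natDegree : ℤ)) = f.leadingCoeff := by
  rw [pc_coeff_aeval, Finset.sum_eq_single f.natDegree]
  · rw [coeff_jqModC_pow_self, mul_one]; rfl
  · intro i hi hne
    have hi' : i ≤ f.natDegree := Nat.lt_succ_iff.mp (Finset.mem_range.mp hi)
    have : i < f.natDegree := lt_of_le_of_ne hi' hne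
    rw [coeff_jqModC_pow_of_lt (ZMod ℓ) (b := i) (m := -(f.natDegree : ℤ)) (by omega), mul_zero]
  · intro h
    exact absurd (Finset.mem_range.mpr (Nat.lt_succ_self _)) h

theorem pc_coeff_qExpand_neg (hp0 : NeZero p) :
    (qExpand (ZMod ℓ) p (jqModC (ZMod ℓ))).coeff (-(p : ℤ)) = 1 := by
  have : (-(p : ℤ)) = (p : ℤ) * (-1) := by ring
  rw [this, qExpand_coeff_mul, coeff_jqModC_neg_one]

theorem pc_coeff_qExpand_of_lt (hp0 : NeZero p) {k : ℤ} (hk : k < -(p : ℤ)) :
    (qExpand (ZMod ℓ) p (jqModC (ZMod ℓ))).coeff k = 0 := by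
  by_cases hd : (p : ℤ) ∣ k
  · obtain ⟨m, rfl⟩ := hd
    rw [qExpand_coeff_mul]
    apply coeff_jqModC_of_lt
    have hp' : (0 : ℤ) < p := by exact_mod_cast Nat.pos_of_ne_zero (NeZero.ne p)
    nlinarith
  · exact qExpand_coeff_of_not_dvd p _ hd

/-- degree and leading coefficient of `f` are forced by the pole orders -/
theorem pc_degree (hp0 : NeZero p) (f : Polynomial (ZMod ℓ))
    (h : qExpand (ZMod ℓ) p (jqModC (ZMod ℓ)) = Polynomial.aeval (jqModC (ZMod ℓ)) f) :
    f.natDegree = p ∧ f.coeff p = 1 := by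
  have : Fact (1 < ℓ) := ⟨hℓ.out.one_lt⟩
  have hf0 : f ≠ 0 := by
    rintro rfl
    have h1 := pc_coeff_qExpand_neg ℓ p hp0
    rw [h, map_zero] at h1
    simp at h1
  have hlc : f.leadingCoeff ≠ 0 := Polynomial.leadingCoeff_ne_zero.mpr hf0
  rcases lt_trichotomy f.natDegree p with hlt | heq | hgt
  · exfalso
    have h1 := pc_coeff_qExpand_neg ℓ p hp0
    rw [h, pc_coeff_aeval_of_lt ℓ f (by omega)] at h1
    exact zero_ne_one h1
  · refine ⟨heq, ?_⟩
    have h1 := pc_coeff_qExpand_neg ℓ p hp0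
    rw [h, ← heq, pc_coeff_aeval_natDegree] at h1
    rw [← heq]
    exact h1
  · exfalso
    have h1 := pc_coeff_aeval_natDegree ℓ f
    rw [← h, pc_coeff_qExpand_of_lt ℓ p hp0 (by omega)] at h1
    exact hlc h1.symm

variable [hp : Fact p.Prime]

/-- **Step (P)**: for primes `ℓ ≠ p`, `j(q^p) mod ℓ` is not a polynomial in `j(q) mod ℓ`. -/
theorem pc_main (hℓp : ℓ ≠ p) (f : Polynomial (ZMod ℓ)) :
    haveI : NeZero p := ⟨hp.out.ne_zero⟩
    qExpand (ZMod ℓ) p (jqModC (ZMod ℓ)) ≠ Polynomial.aeval (jqModC (ZMod ℓ)) f := by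
  haveI hp0 : NeZero p := ⟨hp.out.ne_zero⟩
  intro h
  obtain ⟨hdeg, hlead⟩ := pc_degree ℓ p hp0 f h
  set c : ℕ → ℤ := fun i => if i = p then 1 else ((f.coeff i).val : ℤ) with hc
  have hcp : c p = 1 := by simp [hc]
  have hcast : ∀ i, ((c i : ℤ) : ZMod ℓ) = f.coeff i := by
    intro i
    by_cases hi : i = p
    · subst hi; simp [hc, hlead]
    · simp [hc, hi]
  apply pc_core p (NeZero.ne p) c ℓ hp.out hℓp hcp
  apply HahnSeries.ofPowerSeries_injective (Γ := ℤ)
  set D := HahnSeries.ofPowerSeries ℤ (ZMod ℓ) (lo_D.map (Int.castRingHom (ZMod ℓ))) with hD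
  set E := HahnSeries.ofPowerSeries ℤ (ZMod ℓ) (pc_e.map (Int.castRingHom (ZMod ℓ))) with hE
  set J := jqModC (ZMod ℓ) with hJ
  have hJD : J * D = E := pc_jq_mul_D (ZMod ℓ)
  have hVD : qExpand (ZMod ℓ) p D = HahnSeries.ofPowerSeries ℤ (ZMod ℓ)
      (PowerSeries.expand p (NeZero.ne p) (lo_D.map (Int.castRingHom (ZMod ℓ)))) :=
    pc_qExpand_ofPowerSeries p _
  have hVE : qExpand (ZMod ℓ) p E = HahnSeries.ofPowerSeries ℤ (ZMod ℓ)
      (PowerSeries.expand p (NeZero.ne p) (pc_e.map (Int.castRingHom (ZMod ℓ)))) :=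
    pc_qExpand_ofPowerSeries p _
  have hpow : ∀ i ≤ p, D ^ p * J ^ i = E ^ i * D ^ (p - i) := by
    intro i hi
    rw [← hJD, mul_pow]
    have : D ^ p = D ^ i * D ^ (p - i) := by rw [← pow_add]; congr 1; omega
    rw [this]; ring
  have hA : HahnSeries.ofPowerSeries ℤ (ZMod ℓ) (pc_red ℓ (pc_A p c)) =
      D ^ p * Polynomial.aeval J f := by
    rw [Polynomial.aeval_eq_sum_range, hdeg, Finset.mul_sum, pc_A, map_sum, map_sum]
    refine Finset.sum_congr rfl fun i hi => ?_
    have hi' : i ≤ p := Nat.lt_succ_iff.mp (Finset.mem_range.mp hi)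
    rw [Algebra.smul_def, pc_algebraMap_eq, map_mul, map_mul, map_mul, map_pow, map_pow, map_mul,
      map_pow, map_pow, PowerSeries.map_C, eq_intCast, hcast, ← hD, ← hE]
    have := hpow i hi'
    linear_combination (-(HahnSeries.ofPowerSeries ℤ (ZMod ℓ)) (PowerSeries.C (f.coeff i))) * this
  rw [map_zero, pc_X, map_sub, map_sub, map_mul, map_mul, map_mul, map_mul, map_pow, map_pow,
    PowerSeries.map_expand, PowerSeries.map_expand, ← hVD, ← hVE, ← hD, hA, ← hJD, map_mul, ← h]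
  ring

end Main

end Fermat.Agent.S28x
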