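import Fermat.Agent.S28x.Defs

/-!
# S28 / QD `QepOfDeg`, hypothesis form (helper13)

`DEG ⇒ QEP`, `ρ(A_V(N)) = F̃_N`, `[F̃_N : 𝔽_ℓ(j̃)] ≤ ψ(N)`: the dimension count over the Gauss
valuation ring `V` of `ℚ(j)`, written against the structure `QdInput ℓ N` which bundles the facts
needed from the modules GR (`GaussRing.lean`) and DU (`DegreeUpper.lean`).  The file
`QepOfDeg.lean` instantiates `QdInput` and restates the results under the names of `Spec.lean`.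

The argument is elementary (no structure theory of modules over a DVR):
* `qd_scale`: a finite family in `ℚ(j)`, not all zero, can be scaled by a power of `ℓ` into `V`
  with one member a unit mod `ℓ` (`V` is a valuation ring with uniformiser `ℓ`);
* `qd_linearIndependent_lift`: lifts to `A_V(N)` of an `𝔽_ℓ(j̃)`-independent family are
  `ℚ(j)`-independent; hence `dim ρ(A_V(N)) ≤ [F_N : ℚ(j)]`, `ρ(A_V(N))` is a field `= F̃_N`;
* `qd_qep_of_deg`: under `DEG` lifts of a basis of `F̃_N` form a basis of `F_N`; expand `x` with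
  `ρ x = 0` in it and scale.
-/

set_option autoImplicit false

open ModularCurve

namespace Fermat.Agent.S28x

noncomputable section

theorem qd_Qj_le_full (N : ℕ) [NeZero N] : Qj ≤ modularFunctionFieldFull N :=
  IntermediateField.adjoin_le_iff.mpr (Set.singleton_subset_iff.mpr
    (by simpa [qExpand_one_apply] using jqd_mem_full N (one_dvd N)))

theorem qd_Kj_le_Ft (ℓ N : ℕ) [Fact ℓ.Prime] [NeZero N] : Kj ℓ ≤ Ft ℓ N :=
  IntermediateField.adjoin_le_iff.mpr (Set.singleton_subset_iff.mpr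
    (jqModC_mem_full (ZMod ℓ) N))

/-- The facts about `W`, `ρ`, `V` (module GR) and about `[F_N : ℚ(j)]` (module DU) used by QD. -/
structure QdInput (ℓ N : ℕ) [Fact ℓ.Prime] [NeZero N] : Prop where
  jqd_mem : ∀ (d : ℕ) [NeZero d], qExpand ℚ d jq ∈ gaussRing ℓ
  rho_jqd : ∀ (d : ℕ) [NeZero d] (h : qExpand ℚ d jq ∈ gaussRing ℓ),
    rho ℓ ⟨qExpand ℚ d jq, h⟩ = qExpand (ZMod ℓ) d (jqModC (ZMod ℓ))
  rho_mem_Kj : ∀ (y : LaurentSeries ℚ) (hy : y ∈ gaussV ℓ),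
    rho ℓ ⟨y, gaussV_le_gaussRing ℓ hy⟩ ∈ Kj ℓ
  exists_gaussV_rho_eq : ∀ c : LaurentSeries (ZMod ℓ), c ∈ Kj ℓ →
    ∃ (y : LaurentSeries ℚ) (hy : y ∈ gaussV ℓ), rho ℓ ⟨y, gaussV_le_gaussRing ℓ hy⟩ = c
  exists_zpow_mul_unit : ∀ z : LaurentSeries ℚ, z ∈ Qj → z ≠ 0 →
    ∃ (m : ℤ) (y : LaurentSeries ℚ) (hy : y ∈ gaussRing ℓ),
      rho ℓ ⟨y, hy⟩ ≠ 0 ∧ z = ((ℓ : ℕ) : LaurentSeries ℚ) ^ m * y
  finiteDimensional_full :
    FiniteDimensional Qj (IntermediateField.extendScalars (qd_Qj_le_full N))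
  relfinrank_full_le :
    IntermediateField.relfinrank Qj (modularFunctionFieldFull N) ≤ dedekindPsi N

variable {ℓ N : ℕ} [Fact ℓ.Prime] [NeZero N]

/-! ### Part 1: `A_V(N) ⊆ W`, `A_V(N) ⊆ F_N`, `ρ(A_V(N)) ⊆ F̃_N` -/

/-- `A_V(N) ⊆ W` -/
theorem qd_AV_le_gaussRing (H : QdInput ℓ N) {x : LaurentSeries ℚ}
    (hx : x ∈ AV ℓ N) : x ∈ gaussRing ℓ := by
  unfold AV at hx
  induction hx using Algebra.adjoin_induction with
  | mem x hx =>
      obtain ⟨d, hd, _, rfl⟩ := hx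
      exact H.jqd_mem d
  | algebraMap r => exact gaussV_le_gaussRing ℓ r.2
  | add x y _ _ hx hy => exact add_mem hx hy
  | mul x y _ _ hx hy => exact mul_mem hx hy

/-- `A_V(N) ⊆ F_N` -/
theorem qd_AV_le_full {x : LaurentSeries ℚ}
    (hx : x ∈ AV ℓ N) : x ∈ modularFunctionFieldFull N := by
  unfold AV at hx
  induction hx using Algebra.adjoin_induction with
  | mem x hx =>
      obtain ⟨d, hd, hdN, rfl⟩ := hx
      exact jqd_mem_full N hdN
  | algebraMap r => exact qd_Qj_le_full N r.2.2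
  | add x y _ _ hx hy => exact add_mem hx hy
  | mul x y _ _ hx hy => exact mul_mem hx hy

theorem qd_rho_add {x y : LaurentSeries ℚ} (hx : x ∈ gaussRing ℓ)
    (hy : y ∈ gaussRing ℓ) (hxy : x + y ∈ gaussRing ℓ) :
    rho ℓ ⟨x + y, hxy⟩ = rho ℓ ⟨x, hx⟩ + rho ℓ ⟨y, hy⟩ := by
  rw [← map_add]; rfl

theorem qd_rho_mul {x y : LaurentSeries ℚ} (hx : x ∈ gaussRing ℓ)
    (hy : y ∈ gaussRing ℓ) (hxy : x * y ∈ gaussRing ℓ) :
    rho ℓ ⟨x * y, hxy⟩ = rho ℓ ⟨x, hx⟩ * rho ℓ ⟨y, hy⟩ := by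
  rw [← map_mul]; rfl

theorem qd_rho_congr {x y : LaurentSeries ℚ} (h : x = y)
    (hx : x ∈ gaussRing ℓ) (hy : y ∈ gaussRing ℓ) :
    rho ℓ ⟨x, hx⟩ = rho ℓ ⟨y, hy⟩ := by
  subst h; rfl

theorem qd_rho_mem_Ft_aux (H : QdInput ℓ N) {x : LaurentSeries ℚ}
    (hx : x ∈ AV ℓ N) : ∀ h : x ∈ gaussRing ℓ, rho ℓ ⟨x, h⟩ ∈ Ft ℓ N := by
  unfold AV at hx
  induction hx using Algebra.adjoin_induction with
  | mem x hx =>
      obtain ⟨d, hd, hdN, rfl⟩ := hx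
      intro h
      rw [H.rho_jqd d h]
      exact jqModCd_mem_full (ZMod ℓ) N hdN
  | algebraMap r =>
      intro h
      exact qd_Kj_le_Ft ℓ N (H.rho_mem_Kj _ r.2)
  | add x y hx hy ihx ihy =>
      intro h
      have hx' := qd_AV_le_gaussRing H (x := x) hx
      have hy' := qd_AV_le_gaussRing H (x := y) hy
      rw [qd_rho_add hx' hy']
      exact add_mem (ihx hx') (ihy hy')
  | mul x y hx hy ihx ihy =>
      intro h
      have hx' := qd_AV_le_gaussRing H (x := x) hx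
      have hy' := qd_AV_le_gaussRing H (x := y) hy
      rw [qd_rho_mul hx' hy']
      exact mul_mem (ihx hx') (ihy hy')

/-- `ρ(A_V(N)) ⊆ F̃_N` -/
theorem qd_rho_AV_mem_Ft (H : QdInput ℓ N) {x : LaurentSeries ℚ}
    (hx : x ∈ AV ℓ N) : rho ℓ ⟨x, qd_AV_le_gaussRing H hx⟩ ∈ Ft ℓ N :=
  qd_rho_mem_Ft_aux H hx _

/-! ### Part 2: the valuation of `ℚ(j)` at `ℓ`: scaling of finite families -/

theorem qd_natCast_ne_zero (ℓ : ℕ) [Fact ℓ.Prime] : ((ℓ : ℕ) : LaurentSeries ℚ) ≠ 0 := by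
  rw [← map_natCast (algebraMap ℚ (LaurentSeries ℚ)) ℓ]
  intro h
  have h2 := (algebraMap ℚ (LaurentSeries ℚ)).injective (h.trans (map_zero _).symm)
  exact (Fact.out : ℓ.Prime).ne_zero (by exact_mod_cast h2)

theorem qd_natCast_mem (ℓ : ℕ) [Fact ℓ.Prime] : ((ℓ : ℕ) : LaurentSeries ℚ) ∈ gaussRing ℓ :=
  natCast_mem _ ℓ

theorem qd_zpow_mem_Qj (ℓ : ℕ) (k : ℤ) : ((ℓ : ℕ) : LaurentSeries ℚ) ^ k ∈ Qj :=
  zpow_mem (natCast_mem Qj ℓ) k

/-- nonnegative integer powers of `ℓ` lie in `W` -/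
theorem qd_zpow_mem_gaussRing (ℓ : ℕ) [Fact ℓ.Prime] {k : ℤ} (hk : 0 ≤ k) :
    ((ℓ : ℕ) : LaurentSeries ℚ) ^ k ∈ gaussRing ℓ := by
  lift k to ℕ using hk
  rw [zpow_natCast]
  exact pow_mem (qd_natCast_mem ℓ) k

theorem qd_zpow_mem_gaussV (ℓ : ℕ) [Fact ℓ.Prime] {k : ℤ} (hk : 0 ≤ k) :
    ((ℓ : ℕ) : LaurentSeries ℚ) ^ k ∈ gaussV ℓ :=
  ⟨qd_zpow_mem_gaussRing ℓ hk, qd_zpow_mem_Qj ℓ k⟩

/-- the valuation decomposition of a non-zero element of `ℚ(j)` (with `y ∈ ℚ(j)`) -/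
theorem qd_exists_zpow_mul_unit (H : QdInput ℓ N) {z : LaurentSeries ℚ} (hz : z ∈ Qj)
    (hz0 : z ≠ 0) :
    ∃ (m : ℤ) (y : LaurentSeries ℚ) (hy : y ∈ gaussRing ℓ), y ∈ Qj ∧
      rho ℓ ⟨y, hy⟩ ≠ 0 ∧ z = ((ℓ : ℕ) : LaurentSeries ℚ) ^ m * y := by
  obtain ⟨m, y, hy, hρ, rfl⟩ := H.exists_zpow_mul_unit z hz hz0
  refine ⟨m, y, hy, ?_, hρ, rfl⟩
  have hℓ : ((ℓ : ℕ) : LaurentSeries ℚ) ^ m ≠ 0 := zpow_ne_zero _ (qd_natCast_ne_zero ℓ)
  have : y = (((ℓ : ℕ) : LaurentSeries ℚ) ^ m)⁻¹ * (((ℓ : ℕ) : LaurentSeries ℚ) ^ m * y) := by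
    field_simp
  rw [this]
  exact mul_mem (inv_mem (qd_zpow_mem_Qj ℓ m)) hz

/-- **Scaling lemma**: a finite family of elements of `ℚ(j)`, not all zero, can be scaled by a
power of `ℓ` into `V` so that one member becomes a unit mod `ℓ`. -/
theorem qd_scale (H : QdInput ℓ N) {ι : Type*} [Fintype ι] (a : ι → LaurentSeries ℚ)
    (ha : ∀ i, a i ∈ Qj) (hne : ∃ i, a i ≠ 0) :
    ∃ k : ℤ, (∀ i, ((ℓ : ℕ) : LaurentSeries ℚ) ^ k * a i ∈ gaussV ℓ) ∧
      ∃ i, ∀ h : ((ℓ : ℕ) : LaurentSeries ℚ) ^ k * a i ∈ gaussRing ℓ, rho ℓ ⟨_, h⟩ ≠ 0 := by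
  classical
  have hdec : ∀ i, a i ≠ 0 → ∃ (m : ℤ) (y : LaurentSeries ℚ) (hy : y ∈ gaussRing ℓ), y ∈ Qj ∧
      rho ℓ ⟨y, hy⟩ ≠ 0 ∧ a i = ((ℓ : ℕ) : LaurentSeries ℚ) ^ m * y :=
    fun i hi => qd_exists_zpow_mul_unit H (ha i) hi
  let m : ι → ℤ := fun i => if hi : a i ≠ 0 then Classical.choose (hdec i hi) else 0
  have hm : ∀ i (hi : a i ≠ 0), ∃ (y : LaurentSeries ℚ) (hy : y ∈ gaussRing ℓ), y ∈ Qj ∧
      rho ℓ ⟨y, hy⟩ ≠ 0 ∧ a i = ((ℓ : ℕ) : LaurentSeries ℚ) ^ (m i) * y := by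
    intro i hi
    have := Classical.choose_spec (hdec i hi)
    simpa only [m, dif_pos hi] using this
  have hS : (Finset.univ.filter (fun i => a i ≠ 0)).Nonempty := by
    obtain ⟨i, hi⟩ := hne
    exact ⟨i, by simp [hi]⟩
  obtain ⟨i0, hi0, hmin⟩ := Finset.exists_min_image _ m hS
  have hi0' : a i0 ≠ 0 := (Finset.mem_filter.mp hi0).2
  have hℓ : ((ℓ : ℕ) : LaurentSeries ℚ) ≠ 0 := qd_natCast_ne_zero ℓ
  refine ⟨-m i0, fun i => ?_, i0, fun h => ?_⟩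
  · by_cases hi : a i = 0
    · rw [hi, mul_zero]; exact zero_mem _
    · obtain ⟨y, hy, hyQ, _, hay⟩ := hm i hi
      have hle : m i0 ≤ m i := hmin i (by simp [hi])
      have e : ((ℓ : ℕ) : LaurentSeries ℚ) ^ (-m i0) * a i =
          ((ℓ : ℕ) : LaurentSeries ℚ) ^ (m i - m i0) * y := by
        rw [hay, ← mul_assoc, ← zpow_add₀ hℓ]; congr 2; ring
      rw [e]
      exact ⟨mul_mem (qd_zpow_mem_gaussRing ℓ (by omega)) hy,
        mul_mem (qd_zpow_mem_Qj ℓ _) hyQ⟩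
  · obtain ⟨y, hy, _, hρ, hay⟩ := hm i0 hi0'
    have e : ((ℓ : ℕ) : LaurentSeries ℚ) ^ (-m i0) * a i0 = y := by
      rw [hay, ← mul_assoc, ← zpow_add₀ hℓ, neg_add_cancel, zpow_zero, one_mul]
    rw [qd_rho_congr e h hy]
    exact hρ

/-! ### Part 3: relations over `V` reduce to relations over `𝔽_ℓ(j̃)` -/

/-- `ρ` of a `V`-linear combination of elements of `A_V(N)` -/
theorem qd_rho_sum (H : QdInput ℓ N) {ι : Type*} [Fintype ι]
    (b x : ι → LaurentSeries ℚ) (hb : ∀ i, b i ∈ gaussV ℓ) (hx : ∀ i, x i ∈ AV ℓ N)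
    (h : ∑ i, b i * x i ∈ gaussRing ℓ) :
    rho ℓ ⟨∑ i, b i * x i, h⟩ =
      ∑ i, rho ℓ ⟨b i, gaussV_le_gaussRing ℓ (hb i)⟩ *
        rho ℓ ⟨x i, qd_AV_le_gaussRing H (hx i)⟩ := by
  have e : (⟨∑ i, b i * x i, h⟩ : gaussRing ℓ) =
      ∑ i, (⟨b i, gaussV_le_gaussRing ℓ (hb i)⟩ : gaussRing ℓ) *
        ⟨x i, qd_AV_le_gaussRing H (hx i)⟩ := by
    apply Subtype.ext
    rw [AddSubmonoidClass.coe_finsetSum]
    rfl
  rw [e, map_sum]
  simp only [map_mul]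

/-- if the reductions of the `x i ∈ A_V(N)` are linearly independent over `𝔽_ℓ(j̃)`, then a
`V`-linear combination of the `x i` which reduces to zero has all its coefficients in `ker ρ`. -/
theorem qd_core (H : QdInput ℓ N) {ι : Type*} [Fintype ι]
    (x : ι → LaurentSeries ℚ) (hx : ∀ i, x i ∈ AV ℓ N)
    (hli : LinearIndependent (Kj ℓ)
      (fun i => rho ℓ ⟨x i, qd_AV_le_gaussRing H (hx i)⟩))
    (b : ι → LaurentSeries ℚ) (hb : ∀ i, b i ∈ gaussV ℓ)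
    (h : ∑ i, b i * x i ∈ gaussRing ℓ) (h0 : rho ℓ ⟨∑ i, b i * x i, h⟩ = 0) (i : ι)
    (hi : b i ∈ gaussRing ℓ) : rho ℓ ⟨b i, hi⟩ = 0 := by
  rw [qd_rho_sum H b x hb hx h] at h0
  rw [Fintype.linearIndependent_iff] at hli
  have := hli (fun i => ⟨rho ℓ ⟨b i, gaussV_le_gaussRing ℓ (hb i)⟩, H.rho_mem_Kj _ (hb i)⟩)
    (by
      rw [← h0]
      refine Finset.sum_congr rfl fun i _ => ?_
      rw [IntermediateField.smul_def, smul_eq_mul]) i
  exact congrArg Subtype.val this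

/-- **Transfer of linear independence**: lifts to `A_V(N)` of an `𝔽_ℓ(j̃)`-linearly independent
family are `ℚ(j)`-linearly independent. -/
theorem qd_linearIndependent_lift (H : QdInput ℓ N) {ι : Type*} [Fintype ι]
    (x : ι → LaurentSeries ℚ) (hx : ∀ i, x i ∈ AV ℓ N)
    (hli : LinearIndependent (Kj ℓ)
      (fun i => rho ℓ ⟨x i, qd_AV_le_gaussRing H (hx i)⟩)) :
    LinearIndependent Qj x := by
  rw [Fintype.linearIndependent_iff]
  intro g hg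
  by_contra hne
  push Not at hne
  obtain ⟨i1, hi1⟩ := hne
  obtain ⟨k, hk, i0, hi0⟩ := qd_scale H (fun i => ((g i : Qj) : LaurentSeries ℚ))
    (fun i => (g i).2) ⟨i1, fun h => hi1 (Subtype.ext h)⟩
  have hsum : ∑ i, (((ℓ : ℕ) : LaurentSeries ℚ) ^ k * (g i : LaurentSeries ℚ)) * x i = 0 := by
    have : ∑ i, (((ℓ : ℕ) : LaurentSeries ℚ) ^ k * (g i : LaurentSeries ℚ)) * x i =
        ((ℓ : ℕ) : LaurentSeries ℚ) ^ k * ∑ i, g i • x i := by
      rw [Finset.mul_sum]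
      refine Finset.sum_congr rfl fun i _ => ?_
      rw [IntermediateField.smul_def, smul_eq_mul, mul_assoc]
    rw [this, hg, mul_zero]
  have hmem : ∑ i, (((ℓ : ℕ) : LaurentSeries ℚ) ^ k * (g i : LaurentSeries ℚ)) * x i ∈
      gaussRing ℓ := by rw [hsum]; exact zero_mem _
  have h0 : rho ℓ ⟨_, hmem⟩ = 0 := by
    rw [qd_rho_congr hsum hmem (zero_mem _)]
    exact map_zero (rho ℓ)
  exact hi0 (gaussV_le_gaussRing ℓ (hk i0))
    (qd_core H x hx hli _ hk hmem h0 i0 (gaussV_le_gaussRing ℓ (hk i0)))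

/-- the degree `[F_N : ℚ(j)]` -/
abbrev qd_n (N : ℕ) [NeZero N] : ℕ :=
  IntermediateField.relfinrank Qj (modularFunctionFieldFull N)

/-- **Cardinality bound**: an `𝔽_ℓ(j̃)`-linearly independent family in `ρ(A_V(N))` has at most
`[F_N : ℚ(j)]` members. -/
theorem qd_card_le (H : QdInput ℓ N) {ι : Type*} [Fintype ι]
    (x : ι → LaurentSeries ℚ) (hx : ∀ i, x i ∈ AV ℓ N)
    (hli : LinearIndependent (Kj ℓ)
      (fun i => rho ℓ ⟨x i, qd_AV_le_gaussRing H (hx i)⟩)) :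
    Fintype.card ι ≤ qd_n N := by
  have hQ := qd_linearIndependent_lift H x hx hli
  have := H.finiteDimensional_full
  rw [qd_n, IntermediateField.relfinrank_eq_finrank_of_le (qd_Qj_le_full N)]
  let x' : ι → ↥(IntermediateField.extendScalars (qd_Qj_le_full N)) :=
    fun i => ⟨x i, qd_AV_le_full (hx i)⟩
  have hx' : LinearIndependent Qj x' := by
    apply LinearIndependent.of_comp
      (IntermediateField.extendScalars (qd_Qj_le_full N)).val.toLinearMap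
    exact hQ
  exact hx'.fintype_card_le_finrank

/-! ### Part 4: `ρ(A_V(N))` is a field, equal to `F̃_N` -/

/-- `B = ρ(A_V(N))` as an `𝔽_ℓ(j̃)`-subalgebra of `𝔽_ℓ((q))` -/
def qd_BAlg (H : QdInput ℓ N) : Subalgebra (Kj ℓ) (LaurentSeries (ZMod ℓ)) where
  carrier := {c | ∃ (x : LaurentSeries ℚ) (hx : x ∈ AV ℓ N),
    rho ℓ ⟨x, qd_AV_le_gaussRing H hx⟩ = c}
  mul_mem' := by
    rintro _ _ ⟨x, hx, rfl⟩ ⟨y, hy, rfl⟩
    exact ⟨x * y, mul_mem hx hy, qd_rho_mul _ _ _⟩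
  add_mem' := by
    rintro _ _ ⟨x, hx, rfl⟩ ⟨y, hy, rfl⟩
    exact ⟨x + y, add_mem hx hy, qd_rho_add _ _ _⟩
  one_mem' := ⟨1, one_mem _, map_one (rho ℓ)⟩
  zero_mem' := ⟨0, zero_mem _, map_zero (rho ℓ)⟩
  algebraMap_mem' := by
    intro c
    obtain ⟨y, hy, hyc⟩ := H.exists_gaussV_rho_eq _ c.2
    exact ⟨y, (AV ℓ N).algebraMap_mem ⟨y, hy⟩, hyc⟩

theorem qd_mem_BAlg (H : QdInput ℓ N) {c : LaurentSeries (ZMod ℓ)} :
    c ∈ qd_BAlg H ↔
      ∃ (x : LaurentSeries ℚ) (hx : x ∈ AV ℓ N), rho ℓ ⟨x, qd_AV_le_gaussRing H hx⟩ = c :=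
  Iff.rfl

/-- `dim_{𝔽_ℓ(j̃)} ρ(A_V(N)) ≤ [F_N : ℚ(j)]` -/
theorem qd_rank_BAlg_le (H : QdInput ℓ N) :
    Module.rank (Kj ℓ) (qd_BAlg H) ≤ (qd_n N : Cardinal) := by
  apply rank_le
  intro s hs
  have hex : ∀ i : s, ∃ (x : LaurentSeries ℚ) (hx : x ∈ AV ℓ N),
      rho ℓ ⟨x, qd_AV_le_gaussRing H hx⟩ = ((i : qd_BAlg H) : LaurentSeries (ZMod ℓ)) :=
    fun i => (i : qd_BAlg H).2
  choose x hx hρ using hex
  have hli : LinearIndependent (Kj ℓ)
      (fun i : s => rho ℓ ⟨x i, qd_AV_le_gaussRing H (hx i)⟩) := by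
    have h1 : LinearIndependent (Kj ℓ)
        (fun i : s => ((i : qd_BAlg H) : LaurentSeries (ZMod ℓ))) :=
      hs.map' (qd_BAlg H).val.toLinearMap
        (LinearMap.ker_eq_bot.mpr Subtype.val_injective)
    convert h1 using 2 with i
    exact hρ i
  have := qd_card_le H x hx hli
  rwa [Fintype.card_coe] at this

theorem qd_finite_BAlg (H : QdInput ℓ N) : Module.Finite (Kj ℓ) (qd_BAlg H) :=
  IsNoetherian.iff_fg.mp (IsNoetherian.iff_rank_lt_aleph0.mpr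
    (lt_of_le_of_lt (qd_rank_BAlg_le H) Cardinal.natCast_lt_aleph0))

/-- `ρ(A_V(N))` is closed under inverses -/
theorem qd_inv_mem_BAlg (H : QdInput ℓ N) {c : LaurentSeries (ZMod ℓ)}
    (hc : c ∈ qd_BAlg H) : c⁻¹ ∈ qd_BAlg H := by
  have := qd_finite_BAlg H
  have hint : IsIntegral (Kj ℓ) (⟨c, hc⟩ : qd_BAlg H) := IsIntegral.of_finite _ _
  have halg : IsAlgebraic (Kj ℓ) c :=
    (isAlgebraic_algHom_iff (qd_BAlg H).val Subtype.val_injective).mpr hint.isAlgebraic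
  exact (qd_BAlg H).inv_mem_of_algebraic (x := ⟨c, hc⟩) halg

/-- `F̃_N ⊆ ρ(A_V(N))` -/
theorem qd_Ft_le_BAlg (H : QdInput ℓ N) {c : LaurentSeries (ZMod ℓ)}
    (hc : c ∈ Ft ℓ N) : c ∈ qd_BAlg H := by
  unfold Ft modularFunctionFieldFullC at hc
  induction hc using IntermediateField.adjoin_induction with
  | mem c hc =>
      obtain ⟨d, hd, hdN, rfl⟩ := hc
      exact ⟨qExpand ℚ d jq, Algebra.subset_adjoin (mem_divisorExpansions N hdN),
        H.rho_jqd d _⟩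
  | algebraMap r =>
      have : algebraMap (ZMod ℓ) (LaurentSeries (ZMod ℓ)) r =
          algebraMap (Kj ℓ) (LaurentSeries (ZMod ℓ)) (algebraMap (ZMod ℓ) (Kj ℓ) r) := rfl
      rw [this]
      exact (qd_BAlg H).algebraMap_mem _
  | add x y _ _ hx hy => exact add_mem hx hy
  | inv x _ hx => exact qd_inv_mem_BAlg H hx
  | mul x y _ _ hx hy => exact mul_mem hx hy

/-- `ρ(A_V(N)) = F̃_N` (surjectivity) -/
theorem qd_exists_AV_rho_eq (H : QdInput ℓ N) {c : LaurentSeries (ZMod ℓ)}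
    (hc : c ∈ Ft ℓ N) :
    ∃ (x : LaurentSeries ℚ) (hx : x ∈ AV ℓ N), rho ℓ ⟨x, qd_AV_le_gaussRing H hx⟩ = c :=
  qd_Ft_le_BAlg H hc

/-- `dim_{𝔽_ℓ(j̃)} F̃_N ≤ [F_N : ℚ(j)]` -/
theorem qd_rank_Ft_le (H : QdInput ℓ N) :
    Module.rank (Kj ℓ) (IntermediateField.extendScalars (qd_Kj_le_Ft ℓ N)) ≤
      (qd_n N : Cardinal) := by
  apply rank_le
  intro s hs
  have hex : ∀ i : s, ∃ (x : LaurentSeries ℚ) (hx : x ∈ AV ℓ N),
      rho ℓ ⟨x, qd_AV_le_gaussRing H hx⟩ =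
        ((i : IntermediateField.extendScalars (qd_Kj_le_Ft ℓ N)) : LaurentSeries (ZMod ℓ)) :=
    fun i => qd_exists_AV_rho_eq H
      (i : IntermediateField.extendScalars (qd_Kj_le_Ft ℓ N)).2
  choose x hx hρ using hex
  have hli : LinearIndependent (Kj ℓ)
      (fun i : s => rho ℓ ⟨x i, qd_AV_le_gaussRing H (hx i)⟩) := by
    have h1 : LinearIndependent (Kj ℓ)
        (fun i : s => ((i : IntermediateField.extendScalars (qd_Kj_le_Ft ℓ N)) :
          LaurentSeries (ZMod ℓ))) :=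
      hs.map' (IntermediateField.extendScalars (qd_Kj_le_Ft ℓ N)).val.toLinearMap
        (LinearMap.ker_eq_bot.mpr Subtype.val_injective)
    convert h1 using 2 with i
    exact hρ i
  have := qd_card_le H x hx hli
  rwa [Fintype.card_coe] at this

theorem qd_finite_Ft (H : QdInput ℓ N) :
    Module.Finite (Kj ℓ) (IntermediateField.extendScalars (qd_Kj_le_Ft ℓ N)) :=
  IsNoetherian.iff_fg.mp (IsNoetherian.iff_rank_lt_aleph0.mpr
    (lt_of_le_of_lt (qd_rank_Ft_le H) Cardinal.natCast_lt_aleph0))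

/-- `[F̃_N : 𝔽_ℓ(j̃)] ≤ [F_N : ℚ(j)]` -/
theorem qd_relfinrank_Ft_le_full (H : QdInput ℓ N) :
    IntermediateField.relfinrank (Kj ℓ) (Ft ℓ N) ≤ qd_n N := by
  rw [IntermediateField.relfinrank_eq_finrank_of_le (qd_Kj_le_Ft ℓ N)]
  exact Module.finrank_le_of_rank_le (qd_rank_Ft_le H)

/-- the upper bound `[F̃_N : 𝔽_ℓ(j̃)] ≤ ψ(N)` (always) -/
theorem qd_relfinrank_Ft_le (H : QdInput ℓ N) :
    IntermediateField.relfinrank (Kj ℓ) (Ft ℓ N) ≤ dedekindPsi N :=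
  (qd_relfinrank_Ft_le_full H).trans H.relfinrank_full_le

/-! ### Part 5: `DEG ⇒ QEP` -/

omit [NeZero N] in
theorem qd_mul_mem_AV {v y : LaurentSeries ℚ}
    (hv : v ∈ gaussV ℓ) (hy : y ∈ AV ℓ N) : v * y ∈ AV ℓ N :=
  (AV ℓ N).mul_mem ((AV ℓ N).algebraMap_mem ⟨v, hv⟩) hy

theorem qd_qep_of_deg (H : QdInput ℓ N) (h : DEG ℓ N) : QEP ℓ N := by
  intro x hxA hxW hρ
  have hQ := qd_Qj_le_full N
  have hK := qd_Kj_le_Ft ℓ N
  have hfin := H.finiteDimensional_full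
  have hfinK := qd_finite_Ft H
  have hm1 : IntermediateField.relfinrank (Kj ℓ) (Ft ℓ N) =
      Module.finrank (Kj ℓ) (IntermediateField.extendScalars hK) :=
    IntermediateField.relfinrank_eq_finrank_of_le hK
  have hn1 : qd_n N = Module.finrank Qj (IntermediateField.extendScalars hQ) :=
    IntermediateField.relfinrank_eq_finrank_of_le hQ
  have hmn : Module.finrank (Kj ℓ) (IntermediateField.extendScalars hK) =
      Module.finrank Qj (IntermediateField.extendScalars hQ) := by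
    have a := qd_relfinrank_Ft_le_full H
    have b : qd_n N ≤ dedekindPsi N := H.relfinrank_full_le
    have c : dedekindPsi N ≤ IntermediateField.relfinrank (Kj ℓ) (Ft ℓ N) := h
    omega
  -- a basis of `F̃_N` over `𝔽_ℓ(j̃)` and lifts to `A_V(N)`
  have hfree : Module.Free (Kj ℓ) (IntermediateField.extendScalars hK) :=
    Module.Free.of_divisionRing _ _
  let c := Module.finBasis (Kj ℓ) (IntermediateField.extendScalars hK)
  have hex : ∀ i, ∃ (y : LaurentSeries ℚ) (hy : y ∈ AV ℓ N),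
      rho ℓ ⟨y, qd_AV_le_gaussRing H hy⟩ =
        ((c i : IntermediateField.extendScalars hK) : LaurentSeries (ZMod ℓ)) :=
    fun i => qd_exists_AV_rho_eq H (c i).2
  choose y hy hyρ using hex
  have hli : LinearIndependent (Kj ℓ)
      (fun i => rho ℓ ⟨y i, qd_AV_le_gaussRing H (hy i)⟩) := by
    have h1 : LinearIndependent (Kj ℓ)
        (fun i => ((c i : IntermediateField.extendScalars hK) : LaurentSeries (ZMod ℓ))) :=
      c.linearIndependent.map' (IntermediateField.extendScalars hK).val.toLinearMap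
        (LinearMap.ker_eq_bot.mpr Subtype.val_injective)
    convert h1 using 2 with i
    exact hyρ i
  have hQli := qd_linearIndependent_lift H y hy hli
  let y' : Fin (Module.finrank (Kj ℓ) (IntermediateField.extendScalars hK)) →
      ↥(IntermediateField.extendScalars hQ) := fun i => ⟨y i, qd_AV_le_full (hy i)⟩
  have hy'li : LinearIndependent Qj y' := by
    apply LinearIndependent.of_comp (IntermediateField.extendScalars hQ).val.toLinearMap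
    exact hQli
  have hspan : Submodule.span Qj (Set.range y') = ⊤ :=
    hy'li.span_eq_top_of_card_eq_finrank' (by rw [Fintype.card_fin, hmn])
  have hx' : (⟨x, qd_AV_le_full hxA⟩ : ↥(IntermediateField.extendScalars hQ)) ∈
      Submodule.span Qj (Set.range y') := by rw [hspan]; trivial
  obtain ⟨g, hg⟩ := (Submodule.mem_span_range_iff_exists_fun Qj).mp hx'
  have hxsum : x = ∑ i, ((g i : Qj) : LaurentSeries ℚ) * y i := by
    have h2 := congrArg (IntermediateField.extendScalars hQ).val hg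
    rw [map_sum] at h2
    rw [show x = (IntermediateField.extendScalars hQ).val ⟨x, qd_AV_le_full hxA⟩ from rfl, ← h2]
    refine Finset.sum_congr rfl fun i _ => ?_
    rw [map_smul, IntermediateField.smul_def, smul_eq_mul]
    rfl
  by_cases hall : ∀ i, g i = 0
  · refine ⟨0, zero_mem _, ?_⟩
    rw [hxsum, mul_zero]
    exact Finset.sum_eq_zero fun i _ => by rw [hall i]; simp
  · push Not at hall
    obtain ⟨i1, hi1⟩ := hall
    obtain ⟨k, hk, i0, hi0⟩ := qd_scale H (fun i => ((g i : Qj) : LaurentSeries ℚ))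
      (fun i => (g i).2) ⟨i1, fun h => hi1 (Subtype.ext h)⟩
    have hℓ : ((ℓ : ℕ) : LaurentSeries ℚ) ≠ 0 := qd_natCast_ne_zero ℓ
    have hsum : ∑ i, (((ℓ : ℕ) : LaurentSeries ℚ) ^ k * ((g i : Qj) : LaurentSeries ℚ)) * y i =
        ((ℓ : ℕ) : LaurentSeries ℚ) ^ k * x := by
      rw [hxsum, Finset.mul_sum]
      exact Finset.sum_congr rfl fun i _ => mul_assoc _ _ _
    rcases lt_or_ge k 0 with hk0 | hk0
    · -- `k < 0`: `x = ℓ * y`
      have hv : ∀ i, ((ℓ : ℕ) : LaurentSeries ℚ) ^ (-k - 1) *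
          (((ℓ : ℕ) : LaurentSeries ℚ) ^ k * ((g i : Qj) : LaurentSeries ℚ)) ∈ gaussV ℓ :=
        fun i => mul_mem (qd_zpow_mem_gaussV ℓ (by omega)) (hk i)
      refine ⟨∑ i, (((ℓ : ℕ) : LaurentSeries ℚ) ^ (-k - 1) *
          (((ℓ : ℕ) : LaurentSeries ℚ) ^ k * ((g i : Qj) : LaurentSeries ℚ))) * y i,
        sum_mem fun i _ => qd_mul_mem_AV (hv i) (hy i), ?_⟩
      rw [hxsum, Finset.mul_sum]
      refine Finset.sum_congr rfl fun i _ => ?_
      have e : ((ℓ : ℕ) : LaurentSeries ℚ) * (((ℓ : ℕ) : LaurentSeries ℚ) ^ (-k - 1) *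
          ((ℓ : ℕ) : LaurentSeries ℚ) ^ k) = 1 := by
        rw [← zpow_add₀ hℓ, ← zpow_one_add₀ hℓ]
        have : (1 : ℤ) + (-k - 1 + k) = 0 := by ring
        rw [this, zpow_zero]
      calc ((g i : Qj) : LaurentSeries ℚ) * y i
          = (((ℓ : ℕ) : LaurentSeries ℚ) * (((ℓ : ℕ) : LaurentSeries ℚ) ^ (-k - 1) *
              ((ℓ : ℕ) : LaurentSeries ℚ) ^ k)) * (((g i : Qj) : LaurentSeries ℚ) * y i) := by
            rw [e, one_mul]
        _ = _ := by ring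
    · -- `k ≥ 0`: contradiction with the linear independence
      exfalso
      have hkW := qd_zpow_mem_gaussRing ℓ hk0
      have hmem : ∑ i, (((ℓ : ℕ) : LaurentSeries ℚ) ^ k * ((g i : Qj) : LaurentSeries ℚ)) * y i ∈
          gaussRing ℓ := by rw [hsum]; exact mul_mem hkW hxW
      have h0 : rho ℓ ⟨_, hmem⟩ = 0 := by
        rw [qd_rho_congr hsum hmem (mul_mem hkW hxW), qd_rho_mul hkW hxW, hρ, mul_zero]
      exact hi0 (gaussV_le_gaussRing ℓ (hk i0))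
        (qd_core H y hy hli _ hk hmem h0 i0 (gaussV_le_gaussRing ℓ (hk i0)))

end

end Fermat.Agent.S28x
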