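/-
S28 project, row SA, part SA3 (helper91): the arithmetic inequality used to exclude degree one in
Step A.  For a squarefree `M` all of whose prime factors are `< p`:
`2 ψ(M) ≤ M p`, hence `ψ(M) < M (p + 1)`   (`ψ(M)/M = ∏_{q ∣ M} (1 + 1/q) ≤ ∏_{m=2}^{p-1} (1 + 1/m) = p/2`).
Prefix `sa3_`.
-/
import Fermat.Agent.S24x.CombIndex

set_option autoImplicit false

namespace Fermat.Agent.S28x

open ModularCurve

/-- squarefree `M` with all prime factors `≤ B` (`B ≥ 1`): `2 ψ(M) ≤ M (B + 1)` -/
theorem sa3_two_mul_psi_le (B : ℕ) (hB : 1 ≤ B) :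
    ∀ M : ℕ, M ≠ 0 → Squarefree M → (∀ q ∈ M.primeFactors, q ≤ B) →
      2 * dedekindPsi M ≤ M * (B + 1) := by
  induction B, hB using Nat.le_induction with
  | base =>
    intro M hM _ hq
    have hM1 : M = 1 := by
      by_contra h1
      obtain ⟨q, hqp, hqM⟩ := Nat.exists_prime_and_dvd h1
      have := hq q (Nat.mem_primeFactors.mpr ⟨hqp, hqM, hM⟩)
      exact absurd hqp.two_le (by omega)
    subst hM1
    simp
  | succ B hB ih =>
    intro M hM hsq hq
    by_cases hcase : (B + 1).Prime ∧ (B + 1) ∣ M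
    · obtain ⟨hqp, hqM⟩ := hcase
      set q := B + 1 with hqdef
      obtain ⟨M', rfl⟩ := hqM
      have hM' : M' ≠ 0 := by
        rintro rfl
        exact hM (mul_zero _)
      rw [Nat.squarefree_mul_iff] at hsq
      obtain ⟨hcop, _, hsq'⟩ := hsq
      have hndvd : ¬ q ∣ M' := fun h => by
        have := Nat.Coprime.eq_one_of_dvd hcop h
        exact hqp.one_lt.ne' this
      have hq' : ∀ r ∈ M'.primeFactors, r ≤ B := by
        intro r hr
        have hr' := Nat.mem_primeFactors.mp hr
        have hrM : r ∈ (q * M').primeFactors :=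
          Nat.mem_primeFactors.mpr ⟨hr'.1, Dvd.dvd.mul_left hr'.2.1 q, hM⟩
        have hle := hq r hrM
        have hne : r ≠ q := by
          rintro rfl
          exact hndvd hr'.2.1
        omega
      have ih' := ih M' hM' hsq' hq'
      have hpsi : dedekindPsi (q * M') = (q + 1) * dedekindPsi M' := by
        rw [mul_comm q M']
        exact Fermat.Agent.S24x.dedekindPsi_mul_prime_of_not_dvd M' q hqp (Nat.pos_of_ne_zero hM') hndvd
      rw [hpsi]
      calc 2 * ((q + 1) * dedekindPsi M') = (q + 1) * (2 * dedekindPsi M') := by ring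
        _ ≤ (q + 1) * (M' * (B + 1)) := Nat.mul_le_mul_left _ ih'
        _ = q * M' * (B + 1 + 1) := by rw [hqdef]; ring
    · have hq' : ∀ r ∈ M.primeFactors, r ≤ B := by
        intro r hr
        have hr' := Nat.mem_primeFactors.mp hr
        have hle := hq r hr
        have hne : r ≠ B + 1 := by
          rintro rfl
          exact hcase ⟨hr'.1, hr'.2.1⟩
        omega
      have ih' := ih M hM hsq hq'
      calc 2 * dedekindPsi M ≤ M * (B + 1) := ih'
        _ ≤ M * (B + 1 + 1) := Nat.mul_le_mul_left _ (by omega)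

/-- squarefree `M` with all prime factors `< p`: `2 ψ(M) ≤ M p`. -/
theorem sa3_two_mul_psi_le_mul (p M : ℕ) (hp : p.Prime) (hM : M ≠ 0) (hsq : Squarefree M)
    (hlt : ∀ q ∈ M.primeFactors, q < p) : 2 * dedekindPsi M ≤ M * p := by
  have h := sa3_two_mul_psi_le (p - 1) (by have := hp.two_le; omega) M hM hsq
    (fun q hq => by have := hlt q hq; omega)
  have hp1 : p - 1 + 1 = p := by have := hp.two_le; omega
  rwa [hp1] at h

/-- **SA3**: squarefree `M` with all prime factors `< p`: `ψ(M) < M (p + 1)`; in particular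
`M (p + 1) ≤ ψ(M)` is impossible. -/
theorem sa3_psi_lt (p M : ℕ) (hp : p.Prime) (hM : M ≠ 0) (hsq : Squarefree M)
    (hlt : ∀ q ∈ M.primeFactors, q < p) : dedekindPsi M < M * (p + 1) := by
  have h := sa3_two_mul_psi_le_mul p M hp hM hsq hlt
  have hMpos : 0 < M := Nat.pos_of_ne_zero hM
  nlinarith

end Fermat.Agent.S28x
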