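import Mathlib

/-!
# S28 project, module ALG-LS: field theory of Laurent series over a field (helper87, prefix `lf_`)

`K = k((q))` (`HahnSeries ℤ k`), `φ : K' → K` a ring homomorphism from a field all of whose non-zero
values have `q`-order divisible by `p` (e.g. `K' = k((q))`, `φ = (q ↦ q^p)`).  If `x ∈ K` has order
prime to `p`, then `1, x, …, x^(p-1)` are linearly independent over `φ(K')`; consequently a monic
polynomial of degree `p` over `K'` killing `x` is irreducible.
-/

set_option autoImplicit false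

open HahnSeries

namespace Fermat.Agent.S28x

section OrderTop

variable {Γ R : Type*} [LinearOrder Γ] [AddCommMonoid R]

/-- a finite sum of series of order `> c` has order `> c` -/
theorem lf_lt_orderTop_sum {ι : Type*} (t : Finset ι) (a : ι → HahnSeries Γ R) (c : WithTop Γ)
    (hc : c < ⊤) (h : ∀ j ∈ t, c < (a j).orderTop) : c < (∑ j ∈ t, a j).orderTop := by
  classical
  induction t using Finset.induction_on with
  | empty => simpa using hc
  | insert i t hi ih =>
    rw [Finset.sum_insert hi]
    have h1 : c < (a i).orderTop := h i (Finset.mem_insert_self i t)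
    have h2 : c < (∑ j ∈ t, a j).orderTop :=
      ih (fun j hj => h j (Finset.mem_insert_of_mem hj))
    exact lt_of_lt_of_le (lt_min h1 h2) min_orderTop_le_orderTop_add

end OrderTop

section OrderTop'

variable {Γ R : Type*} [LinearOrder Γ] [AddCommGroup R]

/-- a finite sum with a strictly dominant term: the order is that of the dominant term -/
theorem lf_orderTop_sum_eq {ι : Type*} [DecidableEq ι] (s : Finset ι) (a : ι → HahnSeries Γ R)
    (i₀ : ι) (hi₀ : i₀ ∈ s) (h0 : a i₀ ≠ 0)
    (h : ∀ j ∈ s, j ≠ i₀ → (a i₀).orderTop < (a j).orderTop) :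
    (∑ j ∈ s, a j).orderTop = (a i₀).orderTop := by
  rw [← Finset.add_sum_erase s a hi₀]
  apply orderTop_add_eq_left
  apply lf_lt_orderTop_sum
  · exact lt_top_iff_ne_top.mpr (by simpa using h0)
  · intro j hj
    exact h j (Finset.mem_of_mem_erase hj) (Finset.ne_of_mem_erase hj)

end OrderTop'

section Main

variable {k : Type*} [Field k] {K' : Type*} [Field K']

/-- order of a power, in `WithTop ℤ` -/
theorem lf_orderTop_pow (x : HahnSeries ℤ k) (n : ℕ) :
    (x ^ n).orderTop = n • x.orderTop := by
  induction n with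
  | zero => simp
  | succ n ih => rw [pow_succ, orderTop_mul, ih, succ_nsmul]

/-- order of a non-zero element as an integer -/
theorem lf_orderTop_eq_order {x : HahnSeries ℤ k} (hx : x ≠ 0) :
    x.orderTop = ((x.order : ℤ) : WithTop ℤ) := by
  rw [order_of_ne hx, orderTop_of_ne_zero hx]

/-- **Independence.**  If all non-zero values of `φ` have order divisible by `p` and `x` has order
prime to `p`, then a `φ(K')`-linear combination of `1, x, …, x^(p-1)` vanishes only trivially. -/
theorem lf_linearIndependent (p : ℕ) (φ : K' →+* HahnSeries ℤ k)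
    (hφ : ∀ c : K', c ≠ 0 → (p : ℤ) ∣ (φ c).order)
    (x : HahnSeries ℤ k) (hx : x ≠ 0) (hcop : IsCoprime x.order (p : ℤ))
    (c : ℕ → K') (hsum : ∑ i ∈ Finset.range p, φ (c i) * x ^ i = 0) :
    ∀ i ∈ Finset.range p, c i = 0 := by
  classical
  by_contra hcon
  push Not at hcon
  obtain ⟨i₁, hi₁, hci₁⟩ := hcon
  set S : Finset ℕ := (Finset.range p).filter (fun i => c i ≠ 0) with hS
  have hSne : S.Nonempty := ⟨i₁, by simp [hS, Finset.mem_range.mp hi₁, hci₁]⟩
  set a : ℕ → HahnSeries ℤ k := fun i => φ (c i) * x ^ i with ha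
  have hφinj : Function.Injective φ := φ.injective
  -- the terms indexed by `S` are non-zero with explicit orders
  have hane : ∀ i ∈ S, a i ≠ 0 := by
    intro i hi
    have hc : c i ≠ 0 := (Finset.mem_filter.mp hi).2
    exact mul_ne_zero (fun h => hc (hφinj (by rw [h, map_zero]))) (pow_ne_zero _ hx)
  have hord : ∀ i ∈ S, (a i).orderTop = (((φ (c i)).order + i * x.order : ℤ) : WithTop ℤ) := by
    intro i hi
    have hc : c i ≠ 0 := (Finset.mem_filter.mp hi).2
    have hφc : φ (c i) ≠ 0 := fun h => hc (hφinj (by rw [h, map_zero]))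
    rw [ha]
    simp only
    rw [orderTop_mul, lf_orderTop_pow, lf_orderTop_eq_order hφc, lf_orderTop_eq_order hx,
      ← WithTop.coe_nsmul, ← WithTop.coe_add, nsmul_eq_mul]
  -- the orders are pairwise distinct on `S`
  have hdist : ∀ i ∈ S, ∀ j ∈ S, (a i).orderTop = (a j).orderTop → i = j := by
    intro i hi j hj hij
    rw [hord i hi, hord j hj] at hij
    have hij' : (φ (c i)).order + i * x.order = (φ (c j)).order + j * x.order := by
      exact_mod_cast hij
    have hci : c i ≠ 0 := (Finset.mem_filter.mp hi).2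
    have hcj : c j ≠ 0 := (Finset.mem_filter.mp hj).2
    obtain ⟨m, hm⟩ := hφ (c i) hci
    obtain ⟨n, hn⟩ := hφ (c j) hcj
    have hdvd : (p : ℤ) ∣ ((i : ℤ) - j) * x.order := ⟨n - m, by rw [hm, hn] at hij'; linarith⟩
    have hdvd' : (p : ℤ) ∣ (i : ℤ) - j := (hcop.symm.dvd_of_dvd_mul_right hdvd)
    have hi' : i < p := Finset.mem_range.mp (Finset.mem_filter.mp hi).1
    have hj' : j < p := Finset.mem_range.mp (Finset.mem_filter.mp hj).1
    have habs : |(i : ℤ) - j| < p := by
      rw [abs_lt]; constructor <;> omega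
    have h0 : (i : ℤ) - j = 0 := Int.eq_zero_of_abs_lt_dvd hdvd' habs
    omega
  -- a strictly dominant term exists
  obtain ⟨i₀, hi₀S, hmin⟩ := Finset.exists_min_image S (fun i => (a i).orderTop) hSne
  have hstrict : ∀ j ∈ S, j ≠ i₀ → (a i₀).orderTop < (a j).orderTop := by
    intro j hj hne
    exact lt_of_le_of_ne (hmin j hj) (fun h => hne (hdist i₀ hi₀S j hj h).symm)
  have hsumS : ∑ i ∈ S, a i = 0 := by
    rw [hS, Finset.sum_filter]
    have hterm : ∀ i ∈ Finset.range p, (if c i ≠ 0 then a i else 0) = a i := by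
      intro i _
      by_cases hc : c i = 0
      · simp [hc, ha]
      · simp [hc]
    rw [Finset.sum_congr rfl hterm]
    exact hsum
  have hkey := lf_orderTop_sum_eq S a i₀ hi₀S (hane i₀ hi₀S) hstrict
  rw [hsumS, orderTop_zero] at hkey
  exact (hane i₀ hi₀S) (by simpa using hkey.symm)

/-- a non-zero polynomial over `K'` of degree `< p` does not kill `x` -/
theorem lf_eval₂_ne_zero (p : ℕ) (φ : K' →+* HahnSeries ℤ k)
    (hφ : ∀ c : K', c ≠ 0 → (p : ℤ) ∣ (φ c).order)
    (x : HahnSeries ℤ k) (hx : x ≠ 0) (hcop : IsCoprime x.order (p : ℤ))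
    (P : Polynomial K') (hP : P ≠ 0) (hdeg : P.natDegree < p) :
    Polynomial.eval₂ φ x P ≠ 0 := by
  intro h0
  have hsum : ∑ i ∈ Finset.range p, φ (P.coeff i) * x ^ i = 0 := by
    rw [← h0, Polynomial.eval₂_eq_sum_range]
    symm
    apply Finset.sum_subset
    · intro i hi
      rw [Finset.mem_range] at hi ⊢
      omega
    · intro i _ hi
      rw [Finset.mem_range, not_lt] at hi
      rw [Polynomial.coeff_eq_zero_of_natDegree_lt (by omega), map_zero, zero_mul]
  have hall := lf_linearIndependent p φ hφ x hx hcop (fun i => P.coeff i) hsum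
  apply hP
  ext i
  by_cases hi : i < p
  · simpa using hall i (Finset.mem_range.mpr hi)
  · rw [Polynomial.coeff_eq_zero_of_natDegree_lt (by omega), Polynomial.coeff_zero]

/-- **Irreducibility.**  A monic polynomial of degree `p` over `K'` killing `x` is irreducible. -/
theorem lf_irreducible (p : ℕ) (hp : 0 < p) (φ : K' →+* HahnSeries ℤ k)
    (hφ : ∀ c : K', c ≠ 0 → (p : ℤ) ∣ (φ c).order)
    (x : HahnSeries ℤ k) (hx : x ≠ 0) (hcop : IsCoprime x.order (p : ℤ))
    (P : Polynomial K') (hmonic : P.Monic) (hdeg : P.natDegree = p)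
    (hroot : Polynomial.eval₂ φ x P = 0) : Irreducible P := by
  have hP0 : P ≠ 0 := hmonic.ne_zero
  refine ⟨?_, ?_⟩
  · intro hu
    have := Polynomial.natDegree_eq_zero_of_isUnit hu
    omega
  · intro A B hAB
    have hA0 : A ≠ 0 := fun h => hP0 (by rw [hAB, h, zero_mul])
    have hB0 : B ≠ 0 := fun h => hP0 (by rw [hAB, h, mul_zero])
    have hdegAB : A.natDegree + B.natDegree = p := by
      rw [← hdeg, hAB, Polynomial.natDegree_mul hA0 hB0]
    by_contra hcon
    push Not at hcon
    obtain ⟨hAu, hBu⟩ := hcon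
    have hA1 : 0 < A.natDegree := by
      rcases Nat.eq_zero_or_pos A.natDegree with h | h
      · exfalso
        apply hAu
        rw [Polynomial.eq_C_of_natDegree_eq_zero h]
        apply Polynomial.isUnit_C.mpr
        apply IsUnit.mk0
        intro hc
        apply hA0
        rw [Polynomial.eq_C_of_natDegree_eq_zero h, hc, map_zero]
      · exact h
    have hB1 : 0 < B.natDegree := by
      rcases Nat.eq_zero_or_pos B.natDegree with h | h
      · exfalso
        apply hBu
        rw [Polynomial.eq_C_of_natDegree_eq_zero h]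
        apply Polynomial.isUnit_C.mpr
        apply IsUnit.mk0
        intro hc
        apply hB0
        rw [Polynomial.eq_C_of_natDegree_eq_zero h, hc, map_zero]
      · exact h
    have hmul : Polynomial.eval₂ φ x A * Polynomial.eval₂ φ x B = 0 := by
      rw [← Polynomial.eval₂_mul, ← hAB, hroot]
    rcases mul_eq_zero.mp hmul with h | h
    · exact lf_eval₂_ne_zero p φ hφ x hx hcop A hA0 (by omega) h
    · exact lf_eval₂_ne_zero p φ hφ x hx hcop B hB0 (by omega) h

end Main

section Expand

variable {k : Type*} [Field k]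

/-- the substitution `q ↦ q^p` on Laurent series, as a ring homomorphism -/
noncomputable def lf_expand (p : ℕ) (hp : 0 < p) : HahnSeries ℤ k →+* HahnSeries ℤ k :=
  HahnSeries.embDomainRingHom (AddMonoidHom.mulLeft (p : ℤ))
    (fun a b h => by
      have hp' : (p : ℤ) ≠ 0 := by exact_mod_cast hp.ne'
      exact mul_left_cancel₀ hp' h)
    (fun a b => by
      have hp' : (0 : ℤ) < p := by exact_mod_cast hp
      exact mul_le_mul_iff_right₀ hp')

theorem lf_expand_coeff_mul (p : ℕ) (hp : 0 < p) (x : HahnSeries ℤ k) (n : ℤ) :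
    (lf_expand p hp x).coeff ((p : ℤ) * n) = x.coeff n := by
  have := HahnSeries.embDomain_mk_coeff (R := k) (f := fun a : ℤ => (p : ℤ) * a)
    (fun a b h => by
      have hp' : (p : ℤ) ≠ 0 := by exact_mod_cast hp.ne'
      exact mul_left_cancel₀ hp' h)
    (fun a b => by
      have hp' : (0 : ℤ) < p := by exact_mod_cast hp
      exact mul_le_mul_iff_right₀ hp') (x := x) (a := n)
  exact this

theorem lf_expand_coeff_of_not_dvd (p : ℕ) (hp : 0 < p) (x : HahnSeries ℤ k) (n : ℤ)
    (hn : ¬ (p : ℤ) ∣ n) : (lf_expand p hp x).coeff n = 0 := by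
  apply HahnSeries.embDomain_of_notMem_range
  rintro ⟨m, hm⟩
  exact hn ⟨m, hm.symm⟩

theorem lf_expand_orderTop (p : ℕ) (hp : 0 < p) (x : HahnSeries ℤ k) :
    (lf_expand p hp x).orderTop = WithTop.map (fun a : ℤ => (p : ℤ) * a) x.orderTop := by
  exact HahnSeries.orderTop_embDomain

theorem lf_expand_ne_zero (p : ℕ) (hp : 0 < p) {x : HahnSeries ℤ k} (hx : x ≠ 0) :
    lf_expand p hp x ≠ 0 := by
  intro h
  exact hx ((lf_expand p hp).injective (by rw [h, map_zero]))

theorem lf_expand_order (p : ℕ) (hp : 0 < p) {x : HahnSeries ℤ k} (hx : x ≠ 0) :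
    (lf_expand p hp x).order = (p : ℤ) * x.order := by
  have h1 := lf_expand_orderTop p hp x
  rw [lf_orderTop_eq_order hx, lf_orderTop_eq_order (lf_expand_ne_zero p hp hx),
    WithTop.map_coe] at h1
  exact_mod_cast h1

theorem lf_expand_dvd_order (p : ℕ) (hp : 0 < p) (c : HahnSeries ℤ k) (hc : c ≠ 0) :
    (p : ℤ) ∣ (lf_expand p hp c).order :=
  ⟨c.order, lf_expand_order p hp hc⟩

/-- `1, x, …, x^(p-1)` are independent over `k((q^p))` if `ord x` is prime to `p` -/
theorem lf_linearIndependent_expand (p : ℕ) (hp : 0 < p)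
    (x : HahnSeries ℤ k) (hx : x ≠ 0) (hcop : IsCoprime x.order (p : ℤ))
    (c : ℕ → HahnSeries ℤ k)
    (hsum : ∑ i ∈ Finset.range p, lf_expand p hp (c i) * x ^ i = 0) :
    ∀ i ∈ Finset.range p, c i = 0 :=
  lf_linearIndependent p (lf_expand p hp) (lf_expand_dvd_order p hp) x hx hcop c hsum

/-- a monic polynomial of degree `p` over `k((q))`, which after `q ↦ q^p` kills an `x` of order
prime to `p`, is irreducible -/
theorem lf_irreducible_expand (p : ℕ) (hp : 0 < p)
    (x : HahnSeries ℤ k) (hx : x ≠ 0) (hcop : IsCoprime x.order (p : ℤ))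
    (P : Polynomial (HahnSeries ℤ k)) (hmonic : P.Monic) (hdeg : P.natDegree = p)
    (hroot : Polynomial.eval₂ (lf_expand p hp) x P = 0) : Irreducible P :=
  lf_irreducible p hp (lf_expand p hp) (lf_expand_dvd_order p hp) x hx hcop P hmonic hdeg hroot

end Expand

end Fermat.Agent.S28x
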