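/-
S28 project, module LF (helper87, prefix `lf_`): the Spec statements of row LF, phrased with the
Prelude's `qExpand` (`q ↦ qⁿ`).  General lemmas are in `S28x/LaurentField.lean`.
-/
import Fermat.Agent.S28x.Defs
import Fermat.Agent.S28x.LaurentField

set_option autoImplicit false

open HahnSeries ModularCurve

namespace Fermat.Agent.S28x

noncomputable section

variable {k : Type*} [Field k]

/-- the Prelude's `qExpand` is the `lf_expand` of `LaurentField.lean` -/
theorem lf_qExpand_eq_expand (n : ℕ) [NeZero n] :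
    qExpand k n = lf_expand (k := k) n (Nat.pos_of_ne_zero (NeZero.ne n)) := rfl

theorem lf_qExpand_dvd_order (n : ℕ) [NeZero n] (c : LaurentSeries k) (hc : c ≠ 0) :
    (n : ℤ) ∣ (qExpand k n c).order := by
  rw [lf_qExpand_eq_expand]
  exact lf_expand_dvd_order n _ c hc

/-- `1, x, …, x^(n-1)` are linearly independent over `k((qⁿ))` if `ord x` is prime to `n`. -/
theorem lf_linearIndependent_pow_of_isCoprime (n : ℕ) [NeZero n] (x : LaurentSeries k)
    (hx : x ≠ 0) (hcop : IsCoprime x.order (n : ℤ)) :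
    LinearIndependent (qExpand k n).fieldRange (fun i : Fin n => x ^ (i : ℕ)) := by
  classical
  rw [Fintype.linearIndependent_iff]
  intro g hg i
  -- choose preimages of the coefficients
  have hex : ∀ j : Fin n, ∃ c : LaurentSeries k, qExpand k n c = (g j : LaurentSeries k) := by
    intro j
    obtain ⟨c, hc⟩ := RingHom.mem_fieldRange.mp (g j).2
    exact ⟨c, hc⟩
  choose c hc using hex
  set c' : ℕ → LaurentSeries k := fun m => if h : m < n then c ⟨m, h⟩ else 0 with hc'
  have hsum : ∑ m ∈ Finset.range n, qExpand k n (c' m) * x ^ m = 0 := by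
    rw [Finset.sum_range]
    rw [← hg]
    apply Finset.sum_congr rfl
    intro j _
    have : c' (j : ℕ) = c j := by
      simp only [hc', j.2, dif_pos]
    rw [this, hc j]
    rfl
  have hall := lf_linearIndependent n (qExpand k n) (lf_qExpand_dvd_order n) x hx hcop c' hsum
    (i : ℕ) (Finset.mem_range.mpr i.2)
  have hci : c i = 0 := by
    have : c' (i : ℕ) = c i := by
      simp only [hc', i.2, dif_pos]
    rw [← this, hall]
  apply Subtype.ext
  rw [← hc i, hci, map_zero]
  rfl

/-- **Spec LF-1.** If `ord_q x` is prime to the prime `p` then `1, x, …, x^{p-1}` are linearly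
independent over `k((q^p))`. -/
theorem lf_linearIndependent_pow (p : ℕ) [Fact p.Prime]
    (x : LaurentSeries k) (hx : x ≠ 0) (hord : ¬ (p : ℤ) ∣ x.order) :
    haveI : NeZero p := ⟨(Fact.out : p.Prime).ne_zero⟩
    LinearIndependent (qExpand k p).fieldRange (fun i : Fin p => x ^ (i : ℕ)) := by
  have : NeZero p := ⟨(Fact.out : p.Prime).ne_zero⟩
  apply lf_linearIndependent_pow_of_isCoprime p x hx
  have hp : Prime (p : ℤ) := Nat.prime_iff_prime_int.mp (Fact.out : p.Prime)
  exact (hp.coprime_iff_not_dvd.mpr hord).symm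

/-! ### The degree `[k((q)) : k((qⁿ))] = n` -/

/-- the `r`-th slice `∑ₘ a_{nm+r} qᵐ` of `∑ a_m qᵐ` -/
def lf_slice (n : ℕ) [NeZero n] (r : ℕ) (f : LaurentSeries k) : LaurentSeries k :=
  HahnSeries.ofSuppBddBelow (fun m : ℤ => f.coeff ((n : ℤ) * m + r)) (by
    refine ⟨min (f.order - r) 0, ?_⟩
    intro m hm
    rw [Function.mem_support] at hm
    by_contra hlt
    rw [not_le] at hlt
    apply hm
    apply HahnSeries.coeff_eq_zero_of_lt_order
    have h1 : m < f.order - r := lt_of_lt_of_le hlt (min_le_left _ _)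
    have h2 : m < 0 := lt_of_lt_of_le hlt (min_le_right _ _)
    have hn : (1 : ℤ) ≤ n := by exact_mod_cast Nat.pos_of_ne_zero (NeZero.ne n)
    nlinarith)

theorem lf_slice_coeff (n : ℕ) [NeZero n] (r : ℕ) (f : LaurentSeries k) (m : ℤ) :
    (lf_slice n r f).coeff m = f.coeff ((n : ℤ) * m + r) := rfl

/-- `f = ∑_{r < n} (f_r)(qⁿ) · q^r` -/
theorem lf_decomp (n : ℕ) [NeZero n] (f : LaurentSeries k) :
    f = ∑ r : Fin n, qExpand k n (lf_slice n r f) * (HahnSeries.single (1 : ℤ) (1 : k)) ^ (r : ℕ) := by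
  classical
  have hn : (0 : ℤ) < n := by exact_mod_cast Nat.pos_of_ne_zero (NeZero.ne n)
  ext m
  rw [HahnSeries.coeff_sum]
  have hpow : ∀ r : ℕ, (HahnSeries.single (1 : ℤ) (1 : k)) ^ r = HahnSeries.single (r : ℤ) 1 := by
    intro r
    rw [HahnSeries.single_pow]
    simp
  -- the only contributing index is `m % n`
  set r₀ : Fin n := ⟨(m % n).toNat, by
    have h1 : 0 ≤ m % n := Int.emod_nonneg m hn.ne'
    have h2 : m % n < n := Int.emod_lt_of_pos m hn
    omega⟩ with hr₀
  have hr₀v : ((r₀ : ℕ) : ℤ) = m % n := by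
    have h1 : 0 ≤ m % n := Int.emod_nonneg m hn.ne'
    simp only [hr₀]
    omega
  have hcoeff : ∀ r : Fin n,
      (qExpand k n (lf_slice n r f) * (HahnSeries.single (1 : ℤ) (1 : k)) ^ (r : ℕ)).coeff m
        = (qExpand k n (lf_slice n r f)).coeff (m - r) := by
    intro r
    rw [hpow]
    have : m = (m - r) + r := by ring
    conv_lhs => rw [this]
    rw [HahnSeries.coeff_mul_single_add, mul_one]
  rw [Finset.sum_eq_single r₀]
  · rw [hcoeff r₀, hr₀v]
    have hdecomp : m - m % n = (n : ℤ) * (m / n) := by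
      have := Int.emod_add_mul_ediv m n
      linarith
    rw [hdecomp, qExpand_coeff_mul, lf_slice_coeff, hr₀v]
    congr 1
    have := Int.emod_add_mul_ediv m n
    linarith
  · intro r _ hr
    rw [hcoeff r]
    apply qExpand_coeff_of_not_dvd
    intro hdvd
    apply hr
    apply Fin.ext
    have h1 : (m - r) % n = 0 := Int.emod_eq_zero_of_dvd hdvd
    have h2 : m % n = (r : ℤ) % n := by
      have := Int.emod_emod_of_dvd
      exact (Int.emod_eq_emod_iff_emod_sub_eq_zero).mpr h1
    have h3 : ((r : ℕ) : ℤ) % n = r := Int.emod_eq_of_lt (by positivity) (by exact_mod_cast r.2)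
    have : ((r : ℕ) : ℤ) = ((r₀ : ℕ) : ℤ) := by rw [hr₀v, h2, h3]
    exact_mod_cast this
  · intro h
    exact absurd (Finset.mem_univ r₀) h

/-- **Spec LF-2.** `[k((q)) : k((qⁿ))] = n` -/
theorem lf_finrank_fieldRange (n : ℕ) [NeZero n] :
    Module.finrank (qExpand k n).fieldRange (LaurentSeries k) = n := by
  classical
  have hx : (HahnSeries.single (1 : ℤ) (1 : k)) ≠ 0 := by simp
  have hord : (HahnSeries.single (1 : ℤ) (1 : k)).order = 1 :=
    HahnSeries.order_single one_ne_zero
  have hli := lf_linearIndependent_pow_of_isCoprime n (HahnSeries.single (1 : ℤ) (1 : k)) hx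
    (by rw [hord]; exact isCoprime_one_left)
  have hspan : ⊤ ≤ Submodule.span (qExpand k n).fieldRange
      (Set.range (fun i : Fin n => (HahnSeries.single (1 : ℤ) (1 : k)) ^ (i : ℕ))) := by
    intro f _
    rw [lf_decomp n f]
    apply Submodule.sum_mem
    intro r _
    have hmem : qExpand k n (lf_slice n r f) ∈ (qExpand k n).fieldRange :=
      RingHom.mem_fieldRange.mpr ⟨_, rfl⟩
    have : qExpand k n (lf_slice n r f) * (HahnSeries.single (1 : ℤ) (1 : k)) ^ (r : ℕ)
        = (⟨qExpand k n (lf_slice n r f), hmem⟩ : (qExpand k n).fieldRange) •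
          (HahnSeries.single (1 : ℤ) (1 : k)) ^ (r : ℕ) := rfl
    rw [this]
    apply Submodule.smul_mem
    apply Submodule.subset_span
    exact ⟨r, rfl⟩
  have hb := Module.finrank_eq_card_basis (Module.Basis.mk hli hspan)
  rw [hb, Fintype.card_fin]

/-! ### The substitution `q ↦ ζ q` -/

/-- the product formula with enlarged index sets -/
theorem lf_coeff_mul_of_subset {x y : HahnSeries ℤ k} {a : ℤ} {s t : Set ℤ} (hs : s.IsPWO)
    (ht : t.IsPWO) (hxs : x.support ⊆ s) (hyt : y.support ⊆ t) :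
    (x * y).coeff a = ∑ ij ∈ Finset.antidiagonal hs ht a, x.coeff ij.1 * y.coeff ij.2 := by
  rw [HahnSeries.coeff_mul]
  apply Finset.sum_subset
  · intro ij hij
    simp only [Finset.mem_antidiagonal] at hij ⊢
    exact ⟨hxs hij.1, hyt hij.2.1, hij.2.2⟩
  · intro ij hij hnot
    simp only [Finset.mem_antidiagonal, not_and] at hij hnot
    by_cases hx : x.coeff ij.1 = 0
    · rw [hx, zero_mul]
    · by_cases hy : y.coeff ij.2 = 0
      · rw [hy, mul_zero]
      · exact absurd hij.2.2 (hnot hx hy)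

/-- `∑ aₙ qⁿ ↦ ∑ ζⁿ aₙ qⁿ` as a function -/
def lf_rescaleFun (ζ : k) (x : HahnSeries ℤ k) : HahnSeries ℤ k :=
  ⟨fun n => ζ ^ n * x.coeff n, x.isPWO_support.mono (by
    intro n hn
    rw [Function.mem_support] at hn
    rw [HahnSeries.mem_support]
    exact right_ne_zero_of_mul hn)⟩

theorem lf_rescaleFun_coeff (ζ : k) (x : HahnSeries ℤ k) (n : ℤ) :
    (lf_rescaleFun ζ x).coeff n = ζ ^ n * x.coeff n := rfl

theorem lf_rescaleFun_support (ζ : k) (x : HahnSeries ℤ k) :
    (lf_rescaleFun ζ x).support ⊆ x.support := by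
  intro n hn
  rw [HahnSeries.mem_support, lf_rescaleFun_coeff] at hn
  rw [HahnSeries.mem_support]
  exact right_ne_zero_of_mul hn

/-- the substitution `q ↦ ζ q` as a ring endomorphism of `k((q))` -/
def lf_rescale (ζ : k) (hζ : ζ ≠ 0) : HahnSeries ℤ k →+* HahnSeries ℤ k where
  toFun := lf_rescaleFun ζ
  map_one' := by
    ext n
    rw [lf_rescaleFun_coeff, HahnSeries.coeff_one]
    split_ifs with h
    · rw [h]; simp
    · simp
  map_mul' x y := by
    ext n
    rw [lf_rescaleFun_coeff, HahnSeries.coeff_mul,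
      lf_coeff_mul_of_subset x.isPWO_support y.isPWO_support (lf_rescaleFun_support ζ x)
        (lf_rescaleFun_support ζ y), Finset.mul_sum]
    apply Finset.sum_congr rfl
    intro ij hij
    rw [Finset.mem_antidiagonal] at hij
    rw [lf_rescaleFun_coeff, lf_rescaleFun_coeff, ← hij.2.2, zpow_add₀ hζ]
    ring
  map_zero' := by
    ext n
    rw [lf_rescaleFun_coeff]
    simp
  map_add' x y := by
    ext n
    rw [HahnSeries.coeff_add, lf_rescaleFun_coeff, lf_rescaleFun_coeff, lf_rescaleFun_coeff,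
      HahnSeries.coeff_add, mul_add]

theorem lf_rescale_coeff (ζ : k) (hζ : ζ ≠ 0) (x : HahnSeries ℤ k) (n : ℤ) :
    (lf_rescale ζ hζ x).coeff n = ζ ^ n * x.coeff n := rfl

/-- **Spec LF-3.** the substitution `q ↦ ζ q` -/
theorem lf_exists_rescale (ζ : k) (hζ : ζ ≠ 0) :
    ∃ R : LaurentSeries k →+* LaurentSeries k,
      ∀ (x : LaurentSeries k) (n : ℤ), (R x).coeff n = ζ ^ n * x.coeff n :=
  ⟨lf_rescale ζ hζ, lf_rescale_coeff ζ hζ⟩

end

end Fermat.Agent.S28x
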