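/-
S28 project, module SA (StepA), sub-leaf SA2 (helper47): counting ring homs + the `M` twists
`q ↦ ζ^c q`.  Statements: docs `S28_SA_subspec_helper23`.
-/
import Fermat.Agent.S28x.Defs
import Fermat.Agent.S28x.LaurentFieldQ

set_option autoImplicit false

open ModularCurve

namespace Fermat.Agent.S28x

noncomputable section

/-- **Counting.** pairwise distinct ring homs out of `E` which agree on `L1 ≤ E` are at most
`[E : L1]` many. -/
theorem sa2_card_le_relfinrank {k 𝕃 Ω : Type*} [Field k] [Field 𝕃] [Algebra k 𝕃] [Field Ω]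
    (L1 E : IntermediateField k 𝕃) (h : L1 ≤ E) (hfin : IntermediateField.relfinrank L1 E ≠ 0)
    {ι : Type*} [Fintype ι] (σ : ι → (↥E →+* Ω)) (hinj : Function.Injective σ)
    (hagree : ∀ (c c' : ι) (z : ↥E), (z : 𝕃) ∈ L1 → σ c z = σ c' z) :
    Fintype.card ι ≤ IntermediateField.relfinrank L1 E := by
  classical
  rcases isEmpty_or_nonempty ι with hι | ⟨⟨c₀⟩⟩
  · simp
  rw [IntermediateField.relfinrank_eq_finrank_of_le h] at hfin ⊢
  set E' : IntermediateField ↥L1 𝕃 := IntermediateField.extendScalars h with hE'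
  have hfd : FiniteDimensional ↥L1 ↥E' := Module.finite_of_finrank_pos (Nat.pos_of_ne_zero hfin)
  have hfree : Module.Free ↥L1 ↥E' := Module.Free.of_divisionRing ↥L1 ↥E'
  -- the identity map `E' → E`
  let e : ↥E' →+* ↥E :=
    { toFun := fun x => ⟨x.1, x.2⟩
      map_one' := rfl
      map_mul' := fun _ _ => rfl
      map_zero' := rfl
      map_add' := fun _ _ => rfl }
  have he : Function.Injective e := fun x y hxy => Subtype.ext (congrArg (fun z : ↥E => (z : 𝕃)) hxy)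
  have hesurj : Function.Surjective e := fun x => ⟨⟨x.1, x.2⟩, rfl⟩
  let _ : Algebra ↥L1 Ω := ((σ c₀).comp (e.comp (algebraMap ↥L1 ↥E'))).toAlgebra
  let f : ι → (↥E' →ₐ[↥L1] Ω) := fun c =>
    { ((σ c).comp e) with
      commutes' := fun r => by
        change σ c (e (algebraMap ↥L1 ↥E' r)) = σ c₀ (e (algebraMap ↥L1 ↥E' r))
        exact hagree c c₀ _ r.2 }
  have hf : Function.Injective f := by
    intro c c' hcc
    apply hinj
    ext z
    obtain ⟨z', rfl⟩ := hesurj z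
    exact congrArg (fun g : ↥E' →ₐ[↥L1] Ω => g z') hcc
  calc Fintype.card ι = Nat.card ι := (Nat.card_eq_fintype_card).symm
    _ ≤ Nat.card (↥E' →ₐ[↥L1] Ω) := Nat.card_le_card_of_injective f hf
    _ ≤ Module.finrank ↥L1 ↥E' := card_algHom_le_finrank ↥L1 ↥E' Ω


/-- **Twists.** `ℓ ∤ M`: there are `M` ring homs `τ c : 𝔽_ℓ((q)) → K((q))` (coefficient extension
to a field with a primitive `M`-th root of unity `ζ`, followed by `q ↦ ζ^c q`) which all agree
on `𝔽_ℓ((q^M))` and are pairwise distinct at `j̃`. -/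
theorem sa2_exists_twists (ℓ M : ℕ) [Fact ℓ.Prime] [NeZero M] (hℓM : ¬ ℓ ∣ M) :
    ∃ (K : Type) (_ : Field K)
      (τ : Fin M → (LaurentSeries (ZMod ℓ) →+* LaurentSeries K)),
      (∀ (c c' : Fin M) (x : LaurentSeries (ZMod ℓ)),
        τ c (qExpand (ZMod ℓ) M x) = τ c' (qExpand (ZMod ℓ) M x)) ∧
      (∀ c c' : Fin M, τ c (jqModC (ZMod ℓ)) = τ c' (jqModC (ZMod ℓ)) → c = c') := by
  classical
  have hM0 : NeZero ((M : ℕ) : ZMod ℓ) := ⟨by
    rw [Ne, ZMod.natCast_eq_zero_iff]; exact hℓM⟩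
  obtain ⟨ζ, hζ⟩ := HasEnoughRootsOfUnity.exists_primitiveRoot (AlgebraicClosure (ZMod ℓ)) M
  have hζ0 : ζ ≠ 0 := hζ.ne_zero (NeZero.ne M)
  -- the rescalings
  have hR : ∀ c : Fin M, ∃ R : LaurentSeries (AlgebraicClosure (ZMod ℓ)) →+*
      LaurentSeries (AlgebraicClosure (ZMod ℓ)),
      ∀ (x : LaurentSeries (AlgebraicClosure (ZMod ℓ))) (n : ℤ),
        (R x).coeff n = (ζ ^ (c : ℕ)) ^ n * x.coeff n :=
    fun c => lf_exists_rescale (ζ ^ (c : ℕ)) (pow_ne_zero _ hζ0)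
  choose R hRc using hR
  refine ⟨AlgebraicClosure (ZMod ℓ), inferInstance,
    fun c => (R c).comp (coeffMap (algebraMap (ZMod ℓ) (AlgebraicClosure (ZMod ℓ)))), ?_, ?_⟩
  · intro c c' x
    ext n
    simp only [RingHom.comp_apply, hRc, coeffMap_coeff]
    by_cases hn : (M : ℤ) ∣ n
    · obtain ⟨m, rfl⟩ := hn
      have key : ∀ d : Fin M, (ζ ^ (d : ℕ)) ^ ((M : ℤ) * m) = 1 := by
        intro d
        rw [← zpow_natCast ζ (d : ℕ), ← zpow_mul,
          show ((d : ℕ) : ℤ) * ((M : ℤ) * m) = (M : ℤ) * (((d : ℕ) : ℤ) * m) by ring, zpow_mul,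
          zpow_natCast, hζ.pow_eq_one, one_zpow]
      rw [key c, key c']
    · rw [qExpand_coeff_of_not_dvd M x hn, map_zero, mul_zero, mul_zero]
  · intro c c' h
    have h1 := congrArg (fun y : LaurentSeries (AlgebraicClosure (ZMod ℓ)) => y.coeff (-1)) h
    simp only [RingHom.comp_apply, hRc, coeffMap_coeff, coeff_jqModC_neg_one, map_one, mul_one,
      zpow_neg, zpow_one] at h1
    have h2 : ζ ^ (c : ℕ) = ζ ^ (c' : ℕ) := inv_injective h1
    exact Fin.ext (hζ.pow_inj c.2 c'.2 h2)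

end

end Fermat.Agent.S28x
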