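/-
S28 project, module SA1 `StepADich` (helper51, prefix `sad_`): the DICHOTOMY used in Step A
(sub-spec: docs `S28_SA_subspec_helper23`; statements `sad_only_root`, `sad_dichotomy` are EXACTLY
those of the sub-spec).

Let `k` be a field, `p` a prime, `J ∈ k((q))` non-zero of order prime to `p`, `Y = J(q^p)`, and
`Φ ∈ k[Y][X]` monic of degree `p + 1` in `X` with `Φ(Y, J) = 0 = Φ(J, Y)` (first argument = the
variable `X`).  Then over `k((q))`
  `Φ(X, J) = (X - Y) · g`,  `g` monic IRREDUCIBLE of degree `p` over `k((q))`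
(because `V_p g` is a degree `p` polynomial over `k((q^p))` killing `J`, whose order is prime to
`p`).  Consequences:
* `sad_dichotomy`: for every intermediate field `k ⊆ E ⊆ k((q))` containing `J`, the element `Y` is
  integral over `E` and its minimal polynomial has degree `1` or `p + 1`;
* `sad_only_root`: if `p ∤ M`, the only root of `Φ(X, J(q^M))` in `k((q))` is `J(q^{pM})`.
-/
import Fermat.Agent.S28x.Defs
import Fermat.Agent.S28x.LaurentField
import Fermat.Agent.S28x.LaurentFieldQ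
import Fermat.Prelude.Thm_ModularCurve_coeffMap_qExpand

set_option autoImplicit false

open ModularCurve Polynomial

namespace Fermat.Agent.S28x

noncomputable section

/-! ### the factorisation `Φ(X, J) = (X - J(q^p)) · g` and the irreducibility of `g` -/

section main

variable {k : Type*} [Field k]

/-- `V_n` commutes with evaluation of `k[Y]` at a series -/
theorem sad_qExpand_comp_aeval (n : ℕ) [NeZero n] (J : LaurentSeries k) :
    (qExpand k n).comp (Polynomial.aeval (R := k) J).toRingHom =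
      (Polynomial.aeval (R := k) (qExpand k n J)).toRingHom := by
  apply Polynomial.ringHom_ext
  · intro c
    simp only [RingHom.coe_comp, Function.comp_apply, AlgHom.toRingHom_eq_coe, RingHom.coe_coe,
      Polynomial.aeval_C]
    exact (qExpandAlgHomC k n).commutes c
  · simp

/-- `qExpand` multiplies the order -/
theorem sad_order_qExpand (n : ℕ) [NeZero n] {x : LaurentSeries k} (hx : x ≠ 0) :
    (qExpand k n x).order = (n : ℤ) * x.order :=
  lf_expand_order n (Nat.pos_of_ne_zero (NeZero.ne n)) hx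

/-- `Φ(X, J) ∈ k((q))[X]` -/
def sad_P (J : LaurentSeries k) (Φ : Polynomial (Polynomial k)) : Polynomial (LaurentSeries k) :=
  Φ.map (Polynomial.aeval (R := k) J).toRingHom

/-- the cofactor `g = Φ(X, J) / (X - J(q^p))` -/
def sad_g (p : ℕ) [NeZero p] (J : LaurentSeries k) (Φ : Polynomial (Polynomial k)) :
    Polynomial (LaurentSeries k) :=
  sad_P J Φ /ₘ (X - C (qExpand k p J))

theorem sad_P_monic (J : LaurentSeries k) {Φ : Polynomial (Polynomial k)} (hΦ : Φ.Monic) :
    (sad_P J Φ).Monic :=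
  hΦ.map _

theorem sad_P_natDegree (J : LaurentSeries k) {Φ : Polynomial (Polynomial k)} (hΦ : Φ.Monic) :
    (sad_P J Φ).natDegree = Φ.natDegree :=
  hΦ.natDegree_map _

/-- `V_n` of `Φ(X, J)` is `Φ(X, J(qⁿ))` -/
theorem sad_P_map_qExpand (J : LaurentSeries k) (Φ : Polynomial (Polynomial k)) (n : ℕ)
    [NeZero n] : (sad_P J Φ).map (qExpand k n) = sad_P (qExpand k n J) Φ := by
  rw [sad_P, sad_P, Polynomial.map_map, sad_qExpand_comp_aeval]

variable (p : ℕ) [NeZero p] (J : LaurentSeries k) (Φ : Polynomial (Polynomial k))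

theorem sad_P_isRoot
    (h₁ : Φ.eval₂ (Polynomial.aeval (R := k) J).toRingHom (qExpand k p J) = 0) :
    (sad_P J Φ).IsRoot (qExpand k p J) := by
  rw [Polynomial.IsRoot, sad_P, Polynomial.eval_map]
  exact h₁

/-- `(X - J(q^p)) · g = Φ(X, J)` -/
theorem sad_mul_g
    (h₁ : Φ.eval₂ (Polynomial.aeval (R := k) J).toRingHom (qExpand k p J) = 0) :
    (X - C (qExpand k p J)) * sad_g p J Φ = sad_P J Φ :=
  Polynomial.mul_divByMonic_eq_iff_isRoot.mpr (sad_P_isRoot p J Φ h₁)

theorem sad_g_natDegree (hΦ : Φ.Monic) (hdeg : Φ.natDegree = p + 1) :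
    (sad_g p J Φ).natDegree = p := by
  rw [sad_g, Polynomial.natDegree_divByMonic _ (Polynomial.monic_X_sub_C _),
    sad_P_natDegree J hΦ, hdeg, Polynomial.natDegree_X_sub_C]
  omega

theorem sad_g_monic (hΦ : Φ.Monic) (hdeg : Φ.natDegree = p + 1) : (sad_g p J Φ).Monic := by
  rw [Polynomial.Monic, sad_g, Polynomial.leadingCoeff_divByMonic_X_sub_C]
  · exact sad_P_monic J hΦ
  · intro h0
    have h1 : (sad_P J Φ).natDegree = 0 := Polynomial.natDegree_eq_of_degree_eq_some h0
    rw [sad_P_natDegree J hΦ, hdeg] at h1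
    omega

/-- `J ≠ J(q^{p²})` when `p ∤ ord J` -/
theorem sad_ne_qExpand_sq (hp : 2 ≤ p) (hJ : J ≠ 0) (hord : ¬ (p : ℤ) ∣ J.order) :
    J ≠ qExpand k p (qExpand k p J) := by
  intro h
  have h1 : J.order = (qExpand k p (qExpand k p J)).order := by rw [← h]
  have hJ' : qExpand k p J ≠ 0 := fun h0 => hJ (qExpand_injective p (by rw [h0, map_zero]))
  rw [sad_order_qExpand p hJ', sad_order_qExpand p hJ] at h1
  have h2 : J.order * ((p : ℤ) * (p : ℤ) - 1) = 0 := by linarith
  rcases mul_eq_zero.mp h2 with h3 | h3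
  · exact hord (by rw [h3]; exact dvd_zero _)
  · have h4 : (4 : ℤ) ≤ (p : ℤ) * (p : ℤ) := by
      have : (2 : ℤ) ≤ (p : ℤ) := by exact_mod_cast hp
      nlinarith
    omega

/-- `V_p g` kills `J` -/
theorem sad_eval₂_g (hp : 2 ≤ p) (hJ : J ≠ 0) (hord : ¬ (p : ℤ) ∣ J.order)
    (h₁ : Φ.eval₂ (Polynomial.aeval (R := k) J).toRingHom (qExpand k p J) = 0)
    (h₂ : Φ.eval₂ (Polynomial.aeval (R := k) (qExpand k p J)).toRingHom J = 0) :
    Polynomial.eval₂ (qExpand k p) J (sad_g p J Φ) = 0 := by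
  have hP' : ((sad_P J Φ).map (qExpand k p)).eval J = 0 := by
    rw [sad_P_map_qExpand, sad_P, Polynomial.eval_map]
    exact h₂
  rw [← sad_mul_g p J Φ h₁, Polynomial.map_mul, Polynomial.eval_mul, Polynomial.map_sub,
    Polynomial.map_X, Polynomial.map_C, Polynomial.eval_sub, Polynomial.eval_X,
    Polynomial.eval_C] at hP'
  rcases mul_eq_zero.mp hP' with h | h
  · exact absurd (sub_eq_zero.mp h) (sad_ne_qExpand_sq p J hp hJ hord)
  · rwa [Polynomial.eval_map] at h

/-- **`g` is irreducible over `k((q))`.** -/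
theorem sad_g_irreducible (hp : p.Prime) (hJ : J ≠ 0) (hord : ¬ (p : ℤ) ∣ J.order)
    (hΦ : Φ.Monic) (hdeg : Φ.natDegree = p + 1)
    (h₁ : Φ.eval₂ (Polynomial.aeval (R := k) J).toRingHom (qExpand k p J) = 0)
    (h₂ : Φ.eval₂ (Polynomial.aeval (R := k) (qExpand k p J)).toRingHom J = 0) :
    Irreducible (sad_g p J Φ) := by
  refine lf_irreducible p hp.pos (qExpand k p) (fun c hc => lf_qExpand_dvd_order p c hc)
    J hJ ?_ (sad_g p J Φ) (sad_g_monic p J Φ hΦ hdeg) (sad_g_natDegree p J Φ hΦ hdeg)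
    (sad_eval₂_g p J Φ hp.two_le hJ hord h₁ h₂)
  have hpZ : Prime (p : ℤ) := Nat.prime_iff_prime_int.mp hp
  exact ((Prime.coprime_iff_not_dvd hpZ).mpr hord).symm

/-- `g` has no root in `k((q))` -/
theorem sad_g_eval_ne_zero (hp : p.Prime) (hJ : J ≠ 0) (hord : ¬ (p : ℤ) ∣ J.order)
    (hΦ : Φ.Monic) (hdeg : Φ.natDegree = p + 1)
    (h₁ : Φ.eval₂ (Polynomial.aeval (R := k) J).toRingHom (qExpand k p J) = 0)
    (h₂ : Φ.eval₂ (Polynomial.aeval (R := k) (qExpand k p J)).toRingHom J = 0)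
    (z : LaurentSeries k) : (sad_g p J Φ).eval z ≠ 0 := by
  intro hz
  have h1 := Polynomial.degree_eq_one_of_irreducible_of_root
    (sad_g_irreducible p J Φ hp hJ hord hΦ hdeg h₁ h₂) hz
  have h2 : (sad_g p J Φ).natDegree = 1 := Polynomial.natDegree_eq_of_degree_eq_some h1
  rw [sad_g_natDegree p J Φ hΦ hdeg] at h2
  exact hp.one_lt.ne' h2

/-- **DICHOTOMY** (explicit-instance form). -/
theorem sad_dichotomy' (hp : p.Prime) (hJ : J ≠ 0) (hord : ¬ (p : ℤ) ∣ J.order)
    (hΦ : Φ.Monic) (hdeg : Φ.natDegree = p + 1)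
    (h₁ : Φ.eval₂ (Polynomial.aeval (R := k) J).toRingHom (qExpand k p J) = 0)
    (h₂ : Φ.eval₂ (Polynomial.aeval (R := k) (qExpand k p J)).toRingHom J = 0)
    (E : IntermediateField k (LaurentSeries k)) (hJE : J ∈ E) :
    IsIntegral E (qExpand k p J) ∧
      ((minpoly E (qExpand k p J)).natDegree = 1 ∨
        (minpoly E (qExpand k p J)).natDegree = p + 1) := by
  set Y := qExpand k p J with hY
  -- `Φ(X, J)` as a polynomial over `E`
  set PE : Polynomial E := Φ.map (Polynomial.aeval (R := k) (⟨J, hJE⟩ : E)).toRingHom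
    with hPE
  have hmap : PE.map (algebraMap E (LaurentSeries k)) = sad_P J Φ := by
    rw [hPE, sad_P, Polynomial.map_map]
    congr 1
    apply Polynomial.ringHom_ext
    · intro c
      simp only [RingHom.coe_comp, Function.comp_apply, AlgHom.toRingHom_eq_coe, RingHom.coe_coe,
        Polynomial.aeval_C]
      rfl
    · simp
  have hroot : Polynomial.aeval Y PE = 0 := by
    rw [Polynomial.aeval_def, ← Polynomial.eval_map, hmap]
    exact sad_P_isRoot p J Φ h₁
  have hmonic : PE.Monic := hΦ.map _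
  have hint : IsIntegral E Y := ⟨PE, hmonic, hroot⟩
  refine ⟨hint, ?_⟩
  -- the minimal polynomial divides `(X - Y) g`
  have hdvd : minpoly E Y ∣ PE := minpoly.dvd E Y hroot
  set μ : Polynomial (LaurentSeries k) := (minpoly E Y).map (algebraMap E (LaurentSeries k))
    with hμ
  have hμdvd : μ ∣ (X - C Y) * sad_g p J Φ := by
    rw [sad_mul_g p J Φ h₁, ← hmap]
    exact Polynomial.map_dvd _ hdvd
  have hμdeg : μ.natDegree = (minpoly E Y).natDegree := Polynomial.natDegree_map _
  have hμroot : μ.IsRoot Y := by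
    rw [Polynomial.IsRoot, hμ, Polynomial.eval_map, ← Polynomial.aeval_def]
    exact minpoly.aeval E Y
  obtain ⟨ν, hν⟩ := Polynomial.dvd_iff_isRoot.mpr hμroot
  have hXY : (X - C Y : Polynomial (LaurentSeries k)) ≠ 0 := Polynomial.X_sub_C_ne_zero Y
  have hμ0 : μ ≠ 0 := by
    rw [hμ]
    exact (Polynomial.map_ne_zero_iff (algebraMap E (LaurentSeries k)).injective).mpr
      (minpoly.ne_zero hint)
  have hν0 : ν ≠ 0 := by
    rintro rfl
    exact hμ0 (by rw [hν, mul_zero])
  have hνdvd : ν ∣ sad_g p J Φ := by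
    rw [hν] at hμdvd
    exact (mul_dvd_mul_iff_left hXY).mp hμdvd
  have hdegμ : μ.natDegree = 1 + ν.natDegree := by
    rw [hν, Polynomial.natDegree_mul hXY hν0, Polynomial.natDegree_X_sub_C]
  rcases (sad_g_irreducible p J Φ hp hJ hord hΦ hdeg h₁ h₂).dvd_iff.mp hνdvd with hu | ha
  · left
    rw [← hμdeg, hdegμ, Polynomial.natDegree_eq_zero_of_isUnit hu]
  · right
    have : ν.natDegree = p := by
      rw [← sad_g_natDegree p J Φ hΦ hdeg]
      exact (Polynomial.natDegree_eq_of_degree_eq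
        (Polynomial.degree_eq_degree_of_associated ha)).symm
    rw [← hμdeg, hdegμ, this, add_comm]

/-- `V_M g` has no root in `k((q))` when `p ∤ M` (uses `[k((q)) : k((q^M))] = M`). -/
theorem sad_g_map_eval_ne_zero (hp : p.Prime) (hJ : J ≠ 0) (hord : ¬ (p : ℤ) ∣ J.order)
    (hΦ : Φ.Monic) (hdeg : Φ.natDegree = p + 1)
    (h₁ : Φ.eval₂ (Polynomial.aeval (R := k) J).toRingHom (qExpand k p J) = 0)
    (h₂ : Φ.eval₂ (Polynomial.aeval (R := k) (qExpand k p J)).toRingHom J = 0)
    (M : ℕ) [NeZero M] (hpM : ¬ p ∣ M) (z : LaurentSeries k) :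
    ((sad_g p J Φ).map (qExpand k M)).eval z ≠ 0 := by
  intro hz
  have hfin : Module.finrank (qExpand k M).fieldRange (LaurentSeries k) = M :=
    lf_finrank_fieldRange M
  set e := (qExpand k M).rangeRestrictFieldEquiv with he
  set G : Polynomial (qExpand k M).fieldRange := (sad_g p J Φ).map (e : _ →+* _) with hG
  have hGirr : Irreducible G := by
    have h := (MulEquiv.irreducible_iff (Polynomial.mapEquiv e).toMulEquiv).mpr
      (sad_g_irreducible p J Φ hp hJ hord hΦ hdeg h₁ h₂)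
    exact h
  have hGmonic : G.Monic := (sad_g_monic p J Φ hΦ hdeg).map _
  have hGdeg : G.natDegree = p := by
    rw [hG, (sad_g_monic p J Φ hΦ hdeg).natDegree_map, sad_g_natDegree p J Φ hΦ hdeg]
  have hGmap : G.map (algebraMap (qExpand k M).fieldRange (LaurentSeries k)) =
      (sad_g p J Φ).map (qExpand k M) := by
    rw [hG, Polynomial.map_map]
    rfl
  have hGroot : Polynomial.aeval z G = 0 := by
    rw [Polynomial.aeval_def, ← Polynomial.eval_map, hGmap]
    exact hz
  have hmin : minpoly (qExpand k M).fieldRange z = G :=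
    (minpoly.eq_of_irreducible_of_monic hGirr hGroot hGmonic).symm
  have hint : IsIntegral (qExpand k M).fieldRange z := ⟨G, hGmonic, hGroot⟩
  have hdvd := minpoly.degree_dvd hint
  rw [hmin, hGdeg, hfin] at hdvd
  exact hpM hdvd

/-- **Uniqueness of the root** (explicit-instance form). -/
theorem sad_only_root' (hp : p.Prime) (hJ : J ≠ 0) (hord : ¬ (p : ℤ) ∣ J.order)
    (hΦ : Φ.Monic) (hdeg : Φ.natDegree = p + 1)
    (h₁ : Φ.eval₂ (Polynomial.aeval (R := k) J).toRingHom (qExpand k p J) = 0)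
    (h₂ : Φ.eval₂ (Polynomial.aeval (R := k) (qExpand k p J)).toRingHom J = 0)
    (M : ℕ) [NeZero M] (hpM : ¬ p ∣ M) (z : LaurentSeries k)
    (hz : Φ.eval₂ (Polynomial.aeval (R := k) (qExpand k M J)).toRingHom z = 0) :
    z = qExpand k M (qExpand k p J) := by
  have h1 : ((sad_P J Φ).map (qExpand k M)).eval z = 0 := by
    rw [sad_P_map_qExpand, sad_P, Polynomial.eval_map]
    exact hz
  rw [← sad_mul_g p J Φ h₁, Polynomial.map_mul, Polynomial.eval_mul, Polynomial.map_sub,
    Polynomial.map_X, Polynomial.map_C, Polynomial.eval_sub, Polynomial.eval_X,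
    Polynomial.eval_C] at h1
  rcases mul_eq_zero.mp h1 with h | h
  · exact sub_eq_zero.mp h
  · exact absurd h (sad_g_map_eval_ne_zero p J Φ hp hJ hord hΦ hdeg h₁ h₂ M hpM z)

end main

/-! ### the two statements of the SA sub-spec (exact shapes) -/

/-- **Only root.** `p ∤ M`: the only root in `k((q))` of `Φ̃(X, J(q^M))` is `J(q^{pM})`.
(`M = 1`: the cofactor `g̃` of `X - J(q^p)` in `Φ̃(X, J)` has no root in `k((q))`.) -/
theorem sad_only_root {k : Type*} [Field k] (p : ℕ) [Fact p.Prime] (J : LaurentSeries k)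
    (hJ : J ≠ 0) (hord : ¬ (p : ℤ) ∣ J.order)
    (Φ : Polynomial (Polynomial k)) (hΦm : Φ.Monic) (hΦd : Φ.natDegree = p + 1)
    (h1 : haveI : NeZero p := ⟨(Fact.out : p.Prime).ne_zero⟩
      Φ.eval₂ (Polynomial.aeval J).toRingHom (qExpand k p J) = 0)
    (h2 : haveI : NeZero p := ⟨(Fact.out : p.Prime).ne_zero⟩
      Φ.eval₂ (Polynomial.aeval (qExpand k p J)).toRingHom J = 0)
    (M : ℕ) [NeZero M] (hpM : ¬ p ∣ M) (z : LaurentSeries k)
    (hz : Φ.eval₂ (Polynomial.aeval (qExpand k M J)).toRingHom z = 0) :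
    haveI : NeZero (p * M) := ⟨Nat.mul_ne_zero (Fact.out : p.Prime).ne_zero (NeZero.ne M)⟩
    z = qExpand k (p * M) J := by
  have : NeZero p := ⟨(Fact.out : p.Prime).ne_zero⟩
  have : NeZero (p * M) := ⟨Nat.mul_ne_zero (Fact.out : p.Prime).ne_zero (NeZero.ne M)⟩
  have : NeZero (M * p) := ⟨Nat.mul_ne_zero (NeZero.ne M) (Fact.out : p.Prime).ne_zero⟩
  have h := sad_only_root' p J Φ Fact.out hJ hord hΦm hΦd h1 h2 M hpM z hz
  rw [h, qExpand_qExpand]
  exact qExpand_congr (mul_comm M p) J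

/-- **Dichotomy.** For every intermediate field `E ∋ J` of `k((q))/k`, `y = J(q^p)` is integral
over `E` of degree `1` or `p + 1`. -/
theorem sad_dichotomy {k : Type*} [Field k] (p : ℕ) [Fact p.Prime] (J : LaurentSeries k)
    (hJ : J ≠ 0) (hord : ¬ (p : ℤ) ∣ J.order)
    (Φ : Polynomial (Polynomial k)) (hΦm : Φ.Monic) (hΦd : Φ.natDegree = p + 1)
    (h1 : haveI : NeZero p := ⟨(Fact.out : p.Prime).ne_zero⟩
      Φ.eval₂ (Polynomial.aeval J).toRingHom (qExpand k p J) = 0)
    (h2 : haveI : NeZero p := ⟨(Fact.out : p.Prime).ne_zero⟩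
      Φ.eval₂ (Polynomial.aeval (qExpand k p J)).toRingHom J = 0)
    (E : IntermediateField k (LaurentSeries k)) (hJE : J ∈ E) :
    haveI : NeZero p := ⟨(Fact.out : p.Prime).ne_zero⟩
    IsIntegral E (qExpand k p J) ∧
      ((minpoly E (qExpand k p J)).natDegree = 1 ∨
        (minpoly E (qExpand k p J)).natDegree = p + 1) := by
  have : NeZero p := ⟨(Fact.out : p.Prime).ne_zero⟩
  exact sad_dichotomy' p J Φ Fact.out hJ hord hΦm hΦd h1 h2 E hJE

end

end Fermat.Agent.S28x
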