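import Fermat.Agent.S28x.Defs

/-!
# S28 / SA-θ (helper97): the Fricke involution modulo `ℓ`

`sat_exists_theta` : from the Fricke map `w` on `F_M` (FR), the `q`-expansion principle `QEP ℓ M`
and the basic facts on `W`, `ρ`, `A_V(M)` (GR, QD; all as hypotheses) construct
`θ : F̃_M → 𝔽_ℓ((q))` with `θ(j̃(q^d)) = j̃(q^{M/d})`.
-/

set_option autoImplicit false
set_option linter.unusedVariables false

open ModularCurve

namespace Fermat.Agent.S28x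

noncomputable section

/-- `ℚ(j) ⊆ F_M` -/
theorem sat_Qj_le_full (M : ℕ) [NeZero M] : Qj ≤ modularFunctionFieldFull M := by
  rw [IntermediateField.adjoin_le_iff]
  rintro x rfl
  have := jqd_mem_full M (one_dvd M)
  rwa [qExpand_one_apply] at this

/-- a ring hom on `F_M` which agrees with the ring endomorphism `f` of `ℚ((q))` at `j` agrees with
`f` on `ℚ(j)` -/
theorem sat_eq_on_Qj (M : ℕ) [NeZero M] (w : ↥(modularFunctionFieldFull M) →+* LaurentSeries ℚ)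
    (f : LaurentSeries ℚ →+* LaurentSeries ℚ)
    (hj : w ⟨jq, sat_Qj_le_full M (IntermediateField.subset_adjoin ℚ {jq} rfl)⟩ = f jq)
    {x : LaurentSeries ℚ} (hx : x ∈ Qj) : w ⟨x, sat_Qj_le_full M hx⟩ = f x := by
  induction hx using IntermediateField.adjoin_induction with
  | mem x hx =>
    obtain rfl : x = jq := hx
    exact hj
  | algebraMap r =>
    have h1 : (⟨algebraMap ℚ (LaurentSeries ℚ) r, sat_Qj_le_full M (algebraMap_mem _ r)⟩ :
        ↥(modularFunctionFieldFull M)) = ((r : ℚ) : ↥(modularFunctionFieldFull M)) := by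
      apply Subtype.ext
      show algebraMap ℚ (LaurentSeries ℚ) r = _
      rw [eq_ratCast]
      norm_cast
    rw [h1, eq_ratCast, map_ratCast, map_ratCast]
  | add x y hx hy ihx ihy =>
    have h1 : (⟨x + y, sat_Qj_le_full M (add_mem hx hy)⟩ : ↥(modularFunctionFieldFull M)) =
        ⟨x, sat_Qj_le_full M hx⟩ + ⟨y, sat_Qj_le_full M hy⟩ := rfl
    rw [h1, map_add, map_add, ihx, ihy]
  | inv x hx ihx =>
    have h1 : (⟨x⁻¹, sat_Qj_le_full M (inv_mem hx)⟩ : ↥(modularFunctionFieldFull M)) =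
        (⟨x, sat_Qj_le_full M hx⟩ : ↥(modularFunctionFieldFull M))⁻¹ := rfl
    rw [h1, map_inv₀, map_inv₀, ihx]
  | mul x y hx hy ihx ihy =>
    have h1 : (⟨x * y, sat_Qj_le_full M (mul_mem hx hy)⟩ : ↥(modularFunctionFieldFull M)) =
        ⟨x, sat_Qj_le_full M hx⟩ * ⟨y, sat_Qj_le_full M hy⟩ := rfl
    rw [h1, map_mul, map_mul, ihx, ihy]

/-- the Fricke map sends `A_V(M)` into `W` -/
theorem sat_w_mem_gaussRing (ℓ M : ℕ) [Fact ℓ.Prime] [NeZero M]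
    (w : ↥(modularFunctionFieldFull M) →+* LaurentSeries ℚ)
    (hw : ∀ (d e : ℕ) (_ : NeZero d) (_ : NeZero e) (hde : d * e = M),
        w ⟨qExpand ℚ d jq, jqd_mem_full M (Dvd.intro e hde)⟩ = qExpand ℚ e jq)
    (hGR1 : ∀ (n : ℕ) [NeZero n] {x : LaurentSeries ℚ}, x ∈ gaussRing ℓ →
      qExpand ℚ n x ∈ gaussRing ℓ)
    (hGR2 : ∀ (d : ℕ) [NeZero d], qExpand ℚ d jq ∈ gaussRing ℓ)
    (hQD2 : ∀ {x : LaurentSeries ℚ}, x ∈ AV ℓ M → x ∈ modularFunctionFieldFull M)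
    {x : LaurentSeries ℚ} (hx : x ∈ AV ℓ M) : w ⟨x, hQD2 hx⟩ ∈ gaussRing ℓ := by
  -- `w = qExpand M` on `ℚ(j)`
  have hj : w ⟨jq, sat_Qj_le_full M (IntermediateField.subset_adjoin ℚ {jq} rfl)⟩ =
      qExpand ℚ M jq := by
    have h1 := hw 1 M ⟨one_ne_zero⟩ inferInstance (one_mul M)
    have h2 : (⟨qExpand ℚ 1 jq, jqd_mem_full M (Dvd.intro M (one_mul M))⟩ :
        ↥(modularFunctionFieldFull M)) =
        ⟨jq, sat_Qj_le_full M (IntermediateField.subset_adjoin ℚ {jq} rfl)⟩ :=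
      Subtype.ext (qExpand_one_apply jq)
    rw [← h2]
    exact h1
  have key : ∀ (y : LaurentSeries ℚ) (hy : y ∈ AV ℓ M), w ⟨y, hQD2 hy⟩ ∈ gaussRing ℓ := by
    intro y hy
    induction hy using Algebra.adjoin_induction with
    | mem y hy =>
      obtain ⟨d, hd, hdM, rfl⟩ := hy
      obtain ⟨e, rfl⟩ := hdM
      have he : NeZero e := ⟨fun h => NeZero.ne (d * e) (by rw [h, mul_zero])⟩
      have h1 := hw d e hd he rfl
      have h2 : (⟨qExpand ℚ d jq, hQD2 (Algebra.subset_adjoin ⟨d, hd, Dvd.intro e rfl, rfl⟩)⟩ :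
          ↥(modularFunctionFieldFull (d * e))) =
          ⟨qExpand ℚ d jq, jqd_mem_full (d * e) (Dvd.intro e rfl)⟩ := rfl
      rw [h2, h1]
      exact hGR2 e
    | algebraMap v =>
      have hvQ : (v : LaurentSeries ℚ) ∈ Qj := v.2.2
      have hvW : (v : LaurentSeries ℚ) ∈ gaussRing ℓ := v.2.1
      have h1 := sat_eq_on_Qj M w (qExpand ℚ M) hj hvQ
      have h2 : (⟨algebraMap (gaussV ℓ) (LaurentSeries ℚ) v,
          hQD2 (Subalgebra.algebraMap_mem (AV ℓ M) v)⟩ : ↥(modularFunctionFieldFull M)) =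
          ⟨(v : LaurentSeries ℚ), sat_Qj_le_full M hvQ⟩ := rfl
      rw [h2, h1]
      exact hGR1 M hvW
    | add y z hy hz ihy ihz =>
      have h2 : (⟨y + z, hQD2 (add_mem hy hz)⟩ : ↥(modularFunctionFieldFull M)) =
          ⟨y, hQD2 hy⟩ + ⟨z, hQD2 hz⟩ := rfl
      rw [h2, map_add]
      exact add_mem ihy ihz
    | mul y z hy hz ihy ihz =>
      have h2 : (⟨y * z, hQD2 (mul_mem hy hz)⟩ : ↥(modularFunctionFieldFull M)) =
          ⟨y, hQD2 hy⟩ * ⟨z, hQD2 hz⟩ := rfl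
      rw [h2, map_mul]
      exact mul_mem ihy ihz
  exact key x hx

/-- **SA-θ** : the Fricke involution modulo `ℓ`. -/
theorem sat_exists_theta (ℓ M : ℕ) [Fact ℓ.Prime] [NeZero M] (hdeg : DEG ℓ M)
    (hFR : ∃ w : ↥(modularFunctionFieldFull M) →+* LaurentSeries ℚ,
      ∀ (d e : ℕ) (hd : NeZero d) (_ : NeZero e) (hde : d * e = M),
        w ⟨qExpand ℚ d jq, jqd_mem_full M (Dvd.intro e hde)⟩ = qExpand ℚ e jq)
    (hQEP : QEP ℓ M)
    (hGR1 : ∀ (n : ℕ) [NeZero n] {x : LaurentSeries ℚ}, x ∈ gaussRing ℓ →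
      qExpand ℚ n x ∈ gaussRing ℓ)
    (hGR2 : ∀ (d : ℕ) [NeZero d], ∃ h : qExpand ℚ d jq ∈ gaussRing ℓ,
      rho ℓ ⟨qExpand ℚ d jq, h⟩ = qExpand (ZMod ℓ) d (jqModC (ZMod ℓ)))
    (hGR3 : ∀ x : gaussRing ℓ, rho ℓ x = 0 ↔ ∃ y : gaussRing ℓ, x = (ℓ : gaussRing ℓ) * y)
    (hQD1 : ∀ {x : LaurentSeries ℚ}, x ∈ AV ℓ M → x ∈ gaussRing ℓ)
    (hQD2 : ∀ {x : LaurentSeries ℚ}, x ∈ AV ℓ M → x ∈ modularFunctionFieldFull M)
    (hQD3 : ∀ {c : LaurentSeries (ZMod ℓ)}, c ∈ Ft ℓ M →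
      ∃ (x : LaurentSeries ℚ) (hx : x ∈ AV ℓ M), rho ℓ ⟨x, hQD1 hx⟩ = c) :
    ∃ θ : ↥(Ft ℓ M) →+* LaurentSeries (ZMod ℓ),
      ∀ (d e : ℕ) (hd : NeZero d) (_ : NeZero e) (hde : d * e = M),
        θ ⟨qExpand (ZMod ℓ) d (jqModC (ZMod ℓ)),
          jqModCd_mem_full (ZMod ℓ) M (Dvd.intro e hde)⟩ =
          qExpand (ZMod ℓ) e (jqModC (ZMod ℓ)) := by
  obtain ⟨w, hw⟩ := hFR
  have hwW : ∀ {x : LaurentSeries ℚ} (hx : x ∈ AV ℓ M), w ⟨x, hQD2 hx⟩ ∈ gaussRing ℓ :=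
    fun hx => sat_w_mem_gaussRing ℓ M w hw hGR1 (fun d _ => (hGR2 d).1) hQD2 hx
  -- the two ring homs `A_V(M) → 𝔽_ℓ((q))`
  let inclW : ↥(AV ℓ M) →+* ↥(gaussRing ℓ) :=
    RingHom.codRestrict (AV ℓ M).toSubring.subtype (gaussRing ℓ) (fun x => hQD1 x.2)
  let toF : ↥(AV ℓ M) →+* ↥(modularFunctionFieldFull M) :=
    RingHom.codRestrict (AV ℓ M).toSubring.subtype (modularFunctionFieldFull M)
      (fun x => hQD2 x.2)
  let wW : ↥(AV ℓ M) →+* ↥(gaussRing ℓ) :=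
    RingHom.codRestrict (w.comp toF) (gaussRing ℓ) (fun x => hwW x.2)
  let rA : ↥(AV ℓ M) →+* LaurentSeries (ZMod ℓ) := (rho ℓ).comp inclW
  let pA : ↥(AV ℓ M) →+* LaurentSeries (ZMod ℓ) := (rho ℓ).comp wW
  have hrA : ∀ x : ↥(AV ℓ M), rA x = rho ℓ ⟨(x : LaurentSeries ℚ), hQD1 x.2⟩ := fun x => rfl
  have hpA : ∀ x : ↥(AV ℓ M), pA x = rho ℓ ⟨w ⟨(x : LaurentSeries ℚ), hQD2 x.2⟩, hwW x.2⟩ :=
    fun x => rfl
  have hℓ0 : ((ℓ : ℕ) : LaurentSeries (ZMod ℓ)) = 0 := by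
    have h1 : ((ℓ : ℕ) : LaurentSeries (ZMod ℓ)) =
        algebraMap (ZMod ℓ) (LaurentSeries (ZMod ℓ)) ((ℓ : ℕ) : ZMod ℓ) := (map_natCast _ ℓ).symm
    rw [h1, ZMod.natCast_self, map_zero]
  -- kernel condition
  have hker : ∀ x : ↥(AV ℓ M), rA x = 0 → pA x = 0 := by
    intro x hx
    rw [hrA] at hx
    obtain ⟨y, hy, hxy⟩ := hQEP (x : LaurentSeries ℚ) x.2 (hQD1 x.2) hx
    have hx' : x = ((ℓ : ℕ) : ↥(AV ℓ M)) * ⟨y, hy⟩ := by
      apply Subtype.ext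
      rw [hxy]
      push_cast
      rfl
    rw [hx', map_mul, map_natCast, hℓ0, zero_mul]
  have hkey : ∀ x x' : ↥(AV ℓ M), rA x = rA x' → pA x = pA x' := by
    intro x x' h
    have := hker (x - x') (by rw [map_sub, h, sub_self])
    rwa [map_sub, sub_eq_zero] at this
  -- a section of `rA` over `F̃_M`
  have hsec : ∀ c : ↥(Ft ℓ M), ∃ x : ↥(AV ℓ M), rA x = (c : LaurentSeries (ZMod ℓ)) := by
    intro c
    obtain ⟨x, hx, hxc⟩ := hQD3 c.2
    exact ⟨⟨x, hx⟩, hxc⟩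
  choose sec hsec' using hsec
  let θ : ↥(Ft ℓ M) →+* LaurentSeries (ZMod ℓ) :=
    { toFun := fun c => pA (sec c)
      map_one' := by
        have := hkey (sec 1) 1 (by rw [hsec', map_one]; rfl)
        rw [this, map_one]
      map_mul' := by
        intro c c'
        have := hkey (sec (c * c')) (sec c * sec c') (by
          rw [hsec', map_mul, hsec', hsec']; rfl)
        rw [this, map_mul]
      map_zero' := by
        have := hkey (sec 0) 0 (by rw [hsec', map_zero]; rfl)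
        rw [this, map_zero]
      map_add' := by
        intro c c'
        have := hkey (sec (c + c')) (sec c + sec c') (by
          rw [hsec', map_add, hsec', hsec']; rfl)
        rw [this, map_add] }
  refine ⟨θ, ?_⟩
  intro d e hd he hde
  obtain ⟨hdW, hρd⟩ := hGR2 d
  obtain ⟨heW, hρe⟩ := hGR2 e
  have hdA : qExpand ℚ d jq ∈ AV ℓ M :=
    Algebra.subset_adjoin ⟨d, hd, Dvd.intro e hde, rfl⟩
  set c : ↥(Ft ℓ M) := ⟨qExpand (ZMod ℓ) d (jqModC (ZMod ℓ)),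
    jqModCd_mem_full (ZMod ℓ) M (Dvd.intro e hde)⟩ with hc
  have h1 : rA (sec c) = rA ⟨qExpand ℚ d jq, hdA⟩ := by
    rw [hsec', hrA]
    exact hρd.symm
  show pA (sec c) = _
  rw [hkey _ _ h1, hpA, ← hρe]
  congr 1
  apply Subtype.ext
  exact hw d e hd he hde

end

end Fermat.Agent.S28x
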