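/-
S28 project, module SA (`StepA`, helper23): the coprime degree step
`p ∤ M`, `M` squarefree with all prime factors `< p`, `DEG ℓ M ⇒ DEG ℓ (p M)`.

Final wiring of `sa_deg_step_coprime_of` (`StepACore.lean`) with
MP (`exists_modPoly`), PC (`pc_main`), FR (`exists_fricke`), GR (`GaussRing.lean`),
GaussV, DU (`DegreeUpper.lean`), QD (`QepOfDegCore.lean`), SA1 (`StepADich.lean`),
SA2 (`StepACount.lean`), SA3 (`StepAArith.lean`), SA-θ (`StepATheta.lean`).
-/
import Fermat.Agent.S28x.StepACore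
import Fermat.Agent.S28x.StepADich
import Fermat.Agent.S28x.StepACount
import Fermat.Agent.S28x.StepAArith
import Fermat.Agent.S28x.StepATheta
import Fermat.Agent.S28x.ModPoly
import Fermat.Agent.S28x.PrimeCase
import Fermat.Agent.S28x.Fricke
import Fermat.Agent.S28x.GaussRing
import Fermat.Agent.S28x.GaussV
import Fermat.Agent.S28x.DegreeUpper
import Fermat.Agent.S28x.QepOfDegCore

set_option autoImplicit false

open ModularCurve IntermediateField

namespace Fermat.Agent.S28x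

noncomputable section

/-- the inputs of QD (modules GR, GaussV, DU) -/
theorem sa_qdInput (ℓ N : ℕ) [Fact ℓ.Prime] [NeZero N] : QdInput ℓ N where
  jqd_mem := fun d _ => jqd_mem_gaussRing ℓ d
  rho_jqd := fun d _ _ => rho_jqd ℓ d
  rho_mem_Kj := fun _ hy => gv_rho_mem_Kj ℓ hy
  exists_gaussV_rho_eq := fun _ hc => gv_exists_gaussV_rho_eq ℓ hc
  exists_zpow_mul_unit := fun z hz hz0 => by
    obtain ⟨m, y, hy, _, hρ, hzy⟩ := exists_zpow_mul_unit ℓ hz0
      (exists_frac_of_mem_full ℓ N (qd_Qj_le_full N hz))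
    exact ⟨m, y, hy, hρ, hzy⟩
  finiteDimensional_full := finiteDimensional_full N
  relfinrank_full_le := relfinrank_full_le N

/-- **SA**: the coprime degree step. -/
theorem deg_step_coprime (ℓ p M : ℕ) [Fact ℓ.Prime] [NeZero M] (hp : p.Prime) (hℓp : ℓ ≠ p)
    (hℓM : ¬ ℓ ∣ M) (hsq : Squarefree M) (hlt : ∀ q ∈ M.primeFactors, q < p)
    (h : DEG ℓ M) : DEG ℓ (p * M) := by
  haveI : Fact p.Prime := ⟨hp⟩
  haveI : NeZero p := ⟨hp.ne_zero⟩
  haveI : NeZero (p * M) := ⟨Nat.mul_ne_zero hp.ne_zero (NeZero.ne M)⟩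
  have hpM : ¬ p ∣ M := fun hd =>
    lt_irrefl p (hlt p (Nat.mem_primeFactors.mpr ⟨hp, hd, NeZero.ne M⟩))
  have H : QdInput ℓ M := sa_qdInput ℓ M
  have hJ : jqModC (ZMod ℓ) ≠ 0 := jqModC_ne_zero_of_nontrivial (ZMod ℓ)
  have hord : ¬ (p : ℤ) ∣ (jqModC (ZMod ℓ)).order := by
    rw [sa_order_jqModC, Int.dvd_neg, Int.natCast_dvd_ofNat]
    exact fun hd => hp.one_lt.ne' (Nat.dvd_one.mp hd)
  refine sa_deg_step_coprime_of ℓ p M hp hpM h (exists_modPoly p) (pc_main ℓ p hℓp)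
    (qd_relfinrank_Ft_le H) (sa3_psi_lt p M hp (NeZero.ne M) hsq hlt) ?_ ?_ ?_
    (sa2_exists_twists ℓ M hℓM) ?_
  · intro Φk hm hd h1 h2 E hJE
    exact sad_dichotomy p (jqModC (ZMod ℓ)) hJ hord Φk hm hd h1 h2 E hJE
  · intro Φk hm hd h1 h2 z hz
    exact sad_only_root p (jqModC (ZMod ℓ)) hJ hord Φk hm hd h1 h2 M hpM z hz
  · exact sat_exists_theta ℓ M h (exists_fricke M) (qd_qep_of_deg H h)
      (fun n _ _ hx => qExpand_mem_gaussRing ℓ n hx)
      (fun d _ => ⟨jqd_mem_gaussRing ℓ d, rho_jqd ℓ d⟩)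
      (rho_eq_zero_iff ℓ)
      (fun hx => qd_AV_le_gaussRing H hx) (fun hx => qd_AV_le_full hx)
      (fun hc => qd_exists_AV_rho_eq H hc)
  · intro Ω _ L1 E hle hfin σ hinj hagree
    have := sa2_card_le_relfinrank L1 E hle hfin σ hinj hagree
    rwa [Fintype.card_fin] at this

end

end Fermat.Agent.S28x
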