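import Fermat.Agent.S28x.QepOfDegCore
import Fermat.Agent.S28x.GaussRing
import Fermat.Agent.S28x.GaussV
import Fermat.Agent.S28x.DegreeUpper

/-!
# S28 / QD `QepOfDeg` (helper13): final statements under the names of `Spec.lean`

Instantiation of `QdInput ℓ N` (`QepOfDegCore.lean`) with GR (`GaussRing.lean`, helper19),
GaussV (`GaussV.lean`, helper67) and DU (`DegreeUpper.lean`, helper90).
-/

set_option autoImplicit false

open ModularCurve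

namespace Fermat.Agent.S28x

noncomputable section

/-- all inputs of the QD core are available. -/
theorem qd_input (ℓ N : ℕ) [Fact ℓ.Prime] [NeZero N] : QdInput ℓ N where
  jqd_mem d _ := jqd_mem_gaussRing ℓ d
  rho_jqd d _ _ := rho_jqd ℓ d
  rho_mem_Kj _ hy := gv_rho_mem_Kj ℓ hy
  exists_gaussV_rho_eq _ hc := gv_exists_gaussV_rho_eq ℓ hc
  exists_zpow_mul_unit z hz hz0 := by
    obtain ⟨m, y, hy, _, hρ, h⟩ := exists_zpow_mul_unit ℓ hz0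
      (exists_frac_of_mem_full ℓ 1 (qd_Qj_le_full 1 hz))
    exact ⟨m, y, hy, hρ, h⟩
  finiteDimensional_full := finiteDimensional_full N
  relfinrank_full_le := relfinrank_full_le N

/-- `A_V(N) ⊆ W` -/
theorem AV_le_gaussRing (ℓ N : ℕ) [Fact ℓ.Prime] [NeZero N] {x : LaurentSeries ℚ}
    (hx : x ∈ AV ℓ N) : x ∈ gaussRing ℓ :=
  qd_AV_le_gaussRing (qd_input ℓ N) hx

/-- `A_V(N) ⊆ F_N` -/
theorem AV_le_full (ℓ N : ℕ) [Fact ℓ.Prime] [NeZero N] {x : LaurentSeries ℚ}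
    (hx : x ∈ AV ℓ N) : x ∈ modularFunctionFieldFull N :=
  qd_AV_le_full hx

/-- `ρ(A_V(N)) ⊆ F̃_N` -/
theorem rho_AV_mem_Ft (ℓ N : ℕ) [Fact ℓ.Prime] [NeZero N] {x : LaurentSeries ℚ}
    (hx : x ∈ AV ℓ N) : rho ℓ ⟨x, AV_le_gaussRing ℓ N hx⟩ ∈ Ft ℓ N :=
  qd_rho_AV_mem_Ft (qd_input ℓ N) hx

/-- `ρ(A_V(N)) ⊇ F̃_N` -/
theorem exists_AV_rho_eq (ℓ N : ℕ) [Fact ℓ.Prime] [NeZero N] {c : LaurentSeries (ZMod ℓ)}
    (hc : c ∈ Ft ℓ N) :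
    ∃ (x : LaurentSeries ℚ) (hx : x ∈ AV ℓ N), rho ℓ ⟨x, AV_le_gaussRing ℓ N hx⟩ = c :=
  qd_exists_AV_rho_eq (qd_input ℓ N) hc

/-- the upper bound `[F̃_N : 𝔽_ℓ(j̃)] ≤ ψ(N)` (always) -/
theorem relfinrank_Ft_le (ℓ N : ℕ) [Fact ℓ.Prime] [NeZero N] :
    IntermediateField.relfinrank (Kj ℓ) (Ft ℓ N) ≤ dedekindPsi N :=
  qd_relfinrank_Ft_le (qd_input ℓ N)

/-- `DEG ⇒ QEP` -/
theorem qep_of_deg (ℓ N : ℕ) [Fact ℓ.Prime] [NeZero N] (h : DEG ℓ N) : QEP ℓ N :=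
  qd_qep_of_deg (qd_input ℓ N) h

end

end Fermat.Agent.S28x
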