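/-
S28 project, row SB (`deg_step_dvd`), SECOND SQUAD (helper40), hypothesis form.  prefix `sbb_`.

`p ∣ M`, `DEG ℓ M ⇒ DEG ℓ (p M)`, written against helper13's `QdInput` (S28x/QepOfDegCore.lean),
the Fricke map (S28x/Fricke.lean), LF (S28x/LaurentFieldQ.lean) and GR (S28x/GaussRing.lean).

Element-wise proof: `n = [F̃_M : 𝔽_ℓ(j̃)]`, `c_a` a basis of `F̃_M`, `β_a ∈ A_V(M)` lifts,
`y = j(q^{pM})`, `φ = ρ ∘ w_{pM}` (kills `ℓ`, maps `A_V(M)` into `𝔽_ℓ((q^p))`, `φ y = j̃`).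
-/
import Fermat.Agent.S28x.QepOfDegCore
import Fermat.Agent.S28x.Fricke
import Fermat.Agent.S28x.LaurentFieldQ
import Fermat.Agent.S28x.GaussRing
import Fermat.Agent.S24x.CombIndex

set_option autoImplicit false

open ModularCurve

namespace Fermat.Agent.S28x

noncomputable section

/-- `w` is a Fricke map of level `N`: `w (j(q^d)) = j(q^{N/d})`. -/
def SbbFricke (N : ℕ) [NeZero N] (w : ↥(modularFunctionFieldFull N) →+* LaurentSeries ℚ) : Prop :=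
  ∀ (d e : ℕ) (_ : NeZero d) (_ : NeZero e) (hde : d * e = N),
    w ⟨qExpand ℚ d jq, jqd_mem_full N (Dvd.intro e hde)⟩ = qExpand ℚ e jq

theorem sbb_exists_fricke (N : ℕ) [NeZero N] :
    ∃ w : ↥(modularFunctionFieldFull N) →+* LaurentSeries ℚ, SbbFricke N w :=
  exists_fricke N

section Fricke

variable {N : ℕ} [NeZero N] {w : ↥(modularFunctionFieldFull N) →+* LaurentSeries ℚ}

omit [NeZero N] in
theorem sbb_w_congr (w : ↥(modularFunctionFieldFull N) →+* LaurentSeries ℚ)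
    {x y : LaurentSeries ℚ} (h : x = y) (hx : x ∈ modularFunctionFieldFull N)
    (hy : y ∈ modularFunctionFieldFull N) : w ⟨x, hx⟩ = w ⟨y, hy⟩ := by
  subst h; rfl

/-- on `ℚ(j)` the Fricke map is `q ↦ q^N`. -/
theorem sbb_w_Qj (hw : SbbFricke N w) {v : LaurentSeries ℚ} (hv : v ∈ Qj) :
    ∀ h : v ∈ modularFunctionFieldFull N, w ⟨v, h⟩ = qExpand ℚ N v := by
  have hle := qd_Qj_le_full N
  induction hv using IntermediateField.adjoin_induction with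
  | mem x hx =>
      intro h
      have hx' : x = jq := hx
      subst hx'
      have h1 := hw 1 N inferInstance inferInstance (one_mul N)
      rw [← h1]
      exact sbb_w_congr w (qExpand_one_apply jq).symm _ _
  | algebraMap r =>
      intro h
      have e1 : (⟨algebraMap ℚ (LaurentSeries ℚ) r, h⟩ : ↥(modularFunctionFieldFull N)) =
          ((r : ℚ) : ↥(modularFunctionFieldFull N)) := by
        apply Subtype.ext
        simp
      rw [e1, map_ratCast, eq_ratCast, map_ratCast]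
  | add x y hx hy ihx ihy =>
      intro h
      have hx' := hle hx
      have hy' := hle hy
      have e1 : (⟨x + y, h⟩ : ↥(modularFunctionFieldFull N)) = ⟨x, hx'⟩ + ⟨y, hy'⟩ := rfl
      rw [e1, map_add, ihx hx', ihy hy', map_add]
  | inv x hx ihx =>
      intro h
      have hx' := hle hx
      have e1 : (⟨x⁻¹, h⟩ : ↥(modularFunctionFieldFull N)) = (⟨x, hx'⟩)⁻¹ := rfl
      rw [e1, map_inv₀, ihx hx', map_inv₀]
  | mul x y hx hy ihx ihy =>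
      intro h
      have hx' := hle hx
      have hy' := hle hy
      have e1 : (⟨x * y, h⟩ : ↥(modularFunctionFieldFull N)) = ⟨x, hx'⟩ * ⟨y, hy'⟩ := rfl
      rw [e1, map_mul, ihx hx', ihy hy', map_mul]

/-- the Fricke map sends `A_V(N)` into `W`. -/
theorem sbb_w_mem_gaussRing (ℓ : ℕ) [Fact ℓ.Prime] (hw : SbbFricke N w) {x : LaurentSeries ℚ}
    (hx : x ∈ AV ℓ N) : ∀ h : x ∈ modularFunctionFieldFull N, w ⟨x, h⟩ ∈ gaussRing ℓ := by
  unfold AV at hx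
  induction hx using Algebra.adjoin_induction with
  | mem x hx =>
      obtain ⟨d, hd, hdN, rfl⟩ := hx
      intro h
      obtain ⟨e, he⟩ := hdN
      have hne : NeZero e := ⟨fun h0 => NeZero.ne N (by rw [he, h0, mul_zero])⟩
      rw [sbb_w_congr w rfl h (jqd_mem_full N (Dvd.intro e he.symm)), hw d e hd hne he.symm]
      exact jqd_mem_gaussRing ℓ e
  | algebraMap r =>
      intro h
      have hr : ((r : gaussV ℓ) : LaurentSeries ℚ) ∈ Qj := r.2.2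
      have e1 : algebraMap (↥(gaussV ℓ)) (LaurentSeries ℚ) r = (r : LaurentSeries ℚ) := rfl
      rw [sbb_w_congr w e1 h (qd_Qj_le_full N hr), sbb_w_Qj hw hr]
      exact qExpand_mem_gaussRing ℓ N (gaussV_le_gaussRing ℓ r.2)
  | add x y hx hy ihx ihy =>
      intro h
      have hx' : x ∈ modularFunctionFieldFull N := qd_AV_le_full hx
      have hy' : y ∈ modularFunctionFieldFull N := qd_AV_le_full hy
      have e1 : (⟨x + y, h⟩ : ↥(modularFunctionFieldFull N)) = ⟨x, hx'⟩ + ⟨y, hy'⟩ := rfl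
      rw [e1, map_add]
      exact add_mem (ihx hx') (ihy hy')
  | mul x y hx hy ihx ihy =>
      intro h
      have hx' : x ∈ modularFunctionFieldFull N := qd_AV_le_full hx
      have hy' : y ∈ modularFunctionFieldFull N := qd_AV_le_full hy
      have e1 : (⟨x * y, h⟩ : ↥(modularFunctionFieldFull N)) = ⟨x, hx'⟩ * ⟨y, hy'⟩ := rfl
      rw [e1, map_mul]
      exact mul_mem (ihx hx') (ihy hy')

variable (ℓ : ℕ) [Fact ℓ.Prime]

/-- the inclusion `A_V(N) → F_N` as a ring hom. -/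
def sbb_incl (N : ℕ) [NeZero N] : ↥(AV ℓ N) →+* ↥(modularFunctionFieldFull N) :=
  ((AV ℓ N).val : ↥(AV ℓ N) →+* LaurentSeries ℚ).codRestrict (modularFunctionFieldFull N)
    (fun x => qd_AV_le_full x.2)

/-- `φ = ρ ∘ w` on `A_V(N)`. -/
def sbb_phi (hw : SbbFricke N w) : ↥(AV ℓ N) →+* LaurentSeries (ZMod ℓ) :=
  (rho ℓ).comp ((w.comp (sbb_incl ℓ N)).codRestrict (gaussRing ℓ)
    (fun x => sbb_w_mem_gaussRing ℓ hw x.2 _))

theorem sbb_phi_apply (hw : SbbFricke N w) (x : ↥(AV ℓ N)) :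
    sbb_phi ℓ hw x = rho ℓ ⟨w ⟨x, qd_AV_le_full x.2⟩, sbb_w_mem_gaussRing ℓ hw x.2 _⟩ := rfl

theorem sbb_natCast_eq_zero : ((ℓ : ℕ) : LaurentSeries (ZMod ℓ)) = 0 := by
  have : ((ℓ : ZMod ℓ)) = 0 := ZMod.natCast_self ℓ
  rw [← map_natCast (HahnSeries.C (Γ := ℤ) (R := ZMod ℓ)), this, map_zero]

/-- `φ` kills `ℓ`. -/
theorem sbb_phi_natCast (hw : SbbFricke N w) : sbb_phi ℓ hw ((ℓ : ℕ) : ↥(AV ℓ N)) = 0 := by
  rw [map_natCast, sbb_natCast_eq_zero]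

theorem sbb_rho_congr {x y : LaurentSeries ℚ} (h : x = y)
    (hx : x ∈ gaussRing ℓ) (hy : y ∈ gaussRing ℓ) :
    rho ℓ ⟨x, hx⟩ = rho ℓ ⟨y, hy⟩ := by
  subst h; rfl

/-- `φ` on the generators: `φ (j(q^d)) = j̃(q^{N/d})`. -/
theorem sbb_phi_gen (hw : SbbFricke N w) (d e : ℕ) [hd : NeZero d] [he : NeZero e]
    (hde : d * e = N) (h : qExpand ℚ d jq ∈ AV ℓ N) :
    sbb_phi ℓ hw ⟨qExpand ℚ d jq, h⟩ = qExpand (ZMod ℓ) e (jqModC (ZMod ℓ)) := by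
  rw [sbb_phi_apply]
  rw [sbb_rho_congr ℓ (hw d e hd he hde) _ (jqd_mem_gaussRing ℓ e), rho_jqd]

/-- `φ` on `V`: `φ v = (ρ v)(q^N)`. -/
theorem sbb_phi_V (hw : SbbFricke N w) {v : LaurentSeries ℚ} (hv : v ∈ gaussV ℓ)
    (h : v ∈ AV ℓ N) :
    sbb_phi ℓ hw ⟨v, h⟩ =
      qExpand (ZMod ℓ) N (rho ℓ ⟨v, gaussV_le_gaussRing ℓ hv⟩) := by
  rw [sbb_phi_apply]
  rw [sbb_rho_congr ℓ (sbb_w_Qj hw hv.2 _) _
    (qExpand_mem_gaussRing ℓ N (gaussV_le_gaussRing ℓ hv)), rho_qExpand]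

end Fricke

section Step

variable {ℓ p M : ℕ} [Fact ℓ.Prime] [NeZero p] [NeZero M]
variable {w : ↥(modularFunctionFieldFull (p * M)) →+* LaurentSeries ℚ}

omit [NeZero p] [NeZero M] in
/-- `A_V(M) ⊆ A_V(pM)`. -/
theorem sbb_AV_mono {x : LaurentSeries ℚ} (hx : x ∈ AV ℓ M) : x ∈ AV ℓ (p * M) := by
  refine Algebra.adjoin_mono ?_ hx
  rintro _ ⟨d, hd, hdM, rfl⟩
  exact ⟨d, hd, hdM.mul_left p, rfl⟩

/-- `φ(A_V(M)) ⊆ 𝔽_ℓ((q^p))`. -/
theorem sbb_phi_mem_range (hw : SbbFricke (p * M) w) {x : LaurentSeries ℚ} (hx : x ∈ AV ℓ M) :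
    sbb_phi ℓ hw ⟨x, sbb_AV_mono hx⟩ ∈ (qExpand (ZMod ℓ) p).fieldRange := by
  have key : ∀ h : x ∈ AV ℓ (p * M),
      sbb_phi ℓ hw ⟨x, h⟩ ∈ (qExpand (ZMod ℓ) p).fieldRange := by
    unfold AV at hx
    induction hx using Algebra.adjoin_induction with
    | mem x hx =>
        obtain ⟨d, hd, hdM, rfl⟩ := hx
        intro h
        obtain ⟨e, he⟩ := hdM
        have hne : NeZero e := ⟨fun h0 => NeZero.ne M (by rw [he, h0, mul_zero])⟩
        have hde : d * (p * e) = p * M := by rw [he]; ring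
        rw [sbb_phi_gen ℓ hw d (p * e) hde h, ← qExpand_qExpand]
        exact RingHom.mem_fieldRange.mpr ⟨_, rfl⟩
    | algebraMap r =>
        intro h
        have e1 : algebraMap (↥(gaussV ℓ)) (LaurentSeries ℚ) r = (r : LaurentSeries ℚ) := rfl
        have h2 := sbb_phi_V ℓ hw r.2 (e1 ▸ h)
        have h3 : sbb_phi ℓ hw ⟨algebraMap (↥(gaussV ℓ)) (LaurentSeries ℚ) r, h⟩ =
            qExpand (ZMod ℓ) (p * M) (rho ℓ ⟨(r : LaurentSeries ℚ), gaussV_le_gaussRing ℓ r.2⟩) := h2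
        rw [h3, ← qExpand_qExpand]
        exact RingHom.mem_fieldRange.mpr ⟨_, rfl⟩
    | add x y hx hy ihx ihy =>
        intro h
        have hx' : x ∈ AV ℓ (p * M) := sbb_AV_mono hx
        have hy' : y ∈ AV ℓ (p * M) := sbb_AV_mono hy
        have e1 : (⟨x + y, h⟩ : ↥(AV ℓ (p * M))) = ⟨x, hx'⟩ + ⟨y, hy'⟩ := rfl
        rw [e1, map_add]
        exact add_mem (ihx hx') (ihy hy')
    | mul x y hx hy ihx ihy =>
        intro h
        have hx' : x ∈ AV ℓ (p * M) := sbb_AV_mono hx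
        have hy' : y ∈ AV ℓ (p * M) := sbb_AV_mono hy
        have e1 : (⟨x * y, h⟩ : ↥(AV ℓ (p * M))) = ⟨x, hx'⟩ * ⟨y, hy'⟩ := rfl
        rw [e1, map_mul]
        exact mul_mem (ihx hx') (ihy hy')
  exact key _

omit [NeZero p] [NeZero M] in
theorem sbb_order_jqModC : (jqModC (ZMod ℓ)).order = -1 := by
  have hne : jqModC (ZMod ℓ) ≠ 0 := jqModC_ne_zero_of_nontrivial (ZMod ℓ)
  have h1 : (jqModC (ZMod ℓ)).coeff (-1) ≠ 0 := by
    rw [coeff_jqModC_neg_one]; exact one_ne_zero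
  have hle : (jqModC (ZMod ℓ)).order ≤ -1 := HahnSeries.order_le_of_coeff_ne_zero h1
  have h2 : (jqModC (ZMod ℓ)).coeff (jqModC (ZMod ℓ)).order ≠ 0 :=
    fun h => hne (HahnSeries.coeff_order_eq_zero.mp h)
  by_contra hcon
  have hlt : (jqModC (ZMod ℓ)).order < -1 := lt_of_le_of_ne hle hcon
  exact h2 (coeff_jqModC_of_lt (ZMod ℓ) hlt)

/-- on `A_V(M)`: `φ s = 0 ⇒ ρ s = 0` (`A_V(M)/ℓ` is a field by `QEP M`). -/
theorem sbb_rho_eq_zero_of_phi (HM : QdInput ℓ M) (hQ : QEP ℓ M) (hw : SbbFricke (p * M) w)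
    {s : LaurentSeries ℚ} (hs : s ∈ AV ℓ M)
    (h0 : sbb_phi ℓ hw ⟨s, sbb_AV_mono hs⟩ = 0) :
    rho ℓ ⟨s, qd_AV_le_gaussRing HM hs⟩ = 0 := by
  by_contra hne
  have hc : rho ℓ ⟨s, qd_AV_le_gaussRing HM hs⟩ ∈ Ft ℓ M := qd_rho_AV_mem_Ft HM hs
  obtain ⟨s', hs', hρ'⟩ := qd_exists_AV_rho_eq HM (inv_mem hc)
  have hmem : s * s' - 1 ∈ AV ℓ M := sub_mem (mul_mem hs hs') (one_mem _)
  have hW : s * s' - 1 ∈ gaussRing ℓ := qd_AV_le_gaussRing HM hmem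
  have hρ0 : rho ℓ ⟨s * s' - 1, hW⟩ = 0 := by
    have e : (⟨s * s' - 1, hW⟩ : gaussRing ℓ) =
        ⟨s, qd_AV_le_gaussRing HM hs⟩ * ⟨s', qd_AV_le_gaussRing HM hs'⟩ - 1 := rfl
    rw [e, map_sub, map_mul, map_one, hρ', mul_inv_cancel₀ hne, sub_self]
  obtain ⟨t, ht, hst⟩ := hQ _ hmem hW hρ0
  -- apply `φ`
  have e2 : (⟨s, sbb_AV_mono hs⟩ : ↥(AV ℓ (p * M))) * ⟨s', sbb_AV_mono hs'⟩ - 1 =
      ((ℓ : ℕ) : ↥(AV ℓ (p * M))) * ⟨t, sbb_AV_mono ht⟩ := by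
    apply Subtype.ext
    push_cast
    exact hst
  have := congrArg (sbb_phi ℓ hw) e2
  rw [map_sub, map_mul, map_mul, map_one, h0, sbb_phi_natCast, zero_mul, zero_mul, zero_sub] at this
  exact one_ne_zero (neg_eq_zero.mp this)

omit [NeZero p] [NeZero M] in
theorem sbb_V_mem_AV {N : ℕ} {v : LaurentSeries ℚ} (hv : v ∈ gaussV ℓ) : v ∈ AV ℓ N :=
  (AV ℓ N).algebraMap_mem ⟨v, hv⟩

omit [NeZero M] [NeZero p] in
theorem sbb_y_mem_AV [NeZero (p * M)] : qExpand ℚ (p * M) jq ∈ AV ℓ (p * M) :=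
  Algebra.subset_adjoin (mem_divisorExpansions (p * M) dvd_rfl)

/-- `φ y = j̃` for `y = j(q^{pM})`. -/
theorem sbb_phi_y (hw : SbbFricke (p * M) w) :
    sbb_phi ℓ hw ⟨qExpand ℚ (p * M) jq, sbb_y_mem_AV⟩ = jqModC (ZMod ℓ) := by
  rw [sbb_phi_gen ℓ hw (p * M) 1 (mul_one _), qExpand_one_apply]

/-- **Lemma P**: if `φ (∑ b_{a,i} β_a y^i) = 0` with `b_{a,i} ∈ V` then all `b_{a,i} ∈ ker ρ`. -/
theorem sbb_lemmaP [Fact p.Prime] (HM : QdInput ℓ M) (hQ : QEP ℓ M) (hw : SbbFricke (p * M) w)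
    {n : ℕ} (β : Fin n → LaurentSeries ℚ) (hβ : ∀ a, β a ∈ AV ℓ M)
    (hli : LinearIndependent (Kj ℓ) (fun a => rho ℓ ⟨β a, qd_AV_le_gaussRing HM (hβ a)⟩))
    (b : Fin n × Fin p → LaurentSeries ℚ) (hb : ∀ I, b I ∈ gaussV ℓ)
    (X : ↥(AV ℓ (p * M)))
    (hX : (X : LaurentSeries ℚ) =
      ∑ I : Fin n × Fin p, b I * (β I.1 * (qExpand ℚ (p * M) jq) ^ (I.2 : ℕ)))
    (h0 : sbb_phi ℓ hw X = 0) (I : Fin n × Fin p) :
    rho ℓ ⟨b I, gaussV_le_gaussRing ℓ (hb I)⟩ = 0 := by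
  classical
  set φ := sbb_phi ℓ hw with hφ
  -- subtype versions
  let bR : Fin n × Fin p → ↥(AV ℓ (p * M)) := fun I => ⟨b I, sbb_V_mem_AV (hb I)⟩
  let βR : Fin n → ↥(AV ℓ (p * M)) := fun a => ⟨β a, sbb_AV_mono (hβ a)⟩
  let yR : ↥(AV ℓ (p * M)) := ⟨qExpand ℚ (p * M) jq, sbb_y_mem_AV⟩
  have hs : ∀ i : Fin p, ∑ a, b (a, i) * β a ∈ AV ℓ M := fun i =>
    sum_mem fun a _ => mul_mem (sbb_V_mem_AV (hb (a, i))) (hβ a)
  let sR : Fin p → ↥(AV ℓ (p * M)) := fun i => ⟨∑ a, b (a, i) * β a, sbb_AV_mono (hs i)⟩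
  have hXR : X = ∑ i : Fin p, sR i * yR ^ (i : ℕ) := by
    apply Subtype.ext
    rw [hX, Fintype.sum_prod_type_right, AddSubmonoidClass.coe_finsetSum]
    refine Finset.sum_congr rfl fun i _ => ?_
    show _ = (∑ a, b (a, i) * β a) * (qExpand ℚ (p * M) jq) ^ (i : ℕ)
    rw [Finset.sum_mul]
    refine Finset.sum_congr rfl fun a _ => ?_
    ring
  have hφX : ∑ i : Fin p, φ (sR i) * (jqModC (ZMod ℓ)) ^ (i : ℕ) = 0 := by
    rw [← h0, hXR, map_sum]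
    refine Finset.sum_congr rfl fun i _ => ?_
    rw [map_mul, map_pow, hφ, sbb_phi_y]
  -- LF
  have hLF := lf_linearIndependent_pow (k := ZMod ℓ) p (jqModC (ZMod ℓ))
    (jqModC_ne_zero_of_nontrivial (ZMod ℓ)) (by
      rw [sbb_order_jqModC]
      intro hdvd
      have h1 : (p : ℤ) ∣ 1 := (dvd_neg (a := (p : ℤ)) (b := 1)).mp hdvd
      have h2 : p ∣ 1 := by exact_mod_cast h1
      exact (Fact.out : p.Prime).one_lt.ne' (Nat.dvd_one.mp h2))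
  rw [Fintype.linearIndependent_iff] at hLF
  let g : Fin p → ↥(qExpand (ZMod ℓ) p).fieldRange := fun i =>
    ⟨φ (sR i), sbb_phi_mem_range hw (hs i)⟩
  have hg := hLF g (by
    rw [← hφX]
    refine Finset.sum_congr rfl fun i _ => ?_
    rw [Subfield.smul_def, smul_eq_mul])
  -- conclude
  have hφs : φ (sR I.2) = 0 := congrArg Subtype.val (hg I.2)
  have hρs := sbb_rho_eq_zero_of_phi HM hQ hw (hs I.2) hφs
  have := qd_core HM β hβ hli (fun a => b (a, I.2)) (fun a => hb (a, I.2))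
    (qd_AV_le_gaussRing HM (hs I.2)) hρs I.1 (gaussV_le_gaussRing ℓ (hb (I.1, I.2)))
  exact this

end Step

end

end Fermat.Agent.S28x
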