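/-
S28 project, row SB (`deg_step_dvd`), SECOND SQUAD (helper40): the final bookkeeping.  prefix `sbb_`.

* `sbb_deg_of_li`: a `𝔽_ℓ(j̃)`-linearly independent family `ρ(z_i)`, `z_i ∈ A_V(N)`, with at least
  `ψ(N)` members gives `DEG ℓ N`.
* `sbb_exists_basis_lift`: under `DEG ℓ M` there are `n ≥ ψ(M)` and `β_a ∈ A_V(M)` (`a < n`) whose
  reductions are `𝔽_ℓ(j̃)`-linearly independent.
* `sbb_psi_mul`: `ψ(pM) = p ψ(M)` for `p ∣ M`.
* `sbb_deg_step_of_li`: the combination for the family `β_a y^i`.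
-/
import Fermat.Agent.S28x.StepBb

set_option autoImplicit false

open ModularCurve

namespace Fermat.Agent.S28x

noncomputable section

section Count

variable {ℓ : ℕ} [Fact ℓ.Prime]

/-- a `𝔽_ℓ(j̃)`-independent family of reductions of elements of `A_V(N)` with at least `ψ(N)`
members gives `DEG ℓ N`. -/
theorem sbb_deg_of_li {N : ℕ} [NeZero N] (H : QdInput ℓ N) {ι : Type*} [Fintype ι]
    (hcard : dedekindPsi N ≤ Fintype.card ι)
    (z : ι → LaurentSeries ℚ) (hz : ∀ i, z i ∈ AV ℓ N)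
    (hli : LinearIndependent (Kj ℓ) (fun i => rho ℓ ⟨z i, qd_AV_le_gaussRing H (hz i)⟩)) :
    DEG ℓ N := by
  have hK := qd_Kj_le_Ft ℓ N
  have hfinK := qd_finite_Ft H
  unfold DEG
  rw [IntermediateField.relfinrank_eq_finrank_of_le hK]
  let z' : ι → ↥(IntermediateField.extendScalars hK) :=
    fun i => ⟨rho ℓ ⟨z i, qd_AV_le_gaussRing H (hz i)⟩, qd_rho_AV_mem_Ft H (hz i)⟩
  have hz'li : LinearIndependent (Kj ℓ) z' := by
    apply LinearIndependent.of_comp (IntermediateField.extendScalars hK).val.toLinearMap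
    exact hli
  exact hcard.trans hz'li.fintype_card_le_finrank

/-- under `DEG ℓ M` there are `n ≥ ψ(M)` elements of `A_V(M)` with `𝔽_ℓ(j̃)`-independent
reductions. -/
theorem sbb_exists_basis_lift {M : ℕ} [NeZero M] (HM : QdInput ℓ M) (h : DEG ℓ M) :
    ∃ (n : ℕ) (β : Fin n → LaurentSeries ℚ) (hβ : ∀ a, β a ∈ AV ℓ M), dedekindPsi M ≤ n ∧
      LinearIndependent (Kj ℓ) (fun a => rho ℓ ⟨β a, qd_AV_le_gaussRing HM (hβ a)⟩) := by
  have hK := qd_Kj_le_Ft ℓ M
  have hfinK := qd_finite_Ft HM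
  have hfree : Module.Free (Kj ℓ) (IntermediateField.extendScalars hK) :=
    Module.Free.of_divisionRing _ _
  let c := Module.finBasis (Kj ℓ) (IntermediateField.extendScalars hK)
  have hex : ∀ i, ∃ (y : LaurentSeries ℚ) (hy : y ∈ AV ℓ M),
      rho ℓ ⟨y, qd_AV_le_gaussRing HM hy⟩ =
        ((c i : IntermediateField.extendScalars hK) : LaurentSeries (ZMod ℓ)) :=
    fun i => qd_exists_AV_rho_eq HM (c i).2
  choose y hy hyρ using hex
  refine ⟨Module.finrank (Kj ℓ) (IntermediateField.extendScalars hK), y, hy, ?_, ?_⟩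
  · rw [← IntermediateField.relfinrank_eq_finrank_of_le hK]
    exact h
  · have h1 : LinearIndependent (Kj ℓ)
        (fun i => ((c i : IntermediateField.extendScalars hK) : LaurentSeries (ZMod ℓ))) :=
      c.linearIndependent.map' (IntermediateField.extendScalars hK).val.toLinearMap
        (LinearMap.ker_eq_bot.mpr Subtype.val_injective)
    convert h1 using 2 with i
    exact hyρ i

/-- `ψ(pM) = p ψ(M)` for a prime `p ∣ M`. -/
theorem sbb_psi_mul {p M : ℕ} (hp : p.Prime) (hM : 0 < M) (hpM : p ∣ M) :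
    dedekindPsi (p * M) = p * dedekindPsi M := by
  rw [mul_comm p M]
  exact Fermat.Agent.S24x.dedekindPsi_mul_prime_of_dvd M p hp hM hpM

/-- the final count of Step B: `p n ≥ ψ(pM)` independent reductions at level `pM`. -/
theorem sbb_deg_step_of_li {p M : ℕ} [NeZero p] [NeZero M] (HpM : QdInput ℓ (p * M))
    (hp : p.Prime) (hpM : p ∣ M) {n : ℕ} (hn : dedekindPsi M ≤ n)
    (z : Fin n × Fin p → LaurentSeries ℚ) (hz : ∀ I, z I ∈ AV ℓ (p * M))
    (hli : LinearIndependent (Kj ℓ)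
      (fun I => rho ℓ ⟨z I, qd_AV_le_gaussRing HpM (hz I)⟩)) :
    DEG ℓ (p * M) := by
  refine sbb_deg_of_li HpM ?_ z hz hli
  rw [sbb_psi_mul hp (Nat.pos_of_ne_zero (NeZero.ne M)) hpM, Fintype.card_prod, Fintype.card_fin,
    Fintype.card_fin, mul_comm n p]
  exact Nat.mul_le_mul_left p hn

end Count

end

end Fermat.Agent.S28x
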