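/-
S28 project, row SB (`deg_step_dvd`), SECOND SQUAD (helper40), part 2.  prefix `sbb_`.
`sbb_deg_step_dvd_of (HM : QdInput ℓ M) (HpM : QdInput ℓ (p * M)) (hp : p.Prime) (hpM : p ∣ M)
  (h : DEG ℓ M) : DEG ℓ (p * M)`.
-/
import Fermat.Agent.S28x.StepBbCount

set_option autoImplicit false

open ModularCurve

namespace Fermat.Agent.S28x

noncomputable section

section Main

variable {ℓ p M : ℕ} [Fact ℓ.Prime] [NeZero p] [NeZero M]
variable {w : ↥(modularFunctionFieldFull (p * M)) →+* LaurentSeries ℚ}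

/-- the family `z_{a,i} = β_a y^i`, `y = j(q^{pM})`. -/
def sbb_z (p M : ℕ) [NeZero (p * M)] {n : ℕ} (β : Fin n → LaurentSeries ℚ) (I : Fin n × Fin p) :
    LaurentSeries ℚ :=
  β I.1 * (qExpand ℚ (p * M) jq) ^ (I.2 : ℕ)

theorem sbb_z_mem {n : ℕ} {β : Fin n → LaurentSeries ℚ} (hβ : ∀ a, β a ∈ AV ℓ M)
    (I : Fin n × Fin p) : sbb_z p M β I ∈ AV ℓ (p * M) :=
  mul_mem (sbb_AV_mono (hβ I.1)) (pow_mem sbb_y_mem_AV _)

/-- `ρ` on `A_V(N)` as a ring hom. -/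
def sbb_rhoR {N : ℕ} [NeZero N] (H : QdInput ℓ N) : ↥(AV ℓ N) →+* LaurentSeries (ZMod ℓ) :=
  (rho ℓ).comp (((AV ℓ N).val : ↥(AV ℓ N) →+* LaurentSeries ℚ).codRestrict (gaussRing ℓ)
    (fun x => qd_AV_le_gaussRing H x.2))

theorem sbb_rhoR_apply {N : ℕ} [NeZero N] (H : QdInput ℓ N) (x : ↥(AV ℓ N)) :
    sbb_rhoR H x = rho ℓ ⟨x, qd_AV_le_gaussRing H x.2⟩ := rfl

variable [Fact p.Prime]

/-- Step 2a: the `z_{a,i}` are `ℚ(j)`-linearly independent. -/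
theorem sbb_z_linearIndependent (HM : QdInput ℓ M) (hQ : QEP ℓ M) (hw : SbbFricke (p * M) w)
    {n : ℕ} (β : Fin n → LaurentSeries ℚ) (hβ : ∀ a, β a ∈ AV ℓ M)
    (hli : LinearIndependent (Kj ℓ) (fun a => rho ℓ ⟨β a, qd_AV_le_gaussRing HM (hβ a)⟩)) :
    LinearIndependent Qj (sbb_z p M β) := by
  rw [Fintype.linearIndependent_iff]
  intro g hg
  by_contra hne
  push Not at hne
  obtain ⟨i1, hi1⟩ := hne
  obtain ⟨k, hk, i0, hi0⟩ := qd_scale HM (fun I => ((g I : Qj) : LaurentSeries ℚ))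
    (fun I => (g I).2) ⟨i1, fun h => hi1 (Subtype.ext h)⟩
  have hsum : (0 : LaurentSeries ℚ) =
      ∑ I : Fin n × Fin p, (((ℓ : ℕ) : LaurentSeries ℚ) ^ k * (g I : LaurentSeries ℚ)) *
        (β I.1 * (qExpand ℚ (p * M) jq) ^ (I.2 : ℕ)) := by
    have : ∑ I : Fin n × Fin p, (((ℓ : ℕ) : LaurentSeries ℚ) ^ k * (g I : LaurentSeries ℚ)) *
        (β I.1 * (qExpand ℚ (p * M) jq) ^ (I.2 : ℕ)) =
        ((ℓ : ℕ) : LaurentSeries ℚ) ^ k * ∑ I, g I • sbb_z p M β I := by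
      rw [Finset.mul_sum]
      refine Finset.sum_congr rfl fun I _ => ?_
      rw [IntermediateField.smul_def, smul_eq_mul, mul_assoc]
      rfl
    rw [this, hg, mul_zero]
  have := sbb_lemmaP HM hQ hw β hβ hli _ hk (0 : ↥(AV ℓ (p * M))) hsum (map_zero _) i0
  exact hi0 _ this

/-- Step 2b: the `z_{a,i}` span `F_{pM}` over `ℚ(j)` as soon as `n ≥ ψ(M)`. -/
theorem sbb_z_span (HM : QdInput ℓ M) (HpM : QdInput ℓ (p * M)) (hQ : QEP ℓ M)
    (hw : SbbFricke (p * M) w) (hpM : p ∣ M)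
    {n : ℕ} (hn : dedekindPsi M ≤ n) (β : Fin n → LaurentSeries ℚ) (hβ : ∀ a, β a ∈ AV ℓ M)
    (hli : LinearIndependent (Kj ℓ) (fun a => rho ℓ ⟨β a, qd_AV_le_gaussRing HM (hβ a)⟩))
    {x : LaurentSeries ℚ} (hx : x ∈ modularFunctionFieldFull (p * M)) :
    ∃ g : Fin n × Fin p → Qj, x = ∑ I, ((g I : Qj) : LaurentSeries ℚ) * sbb_z p M β I := by
  have hQle := qd_Qj_le_full (p * M)
  have hfin := HpM.finiteDimensional_full
  have hQli := sbb_z_linearIndependent HM hQ hw β hβ hli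
  let z' : Fin n × Fin p → ↥(IntermediateField.extendScalars hQle) :=
    fun I => ⟨sbb_z p M β I, qd_AV_le_full (sbb_z_mem hβ I)⟩
  have hz'li : LinearIndependent Qj z' := by
    apply LinearIndependent.of_comp (IntermediateField.extendScalars hQle).val.toLinearMap
    exact hQli
  have hcard : Fintype.card (Fin n × Fin p) =
      Module.finrank Qj (IntermediateField.extendScalars hQle) := by
    apply le_antisymm hz'li.fintype_card_le_finrank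
    have h1 : Module.finrank Qj (IntermediateField.extendScalars hQle) = qd_n (p * M) :=
      (IntermediateField.relfinrank_eq_finrank_of_le hQle).symm
    have h2 : qd_n (p * M) ≤ dedekindPsi (p * M) := HpM.relfinrank_full_le
    have h3 : dedekindPsi (p * M) = p * dedekindPsi M := by
      rw [mul_comm p M]
      exact Fermat.Agent.S24x.dedekindPsi_mul_prime_of_dvd M p (Fact.out : p.Prime)
        (Nat.pos_of_ne_zero (NeZero.ne M)) hpM
    rw [h1, Fintype.card_prod, Fintype.card_fin, Fintype.card_fin]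
    calc qd_n (p * M) ≤ p * dedekindPsi M := by rw [← h3]; exact h2
      _ ≤ p * n := Nat.mul_le_mul_left p hn
      _ = n * p := mul_comm p n
  have hspan : Submodule.span Qj (Set.range z') = ⊤ :=
    hz'li.span_eq_top_of_card_eq_finrank' hcard
  have hx' : (⟨x, hx⟩ : ↥(IntermediateField.extendScalars hQle)) ∈
      Submodule.span Qj (Set.range z') := by rw [hspan]; trivial
  obtain ⟨g, hg⟩ := (Submodule.mem_span_range_iff_exists_fun Qj).mp hx'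
  refine ⟨g, ?_⟩
  have h2 := congrArg (IntermediateField.extendScalars hQle).val hg
  rw [map_sum] at h2
  rw [show x = (IntermediateField.extendScalars hQle).val ⟨x, hx⟩ from rfl, ← h2]
  refine Finset.sum_congr rfl fun i _ => ?_
  rw [map_smul, IntermediateField.smul_def, smul_eq_mul]
  rfl

/-- **Lemma K**: on `A_V(pM)`, `ρ X = 0 ⇒ φ X = 0`. -/
theorem sbb_phi_eq_zero_of_rho (HM : QdInput ℓ M) (HpM : QdInput ℓ (p * M)) (hQ : QEP ℓ M)
    (hw : SbbFricke (p * M) w) (hpM : p ∣ M)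
    {n : ℕ} (hn : dedekindPsi M ≤ n) (β : Fin n → LaurentSeries ℚ) (hβ : ∀ a, β a ∈ AV ℓ M)
    (hli : LinearIndependent (Kj ℓ) (fun a => rho ℓ ⟨β a, qd_AV_le_gaussRing HM (hβ a)⟩))
    (X : ↥(AV ℓ (p * M))) (hρ : sbb_rhoR HpM X = 0) : sbb_phi ℓ hw X = 0 := by
  by_contra hφ
  have hx0 : (X : LaurentSeries ℚ) ≠ 0 := by
    intro h
    apply hφ
    have : X = 0 := Subtype.ext h
    rw [this, map_zero]
  have hxF : (X : LaurentSeries ℚ) ∈ modularFunctionFieldFull (p * M) := qd_AV_le_full X.2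
  obtain ⟨g, hg⟩ := sbb_z_span HM HpM hQ hw hpM hn β hβ hli (inv_mem hxF)
  have hne : ∃ I, ((g I : Qj) : LaurentSeries ℚ) ≠ 0 := by
    by_contra hall
    push Not at hall
    have : (X : LaurentSeries ℚ)⁻¹ = 0 := by
      rw [hg]
      exact Finset.sum_eq_zero fun I _ => by rw [hall I, zero_mul]
    exact hx0 (inv_eq_zero.mp this)
  obtain ⟨k, hk, I0, hI0⟩ := qd_scale HM (fun I => ((g I : Qj) : LaurentSeries ℚ))
    (fun I => (g I).2) hne
  have hℓ : ((ℓ : ℕ) : LaurentSeries ℚ) ≠ 0 := qd_natCast_ne_zero ℓ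
  have hTmem : ∑ I : Fin n × Fin p,
      (((ℓ : ℕ) : LaurentSeries ℚ) ^ k * (g I : LaurentSeries ℚ)) *
        (β I.1 * (qExpand ℚ (p * M) jq) ^ (I.2 : ℕ)) ∈ AV ℓ (p * M) :=
    sum_mem fun I _ => mul_mem (sbb_V_mem_AV (hk I)) (sbb_z_mem hβ I)
  have hTval : ∑ I : Fin n × Fin p,
      (((ℓ : ℕ) : LaurentSeries ℚ) ^ k * (g I : LaurentSeries ℚ)) *
        (β I.1 * (qExpand ℚ (p * M) jq) ^ (I.2 : ℕ)) =
      ((ℓ : ℕ) : LaurentSeries ℚ) ^ k * (X : LaurentSeries ℚ)⁻¹ := by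
    rw [hg, Finset.mul_sum]
    refine Finset.sum_congr rfl fun I _ => ?_
    rw [mul_assoc]
    rfl
  rcases le_or_gt k 0 with hk0 | hk0
  · -- `ℓ^(-k) X T = 1`, apply `ρ`
    have e : ((ℓ : ℕ) : ↥(AV ℓ (p * M))) ^ (-k).toNat * X * ⟨_, hTmem⟩ = 1 := by
      apply Subtype.ext
      push_cast
      rw [hTval, ← zpow_natCast, Int.toNat_of_nonneg (by omega)]
      calc ((ℓ : ℕ) : LaurentSeries ℚ) ^ (-k) * (X : LaurentSeries ℚ) *
            (((ℓ : ℕ) : LaurentSeries ℚ) ^ k * (X : LaurentSeries ℚ)⁻¹)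
          = (((ℓ : ℕ) : LaurentSeries ℚ) ^ (-k) * ((ℓ : ℕ) : LaurentSeries ℚ) ^ k) *
              ((X : LaurentSeries ℚ) * (X : LaurentSeries ℚ)⁻¹) := by ring
        _ = 1 := by
            rw [← zpow_add₀ hℓ, neg_add_cancel, zpow_zero, one_mul, mul_inv_cancel₀ hx0]
    have h2 := congrArg (sbb_rhoR HpM) e
    rw [map_mul, map_mul, hρ, mul_zero, zero_mul, map_one] at h2
    exact zero_ne_one h2
  · -- `X T = ℓ^k`, apply `φ`
    have e : X * ⟨_, hTmem⟩ = ((ℓ : ℕ) : ↥(AV ℓ (p * M))) ^ k.toNat := by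
      apply Subtype.ext
      push_cast
      rw [hTval, ← zpow_natCast, Int.toNat_of_nonneg hk0.le]
      calc (X : LaurentSeries ℚ) * (((ℓ : ℕ) : LaurentSeries ℚ) ^ k * (X : LaurentSeries ℚ)⁻¹)
          = ((ℓ : ℕ) : LaurentSeries ℚ) ^ k *
              ((X : LaurentSeries ℚ) * (X : LaurentSeries ℚ)⁻¹) := by ring
        _ = ((ℓ : ℕ) : LaurentSeries ℚ) ^ k := by rw [mul_inv_cancel₀ hx0, mul_one]
    have h2 := congrArg (sbb_phi ℓ hw) e
    rw [map_mul, map_pow, sbb_phi_natCast, zero_pow (by omega)] at h2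
    have hφT : sbb_phi ℓ hw ⟨_, hTmem⟩ = 0 := (mul_eq_zero.mp h2).resolve_left hφ
    have h3 := sbb_lemmaP HM hQ hw β hβ hli _ hk ⟨_, hTmem⟩ rfl hφT I0
    exact hI0 _ h3

/-- **Step 5**: the reductions `ρ(z_{a,i})` are `𝔽_ℓ(j̃)`-linearly independent. -/
theorem sbb_rho_z_linearIndependent (HM : QdInput ℓ M) (HpM : QdInput ℓ (p * M)) (hQ : QEP ℓ M)
    (hw : SbbFricke (p * M) w) (hpM : p ∣ M)
    {n : ℕ} (hn : dedekindPsi M ≤ n) (β : Fin n → LaurentSeries ℚ) (hβ : ∀ a, β a ∈ AV ℓ M)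
    (hli : LinearIndependent (Kj ℓ) (fun a => rho ℓ ⟨β a, qd_AV_le_gaussRing HM (hβ a)⟩)) :
    LinearIndependent (Kj ℓ)
      (fun I => rho ℓ ⟨sbb_z p M β I, qd_AV_le_gaussRing HpM (sbb_z_mem hβ I)⟩) := by
  rw [Fintype.linearIndependent_iff]
  intro κ hκ I
  have hex : ∀ I, ∃ (b : LaurentSeries ℚ) (hb : b ∈ gaussV ℓ),
      rho ℓ ⟨b, gaussV_le_gaussRing ℓ hb⟩ = ((κ I : Kj ℓ) : LaurentSeries (ZMod ℓ)) :=
    fun I => HpM.exists_gaussV_rho_eq _ (κ I).2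
  choose b hb hbρ using hex
  have hXmem : ∑ I, b I * sbb_z p M β I ∈ AV ℓ (p * M) :=
    sum_mem fun I _ => mul_mem (sbb_V_mem_AV (hb I)) (sbb_z_mem hβ I)
  have hρX : sbb_rhoR HpM ⟨_, hXmem⟩ = 0 := by
    rw [sbb_rhoR_apply]
    show rho ℓ ⟨∑ I, b I * sbb_z p M β I, _⟩ = 0
    rw [qd_rho_sum HpM b (sbb_z p M β) hb (sbb_z_mem hβ), ← hκ]
    refine Finset.sum_congr rfl fun I _ => ?_
    rw [hbρ, IntermediateField.smul_def, smul_eq_mul]
  have hφX := sbb_phi_eq_zero_of_rho HM HpM hQ hw hpM hn β hβ hli ⟨_, hXmem⟩ hρX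
  have h3 := sbb_lemmaP HM hQ hw β hβ hli b hb ⟨_, hXmem⟩ rfl hφX I
  apply Subtype.ext
  rw [← hbρ I, h3]
  rfl

end Main

/-- **Step B** (hypothesis form): `p ∣ M`, `DEG ℓ M ⇒ DEG ℓ (pM)`. -/
theorem sbb_deg_step_dvd_of {ℓ p M : ℕ} [Fact ℓ.Prime] [NeZero p] [NeZero M]
    (HM : QdInput ℓ M) (HpM : QdInput ℓ (p * M)) (hp : p.Prime) (hpM : p ∣ M)
    (h : DEG ℓ M) : DEG ℓ (p * M) := by
  have : Fact p.Prime := ⟨hp⟩
  obtain ⟨w, hw⟩ := sbb_exists_fricke (p * M)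
  have hQ := qd_qep_of_deg HM h
  obtain ⟨n, β, hβ, hn, hli⟩ := sbb_exists_basis_lift HM h
  exact sbb_deg_step_of_li HpM hp hpM hn (sbb_z p M β) (sbb_z_mem hβ)
    (sbb_rho_z_linearIndependent HM HpM hQ hw hpM hn β hβ hli)

end

end Fermat.Agent.S28x
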