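/-
S28 project, row SB (owner helper89): `deg_step_dvd`, the EXACT `Spec` statement.

`p ∣ M`, `DEG ℓ M ⇒ DEG ℓ (p M)`.  Final wiring of helper40's hypothesis form
`sbb_deg_step_dvd_of` (S28x/StepBbMain.lean; Fricke map `φ = ρ ∘ w_{pM}`, Lemma P, dimension count
over the Gauss valuation ring `V`) with helper13's unconditional `qd_input` (S28x/QepOfDeg.lean).
-/
import Fermat.Agent.S28x.StepBbMain
import Fermat.Agent.S28x.QepOfDeg

set_option autoImplicit false

open ModularCurve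

namespace Fermat.Agent.S28x

/-- **Step B**: `p ∣ M`, `DEG ℓ M ⇒ DEG ℓ (p M)`. -/
theorem deg_step_dvd (ℓ p M : ℕ) [Fact ℓ.Prime] [NeZero M] (hp : p.Prime) (hpM : p ∣ M)
    (h : DEG ℓ M) : DEG ℓ (p * M) := by
  haveI : NeZero p := ⟨hp.ne_zero⟩
  exact sbb_deg_step_dvd_of (qd_input ℓ M) (qd_input ℓ (p * M)) hp hpM h

end Fermat.Agent.S28x
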