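/-
S28 project, module IND final wiring (helper12): `deg_all`, the EXACT `Spec` statement
(`Spec.deg_all`): for every level `N` prime to `ℓ`,
`ψ(N) ≤ [𝔽_ℓ(j̃, j̃(q^d) : d ∣ N) : 𝔽_ℓ(j̃)]` (`DEG ℓ N`).

One-line application of the induction `ind_deg_all` (`Induction.lean`) to
StepA (`deg_step_coprime`, `StepA.lean`, helper23) and StepB (`deg_step_dvd`, `StepB.lean`, helper89).
This is the trace-route backup of S28 (the landed `S28.lean` uses the units route instead); the
statement is kept because the degree equality of the reduction of `X₀(N)` at good primes is of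
independent use.
-/
import Fermat.Agent.S28x.Induction
import Fermat.Agent.S28x.StepA
import Fermat.Agent.S28x.StepB

set_option autoImplicit false

open ModularCurve

namespace Fermat.Agent.S28x

/-- **DEG for all levels prime to `ℓ`** (`Spec.deg_all`). -/
theorem deg_all (ℓ N : ℕ) [Fact ℓ.Prime] [NeZero N] (hℓN : ¬ ℓ ∣ N) : DEG ℓ N :=
  ind_deg_all ℓ N
    (fun p M _ hp hℓp hℓM hsq hlt h => deg_step_coprime ℓ p M hp hℓp hℓM hsq hlt h)
    (fun p M _ hp hpM h => deg_step_dvd ℓ p M hp hpM h) hℓN

end Fermat.Agent.S28x
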