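/-
S28 project (Igusa: the special fibre of the Igusa model of `X₀(N)` is geometrically integral),
module RED (helper21): the route-independent commutative-algebra reduction.

This file: shared definitions.
* `red_res ℓ : ℤ_(ℓ) →+* ZMod ℓ` (residue map of `GaloisRep.ratLocalizedAt ℓ`);
* `red_iota ℓ : ℤ_(ℓ)((q)) →+* ℚ((q))`, `red_red ℓ : ℤ_(ℓ)((q)) →+* 𝔽_ℓ((q))` (coefficientwise);
* `red_K1 ℓ` : the subfield `Frac (ℤ_(ℓ)((q)))` of `ℚ((q))`;
* `red_W ℓ` : the Gauss valuation ring at `ℓ` (localisation of `ℤ_(ℓ)((q))` at the prime `(ℓ)`),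
  a subring of `ℚ((q))`; `red_rho ℓ : red_W ℓ →+* 𝔽_ℓ((q))` its residue map;
* `red_DegHyp N ℓ` : the hypothesis to be delivered by the "degree" part of the project.
-/
import Mathlib
import Fermat.Prelude.Def_ModularCurve_IgusaScheme
import Fermat.Prelude.Def_ModularCurve_X0ModL

set_option autoImplicit false

namespace Fermat.Agent.S28x

open ModularCurve HahnSeries IntermediateField

noncomputable section

/-! ### The residue map of `ℤ_(ℓ)` -/

theorem red_den_ne_zero (ℓ : ℕ) [hℓ : Fact ℓ.Prime] (x : ↥(GaloisRep.ratLocalizedAt ℓ)) :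
    (((x : ℚ).den : ℕ) : ZMod ℓ) ≠ 0 := by
  intro h
  rw [ZMod.natCast_eq_zero_iff] at h
  have hx : (x : ℚ).den.Coprime ℓ := x.2
  have := Nat.Coprime.eq_one_of_dvd hx.symm h
  exact hℓ.out.one_lt.ne' this

/-- the residue map `ℤ_(ℓ) → 𝔽_ℓ` -/
def red_res (ℓ : ℕ) [Fact ℓ.Prime] : ↥(GaloisRep.ratLocalizedAt ℓ) →+* ZMod ℓ where
  toFun x := ((x : ℚ) : ZMod ℓ)
  map_one' := by simp
  map_zero' := by simp
  map_mul' x y := by
    show (((x * y : ↥(GaloisRep.ratLocalizedAt ℓ)) : ℚ) : ZMod ℓ) = _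
    rw [Subring.coe_mul]
    exact Rat.cast_mul_of_ne_zero (red_den_ne_zero ℓ x) (red_den_ne_zero ℓ y)
  map_add' x y := by
    show (((x + y : ↥(GaloisRep.ratLocalizedAt ℓ)) : ℚ) : ZMod ℓ) = _
    rw [Subring.coe_add]
    exact Rat.cast_add_of_ne_zero (red_den_ne_zero ℓ x) (red_den_ne_zero ℓ y)

theorem red_res_apply (ℓ : ℕ) [Fact ℓ.Prime] (x : ↥(GaloisRep.ratLocalizedAt ℓ)) :
    red_res ℓ x = ((x : ℚ) : ZMod ℓ) := rfl

/-! ### Coefficientwise maps on Laurent series -/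

/-- `ℤ_(ℓ)((q)) → ℚ((q))` -/
def red_iota (ℓ : ℕ) : LaurentSeries ↥(GaloisRep.ratLocalizedAt ℓ) →+* LaurentSeries ℚ :=
  coeffMap (GaloisRep.ratLocalizedAt ℓ).subtype

/-- `ℤ_(ℓ)((q)) → 𝔽_ℓ((q))` -/
def red_red (ℓ : ℕ) [Fact ℓ.Prime] :
    LaurentSeries ↥(GaloisRep.ratLocalizedAt ℓ) →+* LaurentSeries (ZMod ℓ) :=
  coeffMap (red_res ℓ)

theorem red_iota_injective (ℓ : ℕ) : Function.Injective (red_iota ℓ) := by
  intro a b h
  ext k
  have := congrArg (fun x : LaurentSeries ℚ => x.coeff k) h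
  simpa [red_iota] using this

/-! ### The Gauss valuation ring -/

/-- the subfield `Frac (ℤ_(ℓ)((q)))` of `ℚ((q))` (as a set) -/
def red_K1set (ℓ : ℕ) : Set (LaurentSeries ℚ) :=
  {x | ∃ a b : LaurentSeries ↥(GaloisRep.ratLocalizedAt ℓ), b ≠ 0 ∧ x * red_iota ℓ b = red_iota ℓ a}

/-- the Gauss valuation ring `W` (as a set): quotients `a / b` with `b` non-zero modulo `ℓ` -/
def red_Wset (ℓ : ℕ) [Fact ℓ.Prime] : Set (LaurentSeries ℚ) :=
  {x | ∃ a b : LaurentSeries ↥(GaloisRep.ratLocalizedAt ℓ),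
    red_red ℓ b ≠ 0 ∧ x * red_iota ℓ b = red_iota ℓ a}

theorem red_W_wd (ℓ : ℕ) [Fact ℓ.Prime] {x : LaurentSeries ℚ}
    {a b a' b' : LaurentSeries ↥(GaloisRep.ratLocalizedAt ℓ)}
    (hb : red_red ℓ b ≠ 0) (hb' : red_red ℓ b' ≠ 0)
    (h : x * red_iota ℓ b = red_iota ℓ a) (h' : x * red_iota ℓ b' = red_iota ℓ a') :
    red_red ℓ a / red_red ℓ b = red_red ℓ a' / red_red ℓ b' := by
  have h1 : red_iota ℓ (a * b') = red_iota ℓ (a' * b) := by
    rw [map_mul, map_mul, ← h, ← h']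
    ring
  have h2 : a * b' = a' * b := red_iota_injective ℓ h1
  have h3 : red_red ℓ a * red_red ℓ b' = red_red ℓ a' * red_red ℓ b := by
    rw [← map_mul, ← map_mul, h2]
  rw [div_eq_div_iff hb hb', h3]

/-- the Gauss valuation ring `W` at `ℓ` inside `ℚ((q))` -/
def red_W (ℓ : ℕ) [Fact ℓ.Prime] : Subring (LaurentSeries ℚ) where
  carrier := red_Wset ℓ
  zero_mem' := ⟨0, 1, by simp, by simp⟩
  one_mem' := ⟨1, 1, by simp, by simp⟩
  add_mem' := by
    rintro x y ⟨a, b, hb, h⟩ ⟨a', b', hb', h'⟩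
    refine ⟨a * b' + a' * b, b * b', ?_, ?_⟩
    · rw [map_mul]
      exact mul_ne_zero hb hb'
    · rw [map_mul, map_add, map_mul, map_mul, ← h, ← h']
      ring
  mul_mem' := by
    rintro x y ⟨a, b, hb, h⟩ ⟨a', b', hb', h'⟩
    refine ⟨a * a', b * b', ?_, ?_⟩
    · rw [map_mul]
      exact mul_ne_zero hb hb'
    · rw [map_mul, map_mul, ← h, ← h']
      ring
  neg_mem' := by
    rintro x ⟨a, b, hb, h⟩
    exact ⟨-a, b, hb, by rw [map_neg, ← h]; ring⟩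

theorem mem_red_W_iff (ℓ : ℕ) [Fact ℓ.Prime] {x : LaurentSeries ℚ} :
    x ∈ red_W ℓ ↔ ∃ a b : LaurentSeries ↥(GaloisRep.ratLocalizedAt ℓ),
      red_red ℓ b ≠ 0 ∧ x * red_iota ℓ b = red_iota ℓ a := Iff.rfl

/-- the residue map `W → 𝔽_ℓ((q))`, as a function -/
def red_rhoFun (ℓ : ℕ) [Fact ℓ.Prime] (x : red_W ℓ) : LaurentSeries (ZMod ℓ) :=
  red_red ℓ (Classical.choose x.2) / red_red ℓ (Classical.choose (Classical.choose_spec x.2))

theorem red_rhoFun_eq (ℓ : ℕ) [Fact ℓ.Prime] (x : red_W ℓ)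
    {a b : LaurentSeries ↥(GaloisRep.ratLocalizedAt ℓ)} (hb : red_red ℓ b ≠ 0)
    (h : (x : LaurentSeries ℚ) * red_iota ℓ b = red_iota ℓ a) :
    red_rhoFun ℓ x = red_red ℓ a / red_red ℓ b := by
  unfold red_rhoFun
  have hs := Classical.choose_spec (Classical.choose_spec x.2)
  exact red_W_wd ℓ hs.1 hb hs.2 h

/-- the residue map `W → 𝔽_ℓ((q))` -/
def red_rho (ℓ : ℕ) [Fact ℓ.Prime] : red_W ℓ →+* LaurentSeries (ZMod ℓ) where
  toFun := red_rhoFun ℓ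
  map_one' := by
    rw [red_rhoFun_eq ℓ 1 (a := 1) (b := 1) (by simp) (by simp)]
    simp
  map_zero' := by
    rw [red_rhoFun_eq ℓ 0 (a := 0) (b := 1) (by simp) (by simp)]
    simp
  map_mul' := by
    rintro ⟨x, a, b, hb, h⟩ ⟨y, a', b', hb', h'⟩
    rw [red_rhoFun_eq ℓ ⟨x, a, b, hb, h⟩ hb h, red_rhoFun_eq ℓ ⟨y, a', b', hb', h'⟩ hb' h',
      red_rhoFun_eq ℓ _ (a := a * a') (b := b * b') (by rw [map_mul]; exact mul_ne_zero hb hb')
        (by
          show x * y * red_iota ℓ (b * b') = red_iota ℓ (a * a')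
          rw [map_mul, map_mul, ← h, ← h']; ring)]
    rw [map_mul, map_mul, div_mul_div_comm]
  map_add' := by
    rintro ⟨x, a, b, hb, h⟩ ⟨y, a', b', hb', h'⟩
    rw [red_rhoFun_eq ℓ ⟨x, a, b, hb, h⟩ hb h, red_rhoFun_eq ℓ ⟨y, a', b', hb', h'⟩ hb' h',
      red_rhoFun_eq ℓ _ (a := a * b' + a' * b) (b := b * b')
        (by rw [map_mul]; exact mul_ne_zero hb hb')
        (by
          show (x + y) * red_iota ℓ (b * b') = red_iota ℓ (a * b' + a' * b)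
          rw [map_mul, map_add, map_mul, map_mul, ← h, ← h']; ring)]
    rw [map_add, map_mul, map_mul, map_mul, div_add_div _ _ hb hb', mul_comm (red_red ℓ b) (red_red ℓ a')]

theorem red_rho_eq (ℓ : ℕ) [Fact ℓ.Prime] (x : red_W ℓ)
    {a b : LaurentSeries ↥(GaloisRep.ratLocalizedAt ℓ)} (hb : red_red ℓ b ≠ 0)
    (h : (x : LaurentSeries ℚ) * red_iota ℓ b = red_iota ℓ a) :
    red_rho ℓ x = red_red ℓ a / red_red ℓ b :=
  red_rhoFun_eq ℓ x hb h

/-- `Frac (ℤ_(ℓ)((q)))` as a subfield of `ℚ((q))` -/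
def red_K1 (ℓ : ℕ) : Subfield (LaurentSeries ℚ) where
  carrier := red_K1set ℓ
  zero_mem' := ⟨0, 1, one_ne_zero, by simp⟩
  one_mem' := ⟨1, 1, one_ne_zero, by simp⟩
  add_mem' := by
    rintro x y ⟨a, b, hb, h⟩ ⟨a', b', hb', h'⟩
    refine ⟨a * b' + a' * b, b * b', mul_ne_zero hb hb', ?_⟩
    rw [map_mul, map_add, map_mul, map_mul, ← h, ← h']
    ring
  mul_mem' := by
    rintro x y ⟨a, b, hb, h⟩ ⟨a', b', hb', h'⟩
    refine ⟨a * a', b * b', mul_ne_zero hb hb', ?_⟩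
    rw [map_mul, map_mul, ← h, ← h']
    ring
  neg_mem' := by
    rintro x ⟨a, b, hb, h⟩
    exact ⟨-a, b, hb, by rw [map_neg, ← h]; ring⟩
  inv_mem' := by
    rintro x ⟨a, b, hb, h⟩
    by_cases hx : x = 0
    · subst hx
      exact ⟨0, 1, one_ne_zero, by simp⟩
    · have ha : a ≠ 0 := by
        rintro rfl
        rw [map_zero] at h
        rcases mul_eq_zero.mp h with h1 | h1
        · exact hx h1
        · exact hb (red_iota_injective ℓ (by rw [h1, map_zero]))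
      refine ⟨b, a, ha, ?_⟩
      rw [← h]
      field_simp

theorem mem_red_K1_iff (ℓ : ℕ) {x : LaurentSeries ℚ} :
    x ∈ red_K1 ℓ ↔ ∃ a b : LaurentSeries ↥(GaloisRep.ratLocalizedAt ℓ),
      b ≠ 0 ∧ x * red_iota ℓ b = red_iota ℓ a := Iff.rfl

/-! ### The hypothesis delivered by the "degree" part of the project -/

/-- **Interface with the DEG part.**  There are `m` elements `b i` of `F_N ∩ W` whose residues in
`𝔽_ℓ((q))` are linearly independent over `𝔽_ℓ(j̃)`, and any `m + 1` elements of `F_N` are linearly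
dependent over `ℚ(j)` (i.e. `[F_N : ℚ(j)] ≤ m`). -/
def red_DegHyp (N : ℕ) (ℓ : ℕ) [Fact ℓ.Prime] : Prop :=
  ∃ (m : ℕ) (b : Fin m → red_W ℓ),
    (∀ i, ((b i : red_W ℓ) : LaurentSeries ℚ) ∈ modularFunctionFieldFull N) ∧
    LinearIndependent ↥((ZMod ℓ)⟮jqModC (ZMod ℓ)⟯) (fun i => red_rho ℓ (b i)) ∧
    ∀ c : Fin (m + 1) → LaurentSeries ℚ, (∀ i, c i ∈ modularFunctionFieldFull N) →
      ¬ LinearIndependent ↥(ℚ⟮jq⟯) c

end

end Fermat.Agent.S28x
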