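/-
S28 project: bridge from the trace route (`DEG ℓ N`, helper19's `Defs.lean`) to the hypothesis
`red_DegHyp N ℓ` consumed by the route-independent reduction (`RedDefs.lean`, helper21).
Owner: helper19.  Prefix `db_`.
-/
import Fermat.Agent.S28x.Defs
import Fermat.Agent.S28x.RedDefs

set_option autoImplicit false

namespace Fermat.Agent.S28x

open ModularCurve IntermediateField

noncomputable section

variable (ℓ : ℕ) [Fact ℓ.Prime]

/-! ### Dictionary between `Defs.lean` and `RedDefs.lean` -/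

theorem db_resZL_eq : resZL ℓ = red_res ℓ := RingHom.ext fun _ => rfl

theorem db_toQ_eq : toQ ℓ = red_iota ℓ := rfl

theorem db_red_eq : red ℓ = red_red ℓ := by
  unfold red red_red
  rw [db_resZL_eq]

theorem db_gaussRing_eq : gaussRing ℓ = red_W ℓ := by
  ext x
  constructor
  · rintro ⟨u, v, hu, h⟩
    exact ⟨v, u, by rwa [← db_red_eq], by rw [← db_toQ_eq, ← h, mul_comm]⟩
  · rintro ⟨a, b, hb, h⟩
    exact ⟨b, a, by rwa [db_red_eq], by rw [db_toQ_eq, ← h, mul_comm]⟩

theorem db_rho_eq {x : LaurentSeries ℚ} (hx : x ∈ gaussRing ℓ) (hx' : x ∈ red_W ℓ) :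
    rho ℓ ⟨x, hx⟩ = red_rho ℓ ⟨x, hx'⟩ := by
  obtain ⟨u, v, hu, h⟩ := hx
  rw [rho_eq ℓ ⟨x, _⟩ hu h,
    red_rho_eq ℓ ⟨x, hx'⟩ (a := v) (b := u) (by rwa [← db_red_eq])
      (by rw [← db_toQ_eq, ← h, mul_comm]), db_red_eq]

/-! ### The bridge -/

theorem db_Kj_le_Ft (N : ℕ) : Kj ℓ ≤ Ft ℓ N := by
  rw [IntermediateField.adjoin_le_iff, Set.singleton_subset_iff]
  exact jqModC_mem_full (ZMod ℓ) N

theorem db_Qj_le_full (N : ℕ) : Qj ≤ modularFunctionFieldFull N := by
  rw [IntermediateField.adjoin_le_iff, Set.singleton_subset_iff]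
  have := jqd_mem_full N (one_dvd N)
  rwa [qExpand_one_apply] at this

/-- From `DEG` to `red_DegHyp`, given surjectivity of `ρ` from `F_N ∩ W` onto `F̃_N` (module QD)
and the degree bound `[F_N : ℚ(j)] ≤ ψ(N)` (module DU). -/
theorem db_red_DegHyp_of_DEG (N : ℕ) [NeZero N]
    (hlift : ∀ c : LaurentSeries (ZMod ℓ), c ∈ Ft ℓ N →
      ∃ (x : LaurentSeries ℚ) (hx : x ∈ gaussRing ℓ),
        x ∈ modularFunctionFieldFull N ∧ rho ℓ ⟨x, hx⟩ = c)
    (hfd : FiniteDimensional Qj (IntermediateField.extendScalars (db_Qj_le_full N)))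
    (hdu : IntermediateField.relfinrank Qj (modularFunctionFieldFull N) ≤ dedekindPsi N)
    (h : DEG ℓ N) : red_DegHyp N ℓ := by
  classical
  set m := dedekindPsi N with hm
  -- an independent family of size `ψ(N)` in `F̃_N`
  have hle := db_Kj_le_Ft ℓ N
  rw [DEG, IntermediateField.relfinrank_eq_finrank_of_le hle] at h
  set E := IntermediateField.extendScalars hle with hE
  have hmpos : 0 < m := by
    rw [hm, dedekindPsi]
    apply Finset.sum_pos'
    · intro _ _; exact Nat.zero_le _
    · refine ⟨1, ?_, ?_⟩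
      · simp [NeZero.ne N]
      · simp [Nat.pos_of_ne_zero (NeZero.ne N)]
  have hfin : Module.Finite (Kj ℓ) E := Module.finite_of_finrank_pos (lt_of_lt_of_le hmpos h)
  let B := Module.finBasis (Kj ℓ) E
  let e : Fin m → E := fun i => B (Fin.castLE h i)
  have hli : LinearIndependent (Kj ℓ) e :=
    B.linearIndependent.comp _ (Fin.castLE_injective h)
  have hli' : LinearIndependent (Kj ℓ) (fun i => ((e i : E) : LaurentSeries (ZMod ℓ))) := by
    have := hli.map' (E.val.toLinearMap) (LinearMap.ker_eq_bot.mpr E.val.injective)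
    exact this
  -- lift
  have hmem : ∀ i, ((e i : E) : LaurentSeries (ZMod ℓ)) ∈ Ft ℓ N := fun i =>
    (IntermediateField.mem_extendScalars hle).mp (e i).2
  choose x hxW hxF hxρ using fun i => hlift _ (hmem i)
  have hxW' : ∀ i, x i ∈ red_W ℓ := fun i => by rw [← db_gaussRing_eq]; exact hxW i
  refine ⟨m, fun i => ⟨x i, hxW' i⟩, fun i => hxF i, ?_, ?_⟩
  · have : (fun i => red_rho ℓ ⟨x i, hxW' i⟩) =
        fun i => ((e i : E) : LaurentSeries (ZMod ℓ)) := by
      funext i
      rw [← db_rho_eq ℓ (hxW i) (hxW' i), hxρ i]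
    rw [this]
    exact hli'
  · intro c hc hcli
    set E' := IntermediateField.extendScalars (db_Qj_le_full N) with hE'
    let c' : Fin (m + 1) → E' := fun i =>
      ⟨c i, (IntermediateField.mem_extendScalars (db_Qj_le_full N)).mpr (hc i)⟩
    have hc'li : LinearIndependent Qj c' := by
      apply LinearIndependent.of_comp (E'.val.toLinearMap)
      exact hcli
    have h1 := hc'li.fintype_card_le_finrank
    rw [Fintype.card_fin, ← IntermediateField.relfinrank_eq_finrank_of_le (db_Qj_le_full N)] at h1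
    omega

end

end Fermat.Agent.S28x
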