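import Mathlib

/-!
# S28 project, module DU, generic field lemma (`DegreeUpperLI.lean`, prefix `duli_`)

For `t` transcendental over a field `K` in a field extension `E`, a family `f : A → E` is linearly
independent over `K(t)` iff the products `t ^ k * f a` are linearly independent over `K`.
(Both directions are used in the descent `ℚ̄ → ℚ` of `[F_N : ℚ(j)] ≤ ψ(N)`, around
`S24x.ld_linearIndependent_pow_mul`.)  Pure Mathlib.
-/

set_option autoImplicit false

namespace Fermat.Agent.S28x

open IntermediateField

section

variable {K E : Type*} [Field K] [Field E] [Algebra K E]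

/-- the powers of a transcendental element are linearly independent -/
theorem duli_linearIndependent_pow (t : E) (ht : Transcendental K t) :
    LinearIndependent K (fun k : ℕ => t ^ k) := by
  have h1 : Function.Injective (Polynomial.aeval (R := K) t) :=
    transcendental_iff_injective.mp ht
  have h2 := (Polynomial.basisMonomials K).linearIndependent.map'
    (Polynomial.aeval (R := K) t).toLinearMap (LinearMap.ker_eq_bot.mpr h1)
  have h3 : (fun k : ℕ => t ^ k) =
      (Polynomial.aeval (R := K) t).toLinearMap ∘ (Polynomial.basisMonomials K) := by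
    funext k
    simp [Polynomial.coe_basisMonomials]
  rw [h3]
  exact h2

open IntermediateField.algebraAdjoinAdjoin in
/-- `K(t)`-independence is the same as `K[t]`-independence. -/
theorem duli_linearIndependent_adjoin_iff_algebra (t : E) {A : Type*} (f : A → E) :
    LinearIndependent (↥(Algebra.adjoin K {t})) f ↔ LinearIndependent (↥K⟮t⟯) f :=
  LinearIndependent.iff_fractionRing (↥(Algebra.adjoin K {t})) (↥K⟮t⟯)

/-- (⇒) if `f` is `K(t)`-independent then the `t ^ k * f a` are `K`-independent. -/
theorem duli_linearIndependent_pow_mul_of_adjoin (t : E) (ht : Transcendental K t) {A : Type*}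
    (f : A → E) (hf : LinearIndependent (↥K⟮t⟯) f) :
    LinearIndependent K (fun p : A × ℕ => t ^ p.2 * f p.1) := by
  have hf' : LinearIndependent (↥(Algebra.adjoin K {t})) f :=
    (duli_linearIndependent_adjoin_iff_algebra t f).mpr hf
  let tt : ↥(Algebra.adjoin K {t}) := ⟨t, Algebra.self_mem_adjoin_singleton K t⟩
  have hb : LinearIndependent K (fun k : ℕ => tt ^ k) := by
    apply LinearIndependent.of_comp (Algebra.adjoin K {t}).val.toLinearMap
    have : (⇑(Algebra.adjoin K {t}).val.toLinearMap ∘ fun k : ℕ => tt ^ k) =
        fun k : ℕ => t ^ k := by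
      funext k
      simp [tt]
    rw [this]
    exact duli_linearIndependent_pow t ht
  have h := linearIndependent_smul hb hf'
  have h2 : (fun p : A × ℕ => t ^ p.2 * f p.1) =
      (fun p : ℕ × A => tt ^ p.1 • f p.2) ∘ (Equiv.prodComm A ℕ) := by
    funext p
    simp [tt, Subalgebra.smul_def]
  rw [h2]
  exact (linearIndependent_equiv (Equiv.prodComm A ℕ)).mpr h

/-- (⇐) if the `t ^ k * f a` are `K`-independent then `f` is `K(t)`-independent. -/
theorem duli_linearIndependent_adjoin_of_pow_mul (t : E) {A : Type*}
    (f : A → E) (hf : LinearIndependent K (fun p : A × ℕ => t ^ p.2 * f p.1)) :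
    LinearIndependent (↥K⟮t⟯) f := by
  classical
  rw [← duli_linearIndependent_adjoin_iff_algebra]
  rw [linearIndependent_iff']
  intro s g hg a ha
  -- polynomials representing the coefficients
  have hP : ∀ a : A, ∃ P : Polynomial K, Polynomial.aeval t P = (g a : E) := by
    intro a
    have h1 : ((g a : ↥(Algebra.adjoin K {t})) : E) ∈ (Polynomial.aeval (R := K) t).range := by
      rw [← Algebra.adjoin_singleton_eq_range_aeval]
      exact (g a).2
    exact h1
  choose P hP using hP
  set B : ℕ := (s.sup fun a => (P a).natDegree) + 1 with hB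
  have hdeg : ∀ a ∈ s, (P a).natDegree < B := by
    intro a ha
    have : (P a).natDegree ≤ s.sup fun a => (P a).natDegree :=
      Finset.le_sup (f := fun a => (P a).natDegree) ha
    omega
  have key : ∑ p ∈ s ×ˢ Finset.range B, (P p.1).coeff p.2 • (t ^ p.2 * f p.1) = 0 := by
    rw [Finset.sum_product]
    rw [← hg]
    refine Finset.sum_congr rfl fun a ha => ?_
    rw [Subalgebra.smul_def, ← hP a, Polynomial.aeval_eq_sum_range' (hdeg a ha), smul_eq_mul,
      Finset.sum_mul]
    refine Finset.sum_congr rfl fun k _ => ?_
    rw [smul_mul_assoc]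
  have h0 := linearIndependent_iff'.mp hf (s ×ˢ Finset.range B)
    (fun p => (P p.1).coeff p.2) key
  have hPa : P a = 0 := by
    ext k
    rw [Polynomial.coeff_zero]
    by_cases hk : k < B
    · exact h0 (a, k) (Finset.mem_product.mpr ⟨ha, Finset.mem_range.mpr hk⟩)
    · exact Polynomial.coeff_eq_zero_of_natDegree_lt (by have := hdeg a ha; omega)
  apply Subtype.ext
  rw [← hP a, hPa, map_zero]
  rfl

/-- `K(t)`-independence of `f` ⟺ `K`-independence of the products `t ^ k * f a`. -/
theorem duli_linearIndependent_adjoin_iff (t : E) (ht : Transcendental K t) {A : Type*}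
    (f : A → E) :
    LinearIndependent (↥K⟮t⟯) f ↔ LinearIndependent K (fun p : A × ℕ => t ^ p.2 * f p.1) :=
  ⟨duli_linearIndependent_pow_mul_of_adjoin t ht f, duli_linearIndependent_adjoin_of_pow_mul t f⟩

end

end Fermat.Agent.S28x
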