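/-
S28 project, module SA (StepA) -- core assembly (helper23, prefix `sa_`).

`sa_deg_step_coprime_of` : `DEG ℓ M ⇒ DEG ℓ (p M)` for `p ∤ M`, `M` squarefree with all prime
factors `< p`, from the following inputs (hypotheses here; wired in `StepA.lean`):
MP (`exists_modPoly`), PC (`pc_main`), QD (`relfinrank_Ft_le`), SA1 (`sad_dichotomy`,
`sad_only_root`), SA2 (`sa2_card_le_relfinrank`, `sa2_exists_twists`), SA3 (`sa3_psi_lt`),
SA-θ (`sat_exists_theta`).

Maths: `E = F̃_M ⊆ E' = F̃_{pM}`, `y = j̃(q^p)`.  `E'/E` is finite (generators `j̃(q^{pd})`, `d ∣ M`,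
are roots of the monic `Φ̃(X, j̃(q^d)) ∈ E[X]`), so `[E' : Kj] ≥ deg(y/E) ψ(M)`.  By the dichotomy
`deg(y/E) ∈ {1, p+1}`; degree `1` is excluded by the embedding count:
`L₁ = 𝔽_ℓ(j̃, y)` has degree `p + 1` over `𝔽_ℓ(j̃)` (dichotomy + `𝔽_ℓ[j̃]` integrally closed + PC),
`θ = V_M` on `L₁`, the `M` twists `τ_c ∘ θ` are distinct and agree on `L₁`, so
`M (p + 1) ≤ ψ(M)`, contradicting SA3.
-/
import Fermat.Agent.S28x.Defs
import Fermat.Agent.S24x.CombIndex

set_option autoImplicit false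

open ModularCurve Polynomial IntermediateField

namespace Fermat.Agent.S28x

noncomputable section


/-! ### basic facts on `j̃` -/

theorem sa_order_jqModC (R : Type*) [CommRing R] [Nontrivial R] : (jqModC R).order = -1 := by
  have hne : jqModC R ≠ 0 := jqModC_ne_zero_of_nontrivial R
  have h1 : (jqModC R).coeff (-1) ≠ 0 := by
    rw [coeff_jqModC_neg_one]; exact one_ne_zero
  refine le_antisymm (HahnSeries.order_le_of_coeff_ne_zero h1) ?_
  by_contra hlt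
  rw [not_le] at hlt
  exact hne (HahnSeries.coeff_order_eq_zero.1 (coeff_jqModC_of_lt R hlt))

/-- the evaluation `ℤ[Y] → R((q))`, `Y ↦ J`. -/
def saEv (R : Type*) [CommRing R] (J : LaurentSeries R) : Polynomial ℤ →+* LaurentSeries R :=
  Polynomial.eval₂RingHom (Int.castRingHom (LaurentSeries R)) J

theorem saEv_X (R : Type*) [CommRing R] (J : LaurentSeries R) : saEv R J X = J := by
  simp [saEv]

theorem sa_ringHom_ext_int {S : Type*} [Semiring S] {f g : Polynomial ℤ →+* S}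
    (h : f X = g X) : f = g :=
  Polynomial.ringHom_ext' (Subsingleton.elim _ _) h

theorem sa_coeffMap_comp_saEv {R S : Type*} [CommRing R] [CommRing S] (f : R →+* S)
    (J : LaurentSeries R) : (coeffMap f).comp (saEv R J) = saEv S (coeffMap f J) :=
  sa_ringHom_ext_int (by simp [saEv_X])

theorem sa_aeval_int_eq (J : LaurentSeries ℚ) :
    (Polynomial.aeval (R := ℤ) J).toRingHom = saEv ℚ J :=
  sa_ringHom_ext_int (by simp [saEv_X])

theorem sa_coeffMap_injective {R S : Type*} [CommRing R] [CommRing S] (f : R →+* S)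
    (hf : Function.Injective f) : Function.Injective (coeffMap f) := by
  intro x y h
  ext n
  apply hf
  have := congrArg (fun z => z.coeff n) h
  simpa using this

/-- transfer of a relation `Φ(J(q^a), J(q^b)) = 0` from `ℚ` to any commutative ring. -/
theorem sa_transfer (Φ : Polynomial (Polynomial ℤ)) (a b : ℕ) [NeZero a] [NeZero b]
    (h : Φ.eval₂ (saEv ℚ (qExpand ℚ a jq)) (qExpand ℚ b jq) = 0)
    (R : Type*) [CommRing R] :
    Φ.eval₂ (saEv R (qExpand R a (jqModC R))) (qExpand R b (jqModC R)) = 0 := by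
  have hZ : Φ.eval₂ (saEv ℤ (qExpand ℤ a (jqModC ℤ))) (qExpand ℤ b (jqModC ℤ)) = 0 := by
    apply sa_coeffMap_injective (Int.castRingHom ℚ) Int.cast_injective
    rw [Polynomial.hom_eval₂, sa_coeffMap_comp_saEv, coeffMap_qExpand, coeffMap_qExpand,
      coeffMap_jqModC, jqModC_rat, map_zero]
    exact h
  have := congrArg (coeffMap (Int.castRingHom R)) hZ
  rw [Polynomial.hom_eval₂, sa_coeffMap_comp_saEv, coeffMap_qExpand, coeffMap_qExpand,
    coeffMap_jqModC, map_zero] at this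
  exact this




section tower

variable {k 𝕃 : Type*} [Field k] [Field 𝕃] [Algebra k 𝕃]

/-- the degree of an integral element of `E'` over `E ≤ E'` is at most `[E' : E]`. -/
theorem sa_natDegree_le_relfinrank (E E' : IntermediateField k 𝕃) (hEE' : E ≤ E') (y : 𝕃)
    (hy : y ∈ E') (hint : IsIntegral E y) (hfin : relfinrank E E' ≠ 0) :
    (minpoly E y).natDegree ≤ relfinrank E E' := by
  rw [relfinrank_eq_finrank_of_le hEE'] at hfin ⊢
  have hfd : Module.Finite E (extendScalars hEE') :=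
    Module.finite_of_finrank_pos (Nat.pos_of_ne_zero hfin)
  have hle : (↥E)⟮y⟯ ≤ extendScalars hEE' := by
    rw [adjoin_simple_le_iff]
    exact hy
  rw [← IntermediateField.adjoin.finrank hint]
  exact Submodule.finrank_mono (show (↥E)⟮y⟯.toSubalgebra.toSubmodule ≤
    (extendScalars hEE').toSubalgebra.toSubmodule from hle)

end tower

theorem sa_Kj_le_Ft (ℓ M : ℕ) [Fact ℓ.Prime] : Kj ℓ ≤ Ft ℓ M := by
  rw [Kj, adjoin_simple_le_iff]
  exact jqModC_mem_full (ZMod ℓ) M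

theorem sa_Ft_le_Ft (ℓ p M : ℕ) [Fact ℓ.Prime] : Ft ℓ M ≤ Ft ℓ (p * M) := by
  rw [Ft, modularFunctionFieldFullC, adjoin_le_iff]
  rintro x ⟨d, hne, hdvd, rfl⟩
  have := hne
  exact jqModCd_mem_full (ZMod ℓ) (p * M) (hdvd.trans (Dvd.intro_left p rfl))

theorem sa_tower (ℓ p M : ℕ) [Fact ℓ.Prime] [NeZero M] (hp : p.Prime) (hpM : ¬ p ∣ M)
    (h : DEG ℓ M) (hdeg : p + 1 ≤ relfinrank (Ft ℓ M) (Ft ℓ (p * M))) : DEG ℓ (p * M) := by
  unfold DEG at h ⊢
  rw [← relfinrank_mul_relfinrank (sa_Kj_le_Ft ℓ M) (sa_Ft_le_Ft ℓ p M), mul_comm p M,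
    S24x.dedekindPsi_mul_prime_of_not_dvd M p hp (Nat.pos_of_ne_zero (NeZero.ne M)) hpM,
    mul_comm (p + 1)]
  rw [mul_comm M p]
  exact Nat.mul_le_mul h hdeg




theorem sa_isIntegral_of_rel {k : Type*} [Field k] (E : IntermediateField k (LaurentSeries k))
    (Φk : Polynomial (Polynomial k)) (hm : Φk.Monic) (a z : LaurentSeries k) (ha : a ∈ E)
    (hz : Φk.eval₂ (Polynomial.aeval (R := k) a).toRingHom z = 0) : IsIntegral E z := by
  refine ⟨Φk.map (Polynomial.aeval (R := k) (⟨a, ha⟩ : E)).toRingHom, hm.map _, ?_⟩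
  rw [Polynomial.eval₂_map]
  have : (algebraMap E (LaurentSeries k)).comp (Polynomial.aeval (R := k) (⟨a, ha⟩ : E)).toRingHom
      = (Polynomial.aeval (R := k) a).toRingHom := by
    refine Polynomial.ringHom_ext (fun c => ?_) ?_
    · simp
    · simp
  rw [this]
  exact hz

theorem sa_relfinrank_ne_zero (ℓ p M : ℕ) [Fact ℓ.Prime] [NeZero M] (hp : p.Prime)
    (Φk : Polynomial (Polynomial (ZMod ℓ))) (hm : Φk.Monic)
    (hrel : ∀ (d : ℕ) (_ : NeZero d) (_ : NeZero (p * d)), d ∣ M →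
      Φk.eval₂ (Polynomial.aeval (R := ZMod ℓ) (qExpand (ZMod ℓ) d (jqModC (ZMod ℓ)))).toRingHom
        (qExpand (ZMod ℓ) (p * d) (jqModC (ZMod ℓ))) = 0) :
    relfinrank (Ft ℓ M) (Ft ℓ (p * M)) ≠ 0 := by
  classical
  have hEE' : Ft ℓ M ≤ Ft ℓ (p * M) := by
    rw [Ft, modularFunctionFieldFullC, adjoin_le_iff]
    rintro x ⟨d, hne, hdvd, rfl⟩
    have := hne
    exact jqModCd_mem_full (ZMod ℓ) (p * M) (hdvd.trans (Dvd.intro_left p rfl))
  set f : ℕ → LaurentSeries (ZMod ℓ) := fun d =>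
    if h : p * d ≠ 0 then @qExpand (ZMod ℓ) _ (p * d) ⟨h⟩ (jqModC (ZMod ℓ)) else 0 with hf
  set S : Set (LaurentSeries (ZMod ℓ)) := f '' (M.divisors : Set ℕ) with hS
  have hSfin : S.Finite := (M.divisors.finite_toSet).image f
  have hSint : ∀ x ∈ S, IsIntegral (Ft ℓ M) x := by
    rintro x ⟨d, hd, rfl⟩
    have hdM : d ∣ M := Nat.dvd_of_mem_divisors hd
    have hd0 : d ≠ 0 := fun h => by
      subst h
      exact (NeZero.ne M) (Nat.eq_zero_of_zero_dvd hdM)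
    have hpd : p * d ≠ 0 := Nat.mul_ne_zero hp.ne_zero hd0
    have : NeZero d := ⟨hd0⟩
    simp only [hf, dif_pos hpd]
    exact sa_isIntegral_of_rel (Ft ℓ M) Φk hm _ _ (jqModCd_mem_full (ZMod ℓ) M hdM)
      (hrel d ⟨hd0⟩ ⟨hpd⟩ hdM)
  have : Finite S := hSfin.to_subtype
  have hfd : FiniteDimensional (Ft ℓ M) (adjoin (Ft ℓ M) S) :=
    finiteDimensional_adjoin fun x hx => hSint x hx
  have hle : extendScalars hEE' ≤ adjoin (Ft ℓ M) S := by
    intro x hx
    have hx' : x ∈ Ft ℓ (p * M) := hx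
    have key : Ft ℓ (p * M) ≤ (adjoin (Ft ℓ M) S).restrictScalars (ZMod ℓ) := by
      rw [Ft, modularFunctionFieldFullC, adjoin_le_iff]
      rintro z ⟨d', hne, hdvd, rfl⟩
      have := hne
      by_cases hpd' : p ∣ d'
      · obtain ⟨d, rfl⟩ := hpd'
        have hdM : d ∣ M := Nat.dvd_of_mul_dvd_mul_left hp.pos hdvd
        have hpd : p * d ≠ 0 := NeZero.ne (p * d)
        refine subset_adjoin (Ft ℓ M) S ⟨d, ?_, ?_⟩
        · exact Finset.mem_coe.2 (Nat.mem_divisors.2 ⟨hdM, NeZero.ne M⟩)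
        · simp only [hf, dif_pos hpd]
      · have hcop : Nat.Coprime d' p := (Nat.Coprime.symm ((Nat.Prime.coprime_iff_not_dvd hp).2 hpd'))
        have hdM : d' ∣ M := hcop.dvd_of_dvd_mul_left hdvd
        exact (adjoin (Ft ℓ M) S).algebraMap_mem ⟨_, jqModCd_mem_full (ZMod ℓ) M hdM⟩
    exact key hx'
  rw [relfinrank_eq_finrank_of_le hEE']
  have : FiniteDimensional (Ft ℓ M) (extendScalars hEE') :=
    Submodule.finiteDimensional_of_le (show (extendScalars hEE').toSubalgebra.toSubmodule ≤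
      (adjoin (Ft ℓ M) S).toSubalgebra.toSubmodule from hle)
  exact (Module.finrank_pos (R := Ft ℓ M) (M := extendScalars hEE')).ne'




/-- The coefficient of `q^{-deg f}` in `f(j̃)` is the leading coefficient of `f`. -/
theorem sa_coeff_aeval_jqModC (K : Type*) [Field K] (f : Polynomial K) :
    (Polynomial.aeval (jqModC K) f).coeff (-(f.natDegree : ℤ)) = f.leadingCoeff := by
  rw [Polynomial.aeval_def, Polynomial.eval₂_eq_sum_range, HahnSeries.coeff_sum,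
    Finset.sum_range_succ]
  have h0 : ∀ i ∈ Finset.range f.natDegree,
      (algebraMap K (LaurentSeries K) (f.coeff i) * jqModC K ^ i).coeff
        (-(f.natDegree : ℤ)) = 0 := by
    intro i hi
    rw [algebraMap_laurentSeries_eq_single, HahnSeries.coeff_single_zero_mul,
      coeff_jqModC_pow_of_lt K (by have := Finset.mem_range.mp hi; omega), mul_zero]
  rw [Finset.sum_eq_zero h0, zero_add, algebraMap_laurentSeries_eq_single,
    HahnSeries.coeff_single_zero_mul, coeff_jqModC_pow_self, mul_one]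
  rfl

/-- The formal `j̃` is transcendental over the field of constants. -/
theorem sa_transcendental_jqModC (K : Type*) [Field K] : Transcendental K (jqModC K) := by
  intro halg
  obtain ⟨f, hf0, hf⟩ := halg
  have h := sa_coeff_aeval_jqModC K f
  rw [hf, HahnSeries.coeff_zero] at h
  exact hf0 (Polynomial.leadingCoeff_eq_zero.mp h.symm)

open scoped IntermediateField.algebraAdjoinAdjoin in
/-- an element of `k(J)` which is integral over `k[J]` (`J` transcendental) is a polynomial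
in `J`. -/
theorem sa_mem_range_aeval_of_isIntegral {k 𝕃 : Type*} [Field k] [Field 𝕃] [Algebra k 𝕃]
    (J : 𝕃) (hJ : Transcendental k J) (y : 𝕃) (hy : y ∈ k⟮J⟯)
    (hint : IsIntegral (Algebra.adjoin k {J}) y) : ∃ f : Polynomial k, Polynomial.aeval J f = y := by
  -- `k[J]` is integrally closed
  have hinj : Function.Injective (Polynomial.aeval (R := k) J) :=
    transcendental_iff_injective.1 hJ
  have hrange : (Polynomial.aeval (R := k) J).range = Algebra.adjoin k {J} :=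
    (Algebra.adjoin_singleton_eq_range_aeval k J).symm
  let e : Polynomial k ≃ₐ[k] (Polynomial.aeval (R := k) J).range := AlgEquiv.ofInjective _ hinj
  let e' : Polynomial k ≃ₐ[k] Algebra.adjoin k {J} := e.trans (Subalgebra.equivOfEq _ _ hrange)
  have hic' : IsIntegrallyClosed (Algebra.adjoin k {J}) :=
    IsIntegrallyClosed.of_equiv e'.toRingEquiv
  -- descend integrality to `k(J)`
  have hint' : IsIntegral (Algebra.adjoin k {J}) (⟨y, hy⟩ : k⟮J⟯) := by
    have := (isIntegral_algHom_iff (IsScalarTower.toAlgHom (Algebra.adjoin k {J}) k⟮J⟯ 𝕃)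
      (FaithfulSMul.algebraMap_injective k⟮J⟯ 𝕃) (x := (⟨y, hy⟩ : k⟮J⟯))).1
    exact this hint
  obtain ⟨z, hz⟩ := (IsIntegrallyClosed.isIntegral_iff (R := Algebra.adjoin k {J})
    (K := k⟮J⟯)).1 hint'
  have hz' : (z : 𝕃) = y := by
    have := congrArg (fun t : k⟮J⟯ => (t : 𝕃)) hz
    simpa using this
  have hzmem : (z : 𝕃) ∈ (Polynomial.aeval (R := k) J).range := by
    rw [hrange]; exact z.2
  obtain ⟨f, hf⟩ := hzmem
  exact ⟨f, by rw [← hz']; exact hf⟩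

theorem sa_isIntegral_subalgebra_of_rel {k 𝕃 : Type*} [Field k] [Field 𝕃] [Algebra k 𝕃]
    (S : Subalgebra k 𝕃)
    (Φk : Polynomial (Polynomial k)) (hm : Φk.Monic) (a z : 𝕃) (ha : a ∈ S)
    (hz : Φk.eval₂ (Polynomial.aeval (R := k) a).toRingHom z = 0) : IsIntegral S z := by
  refine ⟨Φk.map (Polynomial.aeval (R := k) (⟨a, ha⟩ : S)).toRingHom, hm.map _, ?_⟩
  rw [Polynomial.eval₂_map]
  have : (algebraMap S 𝕃).comp (Polynomial.aeval (R := k) (⟨a, ha⟩ : S)).toRingHom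
      = (Polynomial.aeval (R := k) a).toRingHom := by
    refine Polynomial.ringHom_ext (fun c => ?_) ?_
    · simp
    · simp
  rw [this]
  exact hz

/-- over `𝔽_ℓ(j̃)` the degree of `j̃(q^p)` is `p + 1` (dichotomy + prime case). -/
theorem sa_natDegree_Kj (ℓ p : ℕ) [Fact ℓ.Prime] [NeZero p]
    (Φk : Polynomial (Polynomial (ZMod ℓ))) (hm : Φk.Monic)
    (h1k : Φk.eval₂ (Polynomial.aeval (R := ZMod ℓ) (jqModC (ZMod ℓ))).toRingHom
      (qExpand (ZMod ℓ) p (jqModC (ZMod ℓ))) = 0)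
    (hdich : (minpoly (Kj ℓ) (qExpand (ZMod ℓ) p (jqModC (ZMod ℓ)))).natDegree = 1 ∨
        (minpoly (Kj ℓ) (qExpand (ZMod ℓ) p (jqModC (ZMod ℓ)))).natDegree = p + 1)
    (hPC : ∀ f : Polynomial (ZMod ℓ),
      qExpand (ZMod ℓ) p (jqModC (ZMod ℓ)) ≠ Polynomial.aeval (jqModC (ZMod ℓ)) f) :
    (minpoly (Kj ℓ) (qExpand (ZMod ℓ) p (jqModC (ZMod ℓ)))).natDegree = p + 1 := by
  rcases hdich with h1 | h1
  · exfalso
    rw [minpoly.natDegree_eq_one_iff] at h1
    obtain ⟨z, hz⟩ := h1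
    have hy : qExpand (ZMod ℓ) p (jqModC (ZMod ℓ)) ∈ (ZMod ℓ)⟮jqModC (ZMod ℓ)⟯ := by
      rw [← hz]; exact z.2
    have hint : IsIntegral (Algebra.adjoin (ZMod ℓ) {jqModC (ZMod ℓ)})
        (qExpand (ZMod ℓ) p (jqModC (ZMod ℓ))) :=
      sa_isIntegral_subalgebra_of_rel _ Φk hm _ _ (Algebra.self_mem_adjoin_singleton _ _) h1k
    obtain ⟨f, hf⟩ := sa_mem_range_aeval_of_isIntegral (jqModC (ZMod ℓ))
      (sa_transcendental_jqModC (ZMod ℓ)) _ hy hint
    exact hPC f hf.symm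
  · exact h1




/-- ring homs out of `ZMod ℓ`-algebras commute with the structure maps. -/
theorem sa_comp_algebraMap_zmod (ℓ : ℕ) {A B : Type*} [Ring A] [Ring B] [Algebra (ZMod ℓ) A]
    [Algebra (ZMod ℓ) B] (f : A →+* B) (c : ZMod ℓ) :
    f (algebraMap (ZMod ℓ) A c) = algebraMap (ZMod ℓ) B c := by
  have : f.comp (algebraMap (ZMod ℓ) A) = algebraMap (ZMod ℓ) B := Subsingleton.elim _ _
  exact congrArg (fun g => g c) this

/-- `[𝔽_ℓ(j̃, y) : 𝔽_ℓ(j̃)] = deg(y / 𝔽_ℓ(j̃))`. -/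
theorem sa_relfinrank_adjoin_pair {k 𝕃 : Type*} [Field k] [Field 𝕃] [Algebra k 𝕃] (J y : 𝕃)
    (hint : IsIntegral k⟮J⟯ y) :
    relfinrank k⟮J⟯ (adjoin k {J, y}) = (minpoly k⟮J⟯ y).natDegree := by
  have hle : k⟮J⟯ ≤ adjoin k {J, y} := by
    rw [adjoin_simple_le_iff]
    exact subset_adjoin k _ (Set.mem_insert _ _)
  rw [relfinrank_eq_finrank_of_le hle, ← IntermediateField.adjoin.finrank hint]
  have : extendScalars hle = (↥k⟮J⟯)⟮y⟯ := by
    apply le_antisymm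
    · intro x hx
      have hx' : x ∈ adjoin k {J, y} := hx
      have hJmem : J ∈ (↥k⟮J⟯)⟮y⟯ := by
        have h1 := ((↥k⟮J⟯)⟮y⟯).algebraMap_mem (⟨J, mem_adjoin_simple_self k J⟩ : k⟮J⟯)
        exact h1
      have hymem : y ∈ (↥k⟮J⟯)⟮y⟯ := mem_adjoin_simple_self _ _
      have key : adjoin k {J, y} ≤ ((↥k⟮J⟯)⟮y⟯).restrictScalars k := by
        rw [adjoin_le_iff]
        intro z hz
        rcases hz with hz | hz
        · rw [hz]; exact hJmem
        · rw [Set.mem_singleton_iff] at hz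
          rw [hz]; exact hymem
      exact key hx'
    · rw [adjoin_simple_le_iff]
      exact subset_adjoin k _ (Set.mem_insert_of_mem _ rfl)
  rw [this]




/-- **`θ = V_M` on `L₁ = 𝔽_ℓ(j̃, y)`.** -/
theorem sa_theta_eq_on_L1 (ℓ p M : ℕ) [Fact ℓ.Prime] [NeZero M] [NeZero p] [NeZero (p * M)]
    (Φk : Polynomial (Polynomial (ZMod ℓ)))
    (h1k : Φk.eval₂ (Polynomial.aeval (R := ZMod ℓ) (jqModC (ZMod ℓ))).toRingHom
      (qExpand (ZMod ℓ) p (jqModC (ZMod ℓ))) = 0)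
    (honly : ∀ z : LaurentSeries (ZMod ℓ),
      Φk.eval₂ (Polynomial.aeval (R := ZMod ℓ) (qExpand (ZMod ℓ) M (jqModC (ZMod ℓ)))).toRingHom z = 0 →
        z = qExpand (ZMod ℓ) (p * M) (jqModC (ZMod ℓ)))
    (hyE : qExpand (ZMod ℓ) p (jqModC (ZMod ℓ)) ∈ Ft ℓ M)
    (θ : ↥(Ft ℓ M) →+* LaurentSeries (ZMod ℓ))
    (hθJ : θ ⟨jqModC (ZMod ℓ), jqModC_mem_full (ZMod ℓ) M⟩ = qExpand (ZMod ℓ) M (jqModC (ZMod ℓ)))
    (x : LaurentSeries (ZMod ℓ))
    (hx : x ∈ adjoin (ZMod ℓ) {jqModC (ZMod ℓ), qExpand (ZMod ℓ) p (jqModC (ZMod ℓ))})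
    (hxE : x ∈ Ft ℓ M) :
    θ ⟨x, hxE⟩ = qExpand (ZMod ℓ) M x := by
  set J := jqModC (ZMod ℓ) with hJdef
  set y := qExpand (ZMod ℓ) p J with hydef
  have hL1E : adjoin (ZMod ℓ) {J, y} ≤ Ft ℓ M := by
    rw [adjoin_le_iff]
    intro z hz
    rcases hz with hz | hz
    · rw [hz]; exact jqModC_mem_full (ZMod ℓ) M
    · rw [Set.mem_singleton_iff] at hz
      rw [hz]; exact hyE
  -- θ y = V_M y
  have hθy : θ ⟨y, hyE⟩ = qExpand (ZMod ℓ) M y := by
    have hrelE : Φk.eval₂ (Polynomial.aeval (R := ZMod ℓ)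
        (⟨J, jqModC_mem_full (ZMod ℓ) M⟩ : Ft ℓ M)).toRingHom (⟨y, hyE⟩ : Ft ℓ M) = 0 := by
      apply (FaithfulSMul.algebraMap_injective (Ft ℓ M) (LaurentSeries (ZMod ℓ)))
      rw [Polynomial.hom_eval₂, map_zero]
      have : (algebraMap (Ft ℓ M) (LaurentSeries (ZMod ℓ))).comp
          (Polynomial.aeval (R := ZMod ℓ) (⟨J, jqModC_mem_full (ZMod ℓ) M⟩ : Ft ℓ M)).toRingHom
          = (Polynomial.aeval (R := ZMod ℓ) J).toRingHom := by
        refine Polynomial.ringHom_ext (fun c => ?_) ?_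
        · simp
        · simp
      rw [this]
      exact h1k
    have h2 := congrArg θ hrelE
    rw [Polynomial.hom_eval₂, map_zero] at h2
    have : θ.comp (Polynomial.aeval (R := ZMod ℓ)
          (⟨J, jqModC_mem_full (ZMod ℓ) M⟩ : Ft ℓ M)).toRingHom
          = (Polynomial.aeval (R := ZMod ℓ) (qExpand (ZMod ℓ) M J)).toRingHom := by
      refine Polynomial.ringHom_ext (fun c => ?_) ?_
      · simp only [AlgHom.toRingHom_eq_coe, RingHom.coe_comp, RingHom.coe_coe, Function.comp_apply,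
          Polynomial.aeval_C]
        exact sa_comp_algebraMap_zmod ℓ θ c
      · simp only [AlgHom.toRingHom_eq_coe, RingHom.coe_comp, RingHom.coe_coe, Function.comp_apply,
          Polynomial.aeval_X]
        exact hθJ
    rw [this] at h2
    rw [honly _ h2, hydef, qExpand_qExpand]
    exact qExpand_congr (mul_comm p M) J
  -- induction on the field generated by J, y
  have key : ∀ (z : LaurentSeries (ZMod ℓ)) (hz : z ∈ adjoin (ZMod ℓ) {J, y}),
      θ ⟨z, hL1E hz⟩ = qExpand (ZMod ℓ) M z := by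
    intro z hz
    induction hz using IntermediateField.adjoin_induction with
    | mem z hz =>
      rcases hz with hz | hz
      · subst hz; exact hθJ
      · rw [Set.mem_singleton_iff] at hz
        subst hz; exact hθy
    | algebraMap c =>
      have h1 := sa_comp_algebraMap_zmod ℓ θ c
      have h2 := sa_comp_algebraMap_zmod ℓ (qExpand (ZMod ℓ) M) c
      rw [h2]
      exact h1
    | add a b ha hb iha ihb =>
      have : (⟨a + b, hL1E (add_mem ha hb)⟩ : Ft ℓ M) = ⟨a, hL1E ha⟩ + ⟨b, hL1E hb⟩ := rfl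
      rw [this, map_add, map_add, iha, ihb]
    | inv a ha iha =>
      have : (⟨a⁻¹, hL1E (inv_mem ha)⟩ : Ft ℓ M) = (⟨a, hL1E ha⟩ : Ft ℓ M)⁻¹ := rfl
      rw [this, map_inv₀, map_inv₀, iha]
    | mul a b ha hb iha ihb =>
      have : (⟨a * b, hL1E (mul_mem ha hb)⟩ : Ft ℓ M) = ⟨a, hL1E ha⟩ * ⟨b, hL1E hb⟩ := rfl
      rw [this, map_mul, map_mul, iha, ihb]
  exact key x hx


/-- **Exclusion of degree one**: `j̃(q^p) ∉ F̃_M`. -/
theorem sa_not_mem_Ft (ℓ p M : ℕ) [Fact ℓ.Prime] [NeZero M] [NeZero p] [NeZero (p * M)]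
    (Φk : Polynomial (Polynomial (ZMod ℓ)))
    (h1k : Φk.eval₂ (Polynomial.aeval (R := ZMod ℓ) (jqModC (ZMod ℓ))).toRingHom
      (qExpand (ZMod ℓ) p (jqModC (ZMod ℓ))) = 0)
    (honly : ∀ z : LaurentSeries (ZMod ℓ),
      Φk.eval₂ (Polynomial.aeval (R := ZMod ℓ) (qExpand (ZMod ℓ) M (jqModC (ZMod ℓ)))).toRingHom z = 0 →
        z = qExpand (ZMod ℓ) (p * M) (jqModC (ZMod ℓ)))
    (hintKj : IsIntegral (Kj ℓ) (qExpand (ZMod ℓ) p (jqModC (ZMod ℓ))))
    (hdegKj : (minpoly (Kj ℓ) (qExpand (ZMod ℓ) p (jqModC (ZMod ℓ)))).natDegree = p + 1)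
    (hfinE : relfinrank (Kj ℓ) (Ft ℓ M) ≠ 0)
    (hupper : relfinrank (Kj ℓ) (Ft ℓ M) ≤ dedekindPsi M)
    (hpsi : dedekindPsi M < M * (p + 1))
    (hθ : ∃ θ : ↥(Ft ℓ M) →+* LaurentSeries (ZMod ℓ),
      ∀ (d e : ℕ) (hd : NeZero d) (_ : NeZero e) (hde : d * e = M),
        θ ⟨qExpand (ZMod ℓ) d (jqModC (ZMod ℓ)),
          jqModCd_mem_full (ZMod ℓ) M (Dvd.intro e hde)⟩ =
          qExpand (ZMod ℓ) e (jqModC (ZMod ℓ)))
    (htw : ∃ (K : Type) (_ : Field K)
      (τ : Fin M → (LaurentSeries (ZMod ℓ) →+* LaurentSeries K)),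
      (∀ (c c' : Fin M) (x : LaurentSeries (ZMod ℓ)),
        τ c (qExpand (ZMod ℓ) M x) = τ c' (qExpand (ZMod ℓ) M x)) ∧
      (∀ c c' : Fin M, τ c (jqModC (ZMod ℓ)) = τ c' (jqModC (ZMod ℓ)) → c = c'))
    (hcount : ∀ (Ω : Type) [Field Ω]
      (L1 E : IntermediateField (ZMod ℓ) (LaurentSeries (ZMod ℓ))) (_ : L1 ≤ E)
      (_ : relfinrank L1 E ≠ 0) (σ : Fin M → (↥E →+* Ω)) (_ : Function.Injective σ)
      (_ : ∀ (c c' : Fin M) (z : ↥E), (z : LaurentSeries (ZMod ℓ)) ∈ L1 → σ c z = σ c' z),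
      M ≤ relfinrank L1 E) :
    qExpand (ZMod ℓ) p (jqModC (ZMod ℓ)) ∉ Ft ℓ M := by
  intro hyE
  set J := jqModC (ZMod ℓ) with hJdef
  set y := qExpand (ZMod ℓ) p J with hydef
  obtain ⟨θ, hθ⟩ := hθ
  obtain ⟨K, instK, τ, hτ1, hτ2⟩ := htw
  -- the field L1
  set L1 : IntermediateField (ZMod ℓ) (LaurentSeries (ZMod ℓ)) := adjoin (ZMod ℓ) {J, y} with hL1
  have hKjL1 : Kj ℓ ≤ L1 := by
    rw [Kj, adjoin_simple_le_iff]
    exact subset_adjoin _ _ (Set.mem_insert _ _)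
  have hL1E : L1 ≤ Ft ℓ M := by
    rw [hL1, adjoin_le_iff]
    intro z hz
    rcases hz with hz | hz
    · rw [hz]; exact jqModC_mem_full (ZMod ℓ) M
    · rw [Set.mem_singleton_iff] at hz
      rw [hz]; exact hyE
  have hdeg1 : relfinrank (Kj ℓ) L1 = p + 1 := by
    rw [hL1, Kj, sa_relfinrank_adjoin_pair J y hintKj]
    exact hdegKj
  have hmul := relfinrank_mul_relfinrank hKjL1 hL1E
  have hfin1 : relfinrank L1 (Ft ℓ M) ≠ 0 := by
    intro h0
    rw [h0, mul_zero] at hmul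
    exact hfinE hmul.symm
  -- θ on J and on j̃(q^M)
  have hθJ : θ ⟨J, jqModC_mem_full (ZMod ℓ) M⟩ = qExpand (ZMod ℓ) M J := by
    have := hθ 1 M inferInstance inferInstance (one_mul M)
    have h1 : (⟨qExpand (ZMod ℓ) 1 J, jqModCd_mem_full (ZMod ℓ) M (Dvd.intro M (one_mul M))⟩ :
        Ft ℓ M) = ⟨J, jqModC_mem_full (ZMod ℓ) M⟩ := Subtype.ext (qExpand_one_apply J)
    rw [h1] at this
    exact this
  have hθM : θ ⟨qExpand (ZMod ℓ) M J, jqModCd_mem_full (ZMod ℓ) M (Dvd.intro 1 (mul_one M))⟩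
      = J := by
    have := hθ M 1 inferInstance inferInstance (mul_one M)
    rw [qExpand_one_apply] at this
    exact this
  -- the twisted embeddings
  have hagree : ∀ (c c' : Fin M) (z : ↥(Ft ℓ M)), (z : LaurentSeries (ZMod ℓ)) ∈ L1 →
      ((τ c).comp θ) z = ((τ c').comp θ) z := by
    intro c c' z hz
    have := sa_theta_eq_on_L1 ℓ p M Φk h1k honly hyE θ hθJ z.1 hz z.2
    simp only [RingHom.coe_comp, Function.comp_apply]
    rw [show z = ⟨z.1, z.2⟩ from rfl, this]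
    exact hτ1 c c' _
  have hinj : Function.Injective (fun c : Fin M => (τ c).comp θ) := by
    intro c c' hcc
    apply hτ2
    have := congrArg (fun f : ↥(Ft ℓ M) →+* LaurentSeries K =>
      f ⟨qExpand (ZMod ℓ) M J, jqModCd_mem_full (ZMod ℓ) M (Dvd.intro 1 (mul_one M))⟩) hcc
    simp only [RingHom.coe_comp, Function.comp_apply, hθM] at this
    exact this
  have hM := hcount (LaurentSeries K) L1 (Ft ℓ M) hL1E hfin1 (fun c => (τ c).comp θ) hinj hagree
  -- arithmetic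
  rw [hdeg1] at hmul
  have : (p + 1) * M ≤ dedekindPsi M := by
    calc (p + 1) * M ≤ (p + 1) * relfinrank L1 (Ft ℓ M) := Nat.mul_le_mul_left _ hM
      _ = relfinrank (Kj ℓ) (Ft ℓ M) := hmul
      _ ≤ dedekindPsi M := hupper
  rw [mul_comm] at this
  omega


theorem sa_eval₂_map {k : Type*} [Field k] (Φ : Polynomial (Polynomial ℤ))
    (J' y' : LaurentSeries k) :
    (Φ.map (Polynomial.mapRingHom (Int.castRingHom k))).eval₂
      (Polynomial.aeval (R := k) J').toRingHom y' = Φ.eval₂ (saEv k J') y' := by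
  rw [Polynomial.eval₂_map]
  congr 1
  exact sa_ringHom_ext_int (by simp [saEv_X])

theorem sa_rel_expand {k : Type*} [Field k] (Φk : Polynomial (Polynomial k))
    (a b : LaurentSeries k)
    (h : Φk.eval₂ (Polynomial.aeval (R := k) a).toRingHom b = 0) (d : ℕ) [NeZero d] :
    Φk.eval₂ (Polynomial.aeval (R := k) (qExpand k d a)).toRingHom (qExpand k d b) = 0 := by
  have h2 := congrArg (qExpand k d) h
  rw [Polynomial.hom_eval₂, map_zero] at h2
  have : (qExpand k d).comp (Polynomial.aeval (R := k) a).toRingHom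
      = (Polynomial.aeval (R := k) (qExpand k d a)).toRingHom := by
    refine Polynomial.ringHom_ext (fun c => ?_) ?_
    · simp only [AlgHom.toRingHom_eq_coe, RingHom.coe_comp, RingHom.coe_coe, Function.comp_apply,
        Polynomial.aeval_C]
      exact (qExpandAlgHomC k d).commutes c
    · simp
  rw [this] at h2
  exact h2

theorem sa_dedekindPsi_pos (M : ℕ) (hM : M ≠ 0) : 0 < dedekindPsi M := by
  unfold dedekindPsi
  have h1 : (1 : ℕ) ∈ M.divisors.filter Squarefree :=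
    Finset.mem_filter.2 ⟨Nat.mem_divisors.2 ⟨one_dvd M, hM⟩, squarefree_one⟩
  have := Finset.single_le_sum (f := fun d => M / d) (fun _ _ => Nat.zero_le _) h1
  simp only [Nat.div_one] at this
  exact lt_of_lt_of_le (Nat.pos_of_ne_zero hM) this

/-- **Step A, hypothesis form.** -/
theorem sa_deg_step_coprime_of (ℓ p M : ℕ) [Fact ℓ.Prime] [NeZero M] [NeZero p] [NeZero (p * M)]
    (hp : p.Prime) (hpM : ¬ p ∣ M) (h : DEG ℓ M)
    -- MP
    (hMP : ∃ Φ : Polynomial (Polynomial ℤ), Φ.Monic ∧ Φ.natDegree = p + 1 ∧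
      Φ.eval₂ (Polynomial.aeval (R := ℤ) jq).toRingHom (qExpand ℚ p jq) = 0 ∧
      Φ.eval₂ (Polynomial.aeval (R := ℤ) (qExpand ℚ p jq)).toRingHom jq = 0)
    -- PC
    (hPC : ∀ f : Polynomial (ZMod ℓ),
      qExpand (ZMod ℓ) p (jqModC (ZMod ℓ)) ≠ Polynomial.aeval (jqModC (ZMod ℓ)) f)
    -- QD
    (hupper : relfinrank (Kj ℓ) (Ft ℓ M) ≤ dedekindPsi M)
    -- SA3
    (hpsi : dedekindPsi M < M * (p + 1))
    -- SA1
    (hdich : ∀ Φk : Polynomial (Polynomial (ZMod ℓ)), Φk.Monic → Φk.natDegree = p + 1 →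
      Φk.eval₂ (Polynomial.aeval (R := ZMod ℓ) (jqModC (ZMod ℓ))).toRingHom
        (qExpand (ZMod ℓ) p (jqModC (ZMod ℓ))) = 0 →
      Φk.eval₂ (Polynomial.aeval (R := ZMod ℓ) (qExpand (ZMod ℓ) p (jqModC (ZMod ℓ)))).toRingHom
        (jqModC (ZMod ℓ)) = 0 →
      ∀ E : IntermediateField (ZMod ℓ) (LaurentSeries (ZMod ℓ)), jqModC (ZMod ℓ) ∈ E →
        IsIntegral E (qExpand (ZMod ℓ) p (jqModC (ZMod ℓ))) ∧
          ((minpoly E (qExpand (ZMod ℓ) p (jqModC (ZMod ℓ)))).natDegree = 1 ∨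
            (minpoly E (qExpand (ZMod ℓ) p (jqModC (ZMod ℓ)))).natDegree = p + 1))
    (honly : ∀ Φk : Polynomial (Polynomial (ZMod ℓ)), Φk.Monic → Φk.natDegree = p + 1 →
      Φk.eval₂ (Polynomial.aeval (R := ZMod ℓ) (jqModC (ZMod ℓ))).toRingHom
        (qExpand (ZMod ℓ) p (jqModC (ZMod ℓ))) = 0 →
      Φk.eval₂ (Polynomial.aeval (R := ZMod ℓ) (qExpand (ZMod ℓ) p (jqModC (ZMod ℓ)))).toRingHom
        (jqModC (ZMod ℓ)) = 0 →
      ∀ z : LaurentSeries (ZMod ℓ),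
        Φk.eval₂ (Polynomial.aeval (R := ZMod ℓ)
          (qExpand (ZMod ℓ) M (jqModC (ZMod ℓ)))).toRingHom z = 0 →
        z = qExpand (ZMod ℓ) (p * M) (jqModC (ZMod ℓ)))
    -- SA-θ
    (hθ : ∃ θ : ↥(Ft ℓ M) →+* LaurentSeries (ZMod ℓ),
      ∀ (d e : ℕ) (hd : NeZero d) (_ : NeZero e) (hde : d * e = M),
        θ ⟨qExpand (ZMod ℓ) d (jqModC (ZMod ℓ)),
          jqModCd_mem_full (ZMod ℓ) M (Dvd.intro e hde)⟩ =
          qExpand (ZMod ℓ) e (jqModC (ZMod ℓ)))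
    -- SA2
    (htw : ∃ (K : Type) (_ : Field K)
      (τ : Fin M → (LaurentSeries (ZMod ℓ) →+* LaurentSeries K)),
      (∀ (c c' : Fin M) (x : LaurentSeries (ZMod ℓ)),
        τ c (qExpand (ZMod ℓ) M x) = τ c' (qExpand (ZMod ℓ) M x)) ∧
      (∀ c c' : Fin M, τ c (jqModC (ZMod ℓ)) = τ c' (jqModC (ZMod ℓ)) → c = c'))
    (hcount : ∀ (Ω : Type) [Field Ω]
      (L1 E : IntermediateField (ZMod ℓ) (LaurentSeries (ZMod ℓ))) (_ : L1 ≤ E)
      (_ : relfinrank L1 E ≠ 0) (σ : Fin M → (↥E →+* Ω)) (_ : Function.Injective σ)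
      (_ : ∀ (c c' : Fin M) (z : ↥E), (z : LaurentSeries (ZMod ℓ)) ∈ L1 → σ c z = σ c' z),
      M ≤ relfinrank L1 E) :
    DEG ℓ (p * M) := by
  obtain ⟨Φ, hΦm, hΦd, hr1, hr2⟩ := hMP
  set J := jqModC (ZMod ℓ) with hJdef
  set y := qExpand (ZMod ℓ) p J with hydef
  set Φk : Polynomial (Polynomial (ZMod ℓ)) :=
    Φ.map (Polynomial.mapRingHom (Int.castRingHom (ZMod ℓ))) with hΦk
  have hm : Φk.Monic := hΦm.map _
  have hd : Φk.natDegree = p + 1 := by rw [hΦk, hΦm.natDegree_map, hΦd]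
  -- the two relations over `𝔽_ℓ`
  have hr1' : Φ.eval₂ (saEv ℚ (qExpand ℚ 1 jq)) (qExpand ℚ p jq) = 0 := by
    rw [qExpand_one_apply, ← sa_aeval_int_eq]; exact hr1
  have hr2' : Φ.eval₂ (saEv ℚ (qExpand ℚ p jq)) (qExpand ℚ 1 jq) = 0 := by
    rw [qExpand_one_apply, ← sa_aeval_int_eq]; exact hr2
  have h1k : Φk.eval₂ (Polynomial.aeval (R := ZMod ℓ) J).toRingHom y = 0 := by
    have := sa_transfer Φ 1 p hr1' (ZMod ℓ)
    rw [qExpand_one_apply] at this
    rw [hΦk, sa_eval₂_map]; exact this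
  have h2k : Φk.eval₂ (Polynomial.aeval (R := ZMod ℓ) y).toRingHom J = 0 := by
    have := sa_transfer Φ p 1 hr2' (ZMod ℓ)
    rw [qExpand_one_apply] at this
    rw [hΦk, sa_eval₂_map]; exact this
  have hrel : ∀ (d : ℕ) (_ : NeZero d) (_ : NeZero (p * d)), d ∣ M →
      Φk.eval₂ (Polynomial.aeval (R := ZMod ℓ) (qExpand (ZMod ℓ) d J)).toRingHom
        (qExpand (ZMod ℓ) (p * d) J) = 0 := by
    intro d _ _ _
    have := sa_rel_expand Φk J y h1k d
    rw [hydef, qExpand_qExpand] at this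
    rw [qExpand_congr (mul_comm p d) J]
    exact this
  have hEdich := hdich Φk hm hd h1k h2k (Ft ℓ M) (jqModC_mem_full (ZMod ℓ) M)
  have hKdich := hdich Φk hm hd h1k h2k (Kj ℓ) (mem_adjoin_simple_self (ZMod ℓ) J)
  have hfinE' : relfinrank (Ft ℓ M) (Ft ℓ (p * M)) ≠ 0 :=
    sa_relfinrank_ne_zero ℓ p M hp Φk hm hrel
  have hyE' : y ∈ Ft ℓ (p * M) := jqModCd_mem_full (ZMod ℓ) (p * M) (Dvd.intro M rfl)
  rcases hEdich.2 with hdeg | hdeg
  · -- degree one is impossible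
    exfalso
    rw [minpoly.natDegree_eq_one_iff] at hdeg
    obtain ⟨z, hz⟩ := hdeg
    have hyE : y ∈ Ft ℓ M := by rw [← hz]; exact z.2
    have hfinE : relfinrank (Kj ℓ) (Ft ℓ M) ≠ 0 := by
      have h0 := sa_dedekindPsi_pos M (NeZero.ne M)
      unfold DEG at h
      omega
    exact sa_not_mem_Ft ℓ p M Φk h1k (honly Φk hm hd h1k h2k) hKdich.1
      (sa_natDegree_Kj ℓ p Φk hm h1k hKdich.2 hPC) hfinE hupper hpsi hθ htw hcount hyE
  · -- degree p + 1: tower law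
    refine sa_tower ℓ p M hp hpM h ?_
    rw [← hdeg]
    exact sa_natDegree_le_relfinrank (Ft ℓ M) (Ft ℓ (p * M)) (sa_Ft_le_Ft ℓ p M) y hyE'
      hEdich.1 hfinE'

end

end Fermat.Agent.S28x
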