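/-
S28 project, module CH (helper49): pure algebra used by `ChartQEPCore.lean`.
* `ch_ic`: for `t` transcendental over a field `k` and `S ⊆ {t, t⁻¹}`, `k[S]` is integrally closed
  in `k(t)`.
* `ch_isIntegral_inf`: an element integral over two subrings `R₁, R₂` of a field `K₀ ⊆ L`, both
  integrally closed in `K₀`, is integral over `R₁ ⊓ R₂`.
Mathlib only.
-/
import Mathlib

set_option autoImplicit false
set_option linter.style.haveILetI false

open Polynomial IntermediateField
open scoped IntermediateField IntermediateField.algebraAdjoinAdjoin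

namespace Fermat.Agent.S28x

section IC
variable {k L : Type*} [Field k] [Field L] [Algebra k L]

/-- `k[t]` is integrally closed in `k(t)` for transcendental `t`. -/
theorem ch_ic_singleton (t : L) (ht : Transcendental k t) (c : L) (hc : c ∈ k⟮t⟯)
    (hint : IsIntegral (Algebra.adjoin k {t}) c) : c ∈ Algebra.adjoin k {t} := by
  have : IsIntegrallyClosed (Algebra.adjoin k {t}) :=
    IsIntegrallyClosed.of_equiv (Polynomial.algEquivOfTranscendental k t ht).toRingEquiv
  have hint' : IsIntegral (Algebra.adjoin k {t}) (⟨c, hc⟩ : k⟮t⟯) := by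
    have hinj : Function.Injective (algebraMap k⟮t⟯ L) := (algebraMap k⟮t⟯ L).injective
    exact (isIntegral_algebraMap_iff (R := Algebra.adjoin k {t}) hinj).mp hint
  obtain ⟨y, hy⟩ := IsIntegrallyClosed.isIntegral_iff.mp hint'
  have : (y : L) = c := by
    have := congrArg (fun z : k⟮t⟯ => (z : L)) hy
    simpa using this
  rw [← this]
  exact y.2

theorem ch_exists_pow_mul_mem (s : L) (hs : s ≠ 0) (a : L)
    (ha : a ∈ Algebra.adjoin k {s, s⁻¹}) :
    ∃ m : ℕ, ∀ m' : ℕ, m ≤ m' → s ^ m' * a ∈ Algebra.adjoin k {s} := by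
  have hsA : s ∈ Algebra.adjoin k {s} := Algebra.self_mem_adjoin_singleton k s
  induction ha using Algebra.adjoin_induction with
  | mem y hy =>
    rcases hy with rfl | hy
    · exact ⟨0, fun m' _ => mul_mem (pow_mem hsA m') hsA⟩
    · rw [Set.mem_singleton_iff] at hy
      subst hy
      refine ⟨1, fun m' hm' => ?_⟩
      obtain ⟨j, rfl⟩ := Nat.exists_eq_add_of_le hm'
      rw [add_comm, pow_succ, mul_assoc, mul_inv_cancel₀ hs, mul_one]
      exact pow_mem hsA j
  | algebraMap r =>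
    exact ⟨0, fun m' _ => mul_mem (pow_mem hsA m') (Subalgebra.algebraMap_mem _ r)⟩
  | add y z _ _ hy hz =>
    obtain ⟨m, hm⟩ := hy
    obtain ⟨n, hn⟩ := hz
    refine ⟨max m n, fun m' hm' => ?_⟩
    rw [mul_add]
    exact add_mem (hm m' (le_trans (le_max_left _ _) hm')) (hn m' (le_trans (le_max_right _ _) hm'))
  | mul y z _ _ hy hz =>
    obtain ⟨m, hm⟩ := hy
    obtain ⟨n, hn⟩ := hz
    refine ⟨m + n, fun m' hm' => ?_⟩
    obtain ⟨j, rfl⟩ := Nat.exists_eq_add_of_le hm'
    have : s ^ (m + n + j) * (y * z) = (s ^ m * y) * (s ^ (n + j) * z) := by ring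
    rw [this]
    exact mul_mem (hm m le_rfl) (hn (n + j) (Nat.le_add_right _ _))

/-- a monic polynomial over `L` with coefficients in a subalgebra `A` makes its roots integral
over `A`. -/
theorem ch_isIntegral_of_coeff_mem (A : Subalgebra k L) (Q : L[X]) (hQ : Q.Monic)
    (hcoeff : ∀ i, Q.coeff i ∈ A) (z : L) (hz : Q.eval z = 0) : IsIntegral A z := by
  have hsub : (↑Q.coeffs : Set L) ⊆ A.toSubring := by
    intro a ha
    rw [Finset.mem_coe, Polynomial.mem_coeffs_iff] at ha
    obtain ⟨n, _, rfl⟩ := ha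
    exact hcoeff n
  refine ⟨Q.toSubring A.toSubring hsub, (Polynomial.monic_toSubring _ _ _).mpr hQ, ?_⟩
  have h := Polynomial.map_toSubring Q A.toSubring hsub
  rw [Polynomial.eval₂_eq_eval_map]
  have : Polynomial.map (algebraMap ↥A L) (Q.toSubring A.toSubring hsub) = Q := h
  rw [this, hz]

theorem ch_ic_pair (t : L) (ht : Transcendental k t) (c : L) (hc : c ∈ k⟮t⟯)
    (hint : IsIntegral (Algebra.adjoin k {t, t⁻¹}) c) : c ∈ Algebra.adjoin k {t, t⁻¹} := by
  have ht0 : t ≠ 0 := fun h => ht (h ▸ isAlgebraic_zero)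
  obtain ⟨P, hPm, hPc⟩ := hint
  set p : L[X] := P.map (algebraMap (Algebra.adjoin k {t, t⁻¹}) L) with hp
  have hpm : p.Monic := hPm.map _
  have hpc : p.eval c = 0 := by
    rw [hp, Polynomial.eval_map]; exact hPc
  -- uniform exponent
  have hex : ∀ i, ∃ m : ℕ, ∀ m' : ℕ, m ≤ m' → t ^ m' * p.coeff i ∈ Algebra.adjoin k {t} := by
    intro i
    apply ch_exists_pow_mul_mem t ht0
    rw [hp, Polynomial.coeff_map]
    exact (P.coeff i).2
  choose m hm using hex
  set M := (Finset.range (p.natDegree + 1)).sup m with hM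
  have hM' : ∀ i, i ≤ p.natDegree → t ^ M * p.coeff i ∈ Algebra.adjoin k {t} := by
    intro i hi
    exact hm i M (Finset.le_sup (f := m) (Finset.mem_range.mpr (Nat.lt_succ_of_le hi)))
  have htA : t ∈ Algebra.adjoin k {t} := Algebra.self_mem_adjoin_singleton k t
  -- the scaled polynomial
  have hQcoeff : ∀ i, (p.scaleRoots (t ^ M)).coeff i ∈ Algebra.adjoin k {t} := by
    intro i
    rw [Polynomial.coeff_scaleRoots]
    rcases lt_trichotomy i p.natDegree with hi | hi | hi
    · obtain ⟨j, hj⟩ := Nat.exists_eq_add_of_lt hi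
      have : p.natDegree - i = j + 1 := by omega
      rw [this, pow_succ, ← mul_assoc, mul_comm (p.coeff i * _), ← mul_assoc]
      exact mul_mem (hM' i hi.le) (pow_mem (pow_mem htA M) j)
    · rw [hi, Nat.sub_self, pow_zero, mul_one, hpm.coeff_natDegree]
      exact one_mem _
    · rw [Polynomial.coeff_eq_zero_of_natDegree_lt hi, zero_mul]
      exact zero_mem _
  have hz : (p.scaleRoots (t ^ M)).eval (t ^ M * c) = 0 := by
    have := Polynomial.scaleRoots_eval₂_eq_zero (RingHom.id L) (r := c) (s := t ^ M)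
      (p := p) (by simpa [Polynomial.eval₂_id] using hpc)
    simpa [Polynomial.eval₂_id] using this
  have hint1 : IsIntegral (Algebra.adjoin k {t}) (t ^ M * c) :=
    ch_isIntegral_of_coeff_mem _ _ ((Polynomial.monic_scaleRoots_iff _).mpr hpm) hQcoeff _ hz
  have hmem1 : t ^ M * c ∈ Algebra.adjoin k {t} := by
    apply ch_ic_singleton t ht _ _ hint1
    exact mul_mem (pow_mem (mem_adjoin_simple_self k t) M) hc
  have hle : Algebra.adjoin k {t} ≤ Algebra.adjoin k {t, t⁻¹} :=
    Algebra.adjoin_mono (by simp)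
  have htinv : t⁻¹ ∈ Algebra.adjoin k {t, t⁻¹} := Algebra.subset_adjoin (by simp)
  have : c = (t⁻¹) ^ M * (t ^ M * c) := by
    rw [← mul_assoc, ← mul_pow, inv_mul_cancel₀ ht0, one_pow, one_mul]
  rw [this]
  exact mul_mem (pow_mem htinv M) (hle hmem1)

theorem ch_ic_empty (t : L) (ht : Transcendental k t) (c : L) (hc : c ∈ k⟮t⟯)
    (hint : IsIntegral (Algebra.adjoin k (∅ : Set L)) c) : c ∈ Algebra.adjoin k (∅ : Set L) := by
  rw [Algebra.adjoin_empty] at hint ⊢
  have hk : IsIntegral k c := by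
    haveI : Algebra.IsIntegral k (⊥ : Subalgebra k L) :=
      Algebra.isIntegral_of_surjective (by
        rintro ⟨x, hx⟩
        obtain ⟨r, hr⟩ := Algebra.mem_bot.mp hx
        exact ⟨r, Subtype.ext hr⟩)
    exact isIntegral_trans c hint
  have h1 : IsIntegral (Algebra.adjoin k {t}) c := hk.tower_top
  have h2 := ch_ic_singleton t ht c hc h1
  rw [Algebra.adjoin_singleton_eq_range_aeval] at h2
  obtain ⟨f, rfl⟩ := h2
  by_cases hf : f.natDegree = 0
  · obtain ⟨a, rfl⟩ := Polynomial.natDegree_eq_zero.mp hf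
    rw [AlgHom.toRingHom_eq_coe, RingHom.coe_coe, Polynomial.aeval_C]
    exact Subalgebra.algebraMap_mem _ a
  · exfalso
    have hf0 : f ≠ 0 := fun h => hf (by rw [h]; simp)
    have := ht.aeval f hf (mem_nonZeroDivisors_of_ne_zero
      (Polynomial.leadingCoeff_ne_zero.mpr hf0))
    exact this hk.isAlgebraic

theorem ch_transcendental_inv (t : L) (ht : Transcendental k t) : Transcendental k t⁻¹ := by
  intro h
  apply ht
  have := h.inv
  rwa [inv_inv] at this

theorem ch_ic_inv (t : L) (ht : Transcendental k t) (c : L) (hc : c ∈ k⟮t⟯)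
    (hint : IsIntegral (Algebra.adjoin k {t⁻¹}) c) : c ∈ Algebra.adjoin k {t⁻¹} := by
  apply ch_ic_singleton t⁻¹ (ch_transcendental_inv t ht) c _ hint
  have hle : k⟮t⟯ ≤ k⟮t⁻¹⟯ := by
    rw [adjoin_simple_le_iff]
    have := inv_mem (mem_adjoin_simple_self k t⁻¹)
    rwa [inv_inv] at this
  exact hle hc

/-- `k[S]` is integrally closed in `k(t)` for every `S ⊆ {t, t⁻¹}`, `t` transcendental. -/
theorem ch_ic (t : L) (ht : Transcendental k t) (S : Set L) (hS : S ⊆ {t, t⁻¹}) (c : L)
    (hc : c ∈ k⟮t⟯) (hint : IsIntegral (Algebra.adjoin k S) c) : c ∈ Algebra.adjoin k S := by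
  rcases Set.subset_pair_iff_eq.mp hS with rfl | rfl | rfl | rfl
  · exact ch_ic_empty t ht c hc hint
  · exact ch_ic_singleton t ht c hc hint
  · exact ch_ic_inv t ht c hc hint
  · exact ch_ic_pair t ht c hc hint

end IC

section Inf
variable {L : Type*} [Field L]

theorem ch_isIntegral_of_coeff_mem_subring (T : Subring L) (Q : L[X]) (hQ : Q.Monic)
    (hcoeff : ∀ i, Q.coeff i ∈ T) (z : L) (hz : Q.eval z = 0) : IsIntegral T z := by
  have hsub : (↑Q.coeffs : Set L) ⊆ T := by
    intro a ha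
    rw [Finset.mem_coe, Polynomial.mem_coeffs_iff] at ha
    obtain ⟨n, _, rfl⟩ := ha
    exact hcoeff n
  refine ⟨Q.toSubring T hsub, (Polynomial.monic_toSubring _ _ _).mpr hQ, ?_⟩
  have h := Polynomial.map_toSubring Q T hsub
  rw [Polynomial.eval₂_eq_eval_map]
  have : Polynomial.map (algebraMap ↥T L) (Q.toSubring T hsub) = Q := h
  rw [this, hz]

/-- coefficients of the minimal polynomial over a subfield `K₀` of an element integral over a
subring `R ≤ K₀` which is integrally closed in `K₀` lie in `R`. -/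
theorem ch_minpoly_coeff_mem (K₀ : Subfield L) (R : Subring L) (h : R ≤ K₀.toSubring)
    (ic : ∀ c ∈ K₀, IsIntegral R c → c ∈ R) (z : L) (hz : IsIntegral R z) (i : ℕ) :
    ((minpoly K₀ z).coeff i : L) ∈ R := by
  letI : Algebra R K₀ := (Subring.inclusion h).toAlgebra
  haveI : IsScalarTower R K₀ L := IsScalarTower.of_algebraMap_eq (fun x => rfl)
  have hzK : IsIntegral K₀ z := hz.tower_top
  obtain ⟨p, hpm, hpz⟩ := hz
  have hdvd : minpoly K₀ z ∣ p.map (algebraMap R K₀) := by
    apply minpoly.dvd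
    rw [Polynomial.aeval_def, Polynomial.eval₂_map, ← IsScalarTower.algebraMap_eq]
    exact hpz
  have hint : IsIntegral R ((minpoly K₀ z).coeff i) :=
    Polynomial.isIntegral_coeff_of_dvd p (minpoly K₀ z) hpm (minpoly.monic hzK) hdvd i
  apply ic _ ((minpoly K₀ z).coeff i).2
  have hinj : Function.Injective (algebraMap K₀ L) := (algebraMap K₀ L).injective
  exact (isIntegral_algebraMap_iff (R := R) hinj).mpr hint

theorem ch_isIntegral_inf (K₀ : Subfield L) (R₁ R₂ : Subring L)
    (h₁ : R₁ ≤ K₀.toSubring) (h₂ : R₂ ≤ K₀.toSubring)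
    (ic₁ : ∀ c ∈ K₀, IsIntegral R₁ c → c ∈ R₁) (ic₂ : ∀ c ∈ K₀, IsIntegral R₂ c → c ∈ R₂)
    (z : L) (hz₁ : IsIntegral R₁ z) (hz₂ : IsIntegral R₂ z) :
    IsIntegral (R₁ ⊓ R₂ : Subring L) z := by
  have hzK : IsIntegral K₀ z := by
    letI : Algebra R₁ K₀ := (Subring.inclusion h₁).toAlgebra
    haveI : IsScalarTower R₁ K₀ L := IsScalarTower.of_algebraMap_eq (fun x => rfl)
    exact hz₁.tower_top
  apply ch_isIntegral_of_coeff_mem_subring (R₁ ⊓ R₂) ((minpoly K₀ z).map (algebraMap K₀ L))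
    ((minpoly.monic hzK).map _)
  · intro i
    rw [Polynomial.coeff_map]
    exact ⟨ch_minpoly_coeff_mem K₀ R₁ h₁ ic₁ z hz₁ i, ch_minpoly_coeff_mem K₀ R₂ h₂ ic₂ z hz₂ i⟩
  · rw [Polynomial.eval_map, ← Polynomial.aeval_def, minpoly.aeval]

end Inf
end Fermat.Agent.S28x
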