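/-
S28 project, module CH (helper49): the `q`-expansion principle for the chart algebras
`R_S = chartAlg N ℓ S` (integral closure of `ℤ_(ℓ)[S]` in `F_N`, `S ⊆ {j, 1/j}`).

* `ch_chart_mem_gaussRing` : `R_S ⊆ W` (real, from GR).
* `ch_chart_qep_of` : if `x ∈ R_S` and `ρ(x) = 0` then `x = ℓ y` with `y ∈ R_S`, GIVEN
  `hV` (every element of `W ∩ F_N` is integral over `V`; helper21 `rb_isIntegral_gaussV`) and
  `hadj` (`V ∩ ℚ[T] ⊆ ℤ_(ℓ)[T]`; = Spec `mem_adjoin_ZL_of_mem_gaussV`, module GaussV).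
Proof of the descent: `y = x/ℓ` is integral over `V` and over `ℚ[T]`, both integrally closed in
`ℚ(j)` (`ChartIC.lean`), so the coefficients of its minimal polynomial over `ℚ(j)` lie in
`V ∩ ℚ[T] ⊆ ℤ_(ℓ)[T]`.
-/
import Fermat.Agent.S28x.GaussRing
import Fermat.Agent.S28x.ChartIC

set_option autoImplicit false
set_option linter.unusedSectionVars false
set_option linter.style.haveILetI false

open ModularCurve ModularCurve.IgusaScheme IntermediateField
open scoped IntermediateField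

namespace Fermat.Agent.S28x

noncomputable section

/-- The coefficient of `q^{-deg p}` in `p(j)` is the leading coefficient of `p`. -/
theorem ch_coeff_aeval_jq (p : Polynomial ℚ) :
    (Polynomial.aeval jq p).coeff (-(p.natDegree : ℤ)) = p.leadingCoeff := by
  rw [Polynomial.aeval_def, Polynomial.eval₂_eq_sum_range, HahnSeries.coeff_sum,
    Finset.sum_range_succ]
  have h0 : ∀ i ∈ Finset.range p.natDegree,
      (algebraMap ℚ (LaurentSeries ℚ) (p.coeff i) * jq ^ i).coeff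
        (-(p.natDegree : ℤ)) = 0 := by
    intro i hi
    rw [algebraMap_apply_eq_single, HahnSeries.coeff_single_zero_mul,
      coeff_jq_pow_of_lt (by have := Finset.mem_range.mp hi; omega), mul_zero]
  rw [Finset.sum_eq_zero h0, zero_add, algebraMap_apply_eq_single,
    HahnSeries.coeff_single_zero_mul, coeff_jq_pow_self, mul_one]
  rfl

theorem ch_transcendental_jq : Transcendental ℚ jq := by
  intro halg
  obtain ⟨p, hp0, hp⟩ := halg
  have h := ch_coeff_aeval_jq p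
  rw [hp, HahnSeries.coeff_zero] at h
  exact hp0 (Polynomial.leadingCoeff_eq_zero.mp h.symm)

theorem ch_jq_mem_full (N : ℕ) [NeZero N] : jq ∈ modularFunctionFieldFull N := by
  simpa [qExpand_one_apply] using jqd_mem_full N (one_dvd N)

theorem ch_Qj_le_full (N : ℕ) [NeZero N] : Qj ≤ modularFunctionFieldFull N :=
  IntermediateField.adjoin_le_iff.mpr (Set.singleton_subset_iff.mpr (ch_jq_mem_full N))

variable (ℓ : ℕ) [Fact ℓ.Prime]

theorem ch_jq_mem_gaussRing : jq ∈ gaussRing ℓ := by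
  simpa [qExpand_one_apply] using jqd_mem_gaussRing ℓ 1

/-- a unit of `W` (an element with non-zero reduction) has its inverse in `W`. -/
theorem ch_inv_mem_gaussRing {x : LaurentSeries ℚ} (hx : x ∈ gaussRing ℓ)
    (hρ : rho ℓ ⟨x, hx⟩ ≠ 0) : x⁻¹ ∈ gaussRing ℓ := by
  obtain ⟨u, v, hu, huv⟩ := mem_gaussRing_iff.mp hx
  have hρ' : rho ℓ ⟨x, hx⟩ = red ℓ v / red ℓ u := rho_eq ℓ ⟨x, hx⟩ hu huv
  have hv : red ℓ v ≠ 0 := by
    intro hv
    apply hρ
    rw [hρ', hv, zero_div]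
  have hx0 : x ≠ 0 := by
    intro h0
    apply hv
    rw [h0, mul_zero] at huv
    have : v = 0 := toQ_injective ℓ (by rw [← huv, map_zero])
    rw [this, map_zero]
  refine ⟨v, u, hv, ?_⟩
  rw [← huv, mul_assoc, mul_inv_cancel₀ hx0, mul_one]

theorem ch_jqModC_ne_zero : jqModC (ZMod ℓ) ≠ 0 := by
  haveI : Nontrivial (ZMod ℓ) := ZMod.nontrivial_iff.mpr (Fact.out : ℓ.Prime).ne_one
  exact jqModC_ne_zero_of_nontrivial (ZMod ℓ)

theorem ch_jq_inv_mem_gaussRing : jq⁻¹ ∈ gaussRing ℓ := by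
  apply ch_inv_mem_gaussRing ℓ (ch_jq_mem_gaussRing ℓ)
  have h := rho_jqd ℓ 1
  have h2 : rho ℓ ⟨jq, ch_jq_mem_gaussRing ℓ⟩ = jqModC (ZMod ℓ) := by
    have : (⟨jq, ch_jq_mem_gaussRing ℓ⟩ : gaussRing ℓ) =
        ⟨qExpand ℚ 1 jq, jqd_mem_gaussRing ℓ 1⟩ := by
      apply Subtype.ext
      simp [qExpand_one_apply]
    rw [this, h, qExpand_one_apply]
  rw [h2]
  exact ch_jqModC_ne_zero ℓ

variable (N : ℕ) [NeZero N]

omit [Fact ℓ.Prime] in
theorem ch_algebraMap_ZL_eq (r : ZL ℓ) :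
    algebraMap (ZL ℓ) (LaurentSeries ℚ) r = HahnSeries.single 0 (r : ℚ) := by
  have h1 : algebraMap (ZL ℓ) (PowerSeries ℚ) r = PowerSeries.C (r : ℚ) := by
    rw [PowerSeries.algebraMap_apply]
    rfl
  rw [HahnSeries.algebraMap_apply', h1, HahnSeries.ofPowerSeries_C]
  rfl

theorem ch_coe_algebraMap (r : ZL ℓ) :
    ((algebraMap (ZL ℓ) ↥(modularFunctionFieldFull N) r : ↥(modularFunctionFieldFull N)) :
      LaurentSeries ℚ) = algebraMap (ZL ℓ) (LaurentSeries ℚ) r := by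
  have h : algebraMap (ZL ℓ) ↥(modularFunctionFieldFull N) r =
      algebraMap ℚ ↥(modularFunctionFieldFull N) (r : ℚ) := rfl
  have h2 : ((algebraMap ℚ ↥(modularFunctionFieldFull N) (r : ℚ) :
      ↥(modularFunctionFieldFull N)) : LaurentSeries ℚ) = algebraMap ℚ (LaurentSeries ℚ) (r : ℚ) := by
    simp
  rw [h, h2, ch_algebraMap_ZL_eq, algebraMap_apply_eq_single]

theorem ch_algebraMap_mem_gaussRing (r : ZL ℓ) :
    algebraMap (ZL ℓ) (LaurentSeries ℚ) r ∈ gaussRing ℓ := by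
  have : algebraMap (ZL ℓ) (LaurentSeries ℚ) r = toQ ℓ (HahnSeries.single 0 r) := by
    rw [ch_algebraMap_ZL_eq, toQ, coeffMap_single]
    rfl
  rw [this]
  exact toQ_mem_gaussRing ℓ _

/-- elements of `ℤ_(ℓ)[S]`, `S ⊆ {j, 1/j}`, lie in `W`. -/
theorem ch_adjoin_mem_gaussRing (S : Set ↥(modularFunctionFieldFull N))
    (hS : S ⊆ {jFull N, (jFull N)⁻¹}) (a : ↥(modularFunctionFieldFull N))
    (ha : a ∈ Algebra.adjoin (ZL ℓ) S) : (a : LaurentSeries ℚ) ∈ gaussRing ℓ := by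
  induction ha using Algebra.adjoin_induction with
  | mem y hy =>
    rcases hS hy with rfl | hy'
    · exact ch_jq_mem_gaussRing ℓ
    · rw [Set.mem_singleton_iff] at hy'
      subst hy'
      have : (((jFull N)⁻¹ : ↥(modularFunctionFieldFull N)) : LaurentSeries ℚ) = jq⁻¹ := by
        simp
      rw [this]
      exact ch_jq_inv_mem_gaussRing ℓ
  | algebraMap r =>
    rw [ch_coe_algebraMap]
    exact ch_algebraMap_mem_gaussRing ℓ r
  | add y z _ _ hy hz =>
    have : ((y + z : ↥(modularFunctionFieldFull N)) : LaurentSeries ℚ) = y + z := by simp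
    rw [this]
    exact (gaussRing ℓ).add_mem hy hz
  | mul y z _ _ hy hz =>
    have : ((y * z : ↥(modularFunctionFieldFull N)) : LaurentSeries ℚ) = y * z := by simp
    rw [this]
    exact (gaussRing ℓ).mul_mem hy hz

/-- the ring hom `ℤ_(ℓ)[S] → W`. -/
def ch_adjoinToGauss (S : Set ↥(modularFunctionFieldFull N))
    (hS : S ⊆ {jFull N, (jFull N)⁻¹}) : ↥(Algebra.adjoin (ZL ℓ) S) →+* ↥(gaussRing ℓ) :=
  ((algebraMap ↥(modularFunctionFieldFull N) (LaurentSeries ℚ)).comp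
    (algebraMap ↥(Algebra.adjoin (ZL ℓ) S) ↥(modularFunctionFieldFull N))).codRestrict (gaussRing ℓ)
    (fun a => ch_adjoin_mem_gaussRing ℓ N S hS a.1 a.2)

/-- **CH part 1**: chart algebras lie in `W`. -/
theorem ch_chart_mem_gaussRing (S : Set ↥(modularFunctionFieldFull N))
    (hS : S ⊆ {jFull N, (jFull N)⁻¹}) (x : chartAlg N ℓ S) :
    ((x : ↥(modularFunctionFieldFull N)) : LaurentSeries ℚ) ∈ gaussRing ℓ := by
  have hx : IsIntegral (Algebra.adjoin (ZL ℓ) S) (x : ↥(modularFunctionFieldFull N)) :=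
    (mem_chartAlg_iff N ℓ).mp x.2
  apply mem_gaussRing_of_isIntegral ℓ (exists_frac_of_mem_full ℓ N (x : ↥(modularFunctionFieldFull N)).2)
  exact hx.map_of_comp_eq (ch_adjoinToGauss ℓ N S hS)
    (algebraMap ↥(modularFunctionFieldFull N) (LaurentSeries ℚ)) (by ext; rfl)

/-- the image of `S ⊆ F_N` in `ℚ((q))`. -/
def ch_img (S : Set ↥(modularFunctionFieldFull N)) : Set (LaurentSeries ℚ) :=
  (fun a : ↥(modularFunctionFieldFull N) => (a : LaurentSeries ℚ)) '' S

theorem ch_img_subset (S : Set ↥(modularFunctionFieldFull N))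
    (hS : S ⊆ {jFull N, (jFull N)⁻¹}) : ch_img N S ⊆ {jq, jq⁻¹} := by
  rintro _ ⟨a, ha, rfl⟩
  rcases hS ha with rfl | h
  · left; rfl
  · rw [Set.mem_singleton_iff] at h
    subst h
    right
    simp

theorem ch_adjoin_mem_adjoinQ (S : Set ↥(modularFunctionFieldFull N))
    (a : ↥(modularFunctionFieldFull N)) (ha : a ∈ Algebra.adjoin (ZL ℓ) S) :
    (a : LaurentSeries ℚ) ∈ Algebra.adjoin ℚ (ch_img N S) := by
  induction ha using Algebra.adjoin_induction with
  | mem y hy => exact Algebra.subset_adjoin ⟨y, hy, rfl⟩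
  | algebraMap r =>
    rw [ch_coe_algebraMap, ch_algebraMap_ZL_eq, ← algebraMap_apply_eq_single]
    exact Subalgebra.algebraMap_mem _ _
  | add y z _ _ hy hz =>
    have : ((y + z : ↥(modularFunctionFieldFull N)) : LaurentSeries ℚ) = y + z := by simp
    rw [this]
    exact add_mem hy hz
  | mul y z _ _ hy hz =>
    have : ((y * z : ↥(modularFunctionFieldFull N)) : LaurentSeries ℚ) = y * z := by simp
    rw [this]
    exact mul_mem hy hz

/-- the ring hom `ℤ_(ℓ)[S] → ℚ[S']`. -/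
def ch_adjoinToQ (S : Set ↥(modularFunctionFieldFull N)) :
    ↥(Algebra.adjoin (ZL ℓ) S) →+* ↥(Algebra.adjoin ℚ (ch_img N S)) :=
  ((algebraMap ↥(modularFunctionFieldFull N) (LaurentSeries ℚ)).comp
    (algebraMap ↥(Algebra.adjoin (ZL ℓ) S) ↥(modularFunctionFieldFull N))).codRestrict
    (Algebra.adjoin ℚ (ch_img N S))
    (fun a => ch_adjoin_mem_adjoinQ ℓ N S a.1 a.2)

theorem ch_isIntegral_adjoinQ (S : Set ↥(modularFunctionFieldFull N)) (x : chartAlg N ℓ S) :
    IsIntegral (Algebra.adjoin ℚ (ch_img N S))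
      ((x : ↥(modularFunctionFieldFull N)) : LaurentSeries ℚ) := by
  have hx : IsIntegral (Algebra.adjoin (ZL ℓ) S) (x : ↥(modularFunctionFieldFull N)) :=
    (mem_chartAlg_iff N ℓ).mp x.2
  exact hx.map_of_comp_eq (ch_adjoinToQ ℓ N S)
    (algebraMap ↥(modularFunctionFieldFull N) (LaurentSeries ℚ)) (by ext; rfl)

/-- `V` is integrally closed in `ℚ(j)`. -/
theorem ch_gaussV_ic (c : LaurentSeries ℚ) (hc : c ∈ Qj) (hint : IsIntegral (gaussV ℓ) c) :
    c ∈ gaussV ℓ := by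
  refine ⟨?_, hc⟩
  apply mem_gaussRing_of_isIntegral ℓ (exists_frac_of_mem_full ℓ 1 (ch_Qj_le_full 1 hc))
  exact hint.map_of_comp_eq (Subring.inclusion (gaussV_le_gaussRing ℓ)) (RingHom.id _)
    (by ext; rfl)

/-- The descent: an element integral over `V` and over `ℚ[T]`, `T ⊆ {j, 1/j}`, is integral over
`V ⊓ ℚ[T]`. -/
theorem ch_descent (T : Set (LaurentSeries ℚ)) (hT : T ⊆ {jq, jq⁻¹}) (z : LaurentSeries ℚ)
    (h1 : IsIntegral (gaussV ℓ) z) (h2 : IsIntegral (Algebra.adjoin ℚ T) z) :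
    IsIntegral (gaussV ℓ ⊓ (Algebra.adjoin ℚ T).toSubring : Subring (LaurentSeries ℚ)) z := by
  have hjq : jq ∈ Qj := IntermediateField.mem_adjoin_simple_self ℚ jq
  apply ch_isIntegral_inf Qj.toSubfield (gaussV ℓ) (Algebra.adjoin ℚ T).toSubring
  · intro c hc
    exact hc.2
  · intro c hc
    have hle : Algebra.adjoin ℚ T ≤ Qj.toSubalgebra := by
      apply Algebra.adjoin_le
      intro t ht
      rcases hT ht with rfl | h
      · exact hjq
      · rw [Set.mem_singleton_iff] at h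
        subst h
        exact Qj.inv_mem hjq
    exact hle hc
  · intro c hc hint
    exact ch_gaussV_ic ℓ c hc hint
  · intro c hc hint
    exact ch_ic jq ch_transcendental_jq T hT c hc hint
  · exact h1
  · exact h2

/-- the injection `ℤ_(ℓ)[S] → ℚ((q))`. -/
def ch_theta (S : Set ↥(modularFunctionFieldFull N)) :
    ↥(Algebra.adjoin (ZL ℓ) S) →+* LaurentSeries ℚ :=
  (algebraMap ↥(modularFunctionFieldFull N) (LaurentSeries ℚ)).comp
    (algebraMap ↥(Algebra.adjoin (ZL ℓ) S) ↥(modularFunctionFieldFull N))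

theorem ch_theta_apply (S : Set ↥(modularFunctionFieldFull N)) (a : ↥(Algebra.adjoin (ZL ℓ) S)) :
    ch_theta ℓ N S a = ((a : ↥(modularFunctionFieldFull N)) : LaurentSeries ℚ) := rfl

theorem ch_theta_injective (S : Set ↥(modularFunctionFieldFull N)) :
    Function.Injective (ch_theta ℓ N S) := by
  intro a b h
  rw [ch_theta_apply, ch_theta_apply] at h
  exact Subtype.ext (Subtype.ext h)

theorem ch_closure_le_range (S : Set ↥(modularFunctionFieldFull N)) :
    Subring.closure (Set.range (algebraMap (ZL ℓ) (LaurentSeries ℚ)) ∪ ch_img N S) ≤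
      (ch_theta ℓ N S).range := by
  rw [Subring.closure_le]
  rintro c (⟨r, rfl⟩ | ⟨a, ha, rfl⟩)
  · refine ⟨algebraMap (ZL ℓ) ↥(Algebra.adjoin (ZL ℓ) S) r, ?_⟩
    rw [ch_theta_apply, ← ch_coe_algebraMap ℓ N r]
    rfl
  · exact ⟨⟨a, Algebra.subset_adjoin ha⟩, rfl⟩

/-- transfer of integrality from `ℚ((q))` back to `F_N`. -/
theorem ch_isIntegral_adjoin_of (S : Set ↥(modularFunctionFieldFull N))
    (R : Subring (LaurentSeries ℚ)) (hR : R ≤ (ch_theta ℓ N S).range)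
    (y : ↥(modularFunctionFieldFull N)) (hy : IsIntegral R (y : LaurentSeries ℚ)) :
    IsIntegral (Algebra.adjoin (ZL ℓ) S) y := by
  let e : ↥(Algebra.adjoin (ZL ℓ) S) ≃+* ↥(ch_theta ℓ N S).range :=
    RingEquiv.ofBijective (ch_theta ℓ N S).rangeRestrict
      ⟨fun a b hab => ch_theta_injective ℓ N S
          (show ch_theta ℓ N S a = ch_theta ℓ N S b from
            congrArg (fun z : ↥(ch_theta ℓ N S).range => (z : LaurentSeries ℚ)) hab),
        (ch_theta ℓ N S).rangeRestrict_surjective⟩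
  let ψ : ↥R →+* ↥(Algebra.adjoin (ZL ℓ) S) := e.symm.toRingHom.comp (Subring.inclusion hR)
  have hψ : ∀ c : ↥R, ch_theta ℓ N S (ψ c) = (c : LaurentSeries ℚ) := by
    intro c
    have h1 : e (ψ c) = Subring.inclusion hR c := by
      simp only [ψ, RingHom.coe_comp, Function.comp_apply, RingEquiv.toRingHom_eq_coe,
        RingHom.coe_coe, RingEquiv.apply_symm_apply]
    have h2 : ((e (ψ c) : ↥(ch_theta ℓ N S).range) : LaurentSeries ℚ) = ch_theta ℓ N S (ψ c) := rfl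
    rw [← h2, h1]
    rfl
  obtain ⟨P, hPm, hPz⟩ := hy
  refine ⟨P.map ψ, hPm.map ψ, ?_⟩
  have hinj : Function.Injective (algebraMap ↥(modularFunctionFieldFull N) (LaurentSeries ℚ)) :=
    (algebraMap ↥(modularFunctionFieldFull N) (LaurentSeries ℚ)).injective
  apply hinj
  rw [map_zero, Polynomial.hom_eval₂, Polynomial.eval₂_map]
  have hcomp : ((algebraMap ↥(modularFunctionFieldFull N) (LaurentSeries ℚ)).comp
      (algebraMap ↥(Algebra.adjoin (ZL ℓ) S) ↥(modularFunctionFieldFull N))).comp ψ =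
      algebraMap ↥R (LaurentSeries ℚ) := by
    apply RingHom.ext
    intro c
    exact hψ c
  rw [hcomp]
  exact hPz


/-- **CH part 2** (core): the `q`-expansion principle for the chart algebra `R_S`, from
`hV` (elements of `W ∩ F_N` are integral over `V`) and `hadj` (`V ∩ ℚ[T] ⊆ ℤ_(ℓ)[T]`). -/
theorem ch_chart_qep_of (S : Set ↥(modularFunctionFieldFull N))
    (hS : S ⊆ {jFull N, (jFull N)⁻¹})
    (hV : ∀ y : LaurentSeries ℚ, y ∈ modularFunctionFieldFull N → y ∈ gaussRing ℓ →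
      IsIntegral (gaussV ℓ) y)
    (hadj : ∀ (T : Set (LaurentSeries ℚ)), T ⊆ {jq, jq⁻¹} → ∀ {y : LaurentSeries ℚ},
      y ∈ gaussV ℓ → y ∈ Algebra.adjoin ℚ T →
      y ∈ Subring.closure (Set.range (algebraMap (ZL ℓ) (LaurentSeries ℚ)) ∪ T))
    (x : chartAlg N ℓ S)
    (hx : rho ℓ ⟨((x : ↥(modularFunctionFieldFull N)) : LaurentSeries ℚ),
      ch_chart_mem_gaussRing ℓ N S hS x⟩ = 0) :
    ∃ y : chartAlg N ℓ S, x = (ℓ : chartAlg N ℓ S) * y := by
  obtain ⟨w, hw⟩ := (rho_eq_zero_iff ℓ _).mp hx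
  have hw' : ((x : ↥(modularFunctionFieldFull N)) : LaurentSeries ℚ) =
      (ℓ : LaurentSeries ℚ) * (w : LaurentSeries ℚ) := by
    have := congrArg (fun t : ↥(gaussRing ℓ) => (t : LaurentSeries ℚ)) hw
    simpa using this
  have hℓ0 : (ℓ : LaurentSeries ℚ) ≠ 0 := gr_natCast_ne_zero ℓ
  have hℓF : ((ℓ : ℕ) : ↥(modularFunctionFieldFull N)) ≠ 0 := by
    intro h
    apply hℓ0
    have := congrArg (fun t : ↥(modularFunctionFieldFull N) => (t : LaurentSeries ℚ)) h
    simpa using this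
  -- the candidate `y₀ = x / ℓ`
  set y₀ : ↥(modularFunctionFieldFull N) :=
    ((ℓ : ℕ) : ↥(modularFunctionFieldFull N))⁻¹ * (x : ↥(modularFunctionFieldFull N)) with hy₀
  have hy₀coe : (y₀ : LaurentSeries ℚ) = (w : LaurentSeries ℚ) := by
    have h1 : (y₀ : LaurentSeries ℚ) = (ℓ : LaurentSeries ℚ)⁻¹ *
        ((x : ↥(modularFunctionFieldFull N)) : LaurentSeries ℚ) := by
      rw [hy₀]; simp
    rw [h1, hw', ← mul_assoc, inv_mul_cancel₀ hℓ0, one_mul]
  have hy₀W : (y₀ : LaurentSeries ℚ) ∈ gaussRing ℓ := by rw [hy₀coe]; exact w.2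
  -- integrality over `V` and over `ℚ[T]`
  have h1 : IsIntegral (gaussV ℓ) (y₀ : LaurentSeries ℚ) := hV _ y₀.2 hy₀W
  have h2 : IsIntegral (Algebra.adjoin ℚ (ch_img N S)) (y₀ : LaurentSeries ℚ) := by
    have h3 : (y₀ : LaurentSeries ℚ) = algebraMap ℚ (LaurentSeries ℚ) ((ℓ : ℚ)⁻¹) *
        ((x : ↥(modularFunctionFieldFull N)) : LaurentSeries ℚ) := by
      rw [hy₀, map_inv₀, map_natCast]; simp
    rw [h3]
    refine IsIntegral.mul ?_ (ch_isIntegral_adjoinQ ℓ N S x)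
    exact isIntegral_algebraMap (R := ↥(Algebra.adjoin ℚ (ch_img N S)))
      (x := (⟨algebraMap ℚ (LaurentSeries ℚ) ((ℓ : ℚ)⁻¹),
        Subalgebra.algebraMap_mem _ _⟩ : ↥(Algebra.adjoin ℚ (ch_img N S))))
  have hT := ch_img_subset N S hS
  have h4 := ch_descent ℓ (ch_img N S) hT _ h1 h2
  -- back to `F_N`
  have hle : (gaussV ℓ ⊓ (Algebra.adjoin ℚ (ch_img N S)).toSubring :
      Subring (LaurentSeries ℚ)) ≤ (ch_theta ℓ N S).range := by
    intro c hc
    exact ch_closure_le_range ℓ N S (hadj (ch_img N S) hT hc.1 hc.2)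
  have h5 : IsIntegral (Algebra.adjoin (ZL ℓ) S) y₀ :=
    ch_isIntegral_adjoin_of ℓ N S _ hle y₀ h4
  refine ⟨⟨y₀, (mem_chartAlg_iff N ℓ).mpr h5⟩, ?_⟩
  apply Subtype.ext
  have : (((ℓ : chartAlg N ℓ S) * ⟨y₀, (mem_chartAlg_iff N ℓ).mpr h5⟩ : chartAlg N ℓ S) :
      ↥(modularFunctionFieldFull N)) = ((ℓ : ℕ) : ↥(modularFunctionFieldFull N)) * y₀ := by
    simp
  rw [this, hy₀, ← mul_assoc, mul_inv_cancel₀ hℓF, one_mul]

end

end Fermat.Agent.S28x
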