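/-
S28 / DU (shadow by helper78): `[F_N : ℚ(j)] ≤ ψ(N)`.

From S24 (`cdeg Q̄ (FBar N) (jBar N) = ψ(N)`, unconditional via `Fermat.Agent.S24.cInputs`) by
descent of linear independence `ℚ → Q̄` (S24x `LinDisjoint`):
a `ℚ(j)`-independent family `x_i ∈ F_N` gives `ℚ`-independent products `j^k x_i`, hence
`Q̄`-independent products `J^k X_i` in `FBar N`, hence a `Q̄(J)`-independent family `X_i`.
Exact Spec shapes: `du78_finiteDimensional_full`, `du78_relfinrank_full_le`.
-/
import Mathlib
import Fermat.Agent.S28x.Defs
import Fermat.Agent.S24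

set_option autoImplicit false
set_option linter.style.haveILetI false

namespace Fermat.Agent.S28x

open ModularCurve IntermediateField Fermat.Agent.S24x

section Generic
variable {K E : Type*} [Field K] [Field E] [Algebra K E]

/-- powers of a transcendental element are linearly independent -/
theorem du78_linearIndependent_pow (t : E) (ht : Transcendental K t) :
    LinearIndependent K (fun k : ℕ => t ^ k) := by
  have h := (Polynomial.basisMonomials K).linearIndependent.map'
    (Polynomial.aeval t).toLinearMap
    (LinearMap.ker_eq_bot.mpr (transcendental_iff_injective.mp ht))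
  have e : (⇑(Polynomial.aeval t).toLinearMap ∘ ⇑(Polynomial.basisMonomials K)) =
      fun k : ℕ => t ^ k := by
    funext k
    simp [Polynomial.coe_basisMonomials]
  rwa [e] at h

/-- (→) `K(t)`-independent ⇒ the products `t^k f_a` are `K`-independent (`t` transcendental) -/
theorem du78_li_pow_mul_of_li_adjoin (t : E) (ht : Transcendental K t) {A : Type*} (f : A → E)
    (h : LinearIndependent K⟮t⟯ f) :
    LinearIndependent K (fun p : A × ℕ => t ^ p.2 * f p.1) := by
  have hb : LinearIndependent K (fun k : ℕ => (AdjoinSimple.gen K t) ^ k) := by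
    refine LinearIndependent.of_comp (K⟮t⟯.val.toLinearMap) ?_
    have e : (⇑(K⟮t⟯.val.toLinearMap) ∘ fun k : ℕ => (AdjoinSimple.gen K t) ^ k) =
        fun k : ℕ => t ^ k := by
      funext k
      simp
    rw [e]
    exact du78_linearIndependent_pow t ht
  have h1 := linearIndependent_smul hb h
  have h2 := h1.comp (fun p : A × ℕ => (p.2, p.1)) (fun p q hpq => by
    simp only [Prod.mk.injEq] at hpq
    exact Prod.ext hpq.2 hpq.1)
  have e : ((fun p : ℕ × A => (AdjoinSimple.gen K t) ^ p.1 • f p.2) ∘
      fun p : A × ℕ => (p.2, p.1)) = fun p : A × ℕ => t ^ p.2 * f p.1 := by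
    funext p
    simp [IntermediateField.smul_def]
  rwa [e] at h2

open scoped IntermediateField.algebraAdjoinAdjoin in
/-- (←) if the products `t^k f_a` are `K`-independent then `f` is `K(t)`-independent -/
theorem du78_li_adjoin_of_li_pow_mul (t : E) {A : Type*} (f : A → E)
    (h : LinearIndependent K (fun p : A × ℕ => t ^ p.2 * f p.1)) :
    LinearIndependent K⟮t⟯ f := by
  have hS : LinearIndependent (Algebra.adjoin K {t}) f := by
    let w : ℕ → Algebra.adjoin K {t} := fun k => ⟨t, Algebra.self_mem_adjoin_singleton K t⟩ ^ k
    have hw : Function.Surjective (Finsupp.linearCombination K w) := by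
      rintro ⟨s, hs⟩
      have hs' := hs
      rw [Algebra.adjoin_singleton_eq_range_aeval] at hs'
      obtain ⟨p, hp⟩ := hs'
      have key : ∀ p : Polynomial K, ∃ l : ℕ →₀ K,
          ((Finsupp.linearCombination K w l : Algebra.adjoin K {t}) : E) =
            Polynomial.aeval t p := by
        intro p
        induction p using Polynomial.induction_on' with
        | add p q hp hq =>
          obtain ⟨l, hl⟩ := hp
          obtain ⟨l', hl'⟩ := hq
          exact ⟨l + l', by rw [map_add, Subalgebra.coe_add, hl, hl', map_add]⟩
        | monomial n a =>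
          exact ⟨Finsupp.single n a, by
            simp [w, Polynomial.aeval_monomial, Algebra.smul_def]⟩
      obtain ⟨l, hl⟩ := key p
      exact ⟨l, Subtype.ext (hl.trans hp)⟩
    have hcomp := Finsupp.linearCombination_smul (R := K) (S := Algebra.adjoin K {t})
      (v := f) (w := w)
    have h' : Function.Injective
        (Finsupp.linearCombination K (fun i : A × ℕ => w i.2 • f i.1)) := by
      have e : (fun i : A × ℕ => w i.2 • f i.1) = fun p : A × ℕ => t ^ p.2 * f p.1 := by
        funext i
        simp [w, Subalgebra.smul_def]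
      rw [e]
      exact h
    rw [hcomp] at h'
    have hsurj : Function.Surjective
        (Finsupp.mapRange.linearMap (α := A) (Finsupp.linearCombination K w) ∘ₗ
          (Finsupp.curryLinearEquiv K).toLinearMap) := by
      rw [LinearMap.coe_comp]
      refine Function.Surjective.comp ?_ (Finsupp.curryLinearEquiv K).surjective
      exact Finsupp.mapRange_surjective _ (map_zero _) hw
    unfold LinearIndependent
    rw [LinearMap.coe_comp] at h'
    exact Function.Injective.of_comp_right h' hsurj
  exact (LinearIndependent.iff_fractionRing (Algebra.adjoin K {t}) K⟮t⟯).mp hS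

end Generic

/-- (a) the degree over `Q̄`, unconditionally (from the S24 inputs) -/
theorem du78_cdeg_jBar (N : ℕ) [NeZero N] : cdeg Qbar (FBar N) (jBar N) = dedekindPsi N :=
  (Fermat.Agent.S24.cInputs N).cdeg_jBar

/-- `j` is transcendental over `ℚ` -/
theorem du78_transcendental_jq : Transcendental ℚ jq := by
  rw [transcendental_iff]
  intro p hp
  by_contra hp0
  rw [Polynomial.aeval_eq_sum_range] at hp
  simp only [Algebra.smul_def] at hp
  have h2 := congrArg (fun x : LaurentSeries ℚ => x.coeff (-(p.natDegree : ℤ))) hp
  simp only [HahnSeries.coeff_zero] at h2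
  have h3 : (∑ i ∈ Finset.range (p.natDegree + 1),
      algebraMap ℚ (LaurentSeries ℚ) (p.coeff i) * jq ^ i).coeff (-(p.natDegree : ℤ)) =
      ∑ i ∈ Finset.range (p.natDegree + 1),
        p.coeff i * (jq ^ i).coeff (-(p.natDegree : ℤ)) := by
    rw [HahnSeries.coeff_sum]
    refine Finset.sum_congr rfl fun i _ => ?_
    rw [fbf_coeff_algebraMap_mul]
  rw [h3, Finset.sum_eq_single p.natDegree] at h2
  · rw [coeff_jq_pow_self, mul_one] at h2
    exact hp0 (Polynomial.leadingCoeff_eq_zero.1 h2)
  · intro i hi hne
    have hlt : i < p.natDegree :=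
      lt_of_le_of_ne (Nat.lt_succ_iff.1 (Finset.mem_range.1 hi)) hne
    rw [coeff_jq_pow_of_lt (by exact_mod_cast neg_lt_neg (by exact_mod_cast hlt)), mul_zero]
  · intro h
    exact absurd (Finset.mem_range.2 (Nat.lt_succ_self _)) h

/-- the key bound: a `ℚ(j)`-linearly independent finite family in `F_N` has at most `ψ(N)`
elements -/
theorem du78_card_le (N : ℕ) [NeZero N] {n : ℕ} (x : Fin n → LaurentSeries ℚ)
    (hx : ∀ i, x i ∈ modularFunctionFieldFull N) (hli : LinearIndependent Qj x) :
    n ≤ dedekindPsi N := by
  -- step 1: products `j^k x_i` are `ℚ`-independent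
  have h1 := du78_li_pow_mul_of_li_adjoin (K := ℚ) jq du78_transcendental_jq x hli
  rw [fbf_module_eq ℚ] at h1
  -- step 2: transfer to `Q̄((q))`
  have h2 := ld_linearIndependent_pow_mul (L := Qbar) jq h1
  rw [← fbf_module_eq Qbar] at h2
  -- step 3: the same family inside `FBar N`
  let X : Fin n → FBar N := fun i =>
    ⟨coeffEmb Qbar (x i), coeffEmb_mem_laurentBaseChange Qbar (hx i)⟩
  have h3 : LinearIndependent Qbar (fun p : Fin n × ℕ => (jBar N) ^ p.2 * X p.1) := by
    have e : (fun p : Fin n × ℕ => (coeffMap (algebraMap ℚ Qbar) jq) ^ p.2 *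
          coeffMap (algebraMap ℚ Qbar) (x p.1)) =
        (⇑((modularFunctionFieldBar N).val.toLinearMap) ∘
          fun p : Fin n × ℕ => (jBar N) ^ p.2 * X p.1) := by
      funext p
      simp only [Function.comp_apply, AlgHom.toLinearMap_apply, map_mul, map_pow,
        IntermediateField.coe_val]
      rw [coe_jBar]
      rfl
    rw [e] at h2
    exact @LinearIndependent.of_comp _ _ _ _ _ _ _ _ _ Algebra.toModule ((modularFunctionFieldBar N).val.toLinearMap) h2
  -- step 4: independence over `Q̄(j)`
  have h4 : LinearIndependent Qbar⟮jBar N⟯ X := du78_li_adjoin_of_li_pow_mul (jBar N) X h3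
  -- step 5: count
  haveI := fbf_finiteDimensional_jBar N
  have h5 := h4.fintype_card_le_finrank
  rw [Fintype.card_fin] at h5
  have h6 : Module.finrank Qbar⟮jBar N⟯ (FBar N) = dedekindPsi N := du78_cdeg_jBar N
  rw [h6] at h5
  exact h5

/-- `ℚ(j) ⊆ F_N` -/
theorem du78_Qj_le_full (N : ℕ) [NeZero N] : Qj ≤ modularFunctionFieldFull N :=
  IntermediateField.adjoin_le_iff.mpr (Set.singleton_subset_iff.mpr
    (by simpa [qExpand_one_apply] using jqd_mem_full N (one_dvd N)))

/-- rank bound -/
theorem du78_rank_le (N : ℕ) [NeZero N] :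
    Module.rank Qj (IntermediateField.extendScalars (du78_Qj_le_full N)) ≤ (dedekindPsi N : ℕ) := by
  classical
  refine rank_le fun s hs => ?_
  -- reindex by `Fin s.card` and push to `ℚ((q))`
  have h1 : LinearIndependent Qj
      (fun k : Fin s.card => ((s.equivFin.symm k : s) :
        IntermediateField.extendScalars (du78_Qj_le_full N))) :=
    hs.comp _ s.equivFin.symm.injective
  have h2 : LinearIndependent Qj
      (fun k : Fin s.card => (((s.equivFin.symm k : s) :
        IntermediateField.extendScalars (du78_Qj_le_full N)) : LaurentSeries ℚ)) :=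
    h1.map' ((IntermediateField.extendScalars (du78_Qj_le_full N)).val.toLinearMap)
      (LinearMap.ker_eq_bot.mpr
        (IntermediateField.extendScalars (du78_Qj_le_full N)).val.injective)
  exact du78_card_le N _ (fun k => ((s.equivFin.symm k : s) :
        IntermediateField.extendScalars (du78_Qj_le_full N)).2) h2

theorem du78_finiteDimensional_full (N : ℕ) [NeZero N] :
    FiniteDimensional Qj (IntermediateField.extendScalars (du78_Qj_le_full N)) := by
  have h := du78_rank_le N
  exact Module.rank_lt_aleph0_iff.mp (h.trans_lt Cardinal.natCast_lt_aleph0)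

theorem du78_relfinrank_full_le (N : ℕ) [NeZero N] :
    IntermediateField.relfinrank Qj (modularFunctionFieldFull N) ≤ dedekindPsi N := by
  rw [IntermediateField.relfinrank_eq_finrank_of_le (du78_Qj_le_full N)]
  exact Module.finrank_le_of_rank_le (du78_rank_le N)

/-- exact Spec shapes -/
example (N : ℕ) [NeZero N] :
    FiniteDimensional Qj (IntermediateField.extendScalars
      (show Qj ≤ modularFunctionFieldFull N from
        IntermediateField.adjoin_le_iff.mpr (Set.singleton_subset_iff.mpr
          (by simpa [qExpand_one_apply] using jqd_mem_full N (one_dvd N))))) :=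
  du78_finiteDimensional_full N

end Fermat.Agent.S28x
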