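/-
S28 project, module RED/basis (helper21): under a DEG-type hypothesis, `W ∩ F_N` is a free module over
the Gauss valuation ring `V = W ∩ ℚ(j)` with basis any family of lifts of a `𝔽_ℓ(j̃)`-linearly
independent family of size `≥ [F_N : ℚ(j)]`.  Consequently every element of `W ∩ F_N` is integral
over `V`.  (No modular polynomials, no integral closures needed.)

Inputs from the `GaussRing` module are taken as hypotheses of the core lemmas: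
* `hG1` : every non-zero element of `ℚ(j)` is `ℓ^k · y` with `y ∈ W`, `ρ y ≠ 0`;
* `hG3` : `ρ(V) ⊆ 𝔽_ℓ(j̃)`.
-/
import Fermat.Agent.S28x.Defs

set_option autoImplicit false

namespace Fermat.Agent.S28x

open ModularCurve IntermediateField

noncomputable section

local notation "𝕃" => LaurentSeries ℚ

/-- `ℓ ∈ W` -/
theorem rb_natCast_mem_gaussRing (ℓ : ℕ) [Fact ℓ.Prime] (n : ℕ) : (n : 𝕃) ∈ gaussRing ℓ :=
  natCast_mem (gaussRing ℓ) n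

/-- `ρ(ℓ) = 0` -/
theorem rb_rho_natCast_self (ℓ : ℕ) [Fact ℓ.Prime] :
    rho ℓ ⟨(ℓ : 𝕃), rb_natCast_mem_gaussRing ℓ ℓ⟩ = 0 := by
  have h : (⟨(ℓ : 𝕃), rb_natCast_mem_gaussRing ℓ ℓ⟩ : gaussRing ℓ) = ((ℓ : ℕ) : gaussRing ℓ) := by
    apply Subtype.ext
    simp
  rw [h, map_natCast, ← map_natCast (algebraMap (ZMod ℓ) (LaurentSeries (ZMod ℓ))),
    ZMod.natCast_self, map_zero]

/-- the two facts from the `GaussRing` module used in this file -/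
structure rb_Hyp (ℓ : ℕ) [Fact ℓ.Prime] : Prop where
  unit_decomp : ∀ z : 𝕃, z ≠ 0 → z ∈ Qj →
    ∃ (k : ℤ) (y : 𝕃) (hy : y ∈ gaussRing ℓ), rho ℓ ⟨y, hy⟩ ≠ 0 ∧ z = (ℓ : 𝕃) ^ k * y
  rho_V : ∀ (y : 𝕃) (hy : y ∈ gaussV ℓ), rho ℓ ⟨y, gaussV_le_gaussRing ℓ hy⟩ ∈ Kj ℓ

theorem rb_natCast_ne_zero (ℓ : ℕ) [hℓ : Fact ℓ.Prime] : ((ℓ : ℕ) : 𝕃) ≠ 0 := by
  intro h
  have h1 : algebraMap ℚ 𝕃 ((ℓ : ℕ) : ℚ) = 0 := by rw [map_natCast]; exact h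
  have h2 : ((ℓ : ℕ) : ℚ) = 0 := (map_eq_zero _).mp h1
  exact hℓ.out.ne_zero (by exact_mod_cast h2)

/-- non-negative powers of `ℓ` lie in `W` -/
theorem rb_zpow_mem_gaussRing (ℓ : ℕ) [Fact ℓ.Prime] {k : ℤ} (hk : 0 ≤ k) :
    ((ℓ : ℕ) : 𝕃) ^ k ∈ gaussRing ℓ := by
  obtain ⟨n, rfl⟩ := Int.eq_ofNat_of_zero_le hk
  rw [zpow_natCast]
  exact pow_mem (rb_natCast_mem_gaussRing ℓ ℓ) n

/-- all powers of `ℓ` lie in `ℚ(j)` -/
theorem rb_zpow_mem_Qj (ℓ : ℕ) (k : ℤ) : ((ℓ : ℕ) : 𝕃) ^ k ∈ Qj :=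
  zpow_mem (IntermediateField.natCast_mem Qj ℓ) k

/-- **Scaling lemma**: a finite family of elements of `ℚ(j)`, not all zero, can be multiplied by a
power of `ℓ` so that all members lie in `W` and one of them has non-zero residue. -/
theorem rb_scale {ℓ : ℕ} [Fact ℓ.Prime] (H : rb_Hyp ℓ) {m : ℕ} (a : Fin m → 𝕃)
    (haQ : ∀ i, a i ∈ Qj) (hne : ∃ i, a i ≠ 0) :
    ∃ k : ℤ, (∀ i, ((ℓ : ℕ) : 𝕃) ^ k * a i ∈ gaussRing ℓ) ∧
      ∃ (i : Fin m) (hi : ((ℓ : ℕ) : 𝕃) ^ k * a i ∈ gaussRing ℓ), rho ℓ ⟨_, hi⟩ ≠ 0 := by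
  classical
  have hℓ0 := rb_natCast_ne_zero ℓ
  -- choose the decompositions
  have hdec : ∀ i, ∃ (k : ℤ) (y : 𝕃) (hy : y ∈ gaussRing ℓ),
      a i ≠ 0 → (rho ℓ ⟨y, hy⟩ ≠ 0 ∧ a i = ((ℓ : ℕ) : 𝕃) ^ k * y) := by
    intro i
    by_cases h : a i = 0
    · exact ⟨0, 0, zero_mem _, fun h' => absurd h h'⟩
    · obtain ⟨k, y, hy, h1, h2⟩ := H.unit_decomp (a i) h (haQ i)
      exact ⟨k, y, hy, fun _ => ⟨h1, h2⟩⟩
  choose v y hy hvy using hdec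
  obtain ⟨i₁, hi₁⟩ := hne
  set s : Finset (Fin m) := Finset.univ.filter (fun i => a i ≠ 0) with hs
  have hsne : s.Nonempty := ⟨i₁, by simp [hs, hi₁]⟩
  obtain ⟨i₀, hi₀s, hmin⟩ := Finset.exists_min_image s v hsne
  have hi₀ : a i₀ ≠ 0 := by simpa [hs] using hi₀s
  refine ⟨-v i₀, ?_, i₀, ?_⟩
  · intro i
    by_cases h : a i = 0
    · rw [h, mul_zero]; exact zero_mem _
    · have h2 := (hvy i h).2
      have hle : v i₀ ≤ v i := hmin i (by simp [hs, h])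
      have : ((ℓ : ℕ) : 𝕃) ^ (-v i₀) * a i = ((ℓ : ℕ) : 𝕃) ^ (v i - v i₀) * y i := by
        rw [h2, ← mul_assoc, ← zpow_add₀ hℓ0]
        congr 2
        ring
      rw [this]
      exact mul_mem (rb_zpow_mem_gaussRing ℓ (by omega)) (hy i)
  · have h2 := (hvy i₀ hi₀).2
    have heq : ((ℓ : ℕ) : 𝕃) ^ (-v i₀) * a i₀ = y i₀ := by
      rw [h2, ← mul_assoc, ← zpow_add₀ hℓ0, neg_add_cancel, zpow_zero, one_mul]
    refine ⟨by rw [heq]; exact hy i₀, ?_⟩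
    have : (⟨((ℓ : ℕ) : 𝕃) ^ (-v i₀) * a i₀, by rw [heq]; exact hy i₀⟩ : gaussRing ℓ) =
        ⟨y i₀, hy i₀⟩ := Subtype.ext heq
    rw [this]
    exact (hvy i₀ hi₀).1

section core

variable {ℓ : ℕ} [Fact ℓ.Prime] (H : rb_Hyp ℓ) {m : ℕ} (b : Fin m → 𝕃)
  (hbW : ∀ i, b i ∈ gaussRing ℓ)
  (hind : LinearIndependent (Kj ℓ) (fun i => rho ℓ ⟨b i, hbW i⟩))

theorem rb_rho_sum (a : Fin m → 𝕃) (haW : ∀ i, a i ∈ gaussRing ℓ)
    (h : ∑ i, a i * b i ∈ gaussRing ℓ) :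
    rho ℓ ⟨∑ i, a i * b i, h⟩ = ∑ i, rho ℓ ⟨a i, haW i⟩ * rho ℓ ⟨b i, hbW i⟩ := by
  have : (⟨∑ i, a i * b i, h⟩ : gaussRing ℓ) = ∑ i, ⟨a i, haW i⟩ * ⟨b i, hbW i⟩ := by
    apply Subtype.ext
    simp
  rw [this, map_sum]
  simp only [map_mul]

include H hind in
/-- a `V`-combination of the `b i` with vanishing residue has all coefficients of residue zero -/
theorem rb_key (a : Fin m → 𝕃) (haQ : ∀ i, a i ∈ Qj) (haW : ∀ i, a i ∈ gaussRing ℓ)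
    (h : ∑ i, a i * b i ∈ gaussRing ℓ) (hsum : rho ℓ ⟨∑ i, a i * b i, h⟩ = 0) :
    ∀ i, rho ℓ ⟨a i, haW i⟩ = 0 := by
  have hV : ∀ i, a i ∈ gaussV ℓ := fun i => ⟨haW i, haQ i⟩
  have hK : ∀ i, rho ℓ ⟨a i, haW i⟩ ∈ Kj ℓ := fun i => H.rho_V (a i) (hV i)
  rw [rb_rho_sum b hbW a haW h] at hsum
  have h2 := Fintype.linearIndependent_iff.mp hind
    (fun i => (⟨rho ℓ ⟨a i, haW i⟩, hK i⟩ : Kj ℓ)) (by
      simpa [IntermediateField.smul_def] using hsum)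
  intro i
  have := congrArg Subtype.val (h2 i)
  simpa using this

include H hind in
/-- the `b i` are linearly independent over `ℚ(j)` -/
theorem rb_linearIndependent_Qj : LinearIndependent Qj b := by
  rw [Fintype.linearIndependent_iff]
  intro g hg
  by_contra hne
  obtain ⟨i₁, hi₁⟩ := not_forall.mp hne
  obtain ⟨k, hkW, i₀, hi₀W, hi₀⟩ := rb_scale H (fun i => ((g i : Qj) : 𝕃)) (fun i => (g i).2)
    ⟨i₁, fun h => hi₁ (Subtype.ext h)⟩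
  have hsum0 : ∑ i, (((ℓ : ℕ) : 𝕃) ^ k * ((g i : Qj) : 𝕃)) * b i = 0 := by
    have : ∑ i, (((ℓ : ℕ) : 𝕃) ^ k * ((g i : Qj) : 𝕃)) * b i =
        ((ℓ : ℕ) : 𝕃) ^ k * ∑ i, (g i) • b i := by
      rw [Finset.mul_sum]
      refine Finset.sum_congr rfl fun i _ => ?_
      rw [IntermediateField.smul_def, smul_eq_mul, mul_assoc]
    rw [this, hg, mul_zero]
  have hmem : ∑ i, (((ℓ : ℕ) : 𝕃) ^ k * ((g i : Qj) : 𝕃)) * b i ∈ gaussRing ℓ := by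
    rw [hsum0]; exact zero_mem _
  have hz : rho ℓ ⟨∑ i, (((ℓ : ℕ) : 𝕃) ^ k * ((g i : Qj) : 𝕃)) * b i, hmem⟩ = 0 := by
    have : (⟨∑ i, (((ℓ : ℕ) : 𝕃) ^ k * ((g i : Qj) : 𝕃)) * b i, hmem⟩ : gaussRing ℓ) = 0 :=
      Subtype.ext hsum0
    rw [this, map_zero]
  have := rb_key H b hbW hind (fun i => ((ℓ : ℕ) : 𝕃) ^ k * ((g i : Qj) : 𝕃))
    (fun i => mul_mem (rb_zpow_mem_Qj ℓ k) (g i).2) hkW hmem hz i₀
  exact hi₀ this

include H hind in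
/-- the `b i` span `F_N` over `ℚ(j)` (when `[F_N : ℚ(j)] ≤ m`) -/
theorem rb_mem_span (N : ℕ)
    (hrank : ∀ c : Fin (m + 1) → 𝕃, (∀ i, c i ∈ modularFunctionFieldFull N) →
      ¬ LinearIndependent Qj c)
    (hbF : ∀ i, b i ∈ modularFunctionFieldFull N) (y : 𝕃) (hy : y ∈ modularFunctionFieldFull N) :
    ∃ g : Fin m → Qj, ∑ i, g i • b i = y := by
  have h1 := hrank (Fin.snoc b y) (by
    intro i
    refine Fin.lastCases ?_ (fun j => ?_) i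
    · simpa using hy
    · simpa using hbF j)
  rw [linearIndependent_finSnoc] at h1
  have h2 : y ∈ Submodule.span Qj (Set.range b) := by
    by_contra h
    exact h1 ⟨rb_linearIndependent_Qj H b hbW hind, h⟩
  exact (Submodule.mem_span_range_iff_exists_fun Qj).mp h2

include H hind in
/-- **Key step**: if `y = ∑ gᵢ bᵢ ∈ W` with `gᵢ ∈ ℚ(j)` then all `gᵢ ∈ W` -/
theorem rb_coeff_mem (g : Fin m → Qj) (hy : ∑ i, g i • b i ∈ gaussRing ℓ) :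
    ∀ i, ((g i : Qj) : 𝕃) ∈ gaussRing ℓ := by
  by_contra hne
  obtain ⟨i₁, hi₁⟩ := not_forall.mp hne
  have hℓ0 := rb_natCast_ne_zero ℓ
  obtain ⟨k, hkW, i₀, hi₀W, hi₀⟩ := rb_scale H (fun i => ((g i : Qj) : 𝕃)) (fun i => (g i).2)
    ⟨i₁, fun h => hi₁ (by rw [h]; exact zero_mem _)⟩
  -- `k > 0`
  have hkpos : 0 < k := by
    by_contra hk
    have hk' : 0 ≤ -k := by omega
    apply hi₁
    have : ((g i₁ : Qj) : 𝕃) = ((ℓ : ℕ) : 𝕃) ^ (-k) * (((ℓ : ℕ) : 𝕃) ^ k * ((g i₁ : Qj) : 𝕃)) := by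
      rw [← mul_assoc, ← zpow_add₀ hℓ0, neg_add_cancel, zpow_zero, one_mul]
    rw [this]
    exact mul_mem (rb_zpow_mem_gaussRing ℓ hk') (hkW i₁)
  have hsumeq : ∑ i, (((ℓ : ℕ) : 𝕃) ^ k * ((g i : Qj) : 𝕃)) * b i =
      ((ℓ : ℕ) : 𝕃) * (((ℓ : ℕ) : 𝕃) ^ (k - 1) * ∑ i, (g i) • b i) := by
    rw [← mul_assoc, ← zpow_one_add₀ hℓ0, show 1 + (k - 1) = k by ring, Finset.mul_sum]
    refine Finset.sum_congr rfl fun i _ => ?_
    rw [IntermediateField.smul_def, smul_eq_mul, mul_assoc]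
  have hmem2 : ((ℓ : ℕ) : 𝕃) ^ (k - 1) * ∑ i, (g i) • b i ∈ gaussRing ℓ :=
    mul_mem (rb_zpow_mem_gaussRing ℓ (by omega)) hy
  have hmem : ∑ i, (((ℓ : ℕ) : 𝕃) ^ k * ((g i : Qj) : 𝕃)) * b i ∈ gaussRing ℓ := by
    rw [hsumeq]
    exact mul_mem (rb_natCast_mem_gaussRing ℓ ℓ) hmem2
  have hz : rho ℓ ⟨∑ i, (((ℓ : ℕ) : 𝕃) ^ k * ((g i : Qj) : 𝕃)) * b i, hmem⟩ = 0 := by
    have : (⟨∑ i, (((ℓ : ℕ) : 𝕃) ^ k * ((g i : Qj) : 𝕃)) * b i, hmem⟩ : gaussRing ℓ) =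
        ⟨((ℓ : ℕ) : 𝕃), rb_natCast_mem_gaussRing ℓ ℓ⟩ *
          ⟨((ℓ : ℕ) : 𝕃) ^ (k - 1) * ∑ i, (g i) • b i, hmem2⟩ := Subtype.ext hsumeq
    rw [this, map_mul, rb_rho_natCast_self, zero_mul]
  have := rb_key H b hbW hind (fun i => ((ℓ : ℕ) : 𝕃) ^ k * ((g i : Qj) : 𝕃))
    (fun i => mul_mem (rb_zpow_mem_Qj ℓ k) (g i).2) hkW hmem hz i₀
  exact hi₀ this

end core

/-- `ℚ(j) ⊆ F_N` -/
theorem rb_Qj_le (N : ℕ) [NeZero N] : Qj ≤ modularFunctionFieldFull N :=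
  IntermediateField.adjoin_le_iff.mpr (Set.singleton_subset_iff.mpr
    (by simpa [qExpand_one_apply] using jqd_mem_full N (one_dvd N)))

/-- `W ∩ F_N` as a `V`-subalgebra of `ℚ((q))` -/
def rb_WF (ℓ N : ℕ) [Fact ℓ.Prime] [NeZero N] : Subalgebra (gaussV ℓ) 𝕃 where
  carrier := {y | y ∈ modularFunctionFieldFull N ∧ y ∈ gaussRing ℓ}
  mul_mem' := fun ha hb => ⟨mul_mem ha.1 hb.1, mul_mem ha.2 hb.2⟩
  add_mem' := fun ha hb => ⟨add_mem ha.1 hb.1, add_mem ha.2 hb.2⟩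
  algebraMap_mem' := fun a => ⟨rb_Qj_le N a.2.2, a.2.1⟩

theorem mem_rb_WF {ℓ N : ℕ} [Fact ℓ.Prime] [NeZero N] {y : 𝕃} :
    y ∈ rb_WF ℓ N ↔ y ∈ modularFunctionFieldFull N ∧ y ∈ gaussRing ℓ := Iff.rfl

section main

variable {ℓ : ℕ} [Fact ℓ.Prime] (H : rb_Hyp ℓ) (N : ℕ) [NeZero N] {m : ℕ} (b : Fin m → 𝕃)
  (hbF : ∀ i, b i ∈ modularFunctionFieldFull N) (hbW : ∀ i, b i ∈ gaussRing ℓ)
  (hind : LinearIndependent (Kj ℓ) (fun i => rho ℓ ⟨b i, hbW i⟩))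
  (hrank : ∀ c : Fin (m + 1) → 𝕃, (∀ i, c i ∈ modularFunctionFieldFull N) →
      ¬ LinearIndependent Qj c)

include H hbF hind hrank in
/-- `W ∩ F_N = ⊕ V bᵢ` -/
theorem rb_WF_eq_span :
    Subalgebra.toSubmodule (rb_WF ℓ N) = Submodule.span (gaussV ℓ) (Set.range b) := by
  apply le_antisymm
  · intro y hy
    have hy' : y ∈ modularFunctionFieldFull N ∧ y ∈ gaussRing ℓ := hy
    obtain ⟨g, hg⟩ := rb_mem_span H b hbW hind N hrank hbF y hy'.1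
    have hgW := rb_coeff_mem H b hbW hind g (by rw [hg]; exact hy'.2)
    rw [← hg]
    refine Submodule.sum_mem _ fun i _ => ?_
    have : (g i) • b i = (⟨((g i : Qj) : 𝕃), ⟨hgW i, (g i).2⟩⟩ : gaussV ℓ) • b i := by
      rw [IntermediateField.smul_def, Subring.smul_def]
    rw [this]
    exact Submodule.smul_mem _ _ (Submodule.subset_span ⟨i, rfl⟩)
  · rw [Submodule.span_le]
    rintro _ ⟨i, rfl⟩
    exact ⟨hbF i, hbW i⟩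

include H hbF hind hrank in
/-- **Main result**: every element of `W ∩ F_N` is integral over `V`. -/
theorem rb_isIntegral_gaussV (y : 𝕃) (hyF : y ∈ modularFunctionFieldFull N)
    (hyW : y ∈ gaussRing ℓ) : IsIntegral (gaussV ℓ) y := by
  refine IsIntegral.of_mem_of_fg (rb_WF ℓ N) ?_ y ⟨hyF, hyW⟩
  rw [rb_WF_eq_span H N b hbF hbW hind hrank]
  exact Submodule.fg_span (Set.finite_range b)

end main

end

end Fermat.Agent.S28x
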