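import Fermat.Agent.S28x.AVClosedCore
import Fermat.Agent.S28x.GaussRing
import Fermat.Agent.S28x.DegreeUpper

/-!
# S28 project, module DV (`AVClosed.lean`, prefix `dv_`): under `QEP`, `A_V(N) = W ∩ F_N`

Final form (exact `Spec` statement): the abstract core `dv_mem_AV_of` (`AVClosedCore.lean`) fed with
GR (`exists_frac_of_mem_full`, `exists_zpow_mul_unit`, `GaussRing.lean`) and DU
(`finiteDimensional_full`, `DegreeUpper.lean`).
-/

set_option autoImplicit false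

open ModularCurve

namespace Fermat.Agent.S28x

noncomputable section

/-- **DV**: under the `q`-expansion principle `QEP ℓ N`, every element of `F_N` lying in the Gauss
ring `W` belongs to the order `A_V(N)`. -/
theorem mem_AV_of_mem_gaussRing (ℓ N : ℕ) [Fact ℓ.Prime] [NeZero N] (h : QEP ℓ N)
    {x : LaurentSeries ℚ} (hxF : x ∈ modularFunctionFieldFull N) (hxW : x ∈ gaussRing ℓ) :
    x ∈ AV ℓ N :=
  dv_mem_AV_of ℓ N h _ (finiteDimensional_full N)
    (fun _ hz => exists_frac_of_mem_full ℓ N hz)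
    (fun _ hz hf => by
      obtain ⟨m, y, hy, _, _, e⟩ := exists_zpow_mul_unit ℓ hz hf
      exact ⟨m, y, hy, e⟩) hxF hxW

/-- `A_V(N) = W ∩ F_N` as an equivalence, given the two inclusions `A_V(N) ⊆ W`, `A_V(N) ⊆ F_N`
(module QD) as hypotheses. -/
theorem dv_mem_AV_iff (ℓ N : ℕ) [Fact ℓ.Prime] [NeZero N] (h : QEP ℓ N)
    (hW : ∀ x ∈ AV ℓ N, x ∈ gaussRing ℓ) (hF : ∀ x ∈ AV ℓ N, x ∈ modularFunctionFieldFull N)
    {x : LaurentSeries ℚ} :
    x ∈ AV ℓ N ↔ x ∈ modularFunctionFieldFull N ∧ x ∈ gaussRing ℓ :=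
  ⟨fun hx => ⟨hF x hx, hW x hx⟩, fun hx => mem_AV_of_mem_gaussRing ℓ N h hx.1 hx.2⟩

end

end Fermat.Agent.S28x
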