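/-
S28 project (Igusa), UNITS ROUTE (architect helper94): formal definitions and the interface
propositions (`Prop`-valued defs, so that real modules can take them as hypotheses; no `sorry`).

Notation: `X = q^(1/N)`; all "conjugate" series live in `LaurentSeries R` in the variable `X`.
All names are prefixed `ud_`.
-/
import Mathlib
import Fermat.Prelude.Def_ModularCurve_X0
import Fermat.Prelude.Def_ModularCurve_JqCoeff
import Fermat.Agent.S24x.CombDefs
import Fermat.Agent.S24x.JdCusp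

set_option autoImplicit false
set_option linter.unusedSectionVars false

noncomputable section

namespace Fermat.Agent.S28x

open ModularCurve Fermat.Agent.S24x
open scoped MatrixGroups

/-! ## Formal series over an arbitrary commutative ring -/

section Formal

variable (R : Type*) [CommRing R]

/-- `∏ (1 - q^n)^24` over `R`. -/
def ud_eta : PowerSeries R := dedekindEtaUnit.map (Int.castRingHom R)

/-- the inverse of `∏ (1 - q^n)^24` over `R`. -/
def ud_etaInv : PowerSeries R := dedekindEtaUnitInv.map (Int.castRingHom R)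

/-- formal `Δ(u · X^m) = u X^m ∏ (1 - u^n X^(m n))^24`. -/
def ud_DeltaTw (u : R) (m : ℕ) [NeZero m] : LaurentSeries R :=
  HahnSeries.single (m : ℤ) u *
    qExpand R m (HahnSeries.ofPowerSeries ℤ R (PowerSeries.rescale u (ud_eta R)))

/-- formal `1 / Δ(X^N)`. -/
def ud_DeltaInv (N : ℕ) [NeZero N] : LaurentSeries R :=
  HahnSeries.single (-(N : ℤ)) 1 * qExpand R N (HahnSeries.ofPowerSeries ℤ R (ud_etaInv R))

/-- formal `c · Δ(u X^m) / Δ(X^N)`; junk value `0` when `m = 0`. -/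
def ud_G1 (N : ℕ) [NeZero N] (c u : R) (m : ℕ) : LaurentSeries R :=
  if h : m = 0 then 0 else
    haveI : NeZero m := ⟨h⟩
    HahnSeries.C c * ud_DeltaTw R u m * ud_DeltaInv R N

/-- the modular unit `Δ(q^d)/Δ(q)` as a formal Laurent series in `q` (junk `0` for `d = 0`). -/
def ud_gd (d : ℕ) : LaurentSeries R := ud_G1 R 1 1 1 d

end Formal

/-! ## Hermite families -/

/-- Abstract Hermite data for a finite index set `Q` of conjugates at level `N`:
for every divisor `d` of `N` and every `γ : Q` a triple `(A, B, E)` with `A E = d`, `B < E`,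
`A = gcd(d, cls γ)`. -/
structure ud_HermiteFamily (N : ℕ) (Q : Type) where
  /-- the cusp class (a divisor of `N`) -/
  cls : Q → ℕ
  /-- Hermite data -/
  A : ℕ → Q → ℕ
  /-- Hermite data -/
  B : ℕ → Q → ℕ
  /-- Hermite data -/
  E : ℕ → Q → ℕ
  cls_dvd : ∀ γ, cls γ ∣ N
  hAE : ∀ d, d ∣ N → ∀ γ, A d γ * E d γ = d
  hB : ∀ d, d ∣ N → ∀ γ, B d γ < E d γ
  hA : ∀ d, d ∣ N → ∀ γ, A d γ = Nat.gcd d (cls γ)

section Family

variable (R : Type*) [CommRing R] {N : ℕ} [NeZero N] {Q : Type} (H : ud_HermiteFamily N Q)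

/-- the formal conjugate `E^-12 Δ(ζ^(B N/E) X^(A N/E)) / Δ(X^N)` of `Δ(dτ)/Δ(τ)` at `γ`;
`ninv` plays the role of `1/N`, so that `1/E = (N/E) · ninv`. -/
def ud_Gd (ζ ninv : R) (d : ℕ) (γ : Q) : LaurentSeries R :=
  ud_G1 R N ((((N / H.E d γ : ℕ) : R) * ninv) ^ 12) (ζ ^ (H.B d γ * (N / H.E d γ)))
    (H.A d γ * (N / H.E d γ))

/-- the formal conjugate at `γ` of the unit `g^r = ∏_{d ∣ N} (Δ(q^d)/Δ(q))^(r d)`. -/
def ud_Gr (ζ ninv : R) (r : ℕ → ℕ) (γ : Q) : LaurentSeries R :=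
  ∏ d ∈ N.divisors, ud_Gd R H ζ ninv d γ ^ r d

end Family

/-- the unit `g^r = ∏_{d ∣ N} (Δ(q^d)/Δ(q))^(r d)` as a formal Laurent series in `q`. -/
def ud_gr (R : Type*) [CommRing R] (N : ℕ) (r : ℕ → ℕ) : LaurentSeries R :=
  ∏ d ∈ N.divisors, ud_gd R d ^ r d

/-- the weight `Σ_{d ∣ N} s d (gcd(d,c)² - d)`; the `X`-order of `ud_Gr … r γ` with `r d = d * s d`
is `N * ud_weight N s (cls γ)`. -/
def ud_weight (N : ℕ) (s : ℕ → ℕ) (c : ℕ) : ℤ :=
  ∑ d ∈ N.divisors, (s d : ℤ) * ((Nat.gcd d c : ℤ) ^ 2 - d)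

/-! ## The concrete Hermite family on `Q N = SL(2,ℤ) ⧸ Γ₀(N)`

The conjugate of a `Γ₀(N)`-invariant function `f` attached to the coset `x = gΓ₀(N)` is
`τ ↦ f (g⁻¹ • τ)`; we use the representative `g = Quotient.out x` and the matrix `γ = g⁻¹`. -/

/-- `(A,B,E)` is a Hermite triple of `(d 0; 0 1) γ`:
`(d 0; 0 1) γ = γ' (A B; 0 E)` for some `γ' ∈ SL(2,ℤ)`, with `A E = d`, `B < E`. -/
def ud_IsHermite (d : ℕ) (γ : SL(2, ℤ)) (A B E : ℕ) : Prop :=
  0 < A ∧ 0 < E ∧ A * E = d ∧ B < E ∧ ∃ γ' : SL(2, ℤ),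
    (d : ℤ) * γ 0 0 = γ' 0 0 * A ∧ (d : ℤ) * γ 0 1 = γ' 0 0 * B + γ' 0 1 * E ∧
      γ 1 0 = γ' 1 0 * A ∧ γ 1 1 = γ' 1 0 * B + γ' 1 1 * E

theorem ud_exists_isHermite (d : ℕ) (hd : 0 < d) (γ : SL(2, ℤ)) :
    ∃ T : ℕ × ℕ × ℕ, ud_IsHermite d γ T.1 T.2.1 T.2.2 := by
  obtain ⟨γ', a, b, e, ha, he, hae, hb0, hbe, h1, h2, h3, h4⟩ := jdc_hermite γ d hd
  refine ⟨(a.toNat, b.toNat, e.toNat), ?_⟩
  have ha' : ((a.toNat : ℕ) : ℤ) = a := Int.toNat_of_nonneg ha.le
  have hb' : ((b.toNat : ℕ) : ℤ) = b := Int.toNat_of_nonneg hb0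
  have he' : ((e.toNat : ℕ) : ℤ) = e := Int.toNat_of_nonneg he.le
  show ud_IsHermite d γ a.toNat b.toNat e.toNat
  refine ⟨by exact_mod_cast (ha' ▸ ha : (0 : ℤ) < (a.toNat : ℤ)),
    by exact_mod_cast (he' ▸ he : (0 : ℤ) < (e.toNat : ℤ)), ?_,
    by have : ((b.toNat : ℕ) : ℤ) < (e.toNat : ℤ) := by rw [hb', he']; exact hbe
       exact_mod_cast this, γ', ?_, ?_, ?_, ?_⟩
  · have : ((a.toNat * e.toNat : ℕ) : ℤ) = (d : ℤ) := by push_cast; rw [ha', he', hae]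
    exact_mod_cast this
  · rw [ha']; exact h1
  · rw [hb', he']; exact h2
  · rw [ha']; exact h3
  · rw [hb', he']; exact h4

/-- the matrix `γ = (Quotient.out x)⁻¹` attached to a coset. -/
def ud_rep (N : ℕ) (x : Q N) : SL(2, ℤ) := (Quotient.out x)⁻¹

/-- chosen Hermite triple of `(d, x)` (junk for `d = 0`). -/
def ud_triple (N : ℕ) (d : ℕ) (x : Q N) : ℕ × ℕ × ℕ :=
  if hd : 0 < d then Classical.choose (ud_exists_isHermite d hd (ud_rep N x)) else (0, 0, 1)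

theorem ud_triple_spec (N : ℕ) (d : ℕ) (hd : 0 < d) (x : Q N) :
    ud_IsHermite d (ud_rep N x) (ud_triple N d x).1 (ud_triple N d x).2.1 (ud_triple N d x).2.2 := by
  unfold ud_triple
  rw [dif_pos hd]
  exact Classical.choose_spec (ud_exists_isHermite d hd (ud_rep N x))

/-- the cusp class `gcd(γ 1 0, N)` of a coset. -/
def ud_cls (N : ℕ) (x : Q N) : ℕ := Int.gcd ((ud_rep N x) 1 0) N

/-- In a Hermite triple, `A = gcd(d, lower-left entry)`. -/
theorem ud_isHermite_A_eq {d : ℕ} {γ : SL(2, ℤ)} {A B E : ℕ} (h : ud_IsHermite d γ A B E) :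
    A = Int.gcd d (γ 1 0) := by
  obtain ⟨hA, hE, hAE, hB, γ', h1, h2, h3, h4⟩ := h
  -- gcd(d γ00, γ10) = A gcd(γ'00, γ'10) = A and gcd(d γ00, γ10) = gcd(d, γ10)
  have hdetγ : γ 0 0 * γ 1 1 - γ 0 1 * γ 1 0 = 1 := by
    have := γ.2
    rwa [Matrix.det_fin_two] at this
  have hdetγ' : γ' 0 0 * γ' 1 1 - γ' 0 1 * γ' 1 0 = 1 := by
    have := γ'.2
    rwa [Matrix.det_fin_two] at this
  have hcop' : IsCoprime (γ' 0 0) (γ' 1 0) := ⟨γ' 1 1, -γ' 0 1, by linear_combination hdetγ'⟩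
  have hcop : IsCoprime (γ 0 0) (γ 1 0) := ⟨γ 1 1, -γ 0 1, by linear_combination hdetγ⟩
  have e1 : Int.gcd ((d : ℤ) * γ 0 0) (γ 1 0) = A := by
    rw [h1, h3, Int.gcd_mul_right, Int.isCoprime_iff_gcd_eq_one.mp hcop']
    simp
  have e2 : Int.gcd ((d : ℤ) * γ 0 0) (γ 1 0) = Int.gcd d (γ 1 0) := by
    apply Nat.dvd_antisymm
    · apply Int.dvd_gcd
      · -- g ∣ d γ00 and g ∣ γ10, γ00 coprime to γ10 ⇒ g ∣ d
        have hg1 : (Int.gcd ((d : ℤ) * γ 0 0) (γ 1 0) : ℤ) ∣ (d : ℤ) * γ 0 0 := Int.gcd_dvd_left ..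
        have hg2 : (Int.gcd ((d : ℤ) * γ 0 0) (γ 1 0) : ℤ) ∣ γ 1 0 := Int.gcd_dvd_right ..
        have hc : IsCoprime (Int.gcd ((d : ℤ) * γ 0 0) (γ 1 0) : ℤ) (γ 0 0) :=
          (hcop.symm.of_isCoprime_of_dvd_left hg2)
        exact hc.dvd_of_dvd_mul_right hg1
      · exact Int.gcd_dvd_right ..
    · apply Int.dvd_gcd
      · exact Dvd.dvd.mul_right (Int.gcd_dvd_left ..) _
      · exact Int.gcd_dvd_right ..
  rw [← e1, e2]

/-- the concrete Hermite family on `Q N`. -/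
def ud_familyQ (N : ℕ) [NeZero N] : ud_HermiteFamily N (Q N) where
  cls := ud_cls N
  A d x := (ud_triple N d x).1
  B d x := (ud_triple N d x).2.1
  E d x := (ud_triple N d x).2.2
  cls_dvd x := by
    have := Int.gcd_dvd_right ((ud_rep N x) 1 0) (N : ℤ)
    exact_mod_cast this
  hAE d hd x := (ud_triple_spec N d (Nat.pos_of_dvd_of_pos hd (NeZero.pos N)) x).2.2.1
  hB d hd x := (ud_triple_spec N d (Nat.pos_of_dvd_of_pos hd (NeZero.pos N)) x).2.2.2.1
  hA d hd x := by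
    have h := ud_isHermite_A_eq (ud_triple_spec N d (Nat.pos_of_dvd_of_pos hd (NeZero.pos N)) x)
    rw [h, ud_cls]
    -- gcd(d, c) = gcd(d, gcd(c, N)) as d ∣ N
    obtain ⟨k, rfl⟩ := hd
    apply Nat.dvd_antisymm
    · apply Nat.dvd_gcd
      · exact_mod_cast Int.gcd_dvd_left (d : ℤ) ((ud_rep (d * k) x) 1 0)
      · have h1 : (Int.gcd (d : ℤ) ((ud_rep (d * k) x) 1 0) : ℤ) ∣ (ud_rep (d * k) x) 1 0 :=
          Int.gcd_dvd_right ..
        have h2 : (Int.gcd (d : ℤ) ((ud_rep (d * k) x) 1 0) : ℤ) ∣ ((d * k : ℕ) : ℤ) := by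
          push_cast
          exact Dvd.dvd.mul_right (Int.gcd_dvd_left ..) _
        have := Int.dvd_gcd h1 h2
        simpa using this
    · have h1 : (Nat.gcd d (Int.gcd ((ud_rep (d * k) x) 1 0) ((d * k : ℕ) : ℤ)) : ℤ) ∣ (d : ℤ) := by
        exact_mod_cast Nat.gcd_dvd_left _ _
      have h2 : (Nat.gcd d (Int.gcd ((ud_rep (d * k) x) 1 0) ((d * k : ℕ) : ℤ)) : ℤ) ∣
          (ud_rep (d * k) x) 1 0 := by
        have := Nat.gcd_dvd_right d (Int.gcd ((ud_rep (d * k) x) 1 0) ((d * k : ℕ) : ℤ))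
        exact (Int.natCast_dvd_natCast.mpr this).trans (Int.gcd_dvd_left ..)
      have := Int.dvd_gcd h1 h2
      simpa using this

/-! ## Interface propositions of the units route -/

/-- instance-free evaluation `R[Y] → R((X))`, `Y ↦ J` (same body as `ufEval` of `UnitFactor.lean`;
do NOT use `aeval J`: Mathlib has two non-defeq `Algebra R (LaurentSeries R)` instances). -/
def ud_evalJ {R : Type*} [CommRing R] (J : LaurentSeries R) : Polynomial R →+* LaurentSeries R :=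
  Polynomial.eval₂RingHom (HahnSeries.C : R →+* LaurentSeries R) J

/-- `ζ_N = exp(2πi/N)`. -/
def ud_zetaC (N : ℕ) : ℂ := Complex.exp (2 * Real.pi * Complex.I / N)

/-- the trivial coset `e = Γ₀(N)` of `Q N`. -/
def ud_e (N : ℕ) : Q N := QuotientGroup.mk 1

/-- **AN-MAIN** (analytic deliverable, owner helper79): for every exponent vector `r`, the product
`∏_γ (T - Gr γ)` over `ℂ((X))` comes from a monic `PA ∈ ℂ[Y][T]` via `Y ↦ j(X^N)`, and its constant
term is a non-zero constant. -/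
def ud_ANMain (N : ℕ) [NeZero N] : Prop :=
  ∀ r : ℕ → ℕ, ∃ (PA : Polynomial (Polynomial ℂ)) (c : ℂ), PA.Monic ∧
    PA.natDegree = Fintype.card (Q N) ∧ c ≠ 0 ∧ PA.coeff 0 = Polynomial.C c ∧
    PA.map (ud_evalJ (jqNModC ℂ N)) =
      ∏ γ : Q N, (Polynomial.X -
        Polynomial.C (ud_Gr ℂ (ud_familyQ N) (ud_zetaC N) ((N : ℂ)⁻¹) r γ))

/-- **LAGRANGE + DESCENT** (owners helper62/helper81 + helper80): the unit `g^r` lies in `F_N`. -/
def ud_UnitMem (N : ℕ) [NeZero N] : Prop :=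
  ∀ r : ℕ → ℕ, ud_gr ℚ N r ∈ modularFunctionFieldFull N

/-- **INDEX FACTS** (combinatorics of `Q N`): only the trivial coset has class `N`. -/
def ud_ClsFacts (N : ℕ) [NeZero N] : Prop :=
  ∀ x : Q N, ud_cls N x = N ↔ x = ud_e N

/-- **REDUCED FORM** (output of the descent/reduction step, input of the final assembly):
over some field `k` of characteristic `ℓ`, the hypotheses of `uf_card_le_natDegree` for the
reductions `Ḡ γ` of the conjugates, together with `Ḡ e = g̃(X^N)`. -/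
def ud_Reduced (N : ℕ) [NeZero N] (ℓ : ℕ) [Fact ℓ.Prime] : Prop :=
  ∃ (r : ℕ → ℕ) (k : Type) (_ : Field k) (_ : Algebra (ZMod ℓ) k) (G : Q N → LaurentSeries k)
    (PA : Polynomial (Polynomial k)) (c : k),
    PA.map (ud_evalJ (jqNModC k N)) = ∏ γ : Q N, (Polynomial.X - Polynomial.C (G γ)) ∧
    c ≠ 0 ∧ ∏ γ : Q N, G γ = HahnSeries.C c ∧
    (∀ U : Finset (Q N), ud_e N ∈ U → ∑ γ ∈ U, (G γ).order = 0 → U = Finset.univ) ∧
    G (ud_e N) = qExpand k N (ud_gr k N r)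

end Fermat.Agent.S28x
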