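/-
S28 project, units route, row UD (helper80): descent of field membership from `L((q))` to `K((q))`.

If `K ⊆ L` are fields, `S ⊆ K((q))` and `x ∈ K((q))` is such that (the image of) `x` lies in the
subfield `L(S)` of `L((q))`, then `x ∈ K(S)`.  (Linear disjointness of `L` and `K((q))` over `K`,
proved coefficientwise with `K`-linear functionals `L → K`.)

Main statements:
* `ud_proj_mul`        : `Φ_φ (coeffMap y * z) = y * Φ_φ z` (`Φ_φ` = coefficientwise `φ : L →ₗ[K] K`)
* `ud_mem_adjoin`      : `coeffMap x ∈ L(coeffMap '' S) → x ∈ K(S)`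
* `ud_mem_adjoin_of_mul_eq` : `coeffMap x * D' = h'`, `D' ≠ 0`, `D', h' ∈ L[coeffMap '' S]` ⇒ `x ∈ K(S)`
* `ud_mem_adjoin_pair` : two generators, `D, h : Polynomial (Polynomial L)`
* `ud_mem_full`        : the Prelude instance `ℚ ⊆ ℂ`, `S = {j(q), j(q^d)}`, `d ∣ N`:
                         `x ∈ modularFunctionFieldFull N`
* `ud_mem_of_coeffEmb_mem_laurentBaseChange` : `coeffEmb L x ∈ laurentBaseChange L F₀ → x ∈ F₀`
-/
import Mathlib
import Fermat.Prelude.Def_ModularCurve_LaurentCoeff
import Fermat.Prelude.Def_ModularCurve_X0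

set_option autoImplicit false

namespace Fermat.Agent.S28x

open ModularCurve

noncomputable section

section General

variable {K L : Type*} [Field K] [Field L] [Algebra K L]

/-- coefficientwise application of a `K`-linear functional `φ : L → K` to a Laurent series. -/
def ud_proj (φ : L →ₗ[K] K) : LaurentSeries L →+ LaurentSeries K where
  toFun z := z.map φ
  map_zero' := by
    ext n
    simp
  map_add' x y := by
    ext n
    simp

@[simp]
theorem ud_proj_coeff (φ : L →ₗ[K] K) (z : LaurentSeries L) (n : ℤ) :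
    (ud_proj φ z).coeff n = φ (z.coeff n) := rfl

theorem ud_support_coeffMap_subset (y : LaurentSeries K) :
    (coeffMap (algebraMap K L) y).support ⊆ y.support := by
  intro n hn
  rw [HahnSeries.mem_support] at hn ⊢
  intro h
  apply hn
  rw [coeffMap_coeff, h, map_zero]

theorem ud_support_proj_subset (φ : L →ₗ[K] K) (z : LaurentSeries L) :
    (ud_proj φ z).support ⊆ z.support := by
  intro n hn
  rw [HahnSeries.mem_support] at hn ⊢
  intro h
  apply hn
  rw [ud_proj_coeff, h, map_zero]

/-- `Φ_φ` is `K((q))`-linear. -/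
theorem ud_proj_mul (φ : L →ₗ[K] K) (y : LaurentSeries K) (z : LaurentSeries L) :
    ud_proj φ (coeffMap (algebraMap K L) y * z) = y * ud_proj φ z := by
  ext a
  rw [ud_proj_coeff, HahnSeries.coeff_mul_left' y.isPWO_support (ud_support_coeffMap_subset y),
    HahnSeries.coeff_mul_right' z.isPWO_support (ud_support_proj_subset φ z), map_sum]
  refine Finset.sum_congr rfl fun ij _ => ?_
  rw [coeffMap_coeff, ← Algebra.smul_def, map_smul, smul_eq_mul, ud_proj_coeff]

theorem ud_proj_mul' (φ : L →ₗ[K] K) (y : LaurentSeries K) (z : LaurentSeries L) :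
    ud_proj φ (z * coeffMap (algebraMap K L) y) = ud_proj φ z * y := by
  rw [mul_comm, ud_proj_mul, mul_comm]

theorem ud_proj_algebraMap (φ : L →ₗ[K] K) (c : L) :
    ud_proj φ (algebraMap L (LaurentSeries L) c) = algebraMap K (LaurentSeries K) (φ c) := by
  rw [algebraMap_laurentSeries_eq_single, algebraMap_laurentSeries_eq_single]
  ext n
  rw [ud_proj_coeff]
  rcases eq_or_ne n 0 with rfl | hn
  · rw [HahnSeries.coeff_single_same, HahnSeries.coeff_single_same]
  · rw [HahnSeries.coeff_single_of_ne hn, HahnSeries.coeff_single_of_ne hn, map_zero]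

theorem ud_coeffMap_injective : Function.Injective (coeffMap (algebraMap K L)) := by
  intro x y h
  ext n
  have := congrArg (fun z => z.coeff n) h
  simp only [coeffMap_coeff] at this
  exact (algebraMap K L).injective this

/-- a nonzero series over `L` has a nonzero projection. -/
theorem ud_exists_proj_ne_zero {z : LaurentSeries L} (hz : z ≠ 0) :
    ∃ φ : L →ₗ[K] K, ud_proj φ z ≠ 0 := by
  obtain ⟨n, hn⟩ : ∃ n, z.coeff n ≠ 0 := by
    by_contra hcon
    push Not at hcon
    exact hz (HahnSeries.ext (funext hcon))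
  obtain ⟨φ, hφ⟩ : ∃ φ : Module.Dual K L, φ (z.coeff n) ≠ 0 := by
    by_contra hcon
    push Not at hcon
    exact hn ((Module.forall_dual_apply_eq_zero_iff K (z.coeff n)).mp hcon)
  refine ⟨φ, fun h => hφ ?_⟩
  have := congrArg (fun w => w.coeff n) h
  simpa using this

/-- projection of the image of a `K`-series. -/
theorem ud_proj_coeffMap (φ : L →ₗ[K] K) (y : LaurentSeries K) :
    ud_proj φ (coeffMap (algebraMap K L) y) = y * algebraMap K (LaurentSeries K) (φ 1) := by
  have := ud_proj_mul φ y (algebraMap L (LaurentSeries L) 1)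
  rwa [map_one, mul_one, ← map_one (algebraMap L (LaurentSeries L)), ud_proj_algebraMap] at this

/-- projection of a scalar multiple. -/
theorem ud_proj_smul (φ : L →ₗ[K] K) (c : L) (w : LaurentSeries L) :
    ud_proj φ (algebraMap L (LaurentSeries L) c * w) =
      ud_proj (φ.comp (LinearMap.mulLeft K c)) w := by
  ext n
  rw [ud_proj_coeff, ud_proj_coeff, algebraMap_laurentSeries_eq_single,
    HahnSeries.coeff_single_zero_mul]
  rfl

/-- monomials in `coeffMap '' S` are images of monomials in `S`. -/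
theorem ud_closure_image (S : Set (LaurentSeries K)) {w : LaurentSeries L}
    (hw : w ∈ Submonoid.closure (⇑(coeffMap (algebraMap K L)) '' S)) :
    ∃ m ∈ Submonoid.closure S, w = coeffMap (algebraMap K L) m := by
  induction hw using Submonoid.closure_induction with
  | mem w hw =>
    obtain ⟨y, hy, rfl⟩ := hw
    exact ⟨y, Submonoid.subset_closure hy, rfl⟩
  | one => exact ⟨1, Submonoid.one_mem _, (map_one _).symm⟩
  | mul u v _ _ hu hv =>
    obtain ⟨m₁, hm₁, rfl⟩ := hu
    obtain ⟨m₂, hm₂, rfl⟩ := hv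
    exact ⟨m₁ * m₂, Submonoid.mul_mem _ hm₁ hm₂, (map_mul _ _ _).symm⟩

/-- projections of `L`-polynomial expressions in `coeffMap '' S` are `K`-polynomial expressions
in `S`. -/
theorem ud_proj_mem_adjoin (φ : L →ₗ[K] K) (S : Set (LaurentSeries K)) {w : LaurentSeries L}
    (hw : w ∈ Algebra.adjoin L (⇑(coeffMap (algebraMap K L)) '' S)) :
    ud_proj φ w ∈ Algebra.adjoin K S := by
  have hw' : w ∈ Subalgebra.toSubmodule
      (Algebra.adjoin L (⇑(coeffMap (algebraMap K L)) '' S)) := hw
  rw [Algebra.adjoin_eq_span] at hw'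
  clear hw
  induction hw' using Submodule.span_induction generalizing φ with
  | mem w hw =>
    obtain ⟨m, hm, rfl⟩ := ud_closure_image S hw
    rw [ud_proj_coeffMap]
    refine Subalgebra.mul_mem _ ?_ (Subalgebra.algebraMap_mem _ _)
    have hle : Submonoid.closure S ≤ (Algebra.adjoin K S).toSubmonoid :=
      Submonoid.closure_le.mpr Algebra.subset_adjoin
    exact hle hm
  | zero =>
    rw [map_zero]
    exact Subalgebra.zero_mem _
  | add u v _ _ hu hv =>
    rw [map_add]
    exact Subalgebra.add_mem _ (hu φ) (hv φ)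
  | smul c u _ hu =>
    rw [Algebra.smul_def, ud_proj_smul]
    exact hu _

/-- **Descent, multiplicative form**: if `x · D' = h'` in `L((q))` with `D' ≠ 0` and
`D', h' ∈ L[coeffMap '' S]`, then `x ∈ K(S)`. -/
theorem ud_mem_adjoin_of_mul_eq (S : Set (LaurentSeries K)) (x : LaurentSeries K)
    {D' h' : LaurentSeries L}
    (hD' : D' ∈ Algebra.adjoin L (⇑(coeffMap (algebraMap K L)) '' S))
    (hh' : h' ∈ Algebra.adjoin L (⇑(coeffMap (algebraMap K L)) '' S))
    (hne : D' ≠ 0) (hx : coeffMap (algebraMap K L) x * D' = h') :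
    x ∈ IntermediateField.adjoin K S := by
  obtain ⟨φ, hφ⟩ := ud_exists_proj_ne_zero (K := K) hne
  have h1 : x * ud_proj φ D' = ud_proj φ h' := by rw [← ud_proj_mul, hx]
  have hxeq : x = ud_proj φ h' / ud_proj φ D' := by
    rw [eq_div_iff hφ, h1]
  rw [hxeq]
  have hle := IntermediateField.algebra_adjoin_le_adjoin K S
  exact div_mem (hle (ud_proj_mem_adjoin φ S hh')) (hle (ud_proj_mem_adjoin φ S hD'))

/-- **Descent of field membership** from `L((q))` to `K((q))`. -/
theorem ud_mem_adjoin (S : Set (LaurentSeries K)) (x : LaurentSeries K)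
    (hx : coeffMap (algebraMap K L) x ∈
      IntermediateField.adjoin L (⇑(coeffMap (algebraMap K L)) '' S)) :
    x ∈ IntermediateField.adjoin K S := by
  obtain ⟨r, hr, s, hs, hrs⟩ := IntermediateField.mem_adjoin_iff_div.mp hx
  by_cases hs0 : s = 0
  · rw [hs0, div_zero] at hrs
    have : x = 0 := ud_coeffMap_injective (K := K) (L := L) (by rw [hrs, map_zero])
    rw [this]
    exact zero_mem _
  · exact ud_mem_adjoin_of_mul_eq S x hs hr hs0 (by rw [hrs, div_mul_cancel₀ _ hs0])

/-- two generators, with two-variable polynomials `D, h ∈ L[Y][T]` evaluated at `Y = a`, `T = b`. -/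
theorem ud_mem_adjoin_pair (a b x : LaurentSeries K) (D h : Polynomial (Polynomial L))
    (hD : (D.map (Polynomial.aeval (coeffMap (algebraMap K L) a)).toRingHom).eval
      (coeffMap (algebraMap K L) b) ≠ 0)
    (hx : coeffMap (algebraMap K L) x *
        (D.map (Polynomial.aeval (coeffMap (algebraMap K L) a)).toRingHom).eval
          (coeffMap (algebraMap K L) b) =
      (h.map (Polynomial.aeval (coeffMap (algebraMap K L) a)).toRingHom).eval
        (coeffMap (algebraMap K L) b)) :
    x ∈ IntermediateField.adjoin K {a, b} := by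
  have key : ∀ P : Polynomial (Polynomial L),
      (P.map (Polynomial.aeval (coeffMap (algebraMap K L) a)).toRingHom).eval
        (coeffMap (algebraMap K L) b) ∈
      Algebra.adjoin L (⇑(coeffMap (algebraMap K L)) '' {a, b}) := by
    intro P
    have ha : coeffMap (algebraMap K L) a ∈
        Algebra.adjoin L (⇑(coeffMap (algebraMap K L)) '' {a, b}) :=
      Algebra.subset_adjoin ⟨a, by simp, rfl⟩
    have hb : coeffMap (algebraMap K L) b ∈
        Algebra.adjoin L (⇑(coeffMap (algebraMap K L)) '' {a, b}) :=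
      Algebra.subset_adjoin ⟨b, by simp, rfl⟩
    rw [Polynomial.eval_map, Polynomial.eval₂_eq_sum_range]
    refine Subalgebra.sum_mem _ fun i _ => Subalgebra.mul_mem _ ?_ (Subalgebra.pow_mem _ hb i)
    show Polynomial.aeval (coeffMap (algebraMap K L) a) (P.coeff i) ∈ _
    rw [Polynomial.aeval_eq_sum_range]
    exact Subalgebra.sum_mem _ fun j _ =>
      Subalgebra.smul_mem _ (Subalgebra.pow_mem _ ha j) _
  exact ud_mem_adjoin_of_mul_eq {a, b} x (key D) (key h) hD hx

end General

section Prelude

/-- `coeffEmb L x ∈ laurentBaseChange L F₀ → x ∈ F₀`. -/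
theorem ud_mem_of_coeffEmb_mem_laurentBaseChange (L : Type*) [Field L] [Algebra ℚ L]
    (F₀ : IntermediateField ℚ (LaurentSeries ℚ)) {x : LaurentSeries ℚ}
    (hx : coeffEmb L x ∈ laurentBaseChange L F₀) : x ∈ F₀ := by
  have h := ud_mem_adjoin (K := ℚ) (L := L) (F₀ : Set (LaurentSeries ℚ)) x hx
  rwa [IntermediateField.adjoin_self] at h

/-- **UD, Prelude form**: if `x ∈ ℚ((q))` satisfies `x · D(j, j_d) = h(j, j_d)` in `ℂ((q))` with
`D, h ∈ ℂ[Y][T]`, `D(j, j_d) ≠ 0` and `d ∣ N`, then `x ∈ ℚ(j(q^e) : e ∣ N)`. -/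
theorem ud_mem_full (N d : ℕ) [NeZero N] [NeZero d] (hd : d ∣ N) (x : LaurentSeries ℚ)
    (D h : Polynomial (Polynomial ℂ))
    (hD : (D.map (Polynomial.aeval (coeffEmb ℂ jq)).toRingHom).eval
      (coeffEmb ℂ (qExpand ℚ d jq)) ≠ 0)
    (hx : coeffEmb ℂ x *
        (D.map (Polynomial.aeval (coeffEmb ℂ jq)).toRingHom).eval (coeffEmb ℂ (qExpand ℚ d jq)) =
      (h.map (Polynomial.aeval (coeffEmb ℂ jq)).toRingHom).eval (coeffEmb ℂ (qExpand ℚ d jq))) :
    x ∈ modularFunctionFieldFull N := by
  have h1 := ud_mem_adjoin_pair (K := ℚ) (L := ℂ) jq (qExpand ℚ d jq) x D h hD hx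
  have hle : IntermediateField.adjoin ℚ {jq, qExpand ℚ d jq} ≤ modularFunctionFieldFull N := by
    rw [IntermediateField.adjoin_le_iff]
    rintro y (rfl | rfl)
    · simpa [qExpand_one_apply] using jqd_mem_full N (one_dvd N)
    · exact jqd_mem_full N hd
  exact hle h1

end Prelude

end

end Fermat.Agent.S28x
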