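/-
S28 / units route, row UA' = (U3) "Lagrange" (helper81, prefix ul_): the modular units
`Δ(q^d)/Δ(q)` lie in the field generated over `ℂ` by `j(q)` and `j(q^d)`.

Proof: `Δ(dτ)` and `Δ(τ)` are modular forms of weight `12` for `Γ₀(d)`; by S23x `ratioField_eq`
the `q`-expansion of any ratio of two such forms lies in `ℂ(j, j_d)` (this is where the
interpolation / degree count over `SL₂(ℤ)/Γ₀(d)` was done).  The rest is bridging between the
analytic `q`-expansions and the Prelude's formal series `deltaSeries`, `jqModC`, `jqNModC`.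
-/
import Mathlib
import Fermat.Agent.S23x.FieldGen
import Fermat.Agent.S24x.DegreeLowerCore
import Fermat.Prelude.Def_ModularCurve_ModularUnit

set_option autoImplicit false

noncomputable section

namespace Fermat.Agent.S28x

open UpperHalfPlane ModularForm ModularCurve CongruenceSubgroup
open Fermat.Agent

/-- the `q`-expansion of `Δ(dτ)/Δ(τ)`. -/
def ul_gL (d : ℕ) [NeZero d] : S23x.LS :=
  S23x.qL (fun z => ModularForm.discriminant (S23x.mulN d z)) / S23x.DeltaL

theorem ul_isRatio_gL (d : ℕ) [NeZero d] : S23x.IsRatio d 0 (ul_gL d) := by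
  have hD : S23x.IsMF d 12 ModularForm.discriminant :=
    S23x.IsMF1.isMF d S23x.m09c_isMF1_discriminant
  have hDd : S23x.IsMF d 12 (fun z => ModularForm.discriminant (S23x.mulN d z)) :=
    S23x.isMF_comp_mulN d S23x.m09c_isMF1_discriminant
  refine ⟨12, fun z => ModularForm.discriminant (S23x.mulN d z), ModularForm.discriminant,
    by simpa using hDd, hD, ?_, ?_⟩
  · intro h
    have := congrFun h UpperHalfPlane.I
    exact ModularForm.discriminant_ne_zero _ this
  · show S23x.qL _ / S23x.DeltaL * S23x.DeltaL = _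
    exact div_mul_cancel₀ _ S23x.m09c_DeltaL_ne_zero

/-- (U3) over `ℂ`, analytic names. -/
theorem ul_gL_mem (d : ℕ) [NeZero d] :
    ul_gL d ∈ IntermediateField.adjoin ℂ {S23x.jL, S23x.jNL d} := by
  rw [← S23x.ratioField_eq d]
  exact S23x.mem_ratioField_iff.mpr (ul_isRatio_gL d)

/-! ### bridging to the Prelude's formal series -/

/-- the analytic `q`-expansion of `Δ` is the Prelude's `deltaSeries`. -/
theorem ul_DeltaL_eq : S23x.DeltaL = coeffEmb ℂ deltaSeries := by
  have hR : coeffEmb ℂ deltaSeries = HahnSeries.single (1 : ℤ) (1 : ℂ) *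
      HahnSeries.ofPowerSeries ℤ ℂ (dedekindEtaUnit.map (Int.castRingHom ℂ)) := by
    rw [deltaSeries, coeffEmb, map_mul, coeffMap_single, coeffMap_ofPowerSeries, map_one,
      dedekindEtaUnitQ, ← RingHom.comp_apply (PowerSeries.map (algebraMap ℚ ℂ)),
      ← PowerSeries.map_comp]
    congr 3
  have hL : S23x.DeltaL = HahnSeries.single (1 : ℤ) (1 : ℂ) *
      HahnSeries.ofPowerSeries ℤ ℂ (dedekindEtaUnit.map (Int.castRingHom ℂ)) := by
    unfold S23x.DeltaL S23x.qL
    rw [S24x.qExpansion_discriminant, map_mul (HahnSeries.ofPowerSeries ℤ ℂ),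
      HahnSeries.ofPowerSeries_X, dedekindEtaUnit]
  rw [hL, hR]

/-- the analytic `q`-expansion of `Δ(dτ)` is the Prelude's `deltaSeriesN d`. -/
theorem ul_qL_discriminant_mulN (d : ℕ) [NeZero d] :
    S23x.qL (fun z => ModularForm.discriminant (S23x.mulN d z)) = coeffEmb ℂ (deltaSeriesN d) := by
  rw [S24x.dl_qL_comp_mulN d S23x.m09c_isMF1_discriminant]
  show qExpand ℂ d S23x.DeltaL = _
  rw [ul_DeltaL_eq, deltaSeriesN, coeffEmb, coeffMap_qExpand]

theorem ul_gL_eq (d : ℕ) [NeZero d] :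
    ul_gL d = coeffEmb ℂ (deltaSeriesN d / deltaSeries) := by
  rw [ul_gL, ul_qL_discriminant_mulN, ul_DeltaL_eq, map_div₀]

theorem ul_jL_eq : S23x.jL = coeffEmb ℂ jq := by
  rw [← S24x.dl_jqModC_eq_jL, ← jqModC_rat, coeffEmb, coeffMap_jqModC]

theorem ul_jNL_eq (d : ℕ) [NeZero d] : S23x.jNL d = coeffEmb ℂ (qExpand ℚ d jq) := by
  rw [← S24x.dl_jqNModC_eq_jNL, ← jqModC_rat]
  show _ = coeffMap _ (jqNModC ℚ d)
  rw [coeffMap_jqNModC]

/-- **(U3) over `ℂ`, Prelude names**: the image in `ℂ((q))` of `Δ(q^d)/Δ(q)` lies in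
`ℂ(j(q), j(q^d))`. -/
theorem ul_delta_ratio_mem (d : ℕ) [NeZero d] :
    coeffEmb ℂ (deltaSeriesN d / deltaSeries) ∈
      IntermediateField.adjoin ℂ {coeffEmb ℂ jq, coeffEmb ℂ (qExpand ℚ d jq)} := by
  rw [← ul_gL_eq, ← ul_jL_eq, ← ul_jNL_eq]
  exact ul_gL_mem d

/-- the same for the Prelude's `modularUnitSeries d = Δ(q)/Δ(q^d)`. -/
theorem ul_modularUnitSeries_mem (d : ℕ) [NeZero d] :
    coeffEmb ℂ (modularUnitSeries d) ∈
      IntermediateField.adjoin ℂ {coeffEmb ℂ jq, coeffEmb ℂ (qExpand ℚ d jq)} := by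
  have h := (IntermediateField.adjoin ℂ
    {coeffEmb ℂ jq, coeffEmb ℂ (qExpand ℚ d jq)}).inv_mem (ul_delta_ratio_mem d)
  have e : (coeffEmb ℂ (deltaSeriesN d / deltaSeries))⁻¹ = coeffEmb ℂ (modularUnitSeries d) := by
    rw [← map_inv₀, modularUnitSeries, inv_div, div_eq_mul_inv]
  rwa [e] at h

end Fermat.Agent.S28x
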