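/-
S28 / units route (helper81, prefix ul2_): the formal unit `ud_gd ℚ d` of `UnitsDefs` is the
Prelude's `deltaSeriesN d / deltaSeries`, hence (by `UnitsLagrange` + the descent `ud_mem_adjoin`)
lies in `ℚ(j(q), j(q^d)) ⊆ modularFunctionFieldFull N` for `d ∣ N`.
-/
import Mathlib
import Fermat.Agent.S28x.UnitsDefs
import Fermat.Agent.S28x.UnitsDescent
import Fermat.Agent.S28x.UnitsLagrange

set_option autoImplicit false

noncomputable section

namespace Fermat.Agent.S28x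

open ModularCurve

theorem ul2_eta_mul_etaInv (R : Type*) [CommRing R] : ud_eta R * ud_etaInv R = 1 := by
  rw [ud_eta, ud_etaInv, ← map_mul, dedekindEtaUnit_mul_inv, map_one]

theorem ul2_deltaSeries_eq :
    deltaSeries = HahnSeries.single (1 : ℤ) (1 : ℚ) * HahnSeries.ofPowerSeries ℤ ℚ (ud_eta ℚ) :=
  rfl

/-- `1/Δ(q)` as a formal series. -/
theorem ul2_DeltaInv_one_mul : ud_DeltaInv ℚ 1 * deltaSeries = 1 := by
  rw [ud_DeltaInv, qExpand_one_apply, ul2_deltaSeries_eq]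
  have h1 : HahnSeries.ofPowerSeries ℤ ℚ (ud_etaInv ℚ) * HahnSeries.ofPowerSeries ℤ ℚ (ud_eta ℚ)
      = 1 := by
    rw [← map_mul, mul_comm, ul2_eta_mul_etaInv, map_one]
  have h2 : HahnSeries.single (-((1 : ℕ) : ℤ)) (1 : ℚ) * HahnSeries.single (1 : ℤ) (1 : ℚ) = 1 := by
    rw [HahnSeries.single_mul_single]
    simp
  calc HahnSeries.single (-((1 : ℕ) : ℤ)) (1 : ℚ) * HahnSeries.ofPowerSeries ℤ ℚ (ud_etaInv ℚ) *
        (HahnSeries.single (1 : ℤ) (1 : ℚ) * HahnSeries.ofPowerSeries ℤ ℚ (ud_eta ℚ))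
      = (HahnSeries.single (-((1 : ℕ) : ℤ)) (1 : ℚ) * HahnSeries.single (1 : ℤ) (1 : ℚ)) *
        (HahnSeries.ofPowerSeries ℤ ℚ (ud_etaInv ℚ) * HahnSeries.ofPowerSeries ℤ ℚ (ud_eta ℚ)) := by
        ring
    _ = 1 := by rw [h1, h2, mul_one]

theorem ul2_DeltaTw_one (d : ℕ) [NeZero d] : ud_DeltaTw ℚ 1 d = deltaSeriesN d := by
  rw [ud_DeltaTw, PowerSeries.rescale_one, RingHom.id_apply, deltaSeriesN, ul2_deltaSeries_eq,
    map_mul, qExpand_single, mul_one]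

/-- **formal identity**: `ud_gd ℚ d = Δ(q^d)/Δ(q)` in the Prelude's notation. -/
theorem ul2_gd_eq (d : ℕ) [NeZero d] : ud_gd ℚ d = deltaSeriesN d / deltaSeries := by
  rw [eq_div_iff deltaSeries_ne_zero, ud_gd, ud_G1, dif_neg (NeZero.ne d), map_one, one_mul,
    ul2_DeltaTw_one, mul_assoc, ul2_DeltaInv_one_mul, mul_one]

/-- `Δ(q^d)/Δ(q) ∈ ℚ(j(q), j(q^d))`. -/
theorem ul2_gd_mem_adjoin (d : ℕ) [NeZero d] :
    ud_gd ℚ d ∈ IntermediateField.adjoin ℚ {jq, qExpand ℚ d jq} := by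
  apply ud_mem_adjoin (K := ℚ) (L := ℂ)
  rw [Set.image_pair, ul2_gd_eq]
  exact ul_delta_ratio_mem d

/-- `Δ(q^d)/Δ(q) ∈ F_N` for `d ∣ N`. -/
theorem ul2_gd_mem_full (N d : ℕ) [NeZero N] (hd : d ∣ N) :
    ud_gd ℚ d ∈ modularFunctionFieldFull N := by
  have : NeZero d := ⟨fun h => NeZero.ne N (by rw [h, zero_dvd_iff] at hd; exact hd)⟩
  have hle : IntermediateField.adjoin ℚ {jq, qExpand ℚ d jq} ≤ modularFunctionFieldFull N := by
    rw [IntermediateField.adjoin_le_iff]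
    rintro y (rfl | rfl)
    · simpa [qExpand_one_apply] using jqd_mem_full N (one_dvd N)
    · exact jqd_mem_full N hd
  exact hle (ul2_gd_mem_adjoin d)

/-- **LAGRANGE + DESCENT** (`ud_UnitMem`): every unit `g^r` lies in `F_N`. -/
theorem ul2_unitMem (N : ℕ) [NeZero N] : ud_UnitMem N := by
  intro r
  rw [ud_gr]
  refine prod_mem fun d hd => pow_mem ?_ _
  exact ul2_gd_mem_full N d (Nat.dvd_of_mem_divisors hd)

end Fermat.Agent.S28x
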