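/-
S28 units route, module UB (helper86): formal facts about helper94's `ud_G1 / ud_Gd / ud_Gr / ud_gd /
ud_gr` (`UnitsDefs.lean`) over an arbitrary commutative ring:
(a) functoriality under ring homomorphisms, (b) leading terms / orders / unit leading coefficients,
(c) the conjugate at a coset of class `N` is `g^r(X^N)`, (d) `ℤ_(ℓ)`-integrality of `g^r` and its
reduction modulo `ℓ`.
-/
import Fermat.Agent.S28x.UnitsDefs
import Fermat.Agent.S28x.UnitsTwist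
import Fermat.Agent.S28x.Defs

set_option autoImplicit false

namespace Fermat.Agent.S28x

open ModularCurve

noncomputable section

variable {R : Type*} [CommRing R] {S : Type*} [CommRing S]

/-! ### bridge to the generic layer -/

theorem ub_ud_eta (R : Type*) [CommRing R] : ud_eta R = ub_eta R := rfl

theorem ub_ud_etaInv (R : Type*) [CommRing R] : ud_etaInv R = ub_etaInv R := rfl

theorem ub_ud_DeltaTw (u : R) (m : ℕ) [NeZero m] : ud_DeltaTw R u m = ub_deltaTw u m := rfl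

theorem ub_ud_DeltaInv (N : ℕ) [NeZero N] :
    ud_DeltaInv R N = ub_deltaTwInv (1 : Rˣ) N := by
  rw [ud_DeltaInv, ub_deltaTwInv, Units.val_one, ub_tw_one, inv_one, Units.val_one]
  rfl

theorem ub_ud_G1_of_ne (N : ℕ) [NeZero N] (c u : R) (m : ℕ) [NeZero m] :
    ud_G1 R N c u m = HahnSeries.C c * ud_DeltaTw R u m * ud_DeltaInv R N := by
  rw [ud_G1, dif_neg (NeZero.ne m)]

/-- `Δ(X^N) · (1/Δ(X^N)) = 1` -/
theorem ub_DeltaTw_one_mul_DeltaInv (N : ℕ) [NeZero N] :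
    ud_DeltaTw R 1 N * ud_DeltaInv R N = 1 := by
  rw [ub_ud_DeltaTw, ub_ud_DeltaInv]
  exact ub_deltaTw_mul_inv (1 : Rˣ) N

/-! ### (a) functoriality -/

theorem ub_coeffMap_DeltaTw (φ : R →+* S) (u : R) (m : ℕ) [NeZero m] :
    coeffMap φ (ud_DeltaTw R u m) = ud_DeltaTw S (φ u) m := by
  rw [ub_ud_DeltaTw, ub_ud_DeltaTw, ub_coeffMap_deltaTw]

theorem ub_coeffMap_DeltaInv (φ : R →+* S) (N : ℕ) [NeZero N] :
    coeffMap φ (ud_DeltaInv R N) = ud_DeltaInv S N := by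
  rw [ub_ud_DeltaInv, ub_ud_DeltaInv, ub_coeffMap_deltaTwInv, map_one]

theorem ub_coeffMap_G1 (φ : R →+* S) (N : ℕ) [NeZero N] (c u : R) (m : ℕ) :
    coeffMap φ (ud_G1 R N c u m) = ud_G1 S N (φ c) (φ u) m := by
  by_cases hm : m = 0
  · rw [ud_G1, ud_G1, dif_pos hm, dif_pos hm, map_zero]
  · have : NeZero m := ⟨hm⟩
    rw [ub_ud_G1_of_ne, ub_ud_G1_of_ne, map_mul, map_mul, ub_coeffMap_C, ub_coeffMap_DeltaTw,
      ub_coeffMap_DeltaInv]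

theorem ub_coeffMap_gd (φ : R →+* S) (d : ℕ) : coeffMap φ (ud_gd R d) = ud_gd S d := by
  rw [ud_gd, ud_gd, ub_coeffMap_G1, map_one]

theorem ub_coeffMap_gr (φ : R →+* S) (N : ℕ) (r : ℕ → ℕ) :
    coeffMap φ (ud_gr R N r) = ud_gr S N r := by
  rw [ud_gr, ud_gr, map_prod]
  exact Finset.prod_congr rfl fun d _ => by rw [map_pow, ub_coeffMap_gd]

section Family

variable {N : ℕ} [NeZero N] {Q : Type} (H : ud_HermiteFamily N Q)

theorem ub_coeffMap_Gd (φ : R →+* S) (ζ ninv : R) (d : ℕ) (γ : Q) :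
    coeffMap φ (ud_Gd R H ζ ninv d γ) = ud_Gd S H (φ ζ) (φ ninv) d γ := by
  rw [ud_Gd, ud_Gd, ub_coeffMap_G1, map_pow, map_mul, map_pow, map_natCast]

theorem ub_coeffMap_Gr (φ : R →+* S) (ζ ninv : R) (r : ℕ → ℕ) (γ : Q) :
    coeffMap φ (ud_Gr R H ζ ninv r γ) = ud_Gr S H (φ ζ) (φ ninv) r γ := by
  rw [ud_Gr, ud_Gr, map_prod]
  exact Finset.prod_congr rfl fun d _ => by rw [map_pow, ub_coeffMap_Gd]

/-- `HahnSeries.map` spelling of functoriality. -/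
theorem ub_map_Gr (φ : R →+* S) (ζ ninv : R) (r : ℕ → ℕ) (γ : Q) :
    (ud_Gr R H ζ ninv r γ).map φ = ud_Gr S H (φ ζ) (φ ninv) r γ :=
  ub_coeffMap_Gr H φ ζ ninv r γ

end Family

theorem ub_map_gr (φ : R →+* S) (N : ℕ) (r : ℕ → ℕ) :
    (ud_gr R N r).map φ = ud_gr S N r :=
  ub_coeffMap_gr φ N r

/-! ### (b) leading terms -/

theorem ub_DeltaInv_isLead (N : ℕ) [NeZero N] : ub_IsLead (ud_DeltaInv R N) (-(N : ℤ)) 1 := by
  rw [ub_ud_DeltaInv]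
  simpa using ub_deltaTwInv_isLead (1 : Rˣ) N

theorem ub_G1_isLead (N : ℕ) [NeZero N] (c u : R) (m : ℕ) (hm : m ≠ 0) :
    ub_IsLead (ud_G1 R N c u m) ((m : ℤ) - N) (c * u) := by
  have : NeZero m := ⟨hm⟩
  rw [ub_ud_G1_of_ne, ub_ud_DeltaTw]
  have h := ((ub_deltaTw_isLead u m).const_mul c).mul (ub_DeltaInv_isLead (R := R) N)
  rwa [mul_one, ← sub_eq_add_neg] at h

theorem ub_gd_isLead (d : ℕ) (hd : d ≠ 0) : ub_IsLead (ud_gd R d) ((d : ℤ) - 1) 1 := by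
  have h := ub_G1_isLead (R := R) 1 1 1 d hd
  rwa [mul_one, Nat.cast_one] at h

theorem ub_gr_isLead (N : ℕ) [NeZero N] (r : ℕ → ℕ) :
    ub_IsLead (ud_gr R N r) (∑ d ∈ N.divisors, (r d : ℤ) * ((d : ℤ) - 1)) 1 := by
  have h := ub_IsLead.prod (R := R) N.divisors (f := fun d => ud_gd R d ^ r d)
    (n := fun d => (r d : ℤ) * ((d : ℤ) - 1)) (c := fun _ => 1) (fun d hd => by
      have := (ub_gd_isLead (R := R) d (Nat.pos_of_mem_divisors hd).ne').pow (r d)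
      rwa [one_pow] at this)
  rwa [Finset.prod_const_one] at h

section Family

variable {N : ℕ} [NeZero N] {Q : Type} (H : ud_HermiteFamily N Q)

omit [NeZero N] in
theorem ub_E_dvd {d : ℕ} (hd : d ∣ N) (γ : Q) : H.E d γ ∣ N :=
  (Dvd.intro_left _ (H.hAE d hd γ)).trans hd

theorem ub_A_pos {d : ℕ} (hd : d ∣ N) (γ : Q) : 0 < H.A d γ := by
  have hd0 : 0 < d := Nat.pos_of_dvd_of_pos hd (NeZero.pos N)
  have h := H.hAE d hd γ
  rcases Nat.eq_zero_or_pos (H.A d γ) with h0 | h0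
  · rw [h0, zero_mul] at h; omega
  · exact h0

omit [NeZero N] in
theorem ub_E_pos {d : ℕ} (hd : d ∣ N) (γ : Q) : 0 < H.E d γ :=
  lt_of_le_of_lt (Nat.zero_le _) (H.hB d hd γ)

theorem ub_N_div_E_pos {d : ℕ} (hd : d ∣ N) (γ : Q) : 0 < N / H.E d γ :=
  Nat.div_pos (Nat.le_of_dvd (NeZero.pos N) (ub_E_dvd H hd γ)) (ub_E_pos H hd γ)

/-- `A · (N/E) = (N/d) · A²` -/
theorem ub_A_mul_N_div_E {d : ℕ} (hd : d ∣ N) (γ : Q) :
    H.A d γ * (N / H.E d γ) = (N / d) * (H.A d γ) ^ 2 := by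
  have hAE := H.hAE d hd γ
  have hE := ub_E_pos H hd γ
  obtain ⟨k, hk⟩ := hd
  have hd0 : 0 < d := by
    rcases Nat.eq_zero_or_pos d with h | h
    · exfalso; rw [h, zero_mul] at hk; exact NeZero.ne N hk
    · exact h
  have h1 : N / d = k := by rw [hk]; exact Nat.mul_div_cancel_left k hd0
  have h2 : N / H.E d γ = H.A d γ * k := by
    refine Nat.div_eq_of_eq_mul_right hE ?_
    calc N = d * k := hk
      _ = H.A d γ * H.E d γ * k := by rw [hAE]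
      _ = H.E d γ * (H.A d γ * k) := by ring
  rw [h1, h2]; ring

theorem ub_Gd_isLead (ζ ninv : R) {d : ℕ} (hd : d ∣ N) (γ : Q) :
    ub_IsLead (ud_Gd R H ζ ninv d γ)
      (((H.A d γ * (N / H.E d γ) : ℕ) : ℤ) - N)
      ((((N / H.E d γ : ℕ) : R) * ninv) ^ 12 * ζ ^ (H.B d γ * (N / H.E d γ))) := by
  rw [ud_Gd]
  exact ub_G1_isLead N _ _ _ (Nat.mul_pos (ub_A_pos H hd γ) (ub_N_div_E_pos H hd γ)).ne'

/-- the explicit leading coefficient of `ud_Gr … γ` -/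
def ub_GrLead (ζ ninv : R) (r : ℕ → ℕ) (γ : Q) : R :=
  ∏ d ∈ N.divisors,
    ((((N / H.E d γ : ℕ) : R) * ninv) ^ 12 * ζ ^ (H.B d γ * (N / H.E d γ))) ^ r d

/-- the explicit `X`-order of `ud_Gr … γ` -/
def ub_GrOrd (r : ℕ → ℕ) (γ : Q) : ℤ :=
  ∑ d ∈ N.divisors, (r d : ℤ) * (((N / d : ℕ) : ℤ) * ((Nat.gcd d (H.cls γ) : ℕ) : ℤ) ^ 2 - N)

theorem ub_Gr_isLead (ζ ninv : R) (r : ℕ → ℕ) (γ : Q) :
    ub_IsLead (ud_Gr R H ζ ninv r γ) (ub_GrOrd H r γ) (ub_GrLead H ζ ninv r γ) := by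
  rw [ud_Gr, ub_GrOrd, ub_GrLead]
  refine ub_IsLead.prod (R := R) N.divisors (fun d hd => ?_)
  have hdN : d ∣ N := Nat.dvd_of_mem_divisors hd
  have h := (ub_Gd_isLead (R := R) H ζ ninv hdN γ).pow (r d)
  convert h using 2
  rw [ub_A_mul_N_div_E H hdN γ, H.hA d hdN γ]
  push_cast
  ring

theorem ub_GrLead_isUnit (ζ ninv : R) (hN : (N : R) * ninv = 1) (hζ : ζ ^ N = 1) (r : ℕ → ℕ)
    (γ : Q) : IsUnit (ub_GrLead H ζ ninv r γ) := by
  have hζu : IsUnit ζ := by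
    refine IsUnit.of_pow_eq_one hζ (NeZero.ne N)
  rw [ub_GrLead, IsUnit.prod_iff]
  intro d hd
  have hdN : d ∣ N := Nat.dvd_of_mem_divisors hd
  refine IsUnit.pow _ (IsUnit.mul (IsUnit.pow _ ?_) (hζu.pow _))
  -- `(N/E) · ninv` is a unit with inverse `E`
  refine IsUnit.of_mul_eq_one ((H.E d γ : ℕ) : R) ?_
  have hE : (N / H.E d γ) * H.E d γ = N := Nat.div_mul_cancel (ub_E_dvd H hdN γ)
  calc ((N / H.E d γ : ℕ) : R) * ninv * ((H.E d γ : ℕ) : R)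
      = (((N / H.E d γ) * H.E d γ : ℕ) : R) * ninv := by push_cast; ring
    _ = 1 := by rw [hE, hN]

theorem ub_GrLead_ne_zero [Nontrivial R] (ζ ninv : R) (hN : (N : R) * ninv = 1) (hζ : ζ ^ N = 1)
    (r : ℕ → ℕ) (γ : Q) : ub_GrLead H ζ ninv r γ ≠ 0 :=
  (ub_GrLead_isUnit H ζ ninv hN hζ r γ).ne_zero

/-- **order of the conjugates** -/
theorem ub_Gr_order [Nontrivial R] (ζ ninv : R) (hN : (N : R) * ninv = 1) (hζ : ζ ^ N = 1)
    (r : ℕ → ℕ) (γ : Q) : (ud_Gr R H ζ ninv r γ).order = ub_GrOrd H r γ :=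
  (ub_Gr_isLead H ζ ninv r γ).order_eq (ub_GrLead_ne_zero H ζ ninv hN hζ r γ)

theorem ub_Gr_leadingCoeff [Nontrivial R] (ζ ninv : R) (hN : (N : R) * ninv = 1)
    (hζ : ζ ^ N = 1) (r : ℕ → ℕ) (γ : Q) :
    (ud_Gr R H ζ ninv r γ).leadingCoeff = ub_GrLead H ζ ninv r γ :=
  (ub_Gr_isLead H ζ ninv r γ).leadingCoeff_eq (ub_GrLead_ne_zero H ζ ninv hN hζ r γ)

theorem ub_Gr_ne_zero [Nontrivial R] (ζ ninv : R) (hN : (N : R) * ninv = 1) (hζ : ζ ^ N = 1)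
    (r : ℕ → ℕ) (γ : Q) : ud_Gr R H ζ ninv r γ ≠ 0 :=
  (ub_Gr_isLead H ζ ninv r γ).ne_zero (ub_GrLead_ne_zero H ζ ninv hN hζ r γ)

omit [NeZero N] in
/-- with exponents `r d = d * s d` the order is `N * ud_weight N s (cls γ)` -/
theorem ub_GrOrd_mul (s : ℕ → ℕ) (γ : Q) :
    ub_GrOrd H (fun d => d * s d) γ = N * ud_weight N s (H.cls γ) := by
  rw [ub_GrOrd, ud_weight, Finset.mul_sum]
  refine Finset.sum_congr rfl fun d hd => ?_
  have hdN : d ∣ N := Nat.dvd_of_mem_divisors hd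
  have h : ((N / d : ℕ) : ℤ) * d = N := by exact_mod_cast Nat.div_mul_cancel hdN
  rw [Nat.cast_mul]
  linear_combination (s d : ℤ) * ((Nat.gcd d (H.cls γ) : ℤ) ^ 2) * h

end Family

/-! ### (c) the conjugate at a coset of class `N` -/

/-- `(c Δ(q^d)/Δ(q))(X^N) = c Δ(X^(dN))/Δ(X^N)` -/
theorem ub_qExpand_G1_one (N : ℕ) [NeZero N] (c : R) (d : ℕ) :
    qExpand R N (ud_G1 R 1 c 1 d) = ud_G1 R N c 1 (d * N) := by
  by_cases hd : d = 0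
  · rw [ud_G1, ud_G1, dif_pos hd, dif_pos (by rw [hd, zero_mul]), map_zero]
  · have : NeZero d := ⟨hd⟩
    have : NeZero (d * N) := ⟨Nat.mul_ne_zero hd (NeZero.ne N)⟩
    rw [ub_ud_G1_of_ne, ub_ud_G1_of_ne, map_mul, map_mul, qExpand_C]
    congr 1
    · congr 1
      rw [ub_ud_DeltaTw, ub_ud_DeltaTw, ub_deltaTw_one, ub_deltaTw_one, qExpand_qExpand]
      exact qExpand_congr (Nat.mul_comm N d) _
    · rw [ud_DeltaInv, ud_DeltaInv, map_mul, qExpand_single, qExpand_qExpand]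
      congr 1
      · congr 1
        rw [Nat.cast_one, mul_neg, mul_one]
      · exact qExpand_congr (Nat.mul_one N) _

theorem ub_qExpand_gd (N : ℕ) [NeZero N] (d : ℕ) :
    qExpand R N (ud_gd R d) = ud_G1 R N 1 1 (d * N) :=
  ub_qExpand_G1_one N 1 d

section Family

variable {N : ℕ} [NeZero N] {Q : Type} (H : ud_HermiteFamily N Q)

theorem ub_data_of_cls_eq {γ : Q} (hγ : H.cls γ = N) {d : ℕ} (hd : d ∣ N) :
    H.A d γ = d ∧ H.E d γ = 1 ∧ H.B d γ = 0 := by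
  have hA : H.A d γ = d := by rw [H.hA d hd γ, hγ]; exact Nat.gcd_eq_left hd
  have hd0 : 0 < d := Nat.pos_of_dvd_of_pos hd (NeZero.pos N)
  have hE : H.E d γ = 1 := by
    have h := H.hAE d hd γ
    rw [hA] at h
    exact Nat.eq_of_mul_eq_mul_left hd0 (by rw [h, mul_one])
  refine ⟨hA, hE, ?_⟩
  have h := H.hB d hd γ
  rw [hE] at h
  omega

/-- **the conjugate at a coset of class `N` is `g^r(X^N)`** -/
theorem ub_Gr_of_cls_eq (ζ ninv : R) (hN : (N : R) * ninv = 1) (r : ℕ → ℕ) {γ : Q}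
    (hγ : H.cls γ = N) : ud_Gr R H ζ ninv r γ = qExpand R N (ud_gr R N r) := by
  rw [ud_Gr, ud_gr, map_prod]
  refine Finset.prod_congr rfl fun d hd => ?_
  have hdN : d ∣ N := Nat.dvd_of_mem_divisors hd
  obtain ⟨hA, hE, hB⟩ := ub_data_of_cls_eq H hγ hdN
  rw [map_pow, ub_qExpand_gd, ud_Gd, hA, hE, hB, Nat.div_one, zero_mul, pow_zero, hN, one_pow]

end Family

/-! ### (d) `ℤ_(ℓ)`-integrality of `g^r` and its reduction modulo `ℓ` -/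

theorem ub_toQ_gr (ℓ N : ℕ) (r : ℕ → ℕ) : toQ ℓ (ud_gr (ZL ℓ) N r) = ud_gr ℚ N r :=
  ub_coeffMap_gr _ N r

theorem ub_red_gr (ℓ N : ℕ) [Fact ℓ.Prime] (r : ℕ → ℕ) :
    red ℓ (ud_gr (ZL ℓ) N r) = ud_gr (ZMod ℓ) N r :=
  ub_coeffMap_gr _ N r

theorem ub_gr_mem_gaussRing (ℓ N : ℕ) [Fact ℓ.Prime] (r : ℕ → ℕ) :
    ud_gr ℚ N r ∈ gaussRing ℓ := by
  rw [← ub_toQ_gr ℓ N r]
  exact toQ_mem_gaussRing ℓ _

/-- `ρ(g^r) = g̃^r` -/
theorem ub_rho_gr (ℓ N : ℕ) [Fact ℓ.Prime] (r : ℕ → ℕ) :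
    rho ℓ ⟨ud_gr ℚ N r, ub_gr_mem_gaussRing ℓ N r⟩ = ud_gr (ZMod ℓ) N r := by
  have h := rho_toQ ℓ (ud_gr (ZL ℓ) N r)
  rw [ub_red_gr] at h
  rw [← h]
  congr 1
  exact Subtype.ext (ub_toQ_gr ℓ N r).symm

/-- powers: `ρ((g^r)^i) = (g̃^r)^i` -/
theorem ub_rho_gr_pow (ℓ N : ℕ) [Fact ℓ.Prime] (r : ℕ → ℕ) (i : ℕ) :
    rho ℓ ⟨ud_gr ℚ N r ^ i, pow_mem (ub_gr_mem_gaussRing ℓ N r) i⟩ = ud_gr (ZMod ℓ) N r ^ i := by
  rw [← ub_rho_gr ℓ N r, ← map_pow]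
  rfl

end

end Fermat.Agent.S28x
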