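/-
S28 project, module CH support (helper21): TRANSPORT between the chart algebras
`chartAlg N ℓ S ⊆ F_N` (integral closure of `ℤ_(ℓ)[S]`, `ℤ_(ℓ)` acting through `igusaAlgebra`) and
subrings of `ℚ((q))`.  With `S' = ct_img N S` (the image of `S` in `ℚ((q))`) and
`T = ct_T N ℓ S = Subring.closure (range (algebraMap ℤ_(ℓ) ℚ((q))) ∪ S')`:

* `ct_exists_of_mem_closure` / `ct_coe_mem_closure` : `T` is the image of `Algebra.adjoin ℤ_(ℓ) S`;
* `ct_isIntegral_closure` : `x ∈ chartAlg N ℓ S ⇒ x` integral over `T`;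
* `ct_mem_chartAlg_of_isIntegral` : `y ∈ F_N` integral over `T ⇒ y ∈ chartAlg N ℓ S`;
* `ct_mem_chartAlg_of_coeff_mem` : the same from a monic polynomial with coefficients in `T`;
* `ct_T_le_gaussRing`, `ct_T_le_adjoin`, `ct_img_subset` for `S ⊆ {j, j⁻¹}`.
-/
import Fermat.Agent.S28x.GaussV

set_option autoImplicit false
set_option linter.unusedSectionVars false

namespace Fermat.Agent.S28x

open ModularCurve ModularCurve.IgusaScheme Polynomial

noncomputable section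

local notation "𝕃" => LaurentSeries ℚ

section generic

/-- integrality over a subring passes to a larger subring -/
theorem ct_isIntegral_of_le {L : Type*} [CommRing L] {T₁ T₂ : Subring L} (h : T₁ ≤ T₂) {z : L}
    (hz : IsIntegral T₁ z) : IsIntegral T₂ z :=
  hz.map_of_comp_eq (Subring.inclusion h) (RingHom.id L) (by ext; rfl)

end generic

variable (N : ℕ) [NeZero N] (ℓ : ℕ) [Fact ℓ.Prime]

/-- the image of `S ⊆ F_N` in `ℚ((q))` -/
def ct_img (S : Set ↥(modularFunctionFieldFull N)) : Set 𝕃 :=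
  (fun x : ↥(modularFunctionFieldFull N) => (x : 𝕃)) '' S

/-- `T = ℤ_(ℓ)[S'] ⊆ ℚ((q))`, in the shape of the conclusion of
`gv_mem_adjoin_ZL_of_mem_gaussV`. -/
def ct_T (S : Set ↥(modularFunctionFieldFull N)) : Subring 𝕃 :=
  Subring.closure (Set.range (algebraMap (ZL ℓ) 𝕃) ∪ ct_img N S)

omit [NeZero N] [Fact ℓ.Prime] in
theorem ct_T_def (S : Set ↥(modularFunctionFieldFull N)) :
    ct_T N ℓ S = Subring.closure (Set.range (algebraMap (ZL ℓ) 𝕃) ∪ ct_img N S) := rfl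

omit [NeZero N] [Fact ℓ.Prime] in
theorem ct_coe_algebraMap (a : ZL ℓ) :
    ((algebraMap (ZL ℓ) ↥(modularFunctionFieldFull N) a : ↥(modularFunctionFieldFull N)) : 𝕃) =
      algebraMap (ZL ℓ) 𝕃 a := by
  rw [IsScalarTower.algebraMap_apply (ZL ℓ) ℚ ↥(modularFunctionFieldFull N),
    gv_algebraMap_ZL, HahnSeries.C_eq_algebraMap]
  rfl

/-- every element of `T` comes from `ℤ_(ℓ)[S] ⊆ F_N` -/
theorem ct_exists_of_mem_closure (S : Set ↥(modularFunctionFieldFull N)) {c : 𝕃}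
    (hc : c ∈ ct_T N ℓ S) :
    ∃ a : Algebra.adjoin (ZL ℓ) S, ((a : ↥(modularFunctionFieldFull N)) : 𝕃) = c := by
  induction hc using Subring.closure_induction with
  | mem c hc =>
    rcases hc with ⟨a, rfl⟩ | ⟨s, hs, rfl⟩
    · exact ⟨⟨algebraMap (ZL ℓ) _ a, Subalgebra.algebraMap_mem _ a⟩, ct_coe_algebraMap N ℓ a⟩
    · exact ⟨⟨s, Algebra.subset_adjoin hs⟩, rfl⟩
  | zero => exact ⟨0, rfl⟩
  | one => exact ⟨1, rfl⟩
  | add x y _ _ hx hy =>
    obtain ⟨a, rfl⟩ := hx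
    obtain ⟨b, rfl⟩ := hy
    exact ⟨a + b, rfl⟩
  | neg x _ hx =>
    obtain ⟨a, rfl⟩ := hx
    exact ⟨-a, rfl⟩
  | mul x y _ _ hx hy =>
    obtain ⟨a, rfl⟩ := hx
    obtain ⟨b, rfl⟩ := hy
    exact ⟨a * b, rfl⟩

/-- the image of `ℤ_(ℓ)[S] ⊆ F_N` lies in `T` -/
theorem ct_coe_mem_closure (S : Set ↥(modularFunctionFieldFull N))
    {a : ↥(modularFunctionFieldFull N)} (ha : a ∈ Algebra.adjoin (ZL ℓ) S) :
    (a : 𝕃) ∈ ct_T N ℓ S := by
  induction ha using Algebra.adjoin_induction with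
  | mem s hs => exact Subring.subset_closure (Or.inr ⟨s, hs, rfl⟩)
  | algebraMap a =>
    rw [ct_coe_algebraMap]
    exact Subring.subset_closure (Or.inl ⟨a, rfl⟩)
  | add x y _ _ hx hy => exact add_mem hx hy
  | mul x y _ _ hx hy => exact mul_mem hx hy

/-- the ring hom `ℤ_(ℓ)[S] → T` -/
def ct_toT (S : Set ↥(modularFunctionFieldFull N)) :
    Algebra.adjoin (ZL ℓ) S →+* ct_T N ℓ S where
  toFun a := ⟨((a : ↥(modularFunctionFieldFull N)) : 𝕃), ct_coe_mem_closure N ℓ S a.2⟩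
  map_one' := rfl
  map_mul' _ _ := rfl
  map_zero' := rfl
  map_add' _ _ := rfl

/-- `x ∈ chartAlg N ℓ S ⇒ x` is integral over `T`. -/
theorem ct_isIntegral_closure (S : Set ↥(modularFunctionFieldFull N)) (x : chartAlg N ℓ S) :
    IsIntegral (ct_T N ℓ S) ((x : ↥(modularFunctionFieldFull N)) : 𝕃) := by
  have hx : IsIntegral (Algebra.adjoin (ZL ℓ) S) (x : ↥(modularFunctionFieldFull N)) := x.2
  exact hx.map_of_comp_eq (ct_toT N ℓ S) (algebraMap ↥(modularFunctionFieldFull N) 𝕃)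
    (by ext; rfl)

/-- `y ∈ F_N` killed by a monic polynomial with coefficients in `T` lies in the chart algebra. -/
theorem ct_mem_chartAlg_of_coeff_mem (S : Set ↥(modularFunctionFieldFull N))
    (y : ↥(modularFunctionFieldFull N)) (Q : 𝕃[X]) (hQ : Q.Monic)
    (hc : ∀ n, Q.coeff n ∈ ct_T N ℓ S) (h0 : Q.eval (y : 𝕃) = 0) : y ∈ chartAlg N ℓ S := by
  set f : Algebra.adjoin (ZL ℓ) S →+* 𝕃 :=
    (algebraMap ↥(modularFunctionFieldFull N) 𝕃).comp
      (algebraMap (Algebra.adjoin (ZL ℓ) S) ↥(modularFunctionFieldFull N)) with hf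
  have hlift : Q ∈ Polynomial.lifts f := by
    rw [Polynomial.lifts_iff_coeff_lifts]
    intro n
    obtain ⟨a, ha⟩ := ct_exists_of_mem_closure N ℓ S (hc n)
    exact ⟨a, ha⟩
  obtain ⟨P, hPQ, -, hPm⟩ := Polynomial.lifts_and_natDegree_eq_and_monic hlift hQ
  rw [mem_chartAlg_iff]
  refine ⟨P, hPm, ?_⟩
  apply Subtype.ext
  have h1 : ((Polynomial.eval₂ (algebraMap (Algebra.adjoin (ZL ℓ) S)
      ↥(modularFunctionFieldFull N)) y P : ↥(modularFunctionFieldFull N)) : 𝕃) =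
      Polynomial.eval₂ f (y : 𝕃) P := by
    have := Polynomial.hom_eval₂ P (algebraMap (Algebra.adjoin (ZL ℓ) S)
      ↥(modularFunctionFieldFull N)) (algebraMap ↥(modularFunctionFieldFull N) 𝕃) y
    exact this
  rw [h1, Polynomial.eval₂_eq_eval_map, hPQ, h0]
  rfl

/-- `y ∈ F_N` integral over `T` lies in the chart algebra. -/
theorem ct_mem_chartAlg_of_isIntegral (S : Set ↥(modularFunctionFieldFull N))
    (y : ↥(modularFunctionFieldFull N)) (hy : IsIntegral (ct_T N ℓ S) (y : 𝕃)) :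
    y ∈ chartAlg N ℓ S := by
  obtain ⟨P, hPm, hP⟩ := hy
  refine ct_mem_chartAlg_of_coeff_mem N ℓ S y (P.map (algebraMap (ct_T N ℓ S) 𝕃)) (hPm.map _)
    (fun n => ?_) ?_
  · rw [Polynomial.coeff_map]
    exact (P.coeff n).2
  · rw [Polynomial.eval_map]
    exact hP

/-! ### `S ⊆ {j, j⁻¹}` -/

theorem ct_img_subset {S : Set ↥(modularFunctionFieldFull N)}
    (hS : S ⊆ {jFull N, (jFull N)⁻¹}) : ct_img N S ⊆ {jq, jq⁻¹} := by
  rintro _ ⟨s, hs, rfl⟩
  rcases hS hs with rfl | rfl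
  · exact Or.inl rfl
  · exact Or.inr rfl

theorem ct_jq_inv_mem_gaussRing : jq⁻¹ ∈ gaussRing ℓ := by
  rw [← gv_toQ_Jinv ℓ]
  exact toQ_mem_gaussRing ℓ _

theorem ct_algebraMap_mem_gaussRing (a : ZL ℓ) : algebraMap (ZL ℓ) 𝕃 a ∈ gaussRing ℓ := by
  have : algebraMap (ZL ℓ) 𝕃 a = toQ ℓ (HahnSeries.C a) := by
    rw [gv_algebraMap_ZL]
    ext n
    rw [toQ_coeff]
    rw [HahnSeries.C_apply, HahnSeries.C_apply, HahnSeries.coeff_single, HahnSeries.coeff_single]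
    split_ifs <;> simp
  rw [this]
  exact toQ_mem_gaussRing ℓ _

/-- `T ⊆ W` for `S ⊆ {j, j⁻¹}` -/
theorem ct_T_le_gaussRing {S : Set ↥(modularFunctionFieldFull N)}
    (hS : S ⊆ {jFull N, (jFull N)⁻¹}) : ct_T N ℓ S ≤ gaussRing ℓ := by
  rw [ct_T, Subring.closure_le]
  rintro c (⟨a, rfl⟩ | hc)
  · exact ct_algebraMap_mem_gaussRing ℓ a
  · rcases ct_img_subset N hS hc with rfl | rfl
    · exact gv_jq_mem_gaussRing ℓ
    · exact ct_jq_inv_mem_gaussRing ℓ

/-- `T ⊆ ℚ[S']` -/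
theorem ct_T_le_adjoin (S : Set ↥(modularFunctionFieldFull N)) :
    ct_T N ℓ S ≤ (Algebra.adjoin ℚ (ct_img N S)).toSubring := by
  rw [ct_T, Subring.closure_le]
  rintro c (⟨a, rfl⟩ | hc)
  · rw [gv_algebraMap_ZL, HahnSeries.C_apply, ← algebraMap_laurentSeries_eq_single]
    show _ ∈ Algebra.adjoin ℚ (ct_img N S)
    exact Subalgebra.algebraMap_mem (Algebra.adjoin ℚ (ct_img N S)) _
  · exact Algebra.subset_adjoin hc

/-- `chartAlg N ℓ S ⊆ W` for `S ⊆ {j, j⁻¹}`, as integrality over `W` (feed to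
`mem_gaussRing_of_isIntegral`). -/
theorem ct_isIntegral_gaussRing {S : Set ↥(modularFunctionFieldFull N)}
    (hS : S ⊆ {jFull N, (jFull N)⁻¹}) (x : chartAlg N ℓ S) :
    IsIntegral (gaussRing ℓ) ((x : ↥(modularFunctionFieldFull N)) : 𝕃) :=
  ct_isIntegral_of_le (ct_T_le_gaussRing N ℓ hS) (ct_isIntegral_closure N ℓ S x)

/-- elements of `chartAlg N ℓ S` are integral over `ℚ[S']`. -/
theorem ct_isIntegral_adjoin (S : Set ↥(modularFunctionFieldFull N)) (x : chartAlg N ℓ S) :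
    IsIntegral (Algebra.adjoin ℚ (ct_img N S)).toSubring
      ((x : ↥(modularFunctionFieldFull N)) : 𝕃) :=
  ct_isIntegral_of_le (ct_T_le_adjoin N ℓ S) (ct_isIntegral_closure N ℓ S x)

end

end Fermat.Agent.S28x
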