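/-
S28 project (Igusa), module CH assembled on the units route (helper94, prefix `chu_`).

From `hV : ∀ y ∈ F_N ∩ W, IsIntegral V y`:
* `chu_mem_gaussRing` : chart algebras lie in `W`;
* `chu_qep`          : `x ∈ chartAlg`, `ρ x = 0` ⇒ `x = ℓ y` with `y ∈ chartAlg`.
Uses `ChartIC` (helper49), `ChartTransport` (helper21), `GaussV` (helper67), `GaussRing` (helper19).
-/
import Fermat.Agent.S28x.ChartIC
import Fermat.Agent.S28x.ChartTransport
import Fermat.Agent.S28x.GaussRing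
import Fermat.Agent.S28x.GaussV
import Fermat.Agent.S28x.RedBasis

set_option autoImplicit false
set_option linter.unusedSectionVars false

noncomputable section

namespace Fermat.Agent.S28x

open ModularCurve ModularCurve.IgusaScheme Polynomial IntermediateField

local notation "𝕃" => LaurentSeries ℚ

variable (N : ℕ) [NeZero N] (ℓ : ℕ) [Fact ℓ.Prime]

/-- chart algebras lie in `W`. -/
theorem chu_mem_gaussRing (S : Set ↥(modularFunctionFieldFull N))
    (hS : S ⊆ {jFull N, (jFull N)⁻¹}) (x : chartAlg N ℓ S) :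
    ((x : ↥(modularFunctionFieldFull N)) : 𝕃) ∈ gaussRing ℓ :=
  mem_gaussRing_of_isIntegral ℓ
    (exists_frac_of_mem_full ℓ N (x : ↥(modularFunctionFieldFull N)).2)
    (ct_isIntegral_gaussRing N ℓ hS x)

theorem chu_transcendental_jq : Transcendental ℚ jq := by
  rw [transcendental_iff]
  intro Q hQ
  by_contra hne
  exact gv_aeval_jqModC_ne_zero ℚ hne hQ

/-- integrality over a subalgebra, viewed as a subring. -/
theorem chu_isIntegral_toSubring {L : Type*} [Field L] [Algebra ℚ L] (A : Subalgebra ℚ L) {z : L} :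
    IsIntegral A.toSubring z ↔ IsIntegral A z := by
  constructor
  · intro h
    exact h.map_of_comp_eq (RingHom.id A) (RingHom.id L) (by ext; rfl)
  · intro h
    exact h.map_of_comp_eq (RingHom.id A) (RingHom.id L) (by ext; rfl)

/-- `V` is integrally closed in `ℚ(j)`. -/
theorem chu_ic_gaussV (c : 𝕃) (hc : c ∈ Qj) (hint : IsIntegral (gaussV ℓ) c) : c ∈ gaussV ℓ := by
  refine ⟨?_, hc⟩
  exact mem_gaussRing_of_isIntegral ℓ (exists_frac_of_mem_full ℓ 1 (rb_Qj_le 1 hc))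
    (ct_isIntegral_of_le (gaussV_le_gaussRing ℓ) hint)

/-- `x ∈ chartAlg`, `ρ x = 0` ⇒ `x = ℓ y`, `y ∈ chartAlg`; given integrality of `F_N ∩ W` over `V`. -/
theorem chu_qep
    (hV : ∀ y : 𝕃, y ∈ modularFunctionFieldFull N → y ∈ gaussRing ℓ → IsIntegral (gaussV ℓ) y)
    (S : Set ↥(modularFunctionFieldFull N)) (hS : S ⊆ {jFull N, (jFull N)⁻¹})
    (x : chartAlg N ℓ S)
    (hx : rho ℓ ⟨((x : ↥(modularFunctionFieldFull N)) : 𝕃), chu_mem_gaussRing N ℓ S hS x⟩ = 0) :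
    ∃ y : chartAlg N ℓ S, x = (ℓ : chartAlg N ℓ S) * y := by
  obtain ⟨y', hy'⟩ := (rho_eq_zero_iff ℓ _).mp hx
  have hxy : ((x : ↥(modularFunctionFieldFull N)) : 𝕃) = (ℓ : 𝕃) * (y' : 𝕃) := by
    have := congrArg Subtype.val hy'
    simpa using this
  have hℓ0 : (ℓ : 𝕃) ≠ 0 := gr_natCast_ne_zero ℓ
  have hyx : (y' : 𝕃) = (ℓ : 𝕃)⁻¹ * ((x : ↥(modularFunctionFieldFull N)) : 𝕃) := by
    rw [hxy]; field_simp
  have hyF : (y' : 𝕃) ∈ modularFunctionFieldFull N := by
    rw [hyx]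
    exact mul_mem (inv_mem (_root_.natCast_mem _ ℓ)) (x : ↥(modularFunctionFieldFull N)).2
  -- integrality over `V`
  have h1 : IsIntegral (gaussV ℓ) (y' : 𝕃) := hV _ hyF y'.2
  -- integrality over `ℚ[S']`
  have h2 : IsIntegral (Algebra.adjoin ℚ (ct_img N S)).toSubring (y' : 𝕃) := by
    have hx2 := ct_isIntegral_adjoin N ℓ S x
    rw [hyx]
    refine IsIntegral.mul ?_ hx2
    have hmem : (ℓ : 𝕃)⁻¹ ∈ (Algebra.adjoin ℚ (ct_img N S)).toSubring := by
      have : (ℓ : 𝕃)⁻¹ = algebraMap ℚ 𝕃 ((ℓ : ℚ)⁻¹) := by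
        rw [map_inv₀, map_natCast]
      rw [this]
      exact Subalgebra.algebraMap_mem _ _
    exact isIntegral_algebraMap (R := (Algebra.adjoin ℚ (ct_img N S)).toSubring)
      (x := ⟨(ℓ : 𝕃)⁻¹, hmem⟩)
  -- integrality over the intersection
  have hS' : ct_img N S ⊆ {jq, jq⁻¹} := ct_img_subset N hS
  have hle₂ : (Algebra.adjoin ℚ (ct_img N S)).toSubring ≤ Qj.toSubfield.toSubring := by
    intro c hc
    have hc' : c ∈ Algebra.adjoin ℚ (ct_img N S) := hc
    have hsub : Algebra.adjoin ℚ (ct_img N S) ≤ Qj.toSubalgebra := by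
      rw [Algebra.adjoin_le_iff]
      intro s hs
      rcases hS' hs with rfl | rfl
      · exact IntermediateField.mem_adjoin_simple_self ℚ jq
      · show jq⁻¹ ∈ Qj
        exact Qj.inv_mem (IntermediateField.mem_adjoin_simple_self ℚ jq)
    exact hsub hc'
  have h3 := ch_isIntegral_inf (K₀ := Qj.toSubfield) (gaussV ℓ)
    (Algebra.adjoin ℚ (ct_img N S)).toSubring (fun c hc => hc.2) hle₂
    (fun c hc hint => chu_ic_gaussV ℓ c hc hint)
    (fun c hc hint => by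
      have := ch_ic (k := ℚ) jq chu_transcendental_jq (ct_img N S) hS' c hc
        ((chu_isIntegral_toSubring _).mp hint)
      exact this)
    (y' : 𝕃) h1 h2
  have hle : gaussV ℓ ⊓ (Algebra.adjoin ℚ (ct_img N S)).toSubring ≤ ct_T N ℓ S := fun c hc =>
    gv_mem_adjoin_ZL_of_mem_gaussV ℓ (ct_img N S) hS' hc.1 hc.2
  have h4 : IsIntegral (ct_T N ℓ S) (y' : 𝕃) := ct_isIntegral_of_le hle h3
  have hyC : (⟨(y' : 𝕃), hyF⟩ : ↥(modularFunctionFieldFull N)) ∈ chartAlg N ℓ S :=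
    ct_mem_chartAlg_of_isIntegral N ℓ S ⟨(y' : 𝕃), hyF⟩ h4
  refine ⟨⟨⟨(y' : 𝕃), hyF⟩, hyC⟩, ?_⟩
  apply Subtype.ext
  apply Subtype.ext
  exact hxy

end Fermat.Agent.S28x
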