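/-
S28 project (Igusa), module M2 "scheme glue" (helper94).

* `glue_isIntegral_of_two` : a scheme covered by two integral open subschemes whose images meet is
  integral.
* `glue_igusa_pullback` : if `chartAlgFin ⊗ K` and `chartAlgInf ⊗ K` are domains and the images of the
  two charts meet in the fibre, the base change of the Igusa scheme along `Spec K → Spec ℤ_(ℓ)` is
  integral.

All names are prefixed `glue_`.
-/
import Mathlib
import Fermat.Prelude.Def_ModularCurve_IgusaScheme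

set_option autoImplicit false
set_option linter.unusedSectionVars false

noncomputable section

namespace Fermat.Agent.S28x

open AlgebraicGeometry CategoryTheory CategoryTheory.Limits ModularCurve ModularCurve.IgusaScheme
open TensorProduct

universe u

/-- A topological space covered by two irreducible open sets with non-empty intersection is
irreducible. -/
theorem glue_irreducibleSpace_of_two {X : Type*} [TopologicalSpace X] {S₁ S₂ : Set X}
    (h₁ : IsIrreducible S₁) (h₂ : IsIrreducible S₂) (o₁ : IsOpen S₁)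
    (hcov : ∀ x, x ∈ S₁ ∨ x ∈ S₂) (hmeet : (S₁ ∩ S₂).Nonempty) : IrreducibleSpace X := by
  -- every non-empty open set meets `S₁ ∩ S₂`
  have key : ∀ u : Set X, IsOpen u → u.Nonempty → (S₁ ∩ u).Nonempty := by
    intro u hu ⟨x, hx⟩
    rcases hcov x with hx1 | hx2
    · exact ⟨x, hx1, hx⟩
    · -- `u` meets `S₂`, `S₁` meets `S₂` (open), so `u ∩ S₁` meets `S₂`
      obtain ⟨y, hy2, hyu, hy1⟩ := h₂.2 u S₁ hu o₁ ⟨x, hx2, hx⟩
        (by obtain ⟨z, hz1, hz2⟩ := hmeet; exact ⟨z, hz2, hz1⟩)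
      exact ⟨y, hy1, hyu⟩
  have hne : Nonempty X := by
    obtain ⟨z, _⟩ := hmeet
    exact ⟨z⟩
  refine @IrreducibleSpace.mk X _ ⟨?_⟩ hne
  intro u v hu hv ⟨x, _, hxu⟩ ⟨y, _, hyv⟩
  obtain ⟨z, hz1, hzuv⟩ := h₁.2 u v hu hv (key u hu ⟨x, hxu⟩) (key v hv ⟨y, hyv⟩)
  exact ⟨z, Set.mem_univ _, hzuv⟩

/-- A scheme covered by two integral open subschemes whose images meet is integral. -/
theorem glue_isIntegral_of_two {X U V : Scheme.{u}} (f : U ⟶ X) (g : V ⟶ X)
    [IsOpenImmersion f] [IsOpenImmersion g] [IsIntegral U] [IsIntegral V]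
    (hcov : ∀ x : X, x ∈ Set.range f ∨ x ∈ Set.range g)
    (hmeet : (Set.range f ∩ Set.range g).Nonempty) : IsIntegral X := by
  have : IrreducibleSpace X := by
    refine glue_irreducibleSpace_of_two (S₁ := Set.range f) (S₂ := Set.range g) ?_ ?_
      f.isOpenEmbedding.isOpen_range hcov hmeet
    · rw [← Set.image_univ]
      exact (IrreducibleSpace.isIrreducible_univ U).image _ f.continuous.continuousOn
    · rw [← Set.image_univ]
      exact (IrreducibleSpace.isIrreducible_univ V).image _ g.continuous.continuousOn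
  have : IsReduced X := by
    have : ∀ x : X, _root_.IsReduced (X.presheaf.stalk x) := by
      intro x
      rcases hcov x with ⟨y, rfl⟩ | ⟨y, rfl⟩
      · have : IsIso (f.stalkMap y) := inferInstance
        exact isReduced_of_injective (f.stalkMap y).hom
          ((ConcreteCategory.bijective_of_isIso (f.stalkMap y)).injective)
      · have : IsIso (g.stalkMap y) := inferInstance
        exact isReduced_of_injective (g.stalkMap y).hom
          ((ConcreteCategory.bijective_of_isIso (g.stalkMap y)).injective)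
    exact isReduced_of_isReduced_stalk X
  exact isIntegral_of_irreducibleSpace_of_isReduced X

section Igusa

variable (N : ℕ) [NeZero N] (ℓ : ℕ) [Fact ℓ.Prime]

variable (K : Type) [Field K] [Algebra ↥(GaloisRep.ratLocalizedAt ℓ) K]

/-- the base morphism `Spec K ⟶ Spec ℤ_(ℓ)`. -/
abbrev glue_base : Spec (CommRingCat.of K) ⟶ Spec (CommRingCat.of ↥(GaloisRep.ratLocalizedAt ℓ)) :=
  Spec.map (CommRingCat.ofHom (algebraMap ↥(GaloisRep.ratLocalizedAt ℓ) K))

/-- the fibre of the finite chart, as a pullback of affine schemes. -/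
abbrev glue_PFin : Scheme.{0} :=
  pullback (Spec.map (CommRingCat.ofHom (algebraMap ↥(GaloisRep.ratLocalizedAt ℓ) (chartAlgFin N ℓ)))) (glue_base ℓ K)

/-- the fibre of the chart at infinity, as a pullback of affine schemes. -/
abbrev glue_PInf : Scheme.{0} :=
  pullback (Spec.map (CommRingCat.ofHom (algebraMap ↥(GaloisRep.ratLocalizedAt ℓ) (chartAlgInf N ℓ)))) (glue_base ℓ K)

/-- the fibre of the overlap, as a pullback of affine schemes. -/
abbrev glue_PMid : Scheme.{0} :=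
  pullback (Spec.map (CommRingCat.ofHom (algebraMap ↥(GaloisRep.ratLocalizedAt ℓ) (chartAlgMid N ℓ)))) (glue_base ℓ K)

/-- the chart map of the fibre, finite chart. -/
def glue_φFin : glue_PFin N ℓ K ⟶ pullback (igusaTo N ℓ) (glue_base ℓ K) :=
  pullback.map _ _ _ _ (ιFin N ℓ) (𝟙 _) (𝟙 _) (by simp) (by simp)

/-- the chart map of the fibre, chart at infinity. -/
def glue_φInf : glue_PInf N ℓ K ⟶ pullback (igusaTo N ℓ) (glue_base ℓ K) :=
  pullback.map _ _ _ _ (ιInf N ℓ) (𝟙 _) (𝟙 _) (by simp) (by simp)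

theorem glue_mid_toBase :
    Spec.map (CommRingCat.ofHom (algebraMap ↥(GaloisRep.ratLocalizedAt ℓ) (chartAlgMid N ℓ))) =
      (fFin N ℓ ≫ ιFin N ℓ) ≫ igusaTo N ℓ := by
  rw [Category.assoc, ιFin_igusaTo, ← Spec.map_comp, ← CommRingCat.ofHom_comp]
  have h : algebraMap ↥(GaloisRep.ratLocalizedAt ℓ) ↥(chartAlgMid N ℓ) =
      (inclFin N ℓ).toRingHom.comp (algebraMap ↥(GaloisRep.ratLocalizedAt ℓ) ↥(chartAlgFin N ℓ)) :=
    RingHom.ext fun a => ((inclFin N ℓ).commutes a).symm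
  rw [h]

/-- the overlap map of the fibre. -/
def glue_φMid : glue_PMid N ℓ K ⟶ pullback (igusaTo N ℓ) (glue_base ℓ K) :=
  pullback.map _ _ _ _ (fFin N ℓ ≫ ιFin N ℓ) (𝟙 _) (𝟙 _)
    (by rw [Category.comp_id]; exact glue_mid_toBase N ℓ) (by simp)

instance glue_isOpenImmersion_φFin : IsOpenImmersion (glue_φFin N ℓ K) := by
  unfold glue_φFin; infer_instance

instance glue_isOpenImmersion_φInf : IsOpenImmersion (glue_φInf N ℓ K) := by
  unfold glue_φInf; infer_instance

theorem glue_range_φFin :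
    Set.range (glue_φFin N ℓ K) =
      (pullback.fst (igusaTo N ℓ) (glue_base ℓ K)) ⁻¹' Set.range (ιFin N ℓ) := by
  unfold glue_φFin
  rw [Scheme.Pullback.range_map]
  simp

theorem glue_range_φInf :
    Set.range (glue_φInf N ℓ K) =
      (pullback.fst (igusaTo N ℓ) (glue_base ℓ K)) ⁻¹' Set.range (ιInf N ℓ) := by
  unfold glue_φInf
  rw [Scheme.Pullback.range_map]
  simp

theorem glue_cover (x : ↑(pullback (igusaTo N ℓ) (glue_base ℓ K))) :
    x ∈ Set.range (glue_φFin N ℓ K) ∨ x ∈ Set.range (glue_φInf N ℓ K) := by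
  rw [glue_range_φFin, glue_range_φInf]
  exact mem_range_ιFin_or_mem_range_ιInf N ℓ _

theorem glue_isIntegral_PFin [IsDomain (chartAlgFin N ℓ ⊗[↥(GaloisRep.ratLocalizedAt ℓ)] K)] :
    IsIntegral (glue_PFin N ℓ K) := by
  have hnt : Nontrivial (chartAlgFin N ℓ ⊗[↥(GaloisRep.ratLocalizedAt ℓ)] K) :=
    IsDomain.toNontrivial
  have : Nonempty ↑(glue_PFin N ℓ K) :=
    ⟨(pullbackSpecIso ↥(GaloisRep.ratLocalizedAt ℓ) (chartAlgFin N ℓ) K).inv
      (Nonempty.some (inferInstanceAs (Nonempty (PrimeSpectrum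
        (chartAlgFin N ℓ ⊗[↥(GaloisRep.ratLocalizedAt ℓ)] K)))))⟩
  exact isIntegral_of_isOpenImmersion (pullbackSpecIso ↥(GaloisRep.ratLocalizedAt ℓ) (chartAlgFin N ℓ) K).hom

theorem glue_isIntegral_PInf [IsDomain (chartAlgInf N ℓ ⊗[↥(GaloisRep.ratLocalizedAt ℓ)] K)] :
    IsIntegral (glue_PInf N ℓ K) := by
  have hnt : Nontrivial (chartAlgInf N ℓ ⊗[↥(GaloisRep.ratLocalizedAt ℓ)] K) :=
    IsDomain.toNontrivial
  have : Nonempty ↑(glue_PInf N ℓ K) :=
    ⟨(pullbackSpecIso ↥(GaloisRep.ratLocalizedAt ℓ) (chartAlgInf N ℓ) K).inv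
      (Nonempty.some (inferInstanceAs (Nonempty (PrimeSpectrum
        (chartAlgInf N ℓ ⊗[↥(GaloisRep.ratLocalizedAt ℓ)] K)))))⟩
  exact isIntegral_of_isOpenImmersion (pullbackSpecIso ↥(GaloisRep.ratLocalizedAt ℓ) (chartAlgInf N ℓ) K).hom

theorem glue_meet [Nontrivial (chartAlgMid N ℓ ⊗[↥(GaloisRep.ratLocalizedAt ℓ)] K)] :
    (Set.range (glue_φFin N ℓ K) ∩ Set.range (glue_φInf N ℓ K)).Nonempty := by
  obtain ⟨z⟩ : Nonempty ↑(glue_PMid N ℓ K) :=
    ⟨(pullbackSpecIso ↥(GaloisRep.ratLocalizedAt ℓ) (chartAlgMid N ℓ) K).inv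
      (Nonempty.some (inferInstanceAs (Nonempty (PrimeSpectrum
        (chartAlgMid N ℓ ⊗[↥(GaloisRep.ratLocalizedAt ℓ)] K)))))⟩
  refine ⟨glue_φMid N ℓ K z, ?_, ?_⟩
  · rw [glue_range_φFin, Set.mem_preimage, ← Scheme.Hom.comp_apply]
    have h : glue_φMid N ℓ K ≫ pullback.fst (igusaTo N ℓ) (glue_base ℓ K) =
        pullback.fst _ _ ≫ (fFin N ℓ ≫ ιFin N ℓ) := by
      unfold glue_φMid; exact pullback.lift_fst _ _ _
    rw [h]
    exact ⟨(fFin N ℓ) ((pullback.fst _ _ : glue_PMid N ℓ K ⟶ _) z), rfl⟩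
  · rw [glue_range_φInf, Set.mem_preimage, ← Scheme.Hom.comp_apply]
    have h : glue_φMid N ℓ K ≫ pullback.fst (igusaTo N ℓ) (glue_base ℓ K) =
        pullback.fst _ _ ≫ (fInf N ℓ ≫ ιInf N ℓ) := by
      rw [← glue_condition]; unfold glue_φMid; exact pullback.lift_fst _ _ _
    rw [h]
    exact ⟨(fInf N ℓ) ((pullback.fst _ _ : glue_PMid N ℓ K ⟶ _) z), rfl⟩

/-- **Scheme glue for S28.** If the two chart algebras stay domains after `⊗ K` and the overlap
algebra stays non-trivial, the fibre of the Igusa scheme over `Spec K` is integral. -/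
theorem glue_igusa_pullback [IsDomain (chartAlgFin N ℓ ⊗[↥(GaloisRep.ratLocalizedAt ℓ)] K)]
    [IsDomain (chartAlgInf N ℓ ⊗[↥(GaloisRep.ratLocalizedAt ℓ)] K)] [Nontrivial (chartAlgMid N ℓ ⊗[↥(GaloisRep.ratLocalizedAt ℓ)] K)] :
    IsIntegral ↑(pullback (igusaTo N ℓ)
      (Spec.map (CommRingCat.ofHom (algebraMap ↥(GaloisRep.ratLocalizedAt ℓ) K)))) := by
  have := glue_isIntegral_PFin N ℓ K
  have := glue_isIntegral_PInf N ℓ K
  exact glue_isIntegral_of_two (glue_φFin N ℓ K) (glue_φInf N ℓ K) (glue_cover N ℓ K)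
    (glue_meet N ℓ K)

end Igusa

end Fermat.Agent.S28x
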