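import Mathlib

/-!
# S28 project, module M7 (helper55): Smith's gcd-matrix and the generic exponent vector

Pure finite combinatorics (Mathlib only), prefix `sm_`.

* `sm_J2` : Jordan's totient `J₂ = μ * id²`, `sm_sum_J2 : ∑_{e ∣ m} J₂ e = m²`, `sm_J2_pos`.
* `sm_gcd_sq_nonsing` : the matrix `(gcd(d,c)²)_{d,c ∣ N}` is nonsingular over `ℚ`.
* `sm_exists_avoid` : finitely many nonzero integer vectors indexed by a finset of naturals
  have a common integer vector not orthogonal to any of them (`s d = T ^ d`).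
* `sm_generic` : the statement (U5) of `docs.S28_blueprint_units_helper94`.
-/

set_option autoImplicit false

open Finset

namespace Fermat.Agent.S28x

open ArithmeticFunction in
/-- Jordan's totient `J₂ = μ * id²` (as an integer valued arithmetic function). -/
noncomputable def sm_J2 : ArithmeticFunction ℤ :=
  (ArithmeticFunction.moebius : ArithmeticFunction ℤ) *
    ((ArithmeticFunction.pow 2 : ArithmeticFunction ℕ) : ArithmeticFunction ℤ)

open ArithmeticFunction in
theorem sm_sum_J2 (m : ℕ) (hm : m ≠ 0) : ∑ e ∈ m.divisors, sm_J2 e = (m : ℤ) ^ 2 := by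
  have h1 : ((ArithmeticFunction.zeta : ArithmeticFunction ℕ) : ArithmeticFunction ℤ) * sm_J2 =
      ((ArithmeticFunction.pow 2 : ArithmeticFunction ℕ) : ArithmeticFunction ℤ) := by
    unfold sm_J2
    rw [← mul_assoc, coe_zeta_mul_moebius, one_mul]
  have h2 := DFunLike.congr_fun h1 m
  rw [coe_zeta_mul_apply] at h2
  rw [h2, natCoe_apply, pow_apply]
  simp [hm]

open ArithmeticFunction in
theorem sm_J2_isMultiplicative : ArithmeticFunction.IsMultiplicative sm_J2 := by
  unfold sm_J2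
  exact isMultiplicative_moebius.mul (isMultiplicative_pow.natCast)

theorem sm_J2_prime_pow (p k : ℕ) (hp : p.Prime) (hk : 0 < k) :
    sm_J2 (p ^ k) = ((p : ℤ) ^ k) ^ 2 - ((p : ℤ) ^ (k - 1)) ^ 2 := by
  obtain ⟨j, rfl⟩ : ∃ j, k = j + 1 := ⟨k - 1, by omega⟩
  have h1 := sm_sum_J2 (p ^ (j + 1)) (pow_ne_zero _ hp.ne_zero)
  have h2 := sm_sum_J2 (p ^ j) (pow_ne_zero _ hp.ne_zero)
  rw [Nat.divisors_prime_pow hp, Finset.sum_map] at h1 h2
  rw [Finset.sum_range_succ] at h1
  simp only [Function.Embedding.coeFn_mk] at h1 h2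
  rw [h2] at h1
  have : j + 1 - 1 = j := by omega
  rw [this]
  push_cast at h1 ⊢
  linarith

theorem sm_J2_pos (e : ℕ) (he : e ≠ 0) : 0 < sm_J2 e := by
  rw [ArithmeticFunction.IsMultiplicative.multiplicative_factorization sm_J2
    sm_J2_isMultiplicative he]
  apply Finset.prod_pos
  intro p hp
  have hpp : p.Prime := Nat.prime_of_mem_primeFactors (by simpa using hp)
  have hk : 0 < e.factorization p := by
    have := Finsupp.mem_support_iff.mp hp
    omega
  show 0 < sm_J2 (p ^ e.factorization p)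
  rw [sm_J2_prime_pow p _ hpp hk]
  have h1 : ((p : ℤ) ^ (e.factorization p - 1)) ^ 2 < ((p : ℤ) ^ (e.factorization p)) ^ 2 := by
    have hp1 : (1 : ℤ) < p := by exact_mod_cast hpp.one_lt
    have h2 : (p : ℤ) ^ (e.factorization p - 1) < (p : ℤ) ^ (e.factorization p) :=
      pow_lt_pow_right₀ hp1 (by omega)
    have h3 : (0 : ℤ) ≤ (p : ℤ) ^ (e.factorization p - 1) := by positivity
    exact pow_lt_pow_left₀ h2 h3 (by norm_num)
  linarith

/-- `gcd(d,c)² = ∑_{e ∣ d, e ∣ c} J₂(e)` -/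
theorem sm_gcd_sq (d c : ℕ) (hd : d ≠ 0) :
    ((Nat.gcd d c : ℕ) : ℤ) ^ 2 = ∑ e ∈ d.divisors, if e ∣ c then sm_J2 e else 0 := by
  have hg : Nat.gcd d c ≠ 0 := by
    intro h
    exact hd (Nat.gcd_eq_zero_iff.mp h).1
  rw [← sm_sum_J2 _ hg, ← Finset.sum_filter]
  apply Finset.sum_congr _ (fun _ _ => rfl)
  ext e
  simp only [Nat.mem_divisors, Finset.mem_filter, ne_eq]
  constructor
  · rintro ⟨h1, _⟩
    exact ⟨⟨dvd_trans h1 (Nat.gcd_dvd_left d c), hd⟩, dvd_trans h1 (Nat.gcd_dvd_right d c)⟩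
  · rintro ⟨⟨h1, _⟩, h2⟩
    exact ⟨Nat.dvd_gcd h1 h2, hg⟩

/-- **Smith.** The matrix `(gcd(d,c)²)` indexed by the divisors of `N` is nonsingular. -/
theorem sm_gcd_sq_nonsing (N : ℕ) (x : ℕ → ℚ)
    (h : ∀ d ∈ N.divisors, ∑ c ∈ N.divisors, x c * ((Nat.gcd d c : ℕ) : ℚ) ^ 2 = 0) :
    ∀ c ∈ N.divisors, x c = 0 := by
  classical
  -- y e = sum of x over the multiples of e among the divisors
  set y : ℕ → ℚ := fun e => ∑ c ∈ N.divisors, if e ∣ c then x c else 0 with hy
  -- step 1 : ∑_{e ∣ d} J₂(e) y e = 0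
  have h1 : ∀ d ∈ N.divisors, ∑ e ∈ d.divisors, (sm_J2 e : ℚ) * y e = 0 := by
    intro d hd
    have hd0 : d ≠ 0 := (Nat.pos_of_mem_divisors hd).ne'
    rw [← h d hd]
    have : ∀ c, x c * ((Nat.gcd d c : ℕ) : ℚ) ^ 2 =
        ∑ e ∈ d.divisors, (sm_J2 e : ℚ) * (if e ∣ c then x c else 0) := by
      intro c
      have := sm_gcd_sq d c hd0
      have h2 : (((Nat.gcd d c : ℕ) : ℤ) : ℚ) ^ 2 =
          ∑ e ∈ d.divisors, if e ∣ c then (sm_J2 e : ℚ) else 0 := by
        have := congrArg (Int.cast : ℤ → ℚ) this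
        push_cast at this
        rw [Int.cast_natCast, this]
      have h3 : (((Nat.gcd d c : ℕ) : ℤ) : ℚ) = ((Nat.gcd d c : ℕ) : ℚ) := by push_cast; rfl
      rw [← h3, h2, Finset.mul_sum]
      apply Finset.sum_congr rfl
      intro e _
      split_ifs <;> ring
    simp_rw [this, hy, Finset.mul_sum]
    rw [Finset.sum_comm]
  -- step 2 : y d = 0 for all d ∣ N (strong induction)
  have h2 : ∀ d, d ∈ N.divisors → y d = 0 := by
    intro d
    induction d using Nat.strong_induction_on with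
    | _ d ih =>
      intro hd
      have hd0 : d ≠ 0 := (Nat.pos_of_mem_divisors hd).ne'
      have := h1 d hd
      rw [← Finset.insert_erase (Nat.mem_divisors_self d hd0), Finset.sum_insert
        (Finset.notMem_erase _ _)] at this
      have hz : ∑ e ∈ d.divisors.erase d, (sm_J2 e : ℚ) * y e = 0 := by
        apply Finset.sum_eq_zero
        intro e he
        have he1 : e ∈ d.divisors := Finset.mem_of_mem_erase he
        have hne : e ≠ d := Finset.ne_of_mem_erase he
        have hed : e ∣ d := Nat.dvd_of_mem_divisors he1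
        have hlt : e < d := lt_of_le_of_ne (Nat.le_of_dvd (Nat.pos_of_ne_zero hd0) hed) hne
        have heN : e ∈ N.divisors :=
          Nat.mem_divisors.mpr ⟨dvd_trans hed (Nat.dvd_of_mem_divisors hd),
            (Nat.pos_of_mem_divisors hd |> fun _ => (Nat.mem_divisors.mp hd).2)⟩
        rw [ih e hlt heN, mul_zero]
      rw [hz, add_zero] at this
      have hJ : (sm_J2 d : ℚ) ≠ 0 := by
        have := sm_J2_pos d hd0
        exact_mod_cast this.ne'
      exact (mul_eq_zero.mp this).resolve_left hJ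
  -- step 3 : x c = 0, induction on N / c
  intro c
  induction hk : N / c using Nat.strong_induction_on generalizing c with
  | _ k ih =>
    intro hc
    have hc0 : c ≠ 0 := (Nat.pos_of_mem_divisors hc).ne'
    have hN0 : N ≠ 0 := (Nat.mem_divisors.mp hc).2
    have := h2 c hc
    simp only [hy] at this
    rw [← Finset.insert_erase hc, Finset.sum_insert (Finset.notMem_erase _ _)] at this
    simp only [dvd_refl, if_true] at this
    have hz : ∑ c' ∈ N.divisors.erase c, (if c ∣ c' then x c' else 0) = 0 := by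
      apply Finset.sum_eq_zero
      intro c' hc'
      have hc'1 : c' ∈ N.divisors := Finset.mem_of_mem_erase hc'
      have hne : c' ≠ c := Finset.ne_of_mem_erase hc'
      split_ifs with hdv
      · have hc'0 : 0 < c' := Nat.pos_of_mem_divisors hc'1
        have hlt : c < c' := lt_of_le_of_ne (Nat.le_of_dvd hc'0 hdv) (Ne.symm hne)
        have hc'N : c' ∣ N := Nat.dvd_of_mem_divisors hc'1
        have hcN : c ∣ N := Nat.dvd_of_mem_divisors hc
        have : N / c' < N / c := by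
          obtain ⟨a, ha⟩ := hc'N
          obtain ⟨b, hb⟩ := hcN
          have ha0 : a ≠ 0 := by rintro rfl; simp at ha; exact hN0 ha
          have hb0 : b ≠ 0 := by rintro rfl; simp at hb; exact hN0 hb
          rw [show N / c' = a by rw [ha]; exact Nat.mul_div_cancel_left a hc'0,
            show N / c = b by rw [hb]; exact Nat.mul_div_cancel_left b (Nat.pos_of_ne_zero hc0)]
          by_contra hcon
          have hcon : b ≤ a := Nat.le_of_not_lt hcon
          have : c * b < c' * a := by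
            calc c * b < c' * b := Nat.mul_lt_mul_of_pos_right hlt (Nat.pos_of_ne_zero hb0)
              _ ≤ c' * a := Nat.mul_le_mul_left _ hcon
          omega
        exact ih (N / c') (hk ▸ this) c' rfl hc'1
      · rfl
    rw [hz, add_zero] at this
    exact this

/-- Finitely many nonzero integer vectors (indexed by a finset `D` of naturals) admit a common
integer vector `s` with `∑ s d * v d ≠ 0` for all of them: take `s d = T ^ d`. -/
theorem sm_exists_avoid (D : Finset ℕ) {α : Type*} (S : Finset α) (v : α → ℕ → ℤ)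
    (hv : ∀ a ∈ S, ∃ d ∈ D, v a d ≠ 0) :
    ∃ s : ℕ → ℤ, ∀ a ∈ S, ∑ d ∈ D, s d * v a d ≠ 0 := by
  classical
  let P : α → Polynomial ℤ := fun a => ∑ d ∈ D, Polynomial.C (v a d) * Polynomial.X ^ d
  have hP : ∀ a ∈ S, P a ≠ 0 := by
    intro a ha h0
    obtain ⟨d, hd, hne⟩ := hv a ha
    have := congrArg (fun p : Polynomial ℤ => p.coeff d) h0
    simp only [P, Polynomial.finsetSum_coeff, Polynomial.coeff_C_mul, Polynomial.coeff_X_pow,
      Polynomial.coeff_zero] at this
    rw [Finset.sum_eq_single d] at this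
    · simp at this; exact hne this
    · intro b _ hb; simp [Ne.symm hb]
    · intro h; exact absurd hd h
  have hprod : ∏ a ∈ S, P a ≠ 0 := Finset.prod_ne_zero_iff.mpr hP
  obtain ⟨T, hT⟩ : ∃ T : ℤ, (∏ a ∈ S, P a).eval T ≠ 0 := by
    by_contra h
    have h : ∀ T : ℤ, (∏ a ∈ S, P a).eval T = 0 := fun T => by
      by_contra hT
      exact h ⟨T, hT⟩
    exact hprod (Polynomial.zero_of_eval_zero _ h)
  refine ⟨fun d => T ^ d, fun a ha => ?_⟩
  rw [Polynomial.eval_prod] at hT
  have := (Finset.prod_ne_zero_iff.mp hT) a ha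
  simp only [P, Polynomial.eval_finsetSum, Polynomial.eval_mul, Polynomial.eval_C,
    Polynomial.eval_pow, Polynomial.eval_X] at this
  convert this using 2
  ring

/-- Smith's theorem in "fibre" form: weights `w` on a finite index type `ι` with a class map
`cOf : ι → divisors of N`. -/
theorem sm_gcd_sq_nonsing_fiber (N : ℕ) (hN : N ≠ 0) {ι : Type*} [Fintype ι]
    (cOf : ι → ℕ) (hc : ∀ i, cOf i ∣ N) (w : ι → ℚ)
    (h : ∀ d ∈ N.divisors, ∑ i, w i * ((Nat.gcd d (cOf i) : ℕ) : ℚ) ^ 2 = 0) :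
    ∀ c ∈ N.divisors, ∑ i with cOf i = c, w i = 0 := by
  classical
  apply sm_gcd_sq_nonsing N (fun c => ∑ i with cOf i = c, w i)
  intro d hd
  rw [← h d hd]
  rw [← Finset.sum_fiberwise_of_maps_to (s := Finset.univ) (t := N.divisors) (g := cOf)
    (fun i _ => Nat.mem_divisors.mpr ⟨hc i, hN⟩)]
  apply Finset.sum_congr rfl
  intro c _
  rw [Finset.sum_mul]
  apply Finset.sum_congr rfl
  intro i hi
  rw [(Finset.mem_filter.mp hi).2]

/-- Core of (U5): a subset `U ∋ i0` all of whose `t_d` vanish is everything. -/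
theorem sm_eq_univ_of_balanced (N : ℕ) (hN : N ≠ 0) {ι : Type*} [Fintype ι] [DecidableEq ι]
    (cOf : ι → ℕ) (hc : ∀ i, cOf i ∣ N) (i0 : ι) (hi0 : ∀ i, cOf i = N ↔ i = i0)
    (hbal : ∀ d ∈ N.divisors, ∑ i, ((((Nat.gcd d (cOf i) : ℕ) : ℤ)) ^ 2 - (d : ℤ)) = 0)
    (U : Finset ι) (hU : i0 ∈ U)
    (hUbal : ∀ d ∈ N.divisors, ∑ i ∈ U, ((((Nat.gcd d (cOf i) : ℕ) : ℤ)) ^ 2 - (d : ℤ)) = 0) :
    U = Finset.univ := by
  classical
  have hcard : (0 : ℚ) < (Fintype.card ι : ℚ) := by
    have : 0 < Fintype.card ι := Fintype.card_pos_iff.mpr ⟨i0⟩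
    exact_mod_cast this
  set lam : ℚ := (U.card : ℚ) / (Fintype.card ι : ℚ) with hlam
  -- the two balance conditions over ℚ
  have hb1 : ∀ d ∈ N.divisors, ∑ i, ((Nat.gcd d (cOf i) : ℕ) : ℚ) ^ 2 =
      (d : ℚ) * (Fintype.card ι : ℚ) := by
    intro d hd
    have := congrArg (Int.cast : ℤ → ℚ) (hbal d hd)
    push_cast at this
    rw [Finset.sum_sub_distrib, Finset.sum_const, Finset.card_univ, nsmul_eq_mul] at this
    linarith
  have hb2 : ∀ d ∈ N.divisors, ∑ i ∈ U, ((Nat.gcd d (cOf i) : ℕ) : ℚ) ^ 2 =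
      (d : ℚ) * (U.card : ℚ) := by
    intro d hd
    have := congrArg (Int.cast : ℤ → ℚ) (hUbal d hd)
    push_cast at this
    rw [Finset.sum_sub_distrib, Finset.sum_const, nsmul_eq_mul] at this
    linarith
  have key := sm_gcd_sq_nonsing_fiber N hN cOf hc (fun i => (if i ∈ U then (1 : ℚ) else 0) - lam)
    (by
      intro d hd
      simp only [sub_mul, Finset.sum_sub_distrib, ite_mul, one_mul, zero_mul]
      rw [Finset.sum_ite_mem, Finset.univ_inter, hb2 d hd, ← Finset.mul_sum, hb1 d hd, hlam]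
      field_simp
      ring)
    N (Nat.mem_divisors_self N hN)
  have hfib : (Finset.univ.filter fun i => cOf i = N) = {i0} := by
    ext i
    simp [hi0 i]
  rw [hfib, Finset.sum_singleton, if_pos hU] at key
  have hl1 : lam = 1 := by linarith
  rw [hlam, div_eq_one_iff_eq hcard.ne'] at hl1
  have : U.card = Fintype.card ι := by exact_mod_cast hl1
  exact (Finset.card_eq_iff_eq_univ U).mp this

/-- **(U5)** of `docs.S28_blueprint_units_helper94`: there is an integer vector `s` (giving the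
exponents `r_d = d * s_d`) such that the only subset `U ∋ i0` of the index set whose total
`s`-weighted order `∑_{i ∈ U} ∑_{d ∣ N} s_d (gcd(d, c_i)² - d)` vanishes is the full set. -/
theorem sm_generic (N : ℕ) (hN : N ≠ 0) {ι : Type*} [Fintype ι] [DecidableEq ι]
    (cOf : ι → ℕ) (hc : ∀ i, cOf i ∣ N) (i0 : ι) (hi0 : ∀ i, cOf i = N ↔ i = i0)
    (hbal : ∀ d ∈ N.divisors, ∑ i, ((((Nat.gcd d (cOf i) : ℕ) : ℤ)) ^ 2 - (d : ℤ)) = 0) :
    ∃ s : ℕ → ℤ, ∀ U : Finset ι, i0 ∈ U →
      ∑ i ∈ U, ∑ d ∈ N.divisors, s d * ((((Nat.gcd d (cOf i) : ℕ) : ℤ)) ^ 2 - (d : ℤ)) = 0 →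
      U = Finset.univ := by
  classical
  obtain ⟨s, hs⟩ := sm_exists_avoid N.divisors
    ((Finset.univ : Finset (Finset ι)).filter fun U => i0 ∈ U ∧ U ≠ Finset.univ)
    (fun U d => ∑ i ∈ U, ((((Nat.gcd d (cOf i) : ℕ) : ℤ)) ^ 2 - (d : ℤ)))
    (by
      intro U hU
      obtain ⟨hU0, hUne⟩ := (Finset.mem_filter.mp hU).2
      by_contra hcon
      apply hUne
      apply sm_eq_univ_of_balanced N hN cOf hc i0 hi0 hbal U hU0
      intro d hd
      by_contra hne
      exact hcon ⟨d, hd, hne⟩)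
  refine ⟨s, fun U hU0 hsum => ?_⟩
  by_contra hUne
  apply hs U (Finset.mem_filter.mpr ⟨Finset.mem_univ _, hU0, hUne⟩)
  rw [← hsum, Finset.sum_comm]
  apply Finset.sum_congr rfl
  intro d _
  rw [Finset.mul_sum]

/-- The same as `sm_generic`, with the actual `X = q^(1/N)`-orders
`ord_X G_{d,γ} = (N/d) * gcd(d,c_γ)² - N` and exponents `r_d = d * s_d`. -/
theorem sm_generic_ord (N : ℕ) (hN : N ≠ 0) {ι : Type*} [Fintype ι] [DecidableEq ι]
    (cOf : ι → ℕ) (hc : ∀ i, cOf i ∣ N) (i0 : ι) (hi0 : ∀ i, cOf i = N ↔ i = i0)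
    (hbal : ∀ d ∈ N.divisors,
      ∑ i, (((N / d : ℕ) : ℤ) * (((Nat.gcd d (cOf i) : ℕ) : ℤ)) ^ 2 - (N : ℤ)) = 0) :
    ∃ r : ℕ → ℤ, ∀ U : Finset ι, i0 ∈ U →
      ∑ i ∈ U, ∑ d ∈ N.divisors,
        r d * (((N / d : ℕ) : ℤ) * (((Nat.gcd d (cOf i) : ℕ) : ℤ)) ^ 2 - (N : ℤ)) = 0 →
      U = Finset.univ := by
  classical
  have hNd : ∀ d ∈ N.divisors, ((N / d : ℕ) : ℤ) * (d : ℤ) = (N : ℤ) := by
    intro d hd
    have := Nat.div_mul_cancel (Nat.dvd_of_mem_divisors hd)
    exact_mod_cast this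
  have hN0 : (N : ℤ) ≠ 0 := by exact_mod_cast hN
  have hkey : ∀ d ∈ N.divisors, ∀ g : ℤ,
      (d : ℤ) * (((N / d : ℕ) : ℤ) * g - (N : ℤ)) = (N : ℤ) * (g - (d : ℤ)) := by
    intro d hd g
    have := hNd d hd
    linear_combination g * this
  obtain ⟨s, hs⟩ := sm_generic N hN cOf hc i0 hi0 (by
    intro d hd
    have h1 := hbal d hd
    have h2 : (N : ℤ) * ∑ i, ((((Nat.gcd d (cOf i) : ℕ) : ℤ)) ^ 2 - (d : ℤ)) = 0 := by
      rw [Finset.mul_sum]
      have : (d : ℤ) * ∑ i, (((N / d : ℕ) : ℤ) * (((Nat.gcd d (cOf i) : ℕ) : ℤ)) ^ 2 - (N : ℤ))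
          = 0 := by rw [h1, mul_zero]
      rw [Finset.mul_sum] at this
      rw [← this]
      apply Finset.sum_congr rfl
      intro i _
      rw [hkey d hd]
    exact (mul_eq_zero.mp h2).resolve_left hN0)
  refine ⟨fun d => (d : ℤ) * s d, fun U hU0 hsum => hs U hU0 ?_⟩
  have h2 : (N : ℤ) * ∑ i ∈ U, ∑ d ∈ N.divisors,
      s d * ((((Nat.gcd d (cOf i) : ℕ) : ℤ)) ^ 2 - (d : ℤ)) = 0 := by
    rw [← hsum, Finset.mul_sum]
    apply Finset.sum_congr rfl
    intro i _
    rw [Finset.mul_sum]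
    apply Finset.sum_congr rfl
    intro d hd
    have := hkey d hd ((((Nat.gcd d (cOf i) : ℕ) : ℤ)) ^ 2)
    linear_combination (-(s d)) * this
  exact (mul_eq_zero.mp h2).resolve_left hN0

end Fermat.Agent.S28x
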