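import Mathlib
import Fermat.Agent.S28x.Smith

/-!
# S28 project, module M7 (helper55), natural-exponent variants of `Smith.lean`

`sm_generic_nat`, `sm_generic_ord_nat`: the generic exponent vector can be chosen with
NATURAL entries (`s d = T ^ d` with `T : ℕ`), so that no inverses of the modular units are needed.
Prefix `smn_` / `sm_…_nat`.
-/

set_option autoImplicit false

open Finset

namespace Fermat.Agent.S28x

/-- `sm_exists_avoid` with a vector of natural numbers `s d = T ^ d`, `T : ℕ`. -/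
theorem sm_exists_avoid_nat (D : Finset ℕ) {α : Type*} (S : Finset α) (v : α → ℕ → ℤ)
    (hv : ∀ a ∈ S, ∃ d ∈ D, v a d ≠ 0) :
    ∃ s : ℕ → ℕ, ∀ a ∈ S, ∑ d ∈ D, (s d : ℤ) * v a d ≠ 0 := by
  classical
  let P : α → Polynomial ℤ := fun a => ∑ d ∈ D, Polynomial.C (v a d) * Polynomial.X ^ d
  have hP : ∀ a ∈ S, P a ≠ 0 := by
    intro a ha h0
    obtain ⟨d, hd, hne⟩ := hv a ha
    have := congrArg (fun p : Polynomial ℤ => p.coeff d) h0
    simp only [P, Polynomial.finsetSum_coeff, Polynomial.coeff_C_mul, Polynomial.coeff_X_pow,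
      Polynomial.coeff_zero] at this
    rw [Finset.sum_eq_single d] at this
    · simp at this; exact hne this
    · intro b _ hb; simp [Ne.symm hb]
    · intro h; exact absurd hd h
  have hprod : ∏ a ∈ S, P a ≠ 0 := Finset.prod_ne_zero_iff.mpr hP
  obtain ⟨T, hT⟩ : ∃ T : ℕ, (∏ a ∈ S, P a).eval (T : ℤ) ≠ 0 := by
    by_contra h
    have h : ∀ T : ℕ, (∏ a ∈ S, P a).eval (T : ℤ) = 0 := fun T => by
      by_contra hT
      exact h ⟨T, hT⟩
    apply hprod
    apply Polynomial.eq_zero_of_infinite_isRoot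
    apply Set.Infinite.mono (s := Set.range (Nat.cast : ℕ → ℤ))
    · rintro _ ⟨T, rfl⟩
      exact h T
    · exact Set.infinite_range_of_injective Nat.cast_injective
  refine ⟨fun d => T ^ d, fun a ha => ?_⟩
  rw [Polynomial.eval_prod] at hT
  have := (Finset.prod_ne_zero_iff.mp hT) a ha
  simp only [P, Polynomial.eval_finsetSum, Polynomial.eval_mul, Polynomial.eval_C,
    Polynomial.eval_pow, Polynomial.eval_X] at this
  convert this using 2
  push_cast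
  ring

/-- `sm_generic` with natural weights `s : ℕ → ℕ`. -/
theorem sm_generic_nat (N : ℕ) (hN : N ≠ 0) {ι : Type*} [Fintype ι] [DecidableEq ι]
    (cOf : ι → ℕ) (hc : ∀ i, cOf i ∣ N) (i0 : ι) (hi0 : ∀ i, cOf i = N ↔ i = i0)
    (hbal : ∀ d ∈ N.divisors, ∑ i, ((((Nat.gcd d (cOf i) : ℕ) : ℤ)) ^ 2 - (d : ℤ)) = 0) :
    ∃ s : ℕ → ℕ, ∀ U : Finset ι, i0 ∈ U →
      ∑ i ∈ U, ∑ d ∈ N.divisors,
        (s d : ℤ) * ((((Nat.gcd d (cOf i) : ℕ) : ℤ)) ^ 2 - (d : ℤ)) = 0 →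
      U = Finset.univ := by
  classical
  obtain ⟨s, hs⟩ := sm_exists_avoid_nat N.divisors
    ((Finset.univ : Finset (Finset ι)).filter fun U => i0 ∈ U ∧ U ≠ Finset.univ)
    (fun U d => ∑ i ∈ U, ((((Nat.gcd d (cOf i) : ℕ) : ℤ)) ^ 2 - (d : ℤ)))
    (by
      intro U hU
      obtain ⟨hU0, hUne⟩ := (Finset.mem_filter.mp hU).2
      by_contra hcon
      apply hUne
      apply sm_eq_univ_of_balanced N hN cOf hc i0 hi0 hbal U hU0
      intro d hd
      by_contra hne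
      exact hcon ⟨d, hd, hne⟩)
  refine ⟨s, fun U hU0 hsum => ?_⟩
  by_contra hUne
  apply hs U (Finset.mem_filter.mpr ⟨Finset.mem_univ _, hU0, hUne⟩)
  rw [← hsum, Finset.sum_comm]
  apply Finset.sum_congr rfl
  intro d _
  rw [Finset.mul_sum]

/-- `sm_generic_ord` with NATURAL exponents `r d = d * s d`: the raw `X = q^(1/N)`-orders are
`ord_X G_{d,γ} = (N/d) * gcd(d,c_γ)² - N`. -/
theorem sm_generic_ord_nat (N : ℕ) (hN : N ≠ 0) {ι : Type*} [Fintype ι] [DecidableEq ι]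
    (cOf : ι → ℕ) (hc : ∀ i, cOf i ∣ N) (i0 : ι) (hi0 : ∀ i, cOf i = N ↔ i = i0)
    (hbal : ∀ d ∈ N.divisors,
      ∑ i, (((N / d : ℕ) : ℤ) * (((Nat.gcd d (cOf i) : ℕ) : ℤ)) ^ 2 - (N : ℤ)) = 0) :
    ∃ r : ℕ → ℕ, ∀ U : Finset ι, i0 ∈ U →
      ∑ i ∈ U, ∑ d ∈ N.divisors,
        (r d : ℤ) * (((N / d : ℕ) : ℤ) * (((Nat.gcd d (cOf i) : ℕ) : ℤ)) ^ 2 - (N : ℤ)) = 0 →
      U = Finset.univ := by
  classical
  have hNd : ∀ d ∈ N.divisors, ((N / d : ℕ) : ℤ) * (d : ℤ) = (N : ℤ) := by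
    intro d hd
    have := Nat.div_mul_cancel (Nat.dvd_of_mem_divisors hd)
    exact_mod_cast this
  have hN0 : (N : ℤ) ≠ 0 := by exact_mod_cast hN
  have hkey : ∀ d ∈ N.divisors, ∀ g : ℤ,
      (d : ℤ) * (((N / d : ℕ) : ℤ) * g - (N : ℤ)) = (N : ℤ) * (g - (d : ℤ)) := by
    intro d hd g
    have := hNd d hd
    linear_combination g * this
  obtain ⟨s, hs⟩ := sm_generic_nat N hN cOf hc i0 hi0 (by
    intro d hd
    have h1 := hbal d hd
    have h2 : (N : ℤ) * ∑ i, ((((Nat.gcd d (cOf i) : ℕ) : ℤ)) ^ 2 - (d : ℤ)) = 0 := by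
      rw [Finset.mul_sum]
      have : (d : ℤ) * ∑ i, (((N / d : ℕ) : ℤ) * (((Nat.gcd d (cOf i) : ℕ) : ℤ)) ^ 2 - (N : ℤ))
          = 0 := by rw [h1, mul_zero]
      rw [Finset.mul_sum] at this
      rw [← this]
      apply Finset.sum_congr rfl
      intro i _
      rw [hkey d hd]
    exact (mul_eq_zero.mp h2).resolve_left hN0)
  refine ⟨fun d => d * s d, fun U hU0 hsum => hs U hU0 ?_⟩
  have h2 : (N : ℤ) * ∑ i ∈ U, ∑ d ∈ N.divisors,
      (s d : ℤ) * ((((Nat.gcd d (cOf i) : ℕ) : ℤ)) ^ 2 - (d : ℤ)) = 0 := by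
    rw [← hsum, Finset.mul_sum]
    apply Finset.sum_congr rfl
    intro i _
    rw [Finset.mul_sum]
    apply Finset.sum_congr rfl
    intro d hd
    have := hkey d hd ((((Nat.gcd d (cOf i) : ℕ) : ℤ)) ^ 2)
    have hcast : (((fun d => d * s d) d : ℕ) : ℤ) = (d : ℤ) * (s d : ℤ) := Nat.cast_mul d (s d)
    rw [hcast]
    linear_combination (-(s d : ℤ)) * this
  exact (mul_eq_zero.mp h2).resolve_left hN0

end Fermat.Agent.S28x
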