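/-
S28 project (units route), module AN-B (helper83): the modular units at the level of functions.

`uf2_gd d τ = Δ(dτ)/Δ(τ)`, `uf2_gr N r τ = ∏_{d ∣ N} (Δ(dτ)/Δ(τ))^(r d)`; holomorphy,
non-vanishing, `Γ₀(N)`-invariance, the HERMITE formula
`Δ(d·gτ)/Δ(gτ) = e⁻¹² Δ((aτ+b)/e)/Δ(τ)` for every Hermite datum of `(d, g)`, and the conjugates
`uf2_conj N r (gΓ₀(N)) τ = g^r (g⁻¹ • τ)` indexed by the left cosets `Q N = SL(2,ℤ) ⧸ Γ₀(N)`,
permuted by `SL(2,ℤ)`.  All names are prefixed `uf2_`.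
-/
import Fermat.Agent.S24x.JdCusp
import Fermat.Agent.S24x.JdInvariant
import Fermat.Agent.S24x.CombBasic

set_option autoImplicit false

namespace Fermat.Agent.S28x

open UpperHalfPlane Fermat.Agent.S24x
open scoped MatrixGroups Manifold

/-! ## the point `dτ` -/

/-- the point `d τ` of the upper half plane (junk value for `d = 0`), total in `d`. -/
noncomputable def uf2_dmul (d : ℕ) (τ : ℍ) : ℍ := UpperHalfPlane.ofComplex ((d : ℂ) * (τ : ℂ))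

theorem uf2_dmul_coe (d : ℕ) (hd : 0 < d) (τ : ℍ) :
    ((uf2_dmul d τ : ℍ) : ℂ) = (d : ℂ) * (τ : ℂ) := by
  have him : 0 < ((d : ℂ) * (τ : ℂ)).im := by
    have hd' : (0 : ℝ) < d := by exact_mod_cast hd
    have : ((d : ℂ) * (τ : ℂ)).im = d * τ.im := by simp
    rw [this]
    exact mul_pos hd' τ.im_pos
  rw [uf2_dmul, UpperHalfPlane.ofComplex_apply_of_im_pos him]

/-- any point with coordinate `d τ` is `uf2_dmul d τ`. -/
theorem uf2_dmul_eq (d : ℕ) (hd : 0 < d) (τ τ' : ℍ) (h : (τ' : ℂ) = (d : ℂ) * (τ : ℂ)) :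
    uf2_dmul d τ = τ' := by
  apply UpperHalfPlane.ext
  rw [uf2_dmul_coe d hd, h]

theorem uf2_dmul_one (τ : ℍ) : uf2_dmul 1 τ = τ :=
  uf2_dmul_eq 1 one_pos τ τ (by simp)

/-! ## the unit `Δ(dτ)/Δ(τ)` -/

/-- `g_d(τ) = Δ(dτ)/Δ(τ)`. -/
noncomputable def uf2_gd (d : ℕ) (τ : ℍ) : ℂ :=
  ModularForm.discriminant (uf2_dmul d τ) / ModularForm.discriminant τ

theorem uf2_gd_ne_zero (d : ℕ) (τ : ℍ) : uf2_gd d τ ≠ 0 :=
  div_ne_zero (ModularForm.discriminant_ne_zero _) (ModularForm.discriminant_ne_zero _)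

/-- `g_d(τ) = Δ(τ')/Δ(τ)` for any point `τ'` with coordinate `dτ`. -/
theorem uf2_gd_eq (d : ℕ) (hd : 0 < d) (τ τ' : ℍ) (h : (τ' : ℂ) = (d : ℂ) * (τ : ℂ)) :
    uf2_gd d τ = ModularForm.discriminant τ' / ModularForm.discriminant τ := by
  rw [uf2_gd, uf2_dmul_eq d hd τ τ' h]

theorem uf2_gd_one (τ : ℍ) : uf2_gd 1 τ = 1 := by
  rw [uf2_gd, uf2_dmul_one, div_self (ModularForm.discriminant_ne_zero τ)]

/-- `Δ(dτ) = g_d(τ) Δ(τ)`. -/
theorem uf2_gd_mul_discriminant (d : ℕ) (τ : ℍ) :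
    uf2_gd d τ * ModularForm.discriminant τ = ModularForm.discriminant (uf2_dmul d τ) := by
  rw [uf2_gd, div_mul_cancel₀ _ (ModularForm.discriminant_ne_zero τ)]

theorem uf2_mdiff_discriminant_dmul (d : ℕ) :
    MDiff (fun τ : ℍ => ModularForm.discriminant (uf2_dmul d τ)) := by
  rw [UpperHalfPlane.mdifferentiable_iff]
  have hΔ : DifferentiableOn ℂ ((ModularForm.discriminant : ℍ → ℂ) ∘ ofComplex)
      {z : ℂ | 0 < z.im} := UpperHalfPlane.mdifferentiable_iff.mp jf_mdiff_discriminant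
  rcases Nat.eq_zero_or_pos d with rfl | hd
  · -- constant function
    refine (differentiableOn_const (ModularForm.discriminant (uf2_dmul 0 UpperHalfPlane.I))).congr
      ?_
    intro z _
    simp [uf2_dmul]
  · have hd' : (0 : ℝ) < d := by exact_mod_cast hd
    have hmaps : Set.MapsTo (fun z : ℂ => (d : ℂ) * z) {z : ℂ | 0 < z.im} {z : ℂ | 0 < z.im} := by
      intro z hz
      have hz' : 0 < z.im := hz
      have : ((d : ℂ) * z).im = d * z.im := by simp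
      show 0 < ((d : ℂ) * z).im
      rw [this]
      exact mul_pos hd' hz'
    have hcomp : DifferentiableOn ℂ
        (((ModularForm.discriminant : ℍ → ℂ) ∘ ofComplex) ∘ (fun z : ℂ => (d : ℂ) * z))
        {z : ℂ | 0 < z.im} :=
      hΔ.comp ((differentiable_id.const_mul (d : ℂ)).differentiableOn) hmaps
    refine hcomp.congr ?_
    intro z hz
    have hz' : 0 < z.im := hz
    simp only [Function.comp_apply]
    congr 1
    apply UpperHalfPlane.ext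
    rw [uf2_dmul_coe d hd, UpperHalfPlane.ofComplex_apply_of_im_pos hz',
      UpperHalfPlane.ofComplex_apply_of_im_pos (hmaps hz)]

theorem uf2_gd_mdiff (d : ℕ) : MDiff (uf2_gd d) :=
  jf_mdiff_div (uf2_mdiff_discriminant_dmul d) jf_mdiff_discriminant
    ModularForm.discriminant_ne_zero

/-! ## the Hermite formula -/

/-- the denominator `c τ + d` of `g ∈ SL(2,ℤ)` in terms of integer entries. -/
theorem uf2_denom_SL (g : SL(2, ℤ)) (τ : ℍ) :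
    denom g τ = (g 1 0 : ℂ) * (τ : ℂ) + (g 1 1 : ℂ) := by
  simp [denom]

/-- **HERMITE formula** for `g_d`: if `(d 0; 0 1) g = g' (a b; 0 e)` (entrywise relations as in
`S24x.jdc_hermite`), then `Δ(d·gτ)/Δ(gτ) = e⁻¹² Δ((aτ+b)/e)/Δ(τ)`. -/
theorem uf2_gd_hermite (g g' : SL(2, ℤ)) (d : ℕ) (hd : 0 < d) (a b e : ℤ) (ha : 0 < a)
    (he : 0 < e)
    (h00 : (d : ℤ) * g 0 0 = g' 0 0 * a) (h01 : (d : ℤ) * g 0 1 = g' 0 0 * b + g' 0 1 * e)
    (h10 : g 1 0 = g' 1 0 * a) (h11 : g 1 1 = g' 1 0 * b + g' 1 1 * e) (τ : ℍ) :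
    uf2_gd d (g • τ) =
      (e : ℂ) ^ (-12 : ℤ) * ModularForm.discriminant (jdc_affine a b e ha he τ) /
        ModularForm.discriminant τ := by
  have hpt : uf2_dmul d (g • τ) = g' • jdc_affine a b e ha he τ :=
    jdc_point_eq g g' d a b e ha he h00 h01 h10 h11 τ _ (uf2_dmul_coe d hd (g • τ))
  have heC : (e : ℂ) ≠ 0 := by exact_mod_cast he.ne'
  have h10' : (g 1 0 : ℂ) = (g' 1 0 : ℂ) * a := by exact_mod_cast h10
  have h11' : (g 1 1 : ℂ) = (g' 1 0 : ℂ) * b + (g' 1 1 : ℂ) * e := by exact_mod_cast h11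
  -- the two automorphy factors differ by the constant `e`
  have hden : denom g' (jdc_affine a b e ha he τ) = denom g τ / e := by
    rw [uf2_denom_SL, uf2_denom_SL, jdc_affine_coe, h10', h11']
    field_simp
    ring
  have hdg : denom g τ ≠ 0 := jf_denom_SL_ne_zero g τ
  rw [uf2_gd, hpt, jf_discriminant_smul, jf_discriminant_smul, hden, div_zpow]
  have hΔ := ModularForm.discriminant_ne_zero τ
  have h12 : denom g τ ^ (12 : ℤ) ≠ 0 := zpow_ne_zero _ hdg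
  rw [zpow_neg]
  have he12 : (e : ℂ) ^ (12 : ℤ) ≠ 0 := zpow_ne_zero _ heC
  field_simp

/-- `Γ₀(N)`-invariance of `g_d` for `d ∣ N`. -/
theorem uf2_gd_invariant (N d : ℕ) (hd0 : 0 < d) (hd : d ∣ N) (γ : SL(2, ℤ))
    (hγ : γ ∈ CongruenceSubgroup.Gamma0 N) (τ : ℍ) : uf2_gd d (γ • τ) = uf2_gd d τ := by
  rw [CongruenceSubgroup.Gamma0_mem] at hγ
  obtain ⟨c0, hc0⟩ := (ZMod.intCast_zmod_eq_zero_iff_dvd _ _).mp hγ
  obtain ⟨e, rfl⟩ := hd
  have hc : γ 1 0 = (d : ℤ) * ((e : ℤ) * c0) := by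
    rw [hc0]; push_cast; ring
  obtain ⟨δ, h00, h01, h10, h11⟩ := jdi_exists_conj d γ _ hc
  have hdZ : (0 : ℤ) < d := by exact_mod_cast hd0
  rw [uf2_gd_hermite γ δ d hd0 (d : ℤ) 0 1 hdZ one_pos (by rw [h00]; ring)
    (by rw [h01]; ring) (by rw [h10, hc]; ring) (by rw [h11]; ring) τ]
  have hpt : jdc_affine (d : ℤ) 0 1 hdZ one_pos τ = uf2_dmul d τ := by
    refine (uf2_dmul_eq d hd0 τ _ ?_).symm
    rw [jdc_affine_coe]
    push_cast
    ring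
  rw [hpt, uf2_gd]
  simp

/-! ## the products `g^r` -/

/-- `g^r(τ) = ∏_{d ∣ N} (Δ(dτ)/Δ(τ))^(r d)`. -/
noncomputable def uf2_gr (N : ℕ) (r : ℕ → ℤ) (τ : ℍ) : ℂ :=
  ∏ d ∈ N.divisors, uf2_gd d τ ^ r d

theorem uf2_gr_ne_zero (N : ℕ) (r : ℕ → ℤ) (τ : ℍ) : uf2_gr N r τ ≠ 0 :=
  Finset.prod_ne_zero_iff.mpr fun d _ => zpow_ne_zero _ (uf2_gd_ne_zero d τ)

theorem uf2_mdiff_inv {f : ℍ → ℂ} (hf : MDiff f) (h0 : ∀ z, f z ≠ 0) :
    MDiff (fun z => (f z)⁻¹) := by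
  have := jf_mdiff_div (jf_mdiff_const 1) hf h0
  simpa [one_div] using this

theorem uf2_mdiff_zpow {f : ℍ → ℂ} (hf : MDiff f) (h0 : ∀ z, f z ≠ 0) (n : ℤ) :
    MDiff (fun z => f z ^ n) := by
  rcases n with n | n
  · simpa using jf_mdiff_pow hf n
  · have h1 : MDiff (fun z => (f z ^ (n + 1))⁻¹) :=
      uf2_mdiff_inv (jf_mdiff_pow hf (n + 1)) (fun z => pow_ne_zero _ (h0 z))
    simpa [zpow_negSucc] using h1

theorem uf2_mdiff_prod {ι : Type*} (s : Finset ι) (f : ι → ℍ → ℂ) (hf : ∀ i ∈ s, MDiff (f i)) :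
    MDiff (fun z => ∏ i ∈ s, f i z) := by
  classical
  induction s using Finset.induction_on with
  | empty => simpa using jf_mdiff_const 1
  | insert a s ha ih =>
    have h1 := jf_mdiff_mul (hf a (Finset.mem_insert_self a s))
      (ih fun i hi => hf i (Finset.mem_insert_of_mem hi))
    simpa [Finset.prod_insert ha] using h1

theorem uf2_gr_mdiff (N : ℕ) (r : ℕ → ℤ) : MDiff (uf2_gr N r) :=
  uf2_mdiff_prod N.divisors (fun d τ => uf2_gd d τ ^ r d)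
    (fun d _ => uf2_mdiff_zpow (uf2_gd_mdiff d) (uf2_gd_ne_zero d) (r d))

/-- `Γ₀(N)`-invariance of `g^r`. -/
theorem uf2_gr_invariant (N : ℕ) (r : ℕ → ℤ) (γ : SL(2, ℤ))
    (hγ : γ ∈ CongruenceSubgroup.Gamma0 N) (τ : ℍ) : uf2_gr N r (γ • τ) = uf2_gr N r τ := by
  unfold uf2_gr
  refine Finset.prod_congr rfl fun d hd => ?_
  rw [uf2_gd_invariant N d (Nat.pos_of_mem_divisors hd) (Nat.dvd_of_mem_divisors hd) γ hγ τ]

theorem uf2_gr_add (N : ℕ) (r s : ℕ → ℤ) (τ : ℍ) :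
    uf2_gr N (r + s) τ = uf2_gr N r τ * uf2_gr N s τ := by
  unfold uf2_gr
  rw [← Finset.prod_mul_distrib]
  refine Finset.prod_congr rfl fun d _ => ?_
  rw [Pi.add_apply, zpow_add₀ (uf2_gd_ne_zero d τ)]

theorem uf2_gr_neg (N : ℕ) (r : ℕ → ℤ) (τ : ℍ) : uf2_gr N (-r) τ = (uf2_gr N r τ)⁻¹ := by
  unfold uf2_gr
  rw [← Finset.prod_inv_distrib]
  refine Finset.prod_congr rfl fun d _ => ?_
  rw [Pi.neg_apply, zpow_neg]

theorem uf2_gr_zero (N : ℕ) (τ : ℍ) : uf2_gr N 0 τ = 1 := by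
  unfold uf2_gr
  simp

/-- Hermite formula for `g^r`: given Hermite data of `(d, g)` for every `d ∣ N`. -/
theorem uf2_gr_hermite (N : ℕ) (r : ℕ → ℤ) (g : SL(2, ℤ)) (g' : ℕ → SL(2, ℤ))
    (a b e : ℕ → ℤ) (ha : ∀ d, 0 < a d) (he : ∀ d, 0 < e d)
    (h00 : ∀ d ∈ N.divisors, (d : ℤ) * g 0 0 = g' d 0 0 * a d)
    (h01 : ∀ d ∈ N.divisors, (d : ℤ) * g 0 1 = g' d 0 0 * b d + g' d 0 1 * e d)
    (h10 : ∀ d ∈ N.divisors, g 1 0 = g' d 1 0 * a d)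
    (h11 : ∀ d ∈ N.divisors, g 1 1 = g' d 1 0 * b d + g' d 1 1 * e d) (τ : ℍ) :
    uf2_gr N r (g • τ) =
      ∏ d ∈ N.divisors, ((e d : ℂ) ^ (-12 : ℤ) *
        ModularForm.discriminant (jdc_affine (a d) (b d) (e d) (ha d) (he d) τ) /
          ModularForm.discriminant τ) ^ r d := by
  unfold uf2_gr
  refine Finset.prod_congr rfl fun d hd => ?_
  rw [uf2_gd_hermite g (g' d) d (Nat.pos_of_mem_divisors hd) (a d) (b d) (e d) (ha d) (he d)
    (h00 d hd) (h01 d hd) (h10 d hd) (h11 d hd) τ]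

/-! ## the conjugates, indexed by `Q N = SL(2,ℤ) ⧸ Γ₀(N)` -/

/-- the conjugate `g^r ∘ g⁻¹` attached to the left coset `g Γ₀(N)`. -/
noncomputable def uf2_conj (N : ℕ) (r : ℕ → ℤ) (i : Q N) (τ : ℍ) : ℂ :=
  Quotient.liftOn' i (fun g : SL(2, ℤ) => uf2_gr N r (g⁻¹ • τ)) (by
    intro g₁ g₂ h
    rw [QuotientGroup.leftRel_apply] at h
    have h' : (g₁⁻¹ * g₂)⁻¹ ∈ CongruenceSubgroup.Gamma0 N := inv_mem h
    have e : g₂⁻¹ • τ = (g₁⁻¹ * g₂)⁻¹ • (g₁⁻¹ • τ) := by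
      rw [← mul_smul]
      congr 1
      group
    show uf2_gr N r (g₁⁻¹ • τ) = uf2_gr N r (g₂⁻¹ • τ)
    rw [e, uf2_gr_invariant N r _ h'])

theorem uf2_conj_mk (N : ℕ) (r : ℕ → ℤ) (g : SL(2, ℤ)) (τ : ℍ) :
    uf2_conj N r ((g : SL(2, ℤ)) : Q N) τ = uf2_gr N r (g⁻¹ • τ) := rfl

theorem uf2_conj_one (N : ℕ) (r : ℕ → ℤ) (τ : ℍ) :
    uf2_conj N r (((1 : SL(2, ℤ)) : SL(2, ℤ)) : Q N) τ = uf2_gr N r τ := by
  rw [uf2_conj_mk, inv_one, one_smul]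

theorem uf2_conj_ne_zero (N : ℕ) (r : ℕ → ℤ) (i : Q N) (τ : ℍ) : uf2_conj N r i τ ≠ 0 := by
  induction i using QuotientGroup.induction_on with
  | H g => rw [uf2_conj_mk]; exact uf2_gr_ne_zero N r _

theorem uf2_conj_mdiff (N : ℕ) (r : ℕ → ℤ) (i : Q N) : MDiff (uf2_conj N r i) := by
  induction i using QuotientGroup.induction_on with
  | H g =>
    have h : MDiff (fun τ : ℍ => g⁻¹ • τ) := by
      have := mdifferentiable_smul (g := (Matrix.SpecialLinearGroup.mapGL ℝ g⁻¹ : GL (Fin 2) ℝ))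
        (by simp)
      exact this
    exact (uf2_gr_mdiff N r).comp h

/-- **the permutation property**: `h_i(δ τ) = h_{δ⁻¹ i}(τ)`. -/
theorem uf2_conj_smul (N : ℕ) (r : ℕ → ℤ) (δ : SL(2, ℤ)) (i : Q N) (τ : ℍ) :
    uf2_conj N r i (δ • τ) = uf2_conj N r (δ⁻¹ • i) τ := by
  induction i using QuotientGroup.induction_on with
  | H g =>
    rw [smul_coset, uf2_conj_mk, uf2_conj_mk, mul_inv_rev, inv_inv, mul_smul]

/-- the permutation hypothesis of the abstract symmetric-function theorem. -/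
theorem uf2_conj_perm (N : ℕ) (r : ℕ → ℤ) (δ : SL(2, ℤ)) :
    ∃ σ : Equiv.Perm (Q N), ∀ (i : Q N) (τ : ℍ),
      uf2_conj N r i (δ • τ) = uf2_conj N r (σ i) τ :=
  ⟨MulAction.toPerm δ⁻¹, fun i τ => uf2_conj_smul N r δ i τ⟩

/-- the conjugates for `r + s` and `-r`. -/
theorem uf2_conj_add (N : ℕ) (r s : ℕ → ℤ) (i : Q N) (τ : ℍ) :
    uf2_conj N (r + s) i τ = uf2_conj N r i τ * uf2_conj N s i τ := by
  induction i using QuotientGroup.induction_on with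
  | H g => simp only [uf2_conj_mk, uf2_gr_add]

theorem uf2_conj_neg (N : ℕ) (r : ℕ → ℤ) (i : Q N) (τ : ℍ) :
    uf2_conj N (-r) i τ = (uf2_conj N r i τ)⁻¹ := by
  induction i using QuotientGroup.induction_on with
  | H g => simp only [uf2_conj_mk, uf2_gr_neg]

/-- **explicit form of the conjugates**: for Hermite data of `(d, g⁻¹)`, `d ∣ N`,
`h_{gΓ₀(N)}(τ) = ∏_{d ∣ N} (e_d⁻¹² Δ((a_d τ + b_d)/e_d)/Δ(τ))^(r d)`. -/
theorem uf2_conj_hermite (N : ℕ) (r : ℕ → ℤ) (g : SL(2, ℤ)) (g' : ℕ → SL(2, ℤ))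
    (a b e : ℕ → ℤ) (ha : ∀ d, 0 < a d) (he : ∀ d, 0 < e d)
    (h00 : ∀ d ∈ N.divisors, (d : ℤ) * g⁻¹ 0 0 = g' d 0 0 * a d)
    (h01 : ∀ d ∈ N.divisors, (d : ℤ) * g⁻¹ 0 1 = g' d 0 0 * b d + g' d 0 1 * e d)
    (h10 : ∀ d ∈ N.divisors, g⁻¹ 1 0 = g' d 1 0 * a d)
    (h11 : ∀ d ∈ N.divisors, g⁻¹ 1 1 = g' d 1 0 * b d + g' d 1 1 * e d) (τ : ℍ) :
    uf2_conj N r ((g : SL(2, ℤ)) : Q N) τ =
      ∏ d ∈ N.divisors, ((e d : ℂ) ^ (-12 : ℤ) *
        ModularForm.discriminant (jdc_affine (a d) (b d) (e d) (ha d) (he d) τ) /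
          ModularForm.discriminant τ) ^ r d := by
  rw [uf2_conj_mk]
  exact uf2_gr_hermite N r g⁻¹ g' a b e ha he h00 h01 h10 h11 τ

/-- the product of all conjugates is `SL(2,ℤ)`-invariant. -/
theorem uf2_prod_conj_smul (N : ℕ) [Fintype (Q N)] (r : ℕ → ℤ) (δ : SL(2, ℤ)) (τ : ℍ) :
    ∏ i : Q N, uf2_conj N r i (δ • τ) = ∏ i : Q N, uf2_conj N r i τ := by
  simp_rw [uf2_conj_smul N r δ]
  exact Fintype.prod_equiv (MulAction.toPerm δ⁻¹) _ _ (fun i => rfl)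

end Fermat.Agent.S28x
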