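/-
S28 project (units route), module AN-B part 2 (helper83): the conjugates of the modular units in
terms of the chosen Hermite data of `UnitsDefs.lean`, and their `q`-form

`h_x(N z) = ∏_{d ∣ N} ( c_d · Δ_q(u_d X^(m_d)) / Δ_q(X^N) )^(r d)`,   `X = e^{2πi z}`,

with exactly the arguments `c_d, u_d, m_d` of `ud_Gd` (`Δ_q = S24x.discFun`).
All names are prefixed `uf2_`.
-/
import Fermat.Agent.S28x.UnitFun
import Fermat.Agent.S28x.UnitsDefs
import Fermat.Agent.S24x.DeltaQExp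
import Fermat.Agent.S24x.ConvLaurent

set_option autoImplicit false

namespace Fermat.Agent.S28x

open UpperHalfPlane Fermat.Agent.S24x
open scoped MatrixGroups Manifold

/-! ## `Δ` as a function of `q` -/

/-- `Δ(τ) = Δ_q(e^{2πiτ})`. -/
theorem uf2_discriminant_eq_discFun (τ : ℍ) :
    ModularForm.discriminant τ = discFun (qOf τ) := by
  rw [ModularForm.discriminant_eq_q_prod]
  rfl

theorem uf2_discFun_qOf_ne_zero (τ : ℍ) : discFun (qOf τ) ≠ 0 := by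
  rw [← uf2_discriminant_eq_discFun]
  exact ModularForm.discriminant_ne_zero τ

/-! ## the affine point with natural-number data -/

/-- the point `(Aτ + B)/E` (junk if `A = 0` or `E = 0`), total in `A B E : ℕ`. -/
noncomputable def uf2_aff (A B E : ℕ) (τ : ℍ) : ℍ :=
  UpperHalfPlane.ofComplex (((A : ℂ) * (τ : ℂ) + B) / E)

theorem uf2_aff_eq (A B E : ℕ) (hA : 0 < A) (hE : 0 < E) (τ : ℍ) :
    uf2_aff A B E τ =
      jdc_affine (A : ℤ) (B : ℤ) (E : ℤ) (by exact_mod_cast hA) (by exact_mod_cast hE) τ := by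
  have h := (jdc_affine (A : ℤ) (B : ℤ) (E : ℤ) (by exact_mod_cast hA)
    (by exact_mod_cast hE) τ).im_pos
  have hc : ((jdc_affine (A : ℤ) (B : ℤ) (E : ℤ) (by exact_mod_cast hA)
      (by exact_mod_cast hE) τ : ℍ) : ℂ) = ((A : ℂ) * (τ : ℂ) + B) / E := by
    rw [jdc_affine_coe]
    push_cast
    rfl
  apply UpperHalfPlane.ext
  have h' : 0 < (((A : ℂ) * (τ : ℂ) + B) / E).im := by
    rw [← hc]
    exact h
  rw [uf2_aff, UpperHalfPlane.ofComplex_apply_of_im_pos h', hc]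

theorem uf2_aff_coe (A B E : ℕ) (hA : 0 < A) (hE : 0 < E) (τ : ℍ) :
    ((uf2_aff A B E τ : ℍ) : ℂ) = ((A : ℂ) * (τ : ℂ) + B) / E := by
  rw [uf2_aff_eq A B E hA hE, jdc_affine_coe]
  push_cast
  rfl

/-! ## the conjugates in terms of the chosen Hermite data -/

/-- the conjugate attached to the coset `x` is `g^r ∘ γ` with `γ = ud_rep N x`. -/
theorem uf2_conj_rep (N : ℕ) (r : ℕ → ℤ) (x : Q N) (τ : ℍ) :
    uf2_conj N r x τ = uf2_gr N r (ud_rep N x • τ) := by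
  conv_lhs => rw [← QuotientGroup.out_eq' x]
  rw [uf2_conj_mk]
  rfl

/-- Hermite formula for `g_d` with a Hermite triple in the sense of `UnitsDefs`. -/
theorem uf2_gd_isHermite (d : ℕ) (hd : 0 < d) (γ : SL(2, ℤ)) (A B E : ℕ)
    (h : ud_IsHermite d γ A B E) (τ : ℍ) :
    uf2_gd d (γ • τ) =
      (E : ℂ) ^ (-12 : ℤ) * ModularForm.discriminant (uf2_aff A B E τ) /
        ModularForm.discriminant τ := by
  obtain ⟨hA, hE, -, -, γ', h00, h01, h10, h11⟩ := h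
  rw [uf2_aff_eq A B E hA hE,
    uf2_gd_hermite γ γ' d hd (A : ℤ) (B : ℤ) (E : ℤ) (by exact_mod_cast hA)
      (by exact_mod_cast hE) h00 h01 h10 h11 τ]
  push_cast
  rfl

/-- **the conjugates in terms of the chosen triples** `ud_triple N d x`. -/
theorem uf2_conj_triple (N : ℕ) (r : ℕ → ℤ) (x : Q N) (τ : ℍ) :
    uf2_conj N r x τ =
      ∏ d ∈ N.divisors, (((ud_triple N d x).2.2 : ℂ) ^ (-12 : ℤ) *
        ModularForm.discriminant
          (uf2_aff (ud_triple N d x).1 (ud_triple N d x).2.1 (ud_triple N d x).2.2 τ) /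
          ModularForm.discriminant τ) ^ r d := by
  rw [uf2_conj_rep]
  unfold uf2_gr
  refine Finset.prod_congr rfl fun d hd => ?_
  have hd0 : 0 < d := Nat.pos_of_mem_divisors hd
  rw [uf2_gd_isHermite d hd0 (ud_rep N x) _ _ _ (ud_triple_spec N d hd0 x) τ]

/-! ## the `q`-form -/

/-- `e^{2πi z}^N = e^{2πi τ}` when `τ = N z`. -/
theorem uf2_qOf_pow (N : ℕ) (z τ : ℍ) (hτ : (τ : ℂ) = (N : ℂ) * (z : ℂ)) :
    qOf τ = qOf z ^ N := by
  unfold qOf Function.Periodic.qParam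
  rw [hτ, ← Complex.exp_nat_mul]
  congr 1
  push_cast
  ring

/-- `ζ_N^N = 1`. -/
theorem uf2_zetaC_pow (N : ℕ) [NeZero N] : ud_zetaC N ^ N = 1 := by
  have hN : (N : ℂ) ≠ 0 := Nat.cast_ne_zero.mpr (NeZero.ne N)
  rw [ud_zetaC, ← Complex.exp_nat_mul, mul_div_cancel₀ _ hN]
  exact Complex.exp_two_pi_mul_I

/-- the `q`-parameter of `(Aτ+B)/E` for `τ = N z`, `E m = N`:
`e^{2πi(Aτ+B)/E} = ζ_N^(B m) X^(A m)`, `X = e^{2πi z}`. -/
theorem uf2_qOf_aff (N : ℕ) [NeZero N] (A B E m : ℕ) (hA : 0 < A) (hE : 0 < E)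
    (hEm : E * m = N) (z τ : ℍ) (hτ : (τ : ℂ) = (N : ℂ) * (z : ℂ)) :
    qOf (uf2_aff A B E τ) = ud_zetaC N ^ (B * m) * qOf z ^ (A * m) := by
  have hN : (N : ℂ) ≠ 0 := Nat.cast_ne_zero.mpr (NeZero.ne N)
  have hEC : (E : ℂ) ≠ 0 := Nat.cast_ne_zero.mpr hE.ne'
  have hNC : (N : ℂ) = (E : ℂ) * (m : ℂ) := by rw [← hEm]; push_cast; ring
  unfold qOf Function.Periodic.qParam
  rw [uf2_aff_coe A B E hA hE, hτ, ud_zetaC, ← Complex.exp_nat_mul, ← Complex.exp_nat_mul,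
    ← Complex.exp_add]
  congr 1
  push_cast
  rw [hNC]
  have hmC : (m : ℂ) ≠ 0 := by
    intro h0
    apply hN
    rw [hNC, h0, mul_zero]
  field_simp
  ring

/-- the `q`-form of one Hermite factor: for `τ = N z`, `X = e^{2πi z}`, `E ∣ N`:
`E⁻¹² Δ((Aτ+B)/E)/Δ(τ) = ((N/E)·N⁻¹)¹² Δ_q(ζ_N^(B N/E) X^(A N/E)) / Δ_q(X^N)`. -/
theorem uf2_factor_qform (N : ℕ) [NeZero N] (A B E : ℕ) (hA : 0 < A) (hE : 0 < E)
    (hEN : E ∣ N) (z τ : ℍ) (hτ : (τ : ℂ) = (N : ℂ) * (z : ℂ)) :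
    (E : ℂ) ^ (-12 : ℤ) * ModularForm.discriminant (uf2_aff A B E τ) /
        ModularForm.discriminant τ =
      ((((N / E : ℕ) : ℂ) * (N : ℂ)⁻¹) ^ 12) *
        discFun (ud_zetaC N ^ (B * (N / E)) * qOf z ^ (A * (N / E))) / discFun (qOf z ^ N) := by
  have hEm : E * (N / E) = N := Nat.mul_div_cancel' hEN
  have hN : (N : ℂ) ≠ 0 := Nat.cast_ne_zero.mpr (NeZero.ne N)
  have hEC : (E : ℂ) ≠ 0 := Nat.cast_ne_zero.mpr hE.ne'
  have hNC : (N : ℂ) = (E : ℂ) * ((N / E : ℕ) : ℂ) := by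
    conv_lhs => rw [← hEm]
    push_cast
    ring
  have hc : (E : ℂ) ^ (-12 : ℤ) = ((((N / E : ℕ) : ℂ) * (N : ℂ)⁻¹) ^ 12) := by
    have h1 : ((N / E : ℕ) : ℂ) * (N : ℂ)⁻¹ = (E : ℂ)⁻¹ := by
      have hm : ((N / E : ℕ) : ℂ) ≠ 0 := by
        intro h0
        apply hN
        rw [hNC, h0, mul_zero]
      rw [hNC]
      field_simp
    rw [h1, inv_pow, zpow_neg]
    norm_cast
  rw [hc, uf2_discriminant_eq_discFun, uf2_discriminant_eq_discFun,
    uf2_qOf_aff N A B E (N / E) hA hE hEm z τ hτ, uf2_qOf_pow N z τ hτ]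

/-- **`q`-form of the conjugates** (integer exponents), with exactly the arguments of `ud_Gd`
for the family `ud_familyQ N`. -/
theorem uf2_conj_qform (N : ℕ) [NeZero N] (r : ℕ → ℤ) (x : Q N) (z τ : ℍ)
    (hτ : (τ : ℂ) = (N : ℂ) * (z : ℂ)) :
    uf2_conj N r x τ =
      ∏ d ∈ N.divisors,
        (((((N / (ud_familyQ N).E d x : ℕ) : ℂ) * (N : ℂ)⁻¹) ^ 12) *
          discFun (ud_zetaC N ^ ((ud_familyQ N).B d x * (N / (ud_familyQ N).E d x)) *
            qOf z ^ ((ud_familyQ N).A d x * (N / (ud_familyQ N).E d x))) /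
          discFun (qOf z ^ N)) ^ r d := by
  rw [uf2_conj_triple]
  refine Finset.prod_congr rfl fun d hd => ?_
  have hd0 : 0 < d := Nat.pos_of_mem_divisors hd
  have hdN : d ∣ N := Nat.dvd_of_mem_divisors hd
  obtain ⟨hA, hE, hAE, -, -⟩ := ud_triple_spec N d hd0 x
  have hEN : (ud_triple N d x).2.2 ∣ N := (Dvd.intro_left _ hAE).trans hdN
  rw [uf2_factor_qform N _ _ _ hA hE hEN z τ hτ]
  rfl

/-- **`q`-form of the conjugates** for natural exponents `r : ℕ → ℕ` (the shape of `ud_Gr`). -/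
theorem uf2_conj_qform_nat (N : ℕ) [NeZero N] (r : ℕ → ℕ) (x : Q N) (z τ : ℍ)
    (hτ : (τ : ℂ) = (N : ℂ) * (z : ℂ)) :
    uf2_conj N (fun d => (r d : ℤ)) x τ =
      ∏ d ∈ N.divisors,
        (((((N / (ud_familyQ N).E d x : ℕ) : ℂ) * (N : ℂ)⁻¹) ^ 12) *
          discFun (ud_zetaC N ^ ((ud_familyQ N).B d x * (N / (ud_familyQ N).E d x)) *
            qOf z ^ ((ud_familyQ N).A d x * (N / (ud_familyQ N).E d x))) /
          discFun (qOf z ^ N)) ^ r d := by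
  rw [uf2_conj_qform N _ x z τ hτ]
  refine Finset.prod_congr rfl fun d _ => ?_
  rw [zpow_natCast]

/-- the identity coset: `h_e = g^r`. -/
theorem uf2_conj_e (N : ℕ) (r : ℕ → ℤ) (τ : ℍ) : uf2_conj N r (ud_e N) τ = uf2_gr N r τ :=
  uf2_conj_one N r τ

/-- `g_d(τ) = Δ_q(q^d)/Δ_q(q)`. -/
theorem uf2_gd_qform (d : ℕ) (hd : 0 < d) (τ : ℍ) :
    uf2_gd d τ = discFun (qOf τ ^ d) / discFun (qOf τ) := by
  rw [uf2_gd, uf2_discriminant_eq_discFun, uf2_discriminant_eq_discFun,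
    uf2_qOf_pow d τ (uf2_dmul d τ) (uf2_dmul_coe d hd τ)]

/-- `g^r(τ) = ∏_{d ∣ N} (Δ_q(q^d)/Δ_q(q))^(r d)`. -/
theorem uf2_gr_qform (N : ℕ) (r : ℕ → ℤ) (τ : ℍ) :
    uf2_gr N r τ = ∏ d ∈ N.divisors, (discFun (qOf τ ^ d) / discFun (qOf τ)) ^ r d := by
  unfold uf2_gr
  refine Finset.prod_congr rfl fun d hd => ?_
  rw [uf2_gd_qform d (Nat.pos_of_mem_divisors hd)]

end Fermat.Agent.S28x
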