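/-
S28 project (units route, captain helper94), analytic module AN-A (helper79), prefix `uc_`.

ABSTRACT SYMMETRIC-FUNCTION THEOREM.  Let `h i : ℍ → ℂ` (`i` in a finite type) be holomorphic
functions which are permuted by `SL₂(ℤ)` (`h i (δ • τ) = h (σ i) τ`) and which are given by convergent
Laurent series `G i` in the variable `X = e^{2πiτ/N}`.  Then the polynomial `∏ i, (T - G i)` has
coefficients which are polynomials in `j(X^N)`:  there is a monic `PA ∈ ℂ[Y][T]` of degree `card ι`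
with `PA(j(X^N), T) = ∏ i, (T - G i)` in `ℂ((X))[T]`.

Tools: S24x `ConvLaurent` (`LConv`, `lEval`, identity theorem), S24x `exists_polynomial_jFun`
(level-one invariants of moderate growth are polynomials in `j`), S24x `jqc_lEval_jqC`.
-/
import Fermat.Agent.S24x.JqConv
import Fermat.Agent.S24x.LevelOneInvariant

set_option autoImplicit false

namespace Fermat.Agent.S28x

open UpperHalfPlane ModularCurve Function Filter Topology
open Fermat.Agent.S24x
open scoped MatrixGroups Manifold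

noncomputable section

/-! ### the local parameter `q_N = e^{2πiτ/N}` -/

/-- `q_N(τ) = e^{2πiτ/N}` -/
def uc_qN (N : ℕ) (τ : ℍ) : ℂ := Function.Periodic.qParam (N : ℝ) (τ : ℂ)

theorem uc_qN_ne_zero (N : ℕ) (τ : ℍ) : uc_qN N τ ≠ 0 := Function.Periodic.qParam_ne_zero _

theorem uc_norm_qN_lt_one (N : ℕ) [NeZero N] (τ : ℍ) : ‖uc_qN N τ‖ < 1 :=
  Function.Periodic.norm_qParam_lt_one (Nat.cast_pos.mpr (NeZero.pos N)) τ.im_pos

theorem uc_qN_pow (N : ℕ) [NeZero N] (τ : ℍ) : uc_qN N τ ^ N = qOf τ := by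
  have hN : (N : ℂ) ≠ 0 := Nat.cast_ne_zero.mpr (NeZero.ne N)
  unfold uc_qN qOf Function.Periodic.qParam
  rw [← Complex.exp_nat_mul]
  congr 1
  push_cast
  field_simp

theorem uc_exists_qN_eq (N : ℕ) [NeZero N] {q : ℂ} (hq0 : q ≠ 0) (hq : ‖q‖ < 1) :
    ∃ τ : ℍ, uc_qN N τ = q := by
  have hN : (0 : ℝ) < N := Nat.cast_pos.mpr (NeZero.pos N)
  have him : 0 < (Function.Periodic.invQParam (N : ℝ) q).im := by
    rw [Function.Periodic.im_invQParam]
    have h1 : Real.log ‖q‖ < 0 := Real.log_neg (norm_pos_iff.mpr hq0) hq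
    have h2 : (0 : ℝ) < 2 * Real.pi := by positivity
    have : -(N : ℝ) / (2 * Real.pi) < 0 := div_neg_of_neg_of_pos (by linarith) h2
    exact mul_pos_of_neg_of_neg this h1
  exact ⟨⟨_, him⟩, Function.Periodic.qParam_right_inv hN.ne' hq0⟩

/-- identity theorem in the variable `q_N` -/
theorem uc_eq_zero_of_forall (N : ℕ) [NeZero N] {f : LaurentSeries ℂ} (hf : LConv f)
    (h : ∀ τ : ℍ, lEval f (uc_qN N τ) = 0) : f = 0 := by
  refine hf.eq_zero_of_forall fun q hq0 hq => ?_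
  obtain ⟨τ, rfl⟩ := uc_exists_qN_eq N hq0 hq
  exact h τ

theorem uc_eq_of_forall (N : ℕ) [NeZero N] {f g : LaurentSeries ℂ} (hf : LConv f) (hg : LConv g)
    (h : ∀ τ : ℍ, lEval f (uc_qN N τ) = lEval g (uc_qN N τ)) : f = g := by
  rw [← sub_eq_zero]
  refine uc_eq_zero_of_forall N (hf.sub hg) fun τ => ?_
  rw [lEval_sub hf hg (uc_qN_ne_zero N τ) (uc_norm_qN_lt_one N τ), h τ, sub_self]

theorem uc_tendsto_qN (N : ℕ) [NeZero N] : Tendsto (uc_qN N) atImInfty (𝓝 0) :=
  UpperHalfPlane.qParam_tendsto_atImInfty (Nat.cast_pos.mpr (NeZero.pos N))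

/-! ### moderate growth of functions given by convergent Laurent series in `q_N` -/

/-- If `c τ = lEval f (q_N τ)` for a convergent Laurent series `f` and `N m + ord f ≥ 0`, then
`q^m c` is bounded at `i∞`. -/
theorem uc_isBoundedAtImInfty_of_lEval (N : ℕ) [NeZero N] {f : LaurentSeries ℂ} (hf : LConv f)
    (m : ℕ) (hm : 0 ≤ (N : ℤ) * m + f.order) {c : ℍ → ℂ}
    (hc : ∀ τ : ℍ, c τ = lEval f (uc_qN N τ)) :
    IsBoundedAtImInfty (fun τ : ℍ => Function.Periodic.qParam 1 (τ : ℂ) ^ m * c τ) := by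
  have hp : PSConv f.powerSeriesPart := (lconv_iff_psConv f).mp hf
  obtain ⟨k, hk⟩ := Int.eq_ofNat_of_zero_le hm
  set F : ℂ → ℂ := fun q => q ^ k * psSum f.powerSeriesPart q with hF
  have hFc : ContinuousAt F 0 := (continuousAt_id.pow k).mul hp.continuousAt_zero
  have hfun : (fun τ : ℍ => Function.Periodic.qParam 1 (τ : ℂ) ^ m * c τ) = F ∘ uc_qN N := by
    funext τ
    have hq0 := uc_qN_ne_zero N τ
    have h1 : Function.Periodic.qParam 1 (τ : ℂ) = uc_qN N τ ^ N := (uc_qN_pow N τ).symm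
    simp only [Function.comp_apply, hF]
    rw [hc τ, lEval_eq_order_mul f hq0, h1, ← pow_mul, ← mul_assoc]
    congr 1
    rw [← zpow_natCast (uc_qN N τ) (N * m), ← zpow_natCast (uc_qN N τ) k, ← zpow_add₀ hq0, ← hk]
    push_cast
    rfl
  rw [hfun]
  have htend : Tendsto (F ∘ uc_qN N) atImInfty (𝓝 (F 0)) := hFc.tendsto.comp (uc_tendsto_qN N)
  exact htend.isBigO_one ℝ

/-! ### the algebra of holomorphic functions on `ℍ` -/

/-- holomorphic functions on `ℍ`, as a subalgebra of all functions -/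
def uc_holAlg : Subalgebra ℂ (ℍ → ℂ) where
  carrier := {f | MDiff f}
  mul_mem' hf hg := MDifferentiable.mul hf hg
  add_mem' hf hg := MDifferentiable.add hf hg
  algebraMap_mem' c := by
    show MDiff (fun _ : ℍ => c)
    exact mdifferentiable_const

/-- evaluation at a point, on holomorphic functions -/
def uc_evalAt (τ : ℍ) : uc_holAlg →+* ℂ :=
  (Pi.evalRingHom (fun _ : ℍ => ℂ) τ).comp uc_holAlg.val.toRingHom

@[simp] theorem uc_evalAt_apply (τ : ℍ) (f : uc_holAlg) : uc_evalAt τ f = (f : ℍ → ℂ) τ := rfl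

/-! ### `j(X^N)` -/

/-- the formal `j(X^N)` -/
def uc_JN (N : ℕ) [NeZero N] : LaurentSeries ℂ := qExpand ℂ N jqc_jqC

theorem uc_lconv_JN (N : ℕ) [NeZero N] : LConv (uc_JN N) := LConv.qExpand N jqc_lconv_jqC

theorem uc_lEval_JN (N : ℕ) [NeZero N] (τ : ℍ) : lEval (uc_JN N) (uc_qN N τ) = jFun τ := by
  unfold uc_JN
  rw [lEval_qExpand, uc_qN_pow, jqc_lEval_jqC]

/-- a polynomial in `j(X^N)` converges, and its value at `q_N(τ)` is the polynomial in `j(τ)` -/
theorem uc_lconv_aeval_JN (N : ℕ) [NeZero N] (p : Polynomial ℂ) :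
    LConv (Polynomial.aeval (uc_JN N) p) := by
  have h := Polynomial.aeval_subalgebra_coe p convLaurent ⟨uc_JN N, uc_lconv_JN N⟩
  rw [← h]
  exact (Polynomial.aeval (⟨uc_JN N, uc_lconv_JN N⟩ : convLaurent) p).2

theorem uc_lEval_aeval_JN (N : ℕ) [NeZero N] (p : Polynomial ℂ) (τ : ℍ) :
    lEval (Polynomial.aeval (uc_JN N) p) (uc_qN N τ) = p.eval (jFun τ) := by
  have h := Polynomial.aeval_subalgebra_coe p convLaurent ⟨uc_JN N, uc_lconv_JN N⟩
  rw [← h]
  have h2 := Polynomial.aeval_algHom_apply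
    (lEvalHom (uc_qN N τ) (uc_qN_ne_zero N τ) (uc_norm_qN_lt_one N τ))
    (⟨uc_JN N, uc_lconv_JN N⟩ : convLaurent) p
  have h3 : lEvalHom (uc_qN N τ) (uc_qN_ne_zero N τ) (uc_norm_qN_lt_one N τ)
      (⟨uc_JN N, uc_lconv_JN N⟩ : convLaurent) = jFun τ := uc_lEval_JN N τ
  rw [h3] at h2
  have h4 : lEval ((Polynomial.aeval (⟨uc_JN N, uc_lconv_JN N⟩ : convLaurent) p : convLaurent) :
      LaurentSeries ℂ) (uc_qN N τ) =
      lEvalHom (uc_qN N τ) (uc_qN_ne_zero N τ) (uc_norm_qN_lt_one N τ)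
        (Polynomial.aeval (⟨uc_JN N, uc_lconv_JN N⟩ : convLaurent) p) := rfl
  rw [h4, ← h2, Polynomial.coe_aeval_eq_eval]

/-! ### generic lemmas on `∏ (T - a i)` with roots in a subalgebra -/

section generic

open Polynomial

variable {A : Type*} [CommRing A] [Algebra ℂ A] (S : Subalgebra ℂ A) {ι : Type*} [Fintype ι]

theorem uc_prod_eq_map (a : ι → A) (ha : ∀ i, a i ∈ S) :
    ∏ i, ((X : Polynomial A) - C (a i)) =
      (∏ i, ((X : Polynomial S) - C (⟨a i, ha i⟩ : S))).map S.val.toRingHom := by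
  rw [Polynomial.map_prod]
  refine Finset.prod_congr rfl fun i _ => ?_
  rw [Polynomial.map_sub, Polynomial.map_X, Polynomial.map_C]
  rfl

theorem uc_coeff_prod_mem (a : ι → A) (ha : ∀ i, a i ∈ S) (k : ℕ) :
    (∏ i, ((X : Polynomial A) - C (a i))).coeff k ∈ S := by
  rw [uc_prod_eq_map S a ha, Polynomial.coeff_map]
  exact Subtype.property _

theorem uc_map_coeff_prod (φ : S →+* ℂ) (a : ι → A) (ha : ∀ i, a i ∈ S) (k : ℕ) :
    φ ⟨(∏ i, ((X : Polynomial A) - C (a i))).coeff k, uc_coeff_prod_mem S a ha k⟩ =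
      (∏ i, ((X : Polynomial ℂ) - C (φ ⟨a i, ha i⟩))).coeff k := by
  have h1 : (⟨(∏ i, ((X : Polynomial A) - C (a i))).coeff k, uc_coeff_prod_mem S a ha k⟩ : S) =
      (∏ i, ((X : Polynomial S) - C (⟨a i, ha i⟩ : S))).coeff k := by
    apply Subtype.ext
    show _ = S.val.toRingHom _
    rw [← Polynomial.coeff_map, ← uc_prod_eq_map S a ha]
  rw [h1, ← Polynomial.coeff_map, Polynomial.map_prod]
  congr 1
  refine Finset.prod_congr rfl fun i _ => ?_
  rw [Polynomial.map_sub, Polynomial.map_X, Polynomial.map_C]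

end generic

/-! ### the main theorem -/

/-- `Polynomial.aeval` into `ℂ((X))` in the instance-free spelling -/
theorem uc_aeval_eq_eval₂ (J : LaurentSeries ℂ) (p : Polynomial ℂ) :
    Polynomial.aeval J p = Polynomial.eval₂ HahnSeries.C J p := by
  rw [Polynomial.aeval_def]
  congr 1
  ext c : 1
  exact LaurentSeries.algebraMap_apply _ c

theorem uc_jqC_eq : jqc_jqC = jqModC ℂ := by
  unfold jqc_jqC
  rw [← jqModC_rat]
  exact coeffMap_jqModC _

theorem uc_JN_eq (N : ℕ) [NeZero N] : uc_JN N = jqNModC ℂ N := by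
  unfold uc_JN jqNModC
  rw [uc_jqC_eq]

open Polynomial in
/-- **Abstract symmetric-function theorem** (units route, (U2)).  Holomorphic functions `h i`,
permuted by `SL₂(ℤ)`, with convergent Laurent expansions `G i` in `q_N = e^{2πiτ/N}`: the polynomial
`∏ i, (T - G i)` is the image of a monic `PA ∈ ℂ[Y][T]` of degree `card ι` under `Y ↦ j(X^N)`;
moreover the coefficients of `PA`, evaluated at `j(τ)`, are the coefficients of `∏ (T - h i τ)`. -/
theorem uc_exists_poly (N : ℕ) [NeZero N] {ι : Type*} [Fintype ι]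
    (h : ι → ℍ → ℂ) (hhol : ∀ i, MDiff (h i))
    (hperm : ∀ δ : SL(2, ℤ), ∃ σ : Equiv.Perm ι, ∀ i τ, h i (δ • τ) = h (σ i) τ)
    (G : ι → LaurentSeries ℂ) (hG : ∀ i, LConv (G i))
    (hev : ∀ i (τ : ℍ), h i τ = lEval (G i) (uc_qN N τ)) :
    ∃ PA : Polynomial (Polynomial ℂ), PA.Monic ∧ PA.natDegree = Fintype.card ι ∧
      (∀ (k : ℕ) (τ : ℍ), (PA.coeff k).eval (jFun τ) =
        (∏ i, ((X : Polynomial ℂ) - C (h i τ))).coeff k) ∧
      PA.map (Polynomial.eval₂RingHom HahnSeries.C (jqNModC ℂ N)) =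
        ∏ i, ((X : Polynomial (LaurentSeries ℂ)) - C (G i)) := by
  classical
  set n := Fintype.card ι with hn
  -- the two polynomials
  set Pf : Polynomial (ℍ → ℂ) := ∏ i, ((X : Polynomial (ℍ → ℂ)) - C (h i)) with hPf
  set Pg : Polynomial (LaurentSeries ℂ) := ∏ i, ((X : Polynomial (LaurentSeries ℂ)) - C (G i))
    with hPg
  have hPg_monic : Pg.Monic := monic_prod_of_monic _ _ (fun i _ => monic_X_sub_C _)
  have hPg_deg : Pg.natDegree = n := by
    rw [hPg, natDegree_prod_of_monic _ _ (fun i _ => monic_X_sub_C _)]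
    simp [hn]
  have hhmem : ∀ i, h i ∈ uc_holAlg := hhol
  have hGmem : ∀ i, G i ∈ convLaurent := hG
  have hPf_hol : ∀ k, MDiff (Pf.coeff k) := fun k => uc_coeff_prod_mem uc_holAlg h hhmem k
  have hPg_conv : ∀ k, LConv (Pg.coeff k) := fun k => uc_coeff_prod_mem convLaurent G hGmem k
  -- pointwise polynomial
  set P : ℍ → Polynomial ℂ := fun τ => ∏ i, ((X : Polynomial ℂ) - C (h i τ)) with hP
  have hP_monic : ∀ τ, (P τ).Monic := fun τ => monic_prod_of_monic _ _ (fun i _ => monic_X_sub_C _)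
  have hP_deg : ∀ τ, (P τ).natDegree = n := by
    intro τ
    rw [hP]
    simp only
    rw [natDegree_prod_of_monic _ _ (fun i _ => monic_X_sub_C _)]
    simp [hn]
  have hev1 : ∀ (τ : ℍ) (k : ℕ), (Pf.coeff k) τ = (P τ).coeff k := fun τ k =>
    uc_map_coeff_prod uc_holAlg (uc_evalAt τ) h hhmem k
  have hev2 : ∀ (τ : ℍ) (k : ℕ), lEval (Pg.coeff k) (uc_qN N τ) = (P τ).coeff k := by
    intro τ k
    have h1 := uc_map_coeff_prod convLaurent
      (lEvalHom (uc_qN N τ) (uc_qN_ne_zero N τ) (uc_norm_qN_lt_one N τ)).toRingHom G hGmem k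
    have h2 : ∀ i, (lEvalHom (uc_qN N τ) (uc_qN_ne_zero N τ) (uc_norm_qN_lt_one N τ)).toRingHom
        ⟨G i, hGmem i⟩ = h i τ := fun i => (hev i τ).symm
    simp only [h2] at h1
    exact h1
  -- invariance of the coefficient functions
  have hinv : ∀ (k : ℕ) (δ : SL(2, ℤ)) (τ : ℍ), (Pf.coeff k) (δ • τ) = (Pf.coeff k) τ := by
    intro k δ τ
    rw [hev1, hev1]
    obtain ⟨σ, hσ⟩ := hperm δ
    have : P (δ • τ) = P τ := by
      simp only [hP]
      simp_rw [hσ]
      exact Equiv.prod_comp σ (fun i => (X : Polynomial ℂ) - C (h i τ))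
    rw [this]
  -- the coefficients are polynomials in `j`
  have hpoly : ∀ k : ℕ, ∃ p : Polynomial ℂ, ∀ τ : ℍ, (Pf.coeff k) τ = p.eval (jFun τ) := by
    intro k
    set f : LaurentSeries ℂ := Pg.coeff k with hf
    set m : ℕ := (-f.order).toNat with hm
    have hm0 : 0 ≤ (N : ℤ) * m + f.order := by
      have h1 : -f.order ≤ (m : ℤ) := Int.self_le_toNat _
      have h2 : (1 : ℤ) ≤ N := by exact_mod_cast NeZero.pos N
      have h3 : (0 : ℤ) ≤ m := Int.natCast_nonneg m
      nlinarith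
    obtain ⟨p, -, hp⟩ := exists_polynomial_jFun m (Pf.coeff k) (hPf_hol k) (hinv k)
      (uc_isBoundedAtImInfty_of_lEval N (hPg_conv k) m hm0
        (fun τ => (hev1 τ k).trans (hev2 τ k).symm))
    exact ⟨p, hp⟩
  choose p hp using hpoly
  -- the formal identity for the coefficients
  have hformal : ∀ k : ℕ, Pg.coeff k = Polynomial.eval₂ HahnSeries.C (jqNModC ℂ N) (p k) := by
    intro k
    rw [← uc_aeval_eq_eval₂, ← uc_JN_eq]
    refine uc_eq_of_forall N (hPg_conv k) (uc_lconv_aeval_JN N (p k)) fun τ => ?_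
    rw [hev2, ← hev1, hp, uc_lEval_aeval_JN]
  -- the polynomial
  have hdeg : (∑ k ∈ Finset.range n, C (p k) * X ^ k : Polynomial (Polynomial ℂ)).degree <
      (n : WithBot ℕ) := by
    rw [Polynomial.degree_lt_iff_coeff_zero]
    intro m hm
    rw [Polynomial.finsetSum_coeff]
    refine Finset.sum_eq_zero fun k hk => ?_
    have hk' := Finset.mem_range.mp hk
    rw [Polynomial.coeff_C_mul, Polynomial.coeff_X_pow, if_neg (by omega), mul_zero]
  have hcoeff : ∀ k, k < n →
      (X ^ n + ∑ k ∈ Finset.range n, C (p k) * X ^ k : Polynomial (Polynomial ℂ)).coeff k = p k := by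
    intro k hk
    rw [Polynomial.coeff_add, Polynomial.coeff_X_pow, if_neg (by omega), zero_add,
      Polynomial.finsetSum_coeff, Finset.sum_eq_single k]
    · rw [Polynomial.coeff_C_mul, Polynomial.coeff_X_pow, if_pos rfl, mul_one]
    · intro b _ hb
      rw [Polynomial.coeff_C_mul, Polynomial.coeff_X_pow, if_neg (by omega), mul_zero]
    · intro hk2
      exact absurd (Finset.mem_range.mpr hk) hk2
  have hmonic : (X ^ n + ∑ k ∈ Finset.range n, C (p k) * X ^ k : Polynomial (Polynomial ℂ)).Monic :=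
    monic_X_pow_add hdeg
  have hnat : (X ^ n + ∑ k ∈ Finset.range n, C (p k) * X ^ k :
      Polynomial (Polynomial ℂ)).natDegree = n := by
    rw [natDegree_add_eq_left_of_degree_lt, natDegree_X_pow]
    rw [degree_X_pow]
    exact hdeg
  refine ⟨X ^ n + ∑ k ∈ Finset.range n, C (p k) * X ^ k, hmonic, hnat, ?_, ?_⟩
  · intro k τ
    rcases lt_trichotomy k n with hk | hk | hk
    · rw [hcoeff k hk, ← hp, hev1]
    · subst hk
      have h1 := hmonic.coeff_natDegree
      rw [hnat] at h1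
      have h2 := (hP_monic τ).coeff_natDegree
      rw [hP_deg τ] at h2
      rw [h1, h2, eval_one]
    · rw [coeff_eq_zero_of_natDegree_lt (by rw [hnat]; exact hk),
        coeff_eq_zero_of_natDegree_lt (by rw [hP_deg τ]; exact hk), eval_zero]
  · have hformal' : ∀ k : ℕ,
        Polynomial.eval₂RingHom HahnSeries.C (jqNModC ℂ N) (p k) = Pg.coeff k := fun k => by
      rw [Polynomial.coe_eval₂RingHom]
      exact (hformal k).symm
    have hPg_sum := hPg_monic.as_sum
    rw [hPg_deg] at hPg_sum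
    rw [hPg_sum]
    simp only [Polynomial.map_add, Polynomial.map_pow, Polynomial.map_X, Polynomial.map_sum,
      Polynomial.map_mul, Polynomial.map_C, hformal']

open Polynomial in
/-- **Unit version**: if moreover the `h i` have no zeros on `ℍ`, the constant term of `PA` is a
non-zero constant. -/
theorem uc_exists_poly_unit (N : ℕ) [NeZero N] {ι : Type*} [Fintype ι]
    (h : ι → ℍ → ℂ) (hhol : ∀ i, MDiff (h i))
    (hperm : ∀ δ : SL(2, ℤ), ∃ σ : Equiv.Perm ι, ∀ i τ, h i (δ • τ) = h (σ i) τ)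
    (hne : ∀ i τ, h i τ ≠ 0)
    (G : ι → LaurentSeries ℂ) (hG : ∀ i, LConv (G i))
    (hev : ∀ i (τ : ℍ), h i τ = lEval (G i) (uc_qN N τ)) :
    ∃ (PA : Polynomial (Polynomial ℂ)) (c : ℂ), PA.Monic ∧ PA.natDegree = Fintype.card ι ∧
      c ≠ 0 ∧ PA.coeff 0 = C c ∧
      PA.map (Polynomial.eval₂RingHom HahnSeries.C (jqNModC ℂ N)) =
        ∏ i, ((X : Polynomial (LaurentSeries ℂ)) - C (G i)) := by
  classical
  obtain ⟨PA, hmon, hdeg, hcoef, hmap⟩ := uc_exists_poly N h hhol hperm G hG hev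
  -- the constant term never vanishes at `j τ`
  have h0 : ∀ τ : ℍ, (PA.coeff 0).eval (jFun τ) ≠ 0 := by
    intro τ
    rw [hcoef 0 τ, Polynomial.coeff_zero_eq_eval_zero, Polynomial.eval_prod]
    refine Finset.prod_ne_zero_iff.mpr fun i _ => ?_
    rw [eval_sub, eval_X, eval_C, zero_sub]
    exact neg_ne_zero.mpr (hne i τ)
  -- hence it has no root, so it is constant
  have hroot : ∀ z : ℂ, (PA.coeff 0).eval z ≠ 0 := by
    intro z
    obtain ⟨τ, rfl⟩ := jFun_surjective z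
    exact h0 τ
  have hd0 : (PA.coeff 0).degree = 0 := by
    by_contra hd
    obtain ⟨z, hz⟩ := IsAlgClosed.exists_root (PA.coeff 0) hd
    exact hroot z hz
  have hC := Polynomial.eq_C_of_degree_eq_zero hd0
  refine ⟨PA, (PA.coeff 0).coeff 0, hmon, hdeg, ?_, hC, hmap⟩
  intro hc
  rw [hc, map_zero] at hC
  have := hroot 0
  rw [hC, eval_zero] at this
  exact this rfl

end

end Fermat.Agent.S28x
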