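/-
S28 project (units route), analytic module AN-A (helper79), add-on to `UnitSym.lean`, prefix `uc_`.

The abstract symmetric-function theorem with the hypothesis on the expansions in the form used by
`UnitFunQ.lean`:  `h i τ = lEval (G i) (qOf z)` whenever `τ = N z`.
-/
import Fermat.Agent.S28x.UnitSym

set_option autoImplicit false

namespace Fermat.Agent.S28x

open UpperHalfPlane ModularCurve Function Filter Topology
open Fermat.Agent.S24x
open scoped MatrixGroups Manifold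

noncomputable section

/-- every `τ : ℍ` is `N z` for some `z : ℍ` -/
theorem uc_exists_eq_mul (N : ℕ) [NeZero N] (τ : ℍ) : ∃ z : ℍ, (τ : ℂ) = (N : ℂ) * (z : ℂ) := by
  have hN : (0 : ℝ) < N := Nat.cast_pos.mpr (NeZero.pos N)
  have hNC : (N : ℂ) ≠ 0 := Nat.cast_ne_zero.mpr (NeZero.ne N)
  have him : 0 < ((τ : ℂ) / (N : ℂ)).im := by
    have : ((τ : ℂ) / (N : ℂ)).im = τ.im / N := by
      rw [show ((N : ℂ)) = ((N : ℝ) : ℂ) by push_cast; rfl, Complex.div_ofReal_im]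
      rfl
    rw [this]
    exact div_pos τ.im_pos hN
  refine ⟨⟨_, him⟩, ?_⟩
  show (τ : ℂ) = (N : ℂ) * ((τ : ℂ) / (N : ℂ))
  field_simp

/-- `q_N(τ) = q(z)` when `τ = N z` -/
theorem uc_qN_eq_qOf (N : ℕ) [NeZero N] (z τ : ℍ) (hτ : (τ : ℂ) = (N : ℂ) * (z : ℂ)) :
    uc_qN N τ = qOf z := by
  have hNC : (N : ℂ) ≠ 0 := Nat.cast_ne_zero.mpr (NeZero.ne N)
  unfold uc_qN qOf Function.Periodic.qParam
  rw [hτ]
  congr 1
  push_cast
  field_simp

open Polynomial in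
/-- `uc_exists_poly_unit` with the expansion hypothesis in the `z`-form:
`h i τ = lEval (G i) (qOf z)` whenever `τ = N z`. -/
theorem uc_exists_poly_unit_qOf (N : ℕ) [NeZero N] {ι : Type*} [Fintype ι]
    (h : ι → ℍ → ℂ) (hhol : ∀ i, MDiff (h i))
    (hperm : ∀ δ : SL(2, ℤ), ∃ σ : Equiv.Perm ι, ∀ i τ, h i (δ • τ) = h (σ i) τ)
    (hne : ∀ i τ, h i τ ≠ 0)
    (G : ι → LaurentSeries ℂ) (hG : ∀ i, LConv (G i))
    (hev : ∀ i (z τ : ℍ), (τ : ℂ) = (N : ℂ) * (z : ℂ) → h i τ = lEval (G i) (qOf z)) :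
    ∃ (PA : Polynomial (Polynomial ℂ)) (c : ℂ), PA.Monic ∧ PA.natDegree = Fintype.card ι ∧
      c ≠ 0 ∧ PA.coeff 0 = C c ∧
      PA.map (Polynomial.eval₂RingHom HahnSeries.C (jqNModC ℂ N)) =
        ∏ i, ((X : Polynomial (LaurentSeries ℂ)) - C (G i)) := by
  refine uc_exists_poly_unit N h hhol hperm hne G hG fun i τ => ?_
  obtain ⟨z, hz⟩ := uc_exists_eq_mul N τ
  rw [uc_qN_eq_qOf N z τ hz]
  exact hev i z τ hz

end

end Fermat.Agent.S28x
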