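/-
S28 project (units route), analytic module AN (helper79), prefix `uc_`.

HYPOTHESIS FORM of AN-MAIN: `ud_ANMain N` follows from the two AN-C facts about the formal conjugates
`ud_Gr ℂ (ud_familyQ N) ζ_N N⁻¹ r x` (convergence, and their values are the function-level conjugates
`uf2_conj N r x` of `UnitFun.lean`), by the abstract symmetric-function theorem of `UnitSym(Q).lean`.
-/
import Fermat.Agent.S28x.UnitSymQ
import Fermat.Agent.S28x.UnitFunQ

set_option autoImplicit false

namespace Fermat.Agent.S28x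

open UpperHalfPlane ModularCurve
open Fermat.Agent.S24x
open scoped MatrixGroups Manifold

/-- **AN-MAIN from AN-C**: if the formal conjugates converge and evaluate (at `q(z)`, `τ = N z`) to
the function-level conjugates `uf2_conj N r x τ`, then `ud_ANMain N` holds. -/
theorem uc_anMain_of (N : ℕ) [NeZero N]
    (hconv : ∀ (r : ℕ → ℕ) (x : Q N),
      LConv (ud_Gr ℂ (ud_familyQ N) (ud_zetaC N) ((N : ℂ)⁻¹) r x))
    (hev : ∀ (r : ℕ → ℕ) (x : Q N) (z τ : ℍ), (τ : ℂ) = (N : ℂ) * (z : ℂ) →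
      uf2_conj N (fun d => (r d : ℤ)) x τ =
        lEval (ud_Gr ℂ (ud_familyQ N) (ud_zetaC N) ((N : ℂ)⁻¹) r x) (qOf z)) :
    ud_ANMain N := by
  intro r
  exact uc_exists_poly_unit_qOf N (fun x => uf2_conj N (fun d => (r d : ℤ)) x)
    (fun x => uf2_conj_mdiff N _ x) (fun δ => uf2_conj_perm N _ δ)
    (fun x τ => uf2_conj_ne_zero N _ x τ)
    (fun x => ud_Gr ℂ (ud_familyQ N) (ud_zetaC N) ((N : ℂ)⁻¹) r x) (hconv r)
    (fun x z τ hτ => hev r x z τ hτ)

end Fermat.Agent.S28x
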