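/-
S28 units route, analytic toolbox (helper24): inverses of convergent Laurent series.

On top of `S24x/ConvLaurent.lean` (`LConv`, `lEval`): if `f ≠ 0` converges on the punctured unit
disc and its sum has no zero there, then `f⁻¹` converges as well and `lEval f⁻¹ = (lEval f)⁻¹`.
Also integer powers and finite products.  Prefix `cvi_`.
-/
import Mathlib
import Fermat.Agent.S24x.ConvLaurent
import Fermat.Agent.S24x.JqConv

set_option autoImplicit false

namespace Fermat.Agent.S28x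

open HahnSeries Fermat.Agent.S24x

/-- the power series with prescribed coefficients -/
noncomputable def cvi_taylor (g : ℂ → ℂ) : PowerSeries ℂ :=
  PowerSeries.mk fun n => ((n.factorial : ℂ))⁻¹ * iteratedDeriv n g 0

theorem cvi_coeff_taylor (g : ℂ → ℂ) (n : ℕ) :
    PowerSeries.coeff n (cvi_taylor g) = ((n.factorial : ℂ))⁻¹ * iteratedDeriv n g 0 := by
  unfold cvi_taylor
  rw [PowerSeries.coeff_mk]

/-- Taylor expansion on the unit disc, in the `psSum` vocabulary. -/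
theorem cvi_hasSum_taylor {g : ℂ → ℂ} (hg : DifferentiableOn ℂ g (Metric.ball 0 1)) {q : ℂ}
    (hq : ‖q‖ < 1) :
    HasSum (fun n : ℕ => PowerSeries.coeff n (cvi_taylor g) * q ^ n) (g q) := by
  have hz : q ∈ Metric.ball (0 : ℂ) 1 := by simpa using hq
  have h := Complex.hasSum_taylorSeries_on_ball hg hz
  refine h.congr_fun fun n => ?_
  rw [cvi_coeff_taylor, sub_zero, smul_eq_mul, smul_eq_mul]
  ring

theorem cvi_psConv_taylor {g : ℂ → ℂ} (hg : DifferentiableOn ℂ g (Metric.ball 0 1)) :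
    PSConv (cvi_taylor g) :=
  psConv_of_summable _ fun τ => (cvi_hasSum_taylor hg (norm_qOf_lt_one τ)).summable

theorem cvi_psSum_taylor {g : ℂ → ℂ} (hg : DifferentiableOn ℂ g (Metric.ball 0 1)) {q : ℂ}
    (hq : ‖q‖ < 1) : psSum (cvi_taylor g) q = g q :=
  (cvi_hasSum_taylor hg hq).tsum_eq

/-- Inverse of a convergent power series without zeros on the unit disc. -/
theorem cvi_exists_ps_inv {p : PowerSeries ℂ} (hp : PSConv p)
    (hne : ∀ q : ℂ, ‖q‖ < 1 → psSum p q ≠ 0) :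
    ∃ r : PowerSeries ℂ, PSConv r ∧ p * r = 1 ∧ ∀ q : ℂ, ‖q‖ < 1 → psSum r q = (psSum p q)⁻¹ := by
  have hd : DifferentiableOn ℂ (fun q => (psSum p q)⁻¹) (Metric.ball 0 1) := by
    intro q hq
    have hq' : ‖q‖ < 1 := by simpa using hq
    exact ((hp.analyticOnNhd q hq).differentiableAt.inv (hne q hq')).differentiableWithinAt
  refine ⟨cvi_taylor fun q => (psSum p q)⁻¹, cvi_psConv_taylor hd, ?_,
    fun q hq => cvi_psSum_taylor hd hq⟩
  set r := cvi_taylor fun q => (psSum p q)⁻¹ with hr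
  have hrc : PSConv r := cvi_psConv_taylor hd
  have h1 : LConv (ofPowerSeries ℤ ℂ p) := jqc_lconv_ofPowerSeries hp
  have h2 : LConv (ofPowerSeries ℤ ℂ r) := jqc_lconv_ofPowerSeries hrc
  have hz : ofPowerSeries ℤ ℂ p * ofPowerSeries ℤ ℂ r - 1 = 0 := by
    refine ((h1.mul h2).sub lconv_one).eq_zero_of_forall fun q hq0 hq => ?_
    rw [lEval_sub (h1.mul h2) lconv_one hq0 hq, lEval_mul h1 h2 hq0 hq, lEval_one,
      jqc_lEval_ofPowerSeries, jqc_lEval_ofPowerSeries, cvi_psSum_taylor hd hq,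
      mul_inv_cancel₀ (hne q hq), sub_self]
  have hz' : ofPowerSeries ℤ ℂ (p * r) = ofPowerSeries ℤ ℂ 1 := by
    rw [map_mul, map_one]
    exact sub_eq_zero.mp hz
  exact HahnSeries.ofPowerSeries_injective hz'

/-- **Inverse of a convergent Laurent series** without zeros on the punctured unit disc. -/
theorem cvi_exists_inv {f : LaurentSeries ℂ} (hf : LConv f) (hf0 : f ≠ 0)
    (hne : ∀ q : ℂ, q ≠ 0 → ‖q‖ < 1 → lEval f q ≠ 0) :
    ∃ g : LaurentSeries ℂ, LConv g ∧ f * g = 1 ∧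
      ∀ q : ℂ, q ≠ 0 → ‖q‖ < 1 → lEval g q = (lEval f q)⁻¹ := by
  have hp : PSConv f.powerSeriesPart := (lconv_iff_psConv f).mp hf
  have hpne : ∀ q : ℂ, ‖q‖ < 1 → psSum f.powerSeriesPart q ≠ 0 := by
    intro q hq
    rcases eq_or_ne q 0 with rfl | hq0
    · rw [psSum_zero_apply]
      exact coeff_zero_powerSeriesPart_ne_zero hf0
    · intro h0
      refine hne q hq0 hq ?_
      rw [lEval_eq_order_mul f hq0, h0, mul_zero]
  obtain ⟨r, hrc, hpr, hrv⟩ := cvi_exists_ps_inv hp hpne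
  have h2 : LConv (ofPowerSeries ℤ ℂ r) := jqc_lconv_ofPowerSeries hrc
  refine ⟨single (-f.order) (1 : ℂ) * ofPowerSeries ℤ ℂ r, (lconv_single _ _).mul h2, ?_, ?_⟩
  · have hf' : single f.order (1 : ℂ) * ofPowerSeries ℤ ℂ f.powerSeriesPart = f :=
      LaurentSeries.single_order_mul_powerSeriesPart f
    have hss : (single f.order (1 : ℂ) : LaurentSeries ℂ) * single (-f.order) (1 : ℂ) = 1 := by
      rw [single_mul_single, add_neg_cancel, mul_one]
      rfl
    calc f * (single (-f.order) (1 : ℂ) * ofPowerSeries ℤ ℂ r)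
        = (single f.order (1 : ℂ) * ofPowerSeries ℤ ℂ f.powerSeriesPart) *
            (single (-f.order) (1 : ℂ) * ofPowerSeries ℤ ℂ r) := by rw [hf']
      _ = (single f.order (1 : ℂ) * single (-f.order) (1 : ℂ)) *
            (ofPowerSeries ℤ ℂ f.powerSeriesPart * ofPowerSeries ℤ ℂ r) :=
          mul_mul_mul_comm _ _ _ _
      _ = 1 := by rw [hss, one_mul, ← map_mul, hpr, map_one]
  · intro q hq0 hq
    rw [lEval_mul (lconv_single _ _) h2 hq0 hq, lEval_single, one_mul, jqc_lEval_ofPowerSeries,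
      hrv q hq, lEval_eq_order_mul f hq0, mul_inv, zpow_neg]

theorem cvi_lconv_inv {f : LaurentSeries ℂ} (hf : LConv f) (hf0 : f ≠ 0)
    (hne : ∀ q : ℂ, q ≠ 0 → ‖q‖ < 1 → lEval f q ≠ 0) : LConv f⁻¹ := by
  obtain ⟨g, hg, hfg, -⟩ := cvi_exists_inv hf hf0 hne
  rwa [inv_eq_of_mul_eq_one_right hfg]

theorem cvi_lEval_inv {f : LaurentSeries ℂ} (hf : LConv f) (hf0 : f ≠ 0)
    (hne : ∀ q : ℂ, q ≠ 0 → ‖q‖ < 1 → lEval f q ≠ 0) {q : ℂ} (hq0 : q ≠ 0) (hq : ‖q‖ < 1) :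
    lEval f⁻¹ q = (lEval f q)⁻¹ := by
  obtain ⟨g, -, hfg, hv⟩ := cvi_exists_inv hf hf0 hne
  rw [inv_eq_of_mul_eq_one_right hfg]
  exact hv q hq0 hq

theorem cvi_lconv_div {f g : LaurentSeries ℂ} (hf : LConv f) (hg : LConv g) (hg0 : g ≠ 0)
    (hne : ∀ q : ℂ, q ≠ 0 → ‖q‖ < 1 → lEval g q ≠ 0) : LConv (f / g) := by
  rw [div_eq_mul_inv]
  exact hf.mul (cvi_lconv_inv hg hg0 hne)

theorem cvi_lEval_div {f g : LaurentSeries ℂ} (hf : LConv f) (hg : LConv g) (hg0 : g ≠ 0)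
    (hne : ∀ q : ℂ, q ≠ 0 → ‖q‖ < 1 → lEval g q ≠ 0) {q : ℂ} (hq0 : q ≠ 0) (hq : ‖q‖ < 1) :
    lEval (f / g) q = lEval f q / lEval g q := by
  rw [div_eq_mul_inv, lEval_mul hf (cvi_lconv_inv hg hg0 hne) hq0 hq,
    cvi_lEval_inv hg hg0 hne hq0 hq, div_eq_mul_inv]

theorem cvi_lconv_zpow {f : LaurentSeries ℂ} (hf : LConv f) (hf0 : f ≠ 0)
    (hne : ∀ q : ℂ, q ≠ 0 → ‖q‖ < 1 → lEval f q ≠ 0) (n : ℤ) : LConv (f ^ n) := by
  rcases n with n | n
  · rw [Int.ofNat_eq_natCast, zpow_natCast]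
    exact hf.pow n
  · rw [zpow_negSucc]
    have h1 : LConv (f ^ (n + 1)) := hf.pow (n + 1)
    refine cvi_lconv_inv h1 (pow_ne_zero _ hf0) fun q hq0 hq => ?_
    rw [lEval_pow hf _ hq0 hq]
    exact pow_ne_zero _ (hne q hq0 hq)

theorem cvi_lEval_zpow {f : LaurentSeries ℂ} (hf : LConv f) (hf0 : f ≠ 0)
    (hne : ∀ q : ℂ, q ≠ 0 → ‖q‖ < 1 → lEval f q ≠ 0) (n : ℤ) {q : ℂ} (hq0 : q ≠ 0)
    (hq : ‖q‖ < 1) : lEval (f ^ n) q = lEval f q ^ n := by
  rcases n with n | n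
  · rw [Int.ofNat_eq_natCast, zpow_natCast, zpow_natCast]
    exact lEval_pow hf n hq0 hq
  · rw [zpow_negSucc, zpow_negSucc]
    have h1 : LConv (f ^ (n + 1)) := hf.pow (n + 1)
    have hne1 : ∀ q : ℂ, q ≠ 0 → ‖q‖ < 1 → lEval (f ^ (n + 1)) q ≠ 0 := fun q hq0 hq => by
      rw [lEval_pow hf _ hq0 hq]
      exact pow_ne_zero _ (hne q hq0 hq)
    rw [cvi_lEval_inv h1 (pow_ne_zero _ hf0) hne1 hq0 hq, lEval_pow hf _ hq0 hq]

theorem cvi_lconv_prod {ι : Type*} (s : Finset ι) (f : ι → LaurentSeries ℂ)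
    (hf : ∀ i ∈ s, LConv (f i)) : LConv (∏ i ∈ s, f i) := by
  classical
  induction s using Finset.induction_on with
  | empty => simpa using lconv_one
  | insert a s ha ih =>
    rw [Finset.prod_insert ha]
    exact (hf a (Finset.mem_insert_self a s)).mul
      (ih fun i hi => hf i (Finset.mem_insert_of_mem hi))

theorem cvi_lEval_prod {ι : Type*} (s : Finset ι) (f : ι → LaurentSeries ℂ)
    (hf : ∀ i ∈ s, LConv (f i)) {q : ℂ} (hq0 : q ≠ 0) (hq : ‖q‖ < 1) :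
    lEval (∏ i ∈ s, f i) q = ∏ i ∈ s, lEval (f i) q := by
  classical
  induction s using Finset.induction_on with
  | empty => simpa using lEval_one q
  | insert a s ha ih =>
    rw [Finset.prod_insert ha, Finset.prod_insert ha,
      lEval_mul (hf a (Finset.mem_insert_self a s))
        (cvi_lconv_prod s f fun i hi => hf i (Finset.mem_insert_of_mem hi)) hq0 hq,
      ih fun i hi => hf i (Finset.mem_insert_of_mem hi)]

end Fermat.Agent.S28x
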