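/-
S28 units route, analytic toolbox (helper24): the formal discriminant
`Δ_f = X ∏ (1 - X^n)^24 ∈ ℂ((X))` converges, its value at `q(τ)` is `Δ(τ)`, it has no zeros on the
punctured disc; twisted versions `Δ_f(u X^m)` evaluate to `Δ((A N z + B) / E)`.  Prefix `cvd_`.
-/
import Mathlib
import Fermat.Agent.S24x.ConvLaurent
import Fermat.Agent.S24x.JqConv
import Fermat.Agent.S24x.DeltaQExp
import Fermat.Agent.S28x.ConvInv
import Fermat.Agent.S28x.ConvTwist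

set_option autoImplicit false

namespace Fermat.Agent.S28x

open HahnSeries Fermat.Agent.S24x UpperHalfPlane ModularCurve ModularFormClass

/-- `∏ (1 - X^n)^24` with complex coefficients -/
noncomputable def cvd_etaC : PowerSeries ℂ := dedekindEtaUnit.map (Int.castRingHom ℂ)

/-- the formal discriminant `X ∏ (1 - X^n)^24` with complex coefficients -/
noncomputable def cvd_deltaC : LaurentSeries ℂ :=
  single (1 : ℤ) (1 : ℂ) * ofPowerSeries ℤ ℂ cvd_etaC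

theorem cvd_deltaC_eq : cvd_deltaC = ofPowerSeries ℤ ℂ (PowerSeries.X * cvd_etaC) := by
  rw [map_mul, ofPowerSeries_X]
  rfl

theorem cvd_qExpansion :
    qExpansion 1 ModularForm.discriminant = PowerSeries.X * cvd_etaC := by
  rw [qExpansion_discriminant]
  rfl

theorem cvd_hasSum (τ : ℍ) :
    HasSum (fun m : ℕ => PowerSeries.coeff m (PowerSeries.X * cvd_etaC) * qOf τ ^ m)
      (ModularForm.discriminant τ) := by
  have h := ModularForm.hasSum_qExpansion (f := CuspForm.discriminant) one_pos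
    one_mem_strictPeriods_SL τ
  have hq : qExpansion 1 (CuspForm.discriminant : ℍ → ℂ) = PowerSeries.X * cvd_etaC :=
    cvd_qExpansion
  rw [hq] at h
  exact h

theorem cvd_psConv : PSConv (PowerSeries.X * cvd_etaC) :=
  psConv_of_summable _ fun τ => (cvd_hasSum τ).summable

theorem cvd_lconv_deltaC : LConv cvd_deltaC := by
  rw [cvd_deltaC_eq]
  exact jqc_lconv_ofPowerSeries cvd_psConv

theorem cvd_lEval_deltaC (τ : ℍ) : lEval cvd_deltaC (qOf τ) = ModularForm.discriminant τ := by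
  rw [cvd_deltaC_eq, jqc_lEval_ofPowerSeries]
  exact (cvd_hasSum τ).tsum_eq

theorem cvd_lEval_deltaC_ne_zero {q : ℂ} (hq0 : q ≠ 0) (hq : ‖q‖ < 1) :
    lEval cvd_deltaC q ≠ 0 := by
  obtain ⟨τ, rfl⟩ := exists_qOf_eq hq0 hq
  rw [cvd_lEval_deltaC]
  exact ModularForm.discriminant_ne_zero τ

theorem cvd_deltaC_ne_zero : cvd_deltaC ≠ 0 := by
  intro h
  have h1 := cvd_lEval_deltaC_ne_zero (q := (1 / 2 : ℂ)) (by norm_num) (by norm_num)
  rw [h, lEval_zero] at h1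
  exact h1 rfl

/-! ### substitution `X ↦ X ^ N` -/

theorem cvd_lconv_qExpand_deltaC (N : ℕ) [NeZero N] : LConv (qExpand ℂ N cvd_deltaC) :=
  cvd_lconv_deltaC.qExpand N

theorem cvd_lEval_qExpand_deltaC_ne_zero (N : ℕ) [NeZero N] {q : ℂ} (hq0 : q ≠ 0) (hq : ‖q‖ < 1) :
    lEval (qExpand ℂ N cvd_deltaC) q ≠ 0 := by
  rw [lEval_qExpand]
  refine cvd_lEval_deltaC_ne_zero (pow_ne_zero _ hq0) ?_
  rw [norm_pow]
  exact pow_lt_one₀ (norm_nonneg _) hq (NeZero.ne N)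

theorem cvd_qExpand_deltaC_ne_zero (N : ℕ) [NeZero N] : qExpand ℂ N cvd_deltaC ≠ 0 := by
  intro h
  have h1 := cvd_lEval_qExpand_deltaC_ne_zero N (q := (1 / 2 : ℂ)) (by norm_num) (by norm_num)
  rw [h, lEval_zero] at h1
  exact h1 rfl

/-- value of `Δ_f(X^N)` at `q(z)`: `Δ(N z)` -/
theorem cvd_lEval_qExpand_deltaC (N : ℕ) [NeZero N] (z τ' : ℍ)
    (h : (τ' : ℂ) = (N : ℂ) * (z : ℂ)) :
    lEval (qExpand ℂ N cvd_deltaC) (qOf z) = ModularForm.discriminant τ' := by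
  rw [lEval_qExpand, jqc_qOf_pow N z τ' h, cvd_lEval_deltaC]

/-! ### the twisted discriminant -/

/-- `q((M z + B) / E) = e^{2πi B / E} · q(z)^{M / E}` when `M = E * m`. -/
theorem cvd_qOf_eq (z τ' : ℍ) (m B E : ℕ) (hE : E ≠ 0)
    (h : (τ' : ℂ) = (((E * m : ℕ) : ℂ) * (z : ℂ) + (B : ℂ)) / (E : ℂ)) :
    qOf τ' = Complex.exp (2 * Real.pi * Complex.I * (B : ℂ) / (E : ℂ)) * qOf z ^ m := by
  have hE' : (E : ℂ) ≠ 0 := by exact_mod_cast hE
  unfold qOf Function.Periodic.qParam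
  rw [← Complex.exp_nat_mul, ← Complex.exp_add, h]
  congr 1
  push_cast
  field_simp
  ring

theorem cvd_norm_exp (B E : ℕ) :
    ‖Complex.exp (2 * Real.pi * Complex.I * (B : ℂ) / (E : ℂ))‖ = 1 := by
  have : 2 * (Real.pi : ℂ) * Complex.I * (B : ℂ) / (E : ℂ)
      = ((2 * Real.pi * (B : ℝ) / (E : ℝ) : ℝ) : ℂ) * Complex.I := by
    push_cast
    ring
  rw [this, Complex.norm_exp_ofReal_mul_I]

/-- **Twisted discriminant**: any Laurent series `g` with the coefficients of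
`Δ_f(ζ X^m)`, `ζ = e^{2πi B/E}`, converges and takes the value `Δ((E m z + B)/E)` at `q(z)`. -/
theorem cvd_twist_deltaC {g : LaurentSeries ℂ} (m B E : ℕ) (hm : 0 < m) (hE : E ≠ 0)
    (hcoeff : ∀ n : ℤ, g.coeff ((m : ℤ) * n) =
      Complex.exp (2 * Real.pi * Complex.I * (B : ℂ) / (E : ℂ)) ^ n * cvd_deltaC.coeff n)
    (hzero : ∀ k : ℤ, ¬ (m : ℤ) ∣ k → g.coeff k = 0) :
    LConv g ∧ ∀ z τ' : ℍ, (τ' : ℂ) = (((E * m : ℕ) : ℂ) * (z : ℂ) + (B : ℂ)) / (E : ℂ) →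
      lEval g (qOf z) = ModularForm.discriminant τ' := by
  refine ⟨cvt_lconv_of_coeff (cvd_norm_exp B E) hm hcoeff hzero cvd_lconv_deltaC, ?_⟩
  intro z τ' h
  rw [cvt_lEval_of_coeff hm hcoeff hzero, ← cvd_qOf_eq z τ' m B E hE h, cvd_lEval_deltaC]

/-- nonvanishing of the twisted discriminant on the punctured disc -/
theorem cvd_twist_deltaC_ne_zero {g : LaurentSeries ℂ} (m B E : ℕ) (hm : 0 < m)
    (hcoeff : ∀ n : ℤ, g.coeff ((m : ℤ) * n) =
      Complex.exp (2 * Real.pi * Complex.I * (B : ℂ) / (E : ℂ)) ^ n * cvd_deltaC.coeff n)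
    (hzero : ∀ k : ℤ, ¬ (m : ℤ) ∣ k → g.coeff k = 0) {q : ℂ} (hq0 : q ≠ 0) (hq : ‖q‖ < 1) :
    lEval g q ≠ 0 := by
  rw [cvt_lEval_of_coeff hm hcoeff hzero]
  exact cvd_lEval_deltaC_ne_zero (cvt_ne_zero (cvd_norm_exp B E) hq0)
    (cvt_norm_lt_one (cvd_norm_exp B E) hm hq)

end Fermat.Agent.S28x
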