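/-
S28 units route, module AN-C (helper24): the analytic bridge for the formal conjugates
`ud_G1 / ud_Gd / ud_Gr` of `UnitsDefs.lean` over `ℂ`:  they converge on the punctured unit disc
(`LConv`) and their values (`lEval`) at `X = q(z)` are the conjugates `uf2_conj N r x (N z)` of the
modular unit `g^r` (helper83's `UnitFun/UnitFunQ`).  Prefix `ue_`.
-/
import Mathlib
import Fermat.Agent.S28x.UnitsDefs
import Fermat.Agent.S28x.UnitFunQ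
import Fermat.Agent.S28x.ConvDelta

set_option autoImplicit false

namespace Fermat.Agent.S28x

open HahnSeries Fermat.Agent.S24x UpperHalfPlane ModularCurve

/-! ### the formal pieces over `ℂ` -/

theorem ue_eta_eq : ud_eta ℂ = cvd_etaC := rfl

/-- coefficients of `Δ_f` : shift of the coefficients of `∏ (1 - X^n)^24` -/
theorem ue_coeff_deltaC (n : ℤ) :
    cvd_deltaC.coeff n = (ofPowerSeries ℤ ℂ cvd_etaC).coeff (n - 1) := by
  unfold cvd_deltaC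
  rw [coeff_single_mul, one_mul]

/-- `ud_DeltaTw ℂ u m` has the coefficients of `Δ_f(u X^m)`. -/
theorem ue_DeltaTw_coeff_mul (u : ℂ) (m : ℕ) [NeZero m] (n : ℤ) :
    (ud_DeltaTw ℂ u m).coeff ((m : ℤ) * n) = u ^ n * cvd_deltaC.coeff n := by
  unfold ud_DeltaTw
  rw [coeff_single_mul, ue_coeff_deltaC]
  have h1 : (m : ℤ) * n - (m : ℤ) = (m : ℤ) * (n - 1) := by ring
  rw [h1, qExpand_coeff_mul]
  by_cases hn : n - 1 < 0
  · rw [ofPowerSeries_coeff_of_neg _ hn, ofPowerSeries_coeff_of_neg _ hn, mul_zero, mul_zero]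
  · rw [not_lt] at hn
    obtain ⟨k, hk⟩ := Int.eq_ofNat_of_zero_le hn
    rw [hk, ofPowerSeries_apply_coeff, ofPowerSeries_apply_coeff, PowerSeries.coeff_rescale,
      ue_eta_eq]
    have hn' : n = ((k + 1 : ℕ) : ℤ) := by
      push_cast
      linarith
    rw [hn', zpow_natCast, pow_succ]
    ring

theorem ue_DeltaTw_coeff_of_not_dvd (u : ℂ) (m : ℕ) [NeZero m] {k : ℤ} (hk : ¬ (m : ℤ) ∣ k) :
    (ud_DeltaTw ℂ u m).coeff k = 0 := by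
  unfold ud_DeltaTw
  rw [coeff_single_mul, qExpand_coeff_of_not_dvd, mul_zero]
  intro h
  exact hk ((dvd_sub_self_right).mp h)

theorem ue_lconv_DeltaTw {u : ℂ} (hu : ‖u‖ = 1) (m : ℕ) [NeZero m] : LConv (ud_DeltaTw ℂ u m) :=
  cvt_lconv_of_coeff hu (Nat.pos_of_ne_zero (NeZero.ne m)) (ue_DeltaTw_coeff_mul u m)
    (fun _ hk => ue_DeltaTw_coeff_of_not_dvd u m hk) cvd_lconv_deltaC

theorem ue_lEval_DeltaTw (u : ℂ) (m : ℕ) [NeZero m] (x : ℂ) :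
    lEval (ud_DeltaTw ℂ u m) x = lEval cvd_deltaC (u * x ^ m) :=
  cvt_lEval_of_coeff (Nat.pos_of_ne_zero (NeZero.ne m)) (ue_DeltaTw_coeff_mul u m)
    (fun _ hk => ue_DeltaTw_coeff_of_not_dvd u m hk) x

theorem ue_eta_mul_etaInv : ud_eta ℂ * ud_etaInv ℂ = 1 := by
  unfold ud_eta ud_etaInv
  rw [← map_mul, dedekindEtaUnit_mul_inv, map_one]

/-- `ud_DeltaInv ℂ N` is the inverse of `Δ_f(X^N)`. -/
theorem ue_qExpand_deltaC_mul_DeltaInv (N : ℕ) [NeZero N] :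
    qExpand ℂ N cvd_deltaC * ud_DeltaInv ℂ N = 1 := by
  unfold cvd_deltaC ud_DeltaInv
  rw [map_mul, qExpand_single, mul_one, ← ue_eta_eq]
  calc single (N : ℤ) (1 : ℂ) * qExpand ℂ N (ofPowerSeries ℤ ℂ (ud_eta ℂ)) *
        (single (-(N : ℤ)) (1 : ℂ) * qExpand ℂ N (ofPowerSeries ℤ ℂ (ud_etaInv ℂ)))
      = (single (N : ℤ) (1 : ℂ) * single (-(N : ℤ)) (1 : ℂ)) *
          (qExpand ℂ N (ofPowerSeries ℤ ℂ (ud_eta ℂ)) *
            qExpand ℂ N (ofPowerSeries ℤ ℂ (ud_etaInv ℂ))) := mul_mul_mul_comm _ _ _ _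
    _ = 1 := by
        have h1 : qExpand ℂ N (ofPowerSeries ℤ ℂ (ud_eta ℂ)) *
            qExpand ℂ N (ofPowerSeries ℤ ℂ (ud_etaInv ℂ)) = 1 := by
          rw [← map_mul, ← map_mul, ue_eta_mul_etaInv, map_one, map_one]
        have h2 : (single (N : ℤ) (1 : ℂ) : LaurentSeries ℂ) * single (-(N : ℤ)) (1 : ℂ) = 1 := by
          rw [single_mul_single, add_neg_cancel, mul_one]
          rfl
        rw [h1, h2, mul_one]

theorem ue_DeltaInv_eq (N : ℕ) [NeZero N] : ud_DeltaInv ℂ N = (qExpand ℂ N cvd_deltaC)⁻¹ :=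
  (inv_eq_of_mul_eq_one_right (ue_qExpand_deltaC_mul_DeltaInv N)).symm

theorem ue_lconv_DeltaInv (N : ℕ) [NeZero N] : LConv (ud_DeltaInv ℂ N) := by
  rw [ue_DeltaInv_eq]
  exact cvi_lconv_inv (cvd_lconv_qExpand_deltaC N) (cvd_qExpand_deltaC_ne_zero N)
    fun q hq0 hq => cvd_lEval_qExpand_deltaC_ne_zero N hq0 hq

theorem ue_lEval_DeltaInv (N : ℕ) [NeZero N] {x : ℂ} (hx0 : x ≠ 0) (hx : ‖x‖ < 1) :
    lEval (ud_DeltaInv ℂ N) x = (lEval cvd_deltaC (x ^ N))⁻¹ := by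
  rw [ue_DeltaInv_eq, cvi_lEval_inv (cvd_lconv_qExpand_deltaC N) (cvd_qExpand_deltaC_ne_zero N)
    (fun q hq0 hq => cvd_lEval_qExpand_deltaC_ne_zero N hq0 hq) hx0 hx, lEval_qExpand]

/-- the value of `Δ_f` on the punctured disc is `Δ_q = discFun`. -/
theorem ue_lEval_deltaC {q : ℂ} (hq0 : q ≠ 0) (hq : ‖q‖ < 1) : lEval cvd_deltaC q = discFun q := by
  obtain ⟨τ, rfl⟩ := exists_qOf_eq hq0 hq
  rw [cvd_lEval_deltaC, uf2_discriminant_eq_discFun]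

/-! ### `ud_G1` -/

theorem ue_G1_eq (N : ℕ) [NeZero N] (c u : ℂ) (m : ℕ) [NeZero m] :
    ud_G1 ℂ N c u m = HahnSeries.C c * ud_DeltaTw ℂ u m * ud_DeltaInv ℂ N := by
  unfold ud_G1
  rw [dif_neg (NeZero.ne m)]

theorem ue_lconv_G1 (N : ℕ) [NeZero N] (c : ℂ) {u : ℂ} (hu : ‖u‖ = 1) (m : ℕ) :
    LConv (ud_G1 ℂ N c u m) := by
  rcases Nat.eq_zero_or_pos m with rfl | hm
  · unfold ud_G1
    rw [dif_pos rfl]
    exact lconv_zero
  · have : NeZero m := ⟨hm.ne'⟩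
    rw [ue_G1_eq]
    exact ((lconv_C c).mul (ue_lconv_DeltaTw hu m)).mul (ue_lconv_DeltaInv N)

theorem ue_lEval_G1 (N : ℕ) [NeZero N] (c : ℂ) {u : ℂ} (hu : ‖u‖ = 1) {m : ℕ} (hm : m ≠ 0)
    {x : ℂ} (hx0 : x ≠ 0) (hx : ‖x‖ < 1) :
    lEval (ud_G1 ℂ N c u m) x = c * discFun (u * x ^ m) / discFun (x ^ N) := by
  have : NeZero m := ⟨hm⟩
  have hm' : 0 < m := Nat.pos_of_ne_zero hm
  have hxN0 : x ^ N ≠ 0 := pow_ne_zero _ hx0
  have hxN : ‖x ^ N‖ < 1 := by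
    rw [norm_pow]
    exact pow_lt_one₀ (norm_nonneg _) hx (NeZero.ne N)
  rw [ue_G1_eq, lEval_mul ((lconv_C c).mul (ue_lconv_DeltaTw hu m)) (ue_lconv_DeltaInv N) hx0 hx,
    lEval_mul (lconv_C c) (ue_lconv_DeltaTw hu m) hx0 hx, lEval_C, ue_lEval_DeltaTw,
    ue_lEval_DeltaInv N hx0 hx, ue_lEval_deltaC (cvt_ne_zero hu hx0) (cvt_norm_lt_one hu hm' hx),
    ue_lEval_deltaC hxN0 hxN, div_eq_mul_inv]

/-! ### `ud_Gd`, `ud_Gr` -/

theorem ue_norm_zetaC_pow (N : ℕ) (k : ℕ) : ‖ud_zetaC N ^ k‖ = 1 := by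
  have h : ‖ud_zetaC N‖ = 1 := by
    unfold ud_zetaC
    have : 2 * (Real.pi : ℂ) * Complex.I / (N : ℂ)
        = ((2 * Real.pi / (N : ℝ) : ℝ) : ℂ) * Complex.I := by
      push_cast
      ring
    rw [this, Complex.norm_exp_ofReal_mul_I]
  rw [norm_pow, h, one_pow]

section Family

variable {N : ℕ} [NeZero N] {Q : Type} (H : ud_HermiteFamily N Q)

theorem ue_lconv_Gd (ninv : ℂ) (d : ℕ) (γ : Q) : LConv (ud_Gd ℂ H (ud_zetaC N) ninv d γ) := by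
  unfold ud_Gd
  exact ue_lconv_G1 N _ (ue_norm_zetaC_pow N _) _

theorem ue_m_ne_zero {d : ℕ} (hd : d ∈ N.divisors) (γ : Q) : H.A d γ * (N / H.E d γ) ≠ 0 := by
  have hdN : d ∣ N := Nat.dvd_of_mem_divisors hd
  have hd0 : 0 < d := Nat.pos_of_mem_divisors hd
  have hAE := H.hAE d hdN γ
  have hA : H.A d γ ≠ 0 := by
    intro h
    rw [h, zero_mul] at hAE
    exact hd0.ne hAE
  have hE : H.E d γ ∣ N := (Dvd.intro_left _ hAE).trans hdN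
  have hNE : N / H.E d γ ≠ 0 := by
    intro h
    have := Nat.div_mul_cancel hE
    rw [h, zero_mul] at this
    exact NeZero.ne N this.symm
  exact mul_ne_zero hA hNE

theorem ue_lEval_Gd (ninv : ℂ) {d : ℕ} (hd : d ∈ N.divisors) (γ : Q) {x : ℂ} (hx0 : x ≠ 0)
    (hx : ‖x‖ < 1) :
    lEval (ud_Gd ℂ H (ud_zetaC N) ninv d γ) x =
      ((((N / H.E d γ : ℕ) : ℂ) * ninv) ^ 12) *
        discFun (ud_zetaC N ^ (H.B d γ * (N / H.E d γ)) * x ^ (H.A d γ * (N / H.E d γ))) /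
          discFun (x ^ N) := by
  unfold ud_Gd
  exact ue_lEval_G1 N _ (ue_norm_zetaC_pow N _) (ue_m_ne_zero H hd γ) hx0 hx

theorem ue_lconv_Gr (ninv : ℂ) (r : ℕ → ℕ) (γ : Q) : LConv (ud_Gr ℂ H (ud_zetaC N) ninv r γ) := by
  unfold ud_Gr
  exact cvi_lconv_prod _ _ fun d _ => (ue_lconv_Gd H ninv d γ).pow (r d)

theorem ue_lEval_Gr' (ninv : ℂ) (r : ℕ → ℕ) (γ : Q) {x : ℂ} (hx0 : x ≠ 0) (hx : ‖x‖ < 1) :
    lEval (ud_Gr ℂ H (ud_zetaC N) ninv r γ) x =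
      ∏ d ∈ N.divisors, (((((N / H.E d γ : ℕ) : ℂ) * ninv) ^ 12) *
        discFun (ud_zetaC N ^ (H.B d γ * (N / H.E d γ)) * x ^ (H.A d γ * (N / H.E d γ))) /
          discFun (x ^ N)) ^ r d := by
  unfold ud_Gr
  rw [cvi_lEval_prod _ _ (fun d _ => (ue_lconv_Gd H ninv d γ).pow (r d)) hx0 hx]
  refine Finset.prod_congr rfl fun d hd => ?_
  rw [lEval_pow (ue_lconv_Gd H ninv d γ) _ hx0 hx, ue_lEval_Gd H ninv hd γ hx0 hx]

end Family

/-- **AN-C.** The value at `X = q(z)` of the formal conjugate `ud_Gr … r x` is the conjugate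
`uf2_conj N r x` of the unit `g^r`, at the point `τ = N z`. -/
theorem ue_lEval_Gr (N : ℕ) [NeZero N] (r : ℕ → ℕ) (x : Q N) (z τ : ℍ)
    (hτ : (τ : ℂ) = (N : ℂ) * (z : ℂ)) :
    lEval (ud_Gr ℂ (ud_familyQ N) (ud_zetaC N) ((N : ℂ)⁻¹) r x) (qOf z) =
      uf2_conj N (fun d => (r d : ℤ)) x τ := by
  rw [ue_lEval_Gr' (ud_familyQ N) _ r x (qOf_ne_zero z) (norm_qOf_lt_one z),
    uf2_conj_qform_nat N r x z τ hτ]

/-- the same with the canonical point `N z`. -/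
theorem ue_lEval_Gr_dmul (N : ℕ) [NeZero N] (r : ℕ → ℕ) (x : Q N) (z : ℍ) :
    lEval (ud_Gr ℂ (ud_familyQ N) (ud_zetaC N) ((N : ℂ)⁻¹) r x) (qOf z) =
      uf2_conj N (fun d => (r d : ℤ)) x (uf2_dmul N z) :=
  ue_lEval_Gr N r x z _ (uf2_dmul_coe N (NeZero.pos N) z)

end Fermat.Agent.S28x
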