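import Mathlib
import Fermat.Agent.S28x.UnitsDefs

/-!
# S28 project, units route (file UnitsCls.lean): index facts on `Q N = SL(2,ℤ) ⧸ Γ₀(N)` (helper55), prefix `uix_`

* `uix_clsFacts : ud_ClsFacts N` — only the trivial coset has cusp class `N`.
-/

set_option autoImplicit false

open CongruenceSubgroup Matrix.SpecialLinearGroup
open scoped MatrixGroups

namespace Fermat.Agent.S28x

open Fermat.Agent.S24x

/-- lower-left entry of the inverse. -/
theorem uix_inv_one_zero (g : SL(2, ℤ)) : ((g⁻¹ : SL(2, ℤ)) 1 0 : ℤ) = - g 1 0 := by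
  rw [Matrix.SpecialLinearGroup.SL2_inv_expl]
  simp

theorem uix_cls_eq_iff (N : ℕ) [NeZero N] (x : Q N) :
    ud_cls N x = N ↔ (Quotient.out x : SL(2, ℤ)) ∈ Gamma0 N := by
  unfold ud_cls ud_rep
  rw [uix_inv_one_zero, Int.neg_gcd, Gamma0_mem, ZMod.intCast_zmod_eq_zero_iff_dvd]
  constructor
  · intro h
    have := Int.gcd_dvd_left ((Quotient.out x : SL(2, ℤ)) 1 0) (N : ℤ)
    rwa [h] at this
  · intro h
    have h1 : (Int.gcd ((Quotient.out x : SL(2, ℤ)) 1 0) (N : ℤ) : ℤ) ∣ (N : ℤ) :=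
      Int.gcd_dvd_right ..
    have h2 : N ∣ Int.gcd ((Quotient.out x : SL(2, ℤ)) 1 0) (N : ℤ) :=
      Int.dvd_gcd h (dvd_refl _)
    exact Nat.dvd_antisymm (Int.natCast_dvd_natCast.mp h1) h2

/-- **INDEX FACTS**: only the trivial coset has class `N`. -/
theorem uix_clsFacts (N : ℕ) [NeZero N] : ud_ClsFacts N := by
  intro x
  rw [uix_cls_eq_iff]
  unfold ud_e
  have h1 : ((Quotient.out x : SL(2, ℤ)) : Q N) = x := QuotientGroup.out_eq' x
  have h2 : ((Quotient.out x : SL(2, ℤ)) : Q N) = ((1 : SL(2, ℤ)) : Q N) ↔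
      (Quotient.out x : SL(2, ℤ)) ∈ Gamma0 N := by
    rw [QuotientGroup.eq, mul_one, inv_mem_iff]
  rw [← h2, h1]

end Fermat.Agent.S28x
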