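/-
S28 project, module RED (helper21): the inputs of `RedBasis.lean` from the landed modules.
* `rb_unit_decomp` : the unit decomposition in `ℚ(j)` from `GaussRing.exists_zpow_mul_unit`;
* `rb_hyp_of_rho_V` : the structure `rb_Hyp ℓ` from `ρ(V) ⊆ 𝔽_ℓ(j̃)` (module `GaussV`);
* `rb_hrank_of_relfinrank` : the rank hypothesis from `[F_N : ℚ(j)] ≤ m` (module `DU`).
-/
import Fermat.Agent.S28x.RedBasis
import Fermat.Agent.S28x.GaussRing

set_option autoImplicit false

namespace Fermat.Agent.S28x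

open ModularCurve IntermediateField

noncomputable section

local notation "𝕃" => LaurentSeries ℚ

theorem rb_unit_decomp (ℓ : ℕ) [Fact ℓ.Prime] (z : 𝕃) (hz : z ≠ 0) (hzQ : z ∈ Qj) :
    ∃ (k : ℤ) (y : 𝕃) (hy : y ∈ gaussRing ℓ), rho ℓ ⟨y, hy⟩ ≠ 0 ∧ z = ((ℓ : ℕ) : 𝕃) ^ k * y := by
  have hzF : z ∈ modularFunctionFieldFull 1 := rb_Qj_le 1 hzQ
  obtain ⟨k, y, hy, -, h1, h2⟩ := exists_zpow_mul_unit ℓ hz (exists_frac_of_mem_full ℓ 1 hzF)
  exact ⟨k, y, hy, h1, h2⟩

/-- the hypothesis structure of `RedBasis`, from `ρ(V) ⊆ 𝔽_ℓ(j̃)` -/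
theorem rb_hyp_of_rho_V (ℓ : ℕ) [Fact ℓ.Prime]
    (h : ∀ (y : 𝕃) (hy : y ∈ gaussV ℓ), rho ℓ ⟨y, gaussV_le_gaussRing ℓ hy⟩ ∈ Kj ℓ) :
    rb_Hyp ℓ :=
  ⟨rb_unit_decomp ℓ, h⟩

/-- the rank hypothesis of `RedBasis` from `[F_N : ℚ(j)] ≤ m` -/
theorem rb_hrank_of_relfinrank (N : ℕ) [NeZero N] (m : ℕ)
    (hfin : FiniteDimensional Qj (IntermediateField.extendScalars (rb_Qj_le N)))
    (hle : IntermediateField.relfinrank Qj (modularFunctionFieldFull N) ≤ m) :
    ∀ c : Fin (m + 1) → 𝕃, (∀ i, c i ∈ modularFunctionFieldFull N) →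
      ¬ LinearIndependent Qj c := by
  intro c hc hli
  -- view the family inside `F_N` as a `ℚ(j)`-vector space
  set E := IntermediateField.extendScalars (rb_Qj_le N) with hE
  have hcE : ∀ i, c i ∈ E := fun i => (IntermediateField.mem_extendScalars (rb_Qj_le N)).mpr (hc i)
  let c' : Fin (m + 1) → E := fun i => ⟨c i, hcE i⟩
  have hli' : LinearIndependent Qj c' := by
    have : (fun i => ((c' i : E) : 𝕃)) = c := rfl
    refine LinearIndependent.of_comp (E.val.toLinearMap) ?_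
    exact hli
  have h1 := hli'.fintype_card_le_finrank
  rw [Fintype.card_fin] at h1
  have h2 : Module.finrank Qj E = IntermediateField.relfinrank Qj (modularFunctionFieldFull N) := by
    rw [IntermediateField.relfinrank_eq_finrank_of_le (rb_Qj_le N)]
  omega

end

end Fermat.Agent.S28x
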