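/-
S28 project (Igusa), units route: FUNCTORIALITY of the formal series of `UnitsDefs.lean` under
coefficient ring homomorphisms (helper94, prefix `ufun_`).
-/
import Mathlib
import Fermat.Prelude.Def_ModularCurve_LaurentCoeff
import Fermat.Agent.S28x.UnitsDefs

set_option autoImplicit false

noncomputable section

namespace Fermat.Agent.S28x

open ModularCurve

variable {R R' : Type*} [CommRing R] [CommRing R'] (f : R →+* R')

theorem ufun_coeffMap_qExpand (m : ℕ) [NeZero m] (x : LaurentSeries R) :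
    coeffMap f (qExpand R m x) = qExpand R' m (coeffMap f x) := by
  ext k
  rw [coeffMap_coeff]
  by_cases h : (m : ℤ) ∣ k
  · obtain ⟨j, rfl⟩ := h
    rw [qExpand_coeff_mul, qExpand_coeff_mul, coeffMap_coeff]
  · rw [qExpand_coeff_of_not_dvd m x h, qExpand_coeff_of_not_dvd m _ h, map_zero]

theorem ufun_coeffMap_ofPowerSeries (p : PowerSeries R) :
    coeffMap f (HahnSeries.ofPowerSeries ℤ R p) = HahnSeries.ofPowerSeries ℤ R' (p.map f) := by
  ext k
  rw [coeffMap_coeff]
  rcases lt_or_ge k 0 with hk | hk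
  · rw [ofPowerSeries_coeff_of_neg p hk, ofPowerSeries_coeff_of_neg _ hk, map_zero]
  · obtain ⟨n, rfl⟩ := Int.eq_ofNat_of_zero_le hk
    rw [HahnSeries.ofPowerSeries_apply_coeff, HahnSeries.ofPowerSeries_apply_coeff,
      PowerSeries.coeff_map]

theorem ufun_map_rescale (u : R) (p : PowerSeries R) :
    (PowerSeries.rescale u p).map f = PowerSeries.rescale (f u) (p.map f) := by
  ext n
  simp [PowerSeries.coeff_rescale, map_mul, map_pow]

theorem ufun_map_eta : (ud_eta R).map f = ud_eta R' := by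
  unfold ud_eta
  ext n
  simp [PowerSeries.coeff_map]

theorem ufun_map_etaInv : (ud_etaInv R).map f = ud_etaInv R' := by
  unfold ud_etaInv
  ext n
  simp [PowerSeries.coeff_map]

theorem ufun_coeffMap_C (a : R) : coeffMap f (HahnSeries.C a) = HahnSeries.C (f a) := by
  rw [HahnSeries.C_apply, coeffMap_single, HahnSeries.C_apply]

theorem ufun_coeffMap_DeltaTw (u : R) (m : ℕ) [NeZero m] :
    coeffMap f (ud_DeltaTw R u m) = ud_DeltaTw R' (f u) m := by
  unfold ud_DeltaTw
  rw [map_mul, coeffMap_single, ufun_coeffMap_qExpand, ufun_coeffMap_ofPowerSeries,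
    ufun_map_rescale, ufun_map_eta]

theorem ufun_coeffMap_DeltaInv (N : ℕ) [NeZero N] :
    coeffMap f (ud_DeltaInv R N) = ud_DeltaInv R' N := by
  unfold ud_DeltaInv
  rw [map_mul, coeffMap_single, ufun_coeffMap_qExpand, ufun_coeffMap_ofPowerSeries,
    ufun_map_etaInv, map_one]

theorem ufun_coeffMap_G1 (N : ℕ) [NeZero N] (c u : R) (m : ℕ) :
    coeffMap f (ud_G1 R N c u m) = ud_G1 R' N (f c) (f u) m := by
  unfold ud_G1
  by_cases h : m = 0
  · simp [h]
  · have : NeZero m := ⟨h⟩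
    rw [dif_neg h, dif_neg h, map_mul, map_mul, ufun_coeffMap_C, ufun_coeffMap_DeltaTw,
      ufun_coeffMap_DeltaInv]

theorem ufun_coeffMap_gd (d : ℕ) : coeffMap f (ud_gd R d) = ud_gd R' d := by
  unfold ud_gd
  rw [ufun_coeffMap_G1, map_one]

theorem ufun_coeffMap_gr (N : ℕ) (r : ℕ → ℕ) : coeffMap f (ud_gr R N r) = ud_gr R' N r := by
  unfold ud_gr
  rw [map_prod]
  exact Finset.prod_congr rfl fun d _ => by rw [map_pow, ufun_coeffMap_gd]

theorem ufun_coeffMap_Gd {N : ℕ} [NeZero N] {Q : Type} (H : ud_HermiteFamily N Q) (ζ ninv : R)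
    (d : ℕ) (γ : Q) :
    coeffMap f (ud_Gd R H ζ ninv d γ) = ud_Gd R' H (f ζ) (f ninv) d γ := by
  unfold ud_Gd
  rw [ufun_coeffMap_G1, map_pow, map_pow, map_mul, map_natCast]

theorem ufun_coeffMap_Gr {N : ℕ} [NeZero N] {Q : Type} (H : ud_HermiteFamily N Q) (ζ ninv : R)
    (r : ℕ → ℕ) (γ : Q) :
    coeffMap f (ud_Gr R H ζ ninv r γ) = ud_Gr R' H (f ζ) (f ninv) r γ := by
  unfold ud_Gr
  rw [map_prod]
  exact Finset.prod_congr rfl fun d _ => by rw [map_pow, ufun_coeffMap_Gd]

theorem ufun_coeffMap_jqModC : coeffMap f (jqModC R) = jqModC R' := map_jqModC f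

theorem ufun_coeffMap_jqNModC (N : ℕ) [NeZero N] : coeffMap f (jqNModC R N) = jqNModC R' N := by
  unfold jqNModC
  rw [ufun_coeffMap_qExpand, ufun_coeffMap_jqModC]

end Fermat.Agent.S28x
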