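/-
S28 project (Igusa), units route, FINAL ASSEMBLY part 2 (helper94, prefix `ufin2_`).

`ud_Reduced N ℓ` + `ud_UnitMem N`  ⟹  the basis input of `RedBasis.rb_isIntegral_gaussV`:
`b i = g^i` (`i < ψ(N) = card (Q N)`), `g = g^r ∈ F_N ∩ W`, with `ρ(b i)` linearly independent over
`𝔽_ℓ(j̃)`.
-/
import Mathlib
import Fermat.Prelude.Def_ModularCurve_X0ModL
import Fermat.Agent.S28x.Defs
import Fermat.Agent.S28x.UnitsDefs
import Fermat.Agent.S28x.UnitsFunct
import Fermat.Agent.S28x.UnitsFinal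

set_option autoImplicit false

noncomputable section

namespace Fermat.Agent.S28x

open Polynomial ModularCurve IntermediateField Fermat.Agent.S24x

/-- the basis hypothesis consumed by `rb_isIntegral_gaussV` (with `m = card (Q N) = ψ(N)`). -/
def ufin2_BasisHyp (N : ℕ) [NeZero N] (ℓ : ℕ) [Fact ℓ.Prime] : Prop :=
  ∃ (b : Fin (Fintype.card (Q N)) → LaurentSeries ℚ) (hbW : ∀ i, b i ∈ gaussRing ℓ),
    (∀ i, b i ∈ modularFunctionFieldFull N) ∧
      LinearIndependent ↥(Kj ℓ) (fun i => rho ℓ ⟨b i, hbW i⟩)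

theorem ufin2_order_jqNModC (k : Type*) [Field k] (N : ℕ) [NeZero N] :
    (jqNModC k N).order < 0 := by
  have hcoeff : (jqNModC k N).coeff ((N : ℤ) * (-1)) = 1 := by
    unfold jqNModC
    rw [qExpand_coeff_mul, coeff_jqModC_neg_one]
  have hne : (jqNModC k N).coeff ((N : ℤ) * (-1)) ≠ 0 := by rw [hcoeff]; exact one_ne_zero
  have hle := HahnSeries.order_le_of_coeff_ne_zero hne
  have hN : (0 : ℤ) < N := by exact_mod_cast NeZero.pos N
  linarith

/-- **final assembly of the units route**. -/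
theorem ufin2_basisHyp (N : ℕ) [NeZero N] (ℓ : ℕ) [Fact ℓ.Prime]
    (hred : ud_Reduced N ℓ) (hmem : ud_UnitMem N) : ufin2_BasisHyp N ℓ := by
  classical
  obtain ⟨r, k, _, _, G, PA, c, hPA, hc, hconst, hU, hGe⟩ := hred
  -- the unit over `ℤ_(ℓ)`, `ℚ`, `𝔽_ℓ`
  set g : LaurentSeries (ZL ℓ) := ud_gr (ZL ℓ) N r with hg
  have hgQ : toQ ℓ g = ud_gr ℚ N r := ufun_coeffMap_gr _ N r
  have hgF : red ℓ g = ud_gr (ZMod ℓ) N r := ufun_coeffMap_gr _ N r
  refine ⟨fun i => toQ ℓ (g ^ (i : ℕ)), fun i => toQ_mem_gaussRing ℓ _, ?_, ?_⟩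
  · intro i
    show toQ ℓ (g ^ (i : ℕ)) ∈ modularFunctionFieldFull N
    rw [map_pow, hgQ]
    exact pow_mem (hmem r) _
  · -- `ρ (toQ (g^i)) = (red g)^i`
    have hrho : (fun i : Fin (Fintype.card (Q N)) =>
        rho ℓ ⟨toQ ℓ (g ^ (i : ℕ)), toQ_mem_gaussRing ℓ _⟩) =
        fun i : Fin (Fintype.card (Q N)) => (ud_gr (ZMod ℓ) N r) ^ (i : ℕ) := by
      funext i
      rw [rho_toQ, map_pow, hgF]
    rw [hrho]
    -- apply the abstract linear independence
    have hθj : ufin_theta (k := k) N (jqModC (ZMod ℓ)) = jqNModC k N := by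
      unfold ufin_theta jqNModC
      rw [RingHom.comp_apply, ufun_coeffMap_jqModC]
    have hθg : ufin_theta (k := k) N (ud_gr (ZMod ℓ) N r) = qExpand k N (ud_gr k N r) := by
      unfold ufin_theta
      rw [RingHom.comp_apply, ufun_coeffMap_gr]
    refine ufin_linearIndependent (k := k) N (ud_e N) (jqModC (ZMod ℓ)) (ud_gr (ZMod ℓ) N r)
      ?_ G PA ?_ c hc hconst hU ?_
    · rw [hθj]; exact ufin2_order_jqNModC k N
    · rw [hθj]; exact hPA
    · rw [hθg]; exact hGe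

end Fermat.Agent.S28x
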