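/-
S28 project (Igusa), units route, FINAL ASSEMBLY part 3 (helper94, prefix `ufin3_`).

The basis hypothesis `ufin2_BasisHyp N ℓ` gives: every element of `F_N ∩ W` is integral over the
Gauss valuation ring `V` of `ℚ(j)` (via `RedBasis`, `GaussV`, `DegreeUpper`).
-/
import Fermat.Agent.S28x.UnitsFinal2
import Fermat.Agent.S28x.RedHyp
import Fermat.Agent.S28x.GaussV
import Fermat.Agent.S28x.DegreeUpper
import Fermat.Agent.S24x.CombIndex

set_option autoImplicit false

noncomputable section

namespace Fermat.Agent.S28x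

open ModularCurve IntermediateField Fermat.Agent.S24x

theorem ufin3_card_Q (N : ℕ) [NeZero N] : Fintype.card (Q N) = dedekindPsi N := by
  rw [← Nat.card_eq_fintype_card]
  exact card_Q N

/-- every element of `F_N ∩ W` is integral over `V`, from the basis hypothesis. -/
theorem ufin3_isIntegral_gaussV (N : ℕ) [NeZero N] (ℓ : ℕ) [Fact ℓ.Prime]
    (hb : ufin2_BasisHyp N ℓ) (y : LaurentSeries ℚ) (hyF : y ∈ modularFunctionFieldFull N)
    (hyW : y ∈ gaussRing ℓ) : IsIntegral (gaussV ℓ) y := by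
  obtain ⟨b, hbW, hbF, hind⟩ := hb
  have hrank : ∀ c : Fin (Fintype.card (Q N) + 1) → LaurentSeries ℚ,
      (∀ i, c i ∈ modularFunctionFieldFull N) → ¬ LinearIndependent Qj c := by
    rw [ufin3_card_Q N]
    exact du_not_linearIndependent N
  exact rb_isIntegral_gaussV (rb_hyp_of_rho_V ℓ (fun _ hy => gv_rho_mem_Kj ℓ hy)) N b hbF hbW hind
    hrank y hyF hyW

/-- the same from the two units-route interface propositions. -/
theorem ufin3_isIntegral_gaussV_of (N : ℕ) [NeZero N] (ℓ : ℕ) [Fact ℓ.Prime]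
    (hred : ud_Reduced N ℓ) (hmem : ud_UnitMem N) (y : LaurentSeries ℚ)
    (hyF : y ∈ modularFunctionFieldFull N) (hyW : y ∈ gaussRing ℓ) :
    IsIntegral (gaussV ℓ) y :=
  ufin3_isIntegral_gaussV N ℓ (ufin2_basisHyp N ℓ hred hmem) y hyF hyW

end Fermat.Agent.S28x
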