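/-
S28 project (Igusa), units route: MAIN WIRING (helper94, prefix `umain_`).

* `umain_anMain N : ud_ANMain N`            (AN-A `UnitSymQ` + AN-B `UnitFun(Q)` + AN-C `UnitExp`);
* `umain_reduced N ℓ hℓN : ud_Reduced N ℓ`  (`UnitReduce.ur_reduced_of` + UB + UC + Smith + Cls);
* `umain_isIntegral_gaussV` : for `ℓ ∤ N`, every element of `F_N ∩ W` is integral over `V`.
-/
import Fermat.Agent.S28x.UnitANMainOf
import Fermat.Agent.S28x.UnitExp
import Fermat.Agent.S28x.UnitReduce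
import Fermat.Agent.S28x.UnitsFormal
import Fermat.Agent.S28x.SmithNat
import Fermat.Agent.S28x.UnitsCls
import Fermat.Agent.S28x.UnitMemDelta
import Fermat.Agent.S28x.UnitsFinal3

set_option autoImplicit false

noncomputable section

namespace Fermat.Agent.S28x

open ModularCurve Fermat.Agent.S24x

/-- **AN-MAIN**. -/
theorem umain_anMain (N : ℕ) [NeZero N] : ud_ANMain N :=
  uc_anMain_of N (fun r x => ue_lconv_Gr (ud_familyQ N) _ r x)
    (fun r x z τ hτ => (ue_lEval_Gr N r x z τ hτ).symm)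

/-- **UR**: the reduced form over a residue field of `ℤ[ζ_N, 1/N]` at a prime over `ℓ ∤ N`. -/
theorem umain_reduced (N : ℕ) [NeZero N] (ℓ : ℕ) [Fact ℓ.Prime] (hℓN : ¬ ℓ ∣ N) :
    ud_Reduced N ℓ := by
  classical
  refine ur_reduced_of N ℓ hℓN ?_ ?_ ?_ ?_ (umain_anMain N) (uix_clsFacts N)
  · intro R' _ f r γ
    exact ub_coeffMap_Gr (ud_familyQ N) f _ _ r γ
  · intro R _ ζ ninv hN hζ r γ
    exact ⟨ub_Gr_ne_zero (ud_familyQ N) ζ ninv hN hζ r γ,
      ub_Gr_order (ud_familyQ N) ζ ninv hN hζ r γ⟩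
  · intro R _ ζ ninv hN r γ hγ
    exact ub_Gr_of_cls_eq (ud_familyQ N) ζ ninv hN r hγ
  · intro hbal
    exact sm_generic_ord_nat N (NeZero.ne N) (ud_cls N) (fun x => (ud_familyQ N).cls_dvd x)
      (ud_e N) (uix_clsFacts N) hbal

/-- **Output of the units route**: for `ℓ ∤ N`, every element of `F_N ∩ W` is integral over the
Gauss valuation ring `V` of `ℚ(j)` at `ℓ`. -/
theorem umain_isIntegral_gaussV (N : ℕ) [NeZero N] (ℓ : ℕ) [Fact ℓ.Prime] (hℓN : ¬ ℓ ∣ N)
    (y : LaurentSeries ℚ) (hyF : y ∈ modularFunctionFieldFull N) (hyW : y ∈ gaussRing ℓ) :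
    IsIntegral (gaussV ℓ) y :=
  ufin3_isIntegral_gaussV_of N ℓ (umain_reduced N ℓ hℓN) (ul2_unitMem N) y hyF hyW

end Fermat.Agent.S28x
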