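import Fermat.Agent.S28x.Defs

/-!
# S28 project, module DV, abstract core (`AVClosedCore.lean`, prefix `dv_`)

Under `QEP`, `A_V(N) = W ∩ F_N`.  This file contains the whole argument, with the inputs from the
modules GR (`exists_frac_of_mem_full`, `exists_zpow_mul_unit`) and DU (`finiteDimensional_full`)
taken as hypotheses; `AVClosed.lean` plugs them in.

* `dv_descent`: `ℓ^m x ∈ A_V(N)`, `x ∈ W`, `QEP` ⟹ `x ∈ A_V(N)`.
* `dv_exists_pow_mul_mem_AV`: every `x ∈ F_N` has `ℓ^m x ∈ A_V(N)` for some `m` (`F_N` is algebraic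
  over `ℚ(j)`, hence equal to the ring `ℚ(j)[j(q^d) : d ∣ N]`, and `ℚ(j) = V[1/ℓ]`).
* `dv_mem_AV_of`: the conclusion of DV in hypothesis form.
-/

set_option autoImplicit false

open ModularCurve

namespace Fermat.Agent.S28x

noncomputable section

/-- `ℓ^k ∈ W`. -/
theorem dv_natCast_pow_mem_gaussRing (ℓ : ℕ) [Fact ℓ.Prime] (k : ℕ) :
    ((ℓ : LaurentSeries ℚ)) ^ k ∈ gaussRing ℓ :=
  pow_mem (natCast_mem (gaussRing ℓ) ℓ) k

/-- `ℓ ≠ 0` in `ℚ((q))`. -/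
theorem dv_natCast_ne_zero (ℓ : ℕ) [Fact ℓ.Prime] : (ℓ : LaurentSeries ℚ) ≠ 0 := by
  have : (ℓ : ℚ) ≠ 0 := by exact_mod_cast (Fact.out : ℓ.Prime).ne_zero
  intro h0
  apply this
  have h1 : ((ℓ : ℕ) : LaurentSeries ℚ) = algebraMap ℚ (LaurentSeries ℚ) (ℓ : ℚ) := by
    rw [map_natCast]
  rw [h1] at h0
  exact (map_eq_zero_iff _ (algebraMap ℚ (LaurentSeries ℚ)).injective).mp h0

/-- `ρ(ℓ b) = 0`. -/
theorem dv_rho_natCast_mul (ℓ : ℕ) [Fact ℓ.Prime] {b : LaurentSeries ℚ} (hb : b ∈ gaussRing ℓ)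
    (hab : (ℓ : LaurentSeries ℚ) * b ∈ gaussRing ℓ) :
    rho ℓ ⟨(ℓ : LaurentSeries ℚ) * b, hab⟩ = 0 := by
  have h1 : (⟨(ℓ : LaurentSeries ℚ) * b, hab⟩ : gaussRing ℓ) =
      ((ℓ : ℕ) : gaussRing ℓ) * ⟨b, hb⟩ := by
    apply Subtype.ext
    simp
  rw [h1, map_mul, map_natCast]
  have h0 : ((ℓ : ℕ) : LaurentSeries (ZMod ℓ)) = 0 := by
    rw [← map_natCast (algebraMap (ZMod ℓ) (LaurentSeries (ZMod ℓ))), ZMod.natCast_self,
      _root_.map_zero]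
  rw [h0, zero_mul]

/-- descent step: `ℓ^m x ∈ A_V(N)`, `x ∈ W`, `QEP` ⟹ `x ∈ A_V(N)`. -/
theorem dv_descent (ℓ N : ℕ) [Fact ℓ.Prime] (h : QEP ℓ N) {x : LaurentSeries ℚ}
    (hxW : x ∈ gaussRing ℓ) :
    ∀ m : ℕ, (ℓ : LaurentSeries ℚ) ^ m * x ∈ AV ℓ N → x ∈ AV ℓ N := by
  intro m
  induction m with
  | zero => intro hm; simpa using hm
  | succ m ih =>
    intro hm
    apply ih
    set b : LaurentSeries ℚ := (ℓ : LaurentSeries ℚ) ^ m * x with hb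
    have hbW : b ∈ gaussRing ℓ := mul_mem (dv_natCast_pow_mem_gaussRing ℓ m) hxW
    have hab : (ℓ : LaurentSeries ℚ) ^ (m + 1) * x = (ℓ : LaurentSeries ℚ) * b := by
      rw [hb, pow_succ]; ring
    rw [hab] at hm
    have habW : (ℓ : LaurentSeries ℚ) * b ∈ gaussRing ℓ :=
      mul_mem (natCast_mem (gaussRing ℓ) ℓ) hbW
    obtain ⟨y, hy, hxy⟩ := h _ hm habW (dv_rho_natCast_mul ℓ hbW habW)
    have : b = y := mul_left_cancel₀ (dv_natCast_ne_zero ℓ) hxy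
    rw [this]; exact hy

/-- `ℓ^k ∈ A_V(N)`. -/
theorem dv_natCast_pow_mem_AV (ℓ N : ℕ) [Fact ℓ.Prime] (k : ℕ) :
    ((ℓ : LaurentSeries ℚ)) ^ k ∈ AV ℓ N :=
  pow_mem (natCast_mem (AV ℓ N) ℓ) k

/-- `V ⊆ A_V(N)`. -/
theorem dv_gaussV_le_AV (ℓ N : ℕ) [Fact ℓ.Prime] {y : LaurentSeries ℚ} (hy : y ∈ gaussV ℓ) :
    y ∈ AV ℓ N :=
  (AV ℓ N).algebraMap_mem ⟨y, hy⟩

/-- `ℚ(j) = V[1/ℓ]`, from the valuation-ring property of `W` (GR). -/
theorem dv_exists_pow_mul_mem_gaussV (ℓ : ℕ) [Fact ℓ.Prime]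
    (hfrac : ∀ z ∈ Qj, ∃ u v : LaurentSeries (ZL ℓ), u ≠ 0 ∧ toQ ℓ u * z = toQ ℓ v)
    (hunit : ∀ z : LaurentSeries ℚ, z ≠ 0 →
      (∃ u v : LaurentSeries (ZL ℓ), u ≠ 0 ∧ toQ ℓ u * z = toQ ℓ v) →
      ∃ (m : ℤ) (y : LaurentSeries ℚ), y ∈ gaussRing ℓ ∧ z = (ℓ : LaurentSeries ℚ) ^ m * y)
    {c : LaurentSeries ℚ} (hc : c ∈ Qj) :
    ∃ m : ℕ, (ℓ : LaurentSeries ℚ) ^ m * c ∈ gaussV ℓ := by
  by_cases hc0 : c = 0
  · exact ⟨0, by rw [hc0, mul_zero]; exact zero_mem _⟩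
  obtain ⟨m, y, hyW, hcy⟩ := hunit c hc0 (hfrac c hc)
  refine ⟨(-m).toNat, ?_, ?_⟩
  · -- in `W`
    have hnn : 0 ≤ ((-m).toNat : ℤ) + m := by
      have := Int.self_le_toNat (-m)
      omega
    obtain ⟨k, hk⟩ := Int.eq_ofNat_of_zero_le hnn
    have : (ℓ : LaurentSeries ℚ) ^ (-m).toNat * c = (ℓ : LaurentSeries ℚ) ^ k * y := by
      rw [hcy, ← mul_assoc, ← zpow_natCast, ← zpow_add₀ (dv_natCast_ne_zero ℓ), hk, zpow_natCast]
    rw [this]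
    exact mul_mem (dv_natCast_pow_mem_gaussRing ℓ k) hyW
  · -- in `ℚ(j)`
    exact mul_mem (pow_mem (natCast_mem Qj ℓ) _) hc

/-- the generators `j(q^d)` are algebraic over `ℚ(j)` as soon as `F_N / ℚ(j)` is finite. -/
theorem dv_isAlgebraic_of_finiteDimensional (N : ℕ) [NeZero N]
    (hQj : Qj ≤ modularFunctionFieldFull N)
    (hfd : FiniteDimensional Qj (IntermediateField.extendScalars hQj)) :
    ∀ g ∈ divisorExpansions N, IsAlgebraic (↥Qj) g := by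
  intro g hg
  have hgF : g ∈ IntermediateField.extendScalars hQj := by
    rw [IntermediateField.mem_extendScalars]
    exact IntermediateField.subset_adjoin ℚ (divisorExpansions N) hg
  have : IsAlgebraic (↥Qj) (⟨g, hgF⟩ : ↥(IntermediateField.extendScalars hQj)) :=
    Algebra.IsAlgebraic.isAlgebraic _
  exact (IntermediateField.isAlgebraic_iff (S := IntermediateField.extendScalars hQj)
    (x := ⟨g, hgF⟩)).mp this

/-- every `x ∈ F_N` has `ℓ^m x ∈ A_V(N)` for some `m`. -/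
theorem dv_exists_pow_mul_mem_AV (ℓ N : ℕ) [Fact ℓ.Prime] [NeZero N]
    (hQj : Qj ≤ modularFunctionFieldFull N)
    (halg : ∀ g ∈ divisorExpansions N, IsAlgebraic (↥Qj) g)
    (hQjV : ∀ c ∈ Qj, ∃ m : ℕ, (ℓ : LaurentSeries ℚ) ^ m * c ∈ gaussV ℓ)
    {x : LaurentSeries ℚ} (hxF : x ∈ modularFunctionFieldFull N) :
    ∃ m : ℕ, (ℓ : LaurentSeries ℚ) ^ m * x ∈ AV ℓ N := by
  have hQj' : Qj ≤ IntermediateField.adjoin ℚ (divisorExpansions N) := hQj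
  have hext : IntermediateField.extendScalars hQj =
      IntermediateField.adjoin (↥Qj) (divisorExpansions N) :=
    IntermediateField.extendScalars_adjoin hQj'
  have hsub := IntermediateField.adjoin_toSubalgebra_of_isAlgebraic halg
  have hx1 : x ∈ IntermediateField.extendScalars hQj := by
    rw [IntermediateField.mem_extendScalars]; exact hxF
  rw [hext] at hx1
  have hx2 : x ∈ Algebra.adjoin (↥Qj) (divisorExpansions N) := by
    rw [← hsub]; exact hx1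
  clear hx1 hxF hsub halg hext
  induction hx2 using Algebra.adjoin_induction with
  | mem g hg =>
    exact ⟨0, by rw [pow_zero, one_mul]; exact Algebra.subset_adjoin hg⟩
  | algebraMap r =>
    obtain ⟨m, hm⟩ := hQjV (r : LaurentSeries ℚ) r.2
    exact ⟨m, dv_gaussV_le_AV ℓ N hm⟩
  | add a b _ _ ha hb =>
    obtain ⟨m, hm⟩ := ha
    obtain ⟨n, hn⟩ := hb
    refine ⟨m + n, ?_⟩
    have : (ℓ : LaurentSeries ℚ) ^ (m + n) * (a + b) =
        (ℓ : LaurentSeries ℚ) ^ n * ((ℓ : LaurentSeries ℚ) ^ m * a) +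
        (ℓ : LaurentSeries ℚ) ^ m * ((ℓ : LaurentSeries ℚ) ^ n * b) := by
      rw [pow_add]; ring
    rw [this]
    exact add_mem (mul_mem (dv_natCast_pow_mem_AV ℓ N n) hm)
      (mul_mem (dv_natCast_pow_mem_AV ℓ N m) hn)
  | mul a b _ _ ha hb =>
    obtain ⟨m, hm⟩ := ha
    obtain ⟨n, hn⟩ := hb
    refine ⟨m + n, ?_⟩
    have : (ℓ : LaurentSeries ℚ) ^ (m + n) * (a * b) =
        ((ℓ : LaurentSeries ℚ) ^ m * a) * ((ℓ : LaurentSeries ℚ) ^ n * b) := by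
      rw [pow_add]; ring
    rw [this]
    exact mul_mem hm hn

/-- **DV in hypothesis form** (algebraicity version): under `QEP`, `W ∩ F_N ⊆ A_V(N)`. -/
theorem dv_mem_AV_of_isAlgebraic (ℓ N : ℕ) [Fact ℓ.Prime] [NeZero N] (h : QEP ℓ N)
    (hQj : Qj ≤ modularFunctionFieldFull N)
    (halg : ∀ g ∈ divisorExpansions N, IsAlgebraic (↥Qj) g)
    (hfrac : ∀ z ∈ modularFunctionFieldFull N,
      ∃ u v : LaurentSeries (ZL ℓ), u ≠ 0 ∧ toQ ℓ u * z = toQ ℓ v)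
    (hunit : ∀ z : LaurentSeries ℚ, z ≠ 0 →
      (∃ u v : LaurentSeries (ZL ℓ), u ≠ 0 ∧ toQ ℓ u * z = toQ ℓ v) →
      ∃ (m : ℤ) (y : LaurentSeries ℚ), y ∈ gaussRing ℓ ∧ z = (ℓ : LaurentSeries ℚ) ^ m * y)
    {x : LaurentSeries ℚ} (hxF : x ∈ modularFunctionFieldFull N) (hxW : x ∈ gaussRing ℓ) :
    x ∈ AV ℓ N := by
  obtain ⟨m, hm⟩ := dv_exists_pow_mul_mem_AV ℓ N hQj halg
    (fun c hc => dv_exists_pow_mul_mem_gaussV ℓ (fun z hz => hfrac z (hQj hz)) hunit hc) hxF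
  exact dv_descent ℓ N h hxW m hm

/-- **DV in hypothesis form** (finite-dimensionality version): under `QEP`,
`W ∩ F_N ⊆ A_V(N)`. -/
theorem dv_mem_AV_of (ℓ N : ℕ) [Fact ℓ.Prime] [NeZero N] (h : QEP ℓ N)
    (hQj : Qj ≤ modularFunctionFieldFull N)
    (hfd : FiniteDimensional Qj (IntermediateField.extendScalars hQj))
    (hfrac : ∀ z ∈ modularFunctionFieldFull N,
      ∃ u v : LaurentSeries (ZL ℓ), u ≠ 0 ∧ toQ ℓ u * z = toQ ℓ v)
    (hunit : ∀ z : LaurentSeries ℚ, z ≠ 0 →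
      (∃ u v : LaurentSeries (ZL ℓ), u ≠ 0 ∧ toQ ℓ u * z = toQ ℓ v) →
      ∃ (m : ℤ) (y : LaurentSeries ℚ), y ∈ gaussRing ℓ ∧ z = (ℓ : LaurentSeries ℚ) ^ m * y)
    {x : LaurentSeries ℚ} (hxF : x ∈ modularFunctionFieldFull N) (hxW : x ∈ gaussRing ℓ) :
    x ∈ AV ℓ N :=
  dv_mem_AV_of_isAlgebraic ℓ N h hQj (dv_isAlgebraic_of_finiteDimensional N hQj hfd)
    hfrac hunit hxF hxW

end

end Fermat.Agent.S28x
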