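/-
S28 project, module RED (helper21): `RedBasis`/`RedHyp` instantiated with the landed modules
`GaussV` (helper67) and `DegreeUpper` (helper90).  Unconditional statements:
* `rb_hyp ℓ : rb_Hyp ℓ`;
* `rb_isIntegral_of_family` : if `ψ(N)` elements `b i ∈ F_N ∩ W` have `𝔽_ℓ(j̃)`-linearly independent
  residues, then EVERY element of `F_N ∩ W` is integral over `V = gaussV ℓ`
  (= the hypothesis `hV` of the chart `q`-expansion principle CH).
-/
import Fermat.Agent.S28x.RedHyp
import Fermat.Agent.S28x.GaussV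
import Fermat.Agent.S28x.DegreeUpper

set_option autoImplicit false

namespace Fermat.Agent.S28x

open ModularCurve IntermediateField

noncomputable section

/-- the hypothesis structure of `RedBasis` holds (GaussRing + GaussV). -/
theorem rb_hyp (ℓ : ℕ) [Fact ℓ.Prime] : rb_Hyp ℓ :=
  rb_hyp_of_rho_V ℓ (fun _ hy => gv_rho_mem_Kj ℓ hy)

/-- **RED, unconditional form.**  A family of `ψ(N)` elements of `F_N ∩ W` whose residues are
linearly independent over `𝔽_ℓ(j̃)` forces every element of `F_N ∩ W` to be integral over `V`. -/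
theorem rb_isIntegral_of_family (N ℓ : ℕ) [NeZero N] [Fact ℓ.Prime]
    (b : Fin (dedekindPsi N) → LaurentSeries ℚ)
    (hbF : ∀ i, b i ∈ modularFunctionFieldFull N) (hbW : ∀ i, b i ∈ gaussRing ℓ)
    (hind : LinearIndependent (Kj ℓ) (fun i => rho ℓ ⟨b i, hbW i⟩))
    (y : LaurentSeries ℚ) (hyF : y ∈ modularFunctionFieldFull N) (hyW : y ∈ gaussRing ℓ) :
    IsIntegral (gaussV ℓ) y :=
  rb_isIntegral_gaussV (rb_hyp ℓ) N b hbF hbW hind (du_not_linearIndependent N) y hyF hyW

end

end Fermat.Agent.S28x
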