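/-
S28 project, module TP (helper95), generic core.

`tp_isDomain_of`: if `R` is a `ℤ_(ℓ)`-algebra with a ring hom `φ : R → 𝔽_ℓ((q))` whose kernel is
contained in `ℓ R`, then `R ⊗_{ℤ_(ℓ)} K` is a domain for every field `K` of characteristic `ℓ`
(it embeds into `K((q))`).

All names are prefixed `tp_`.
-/
import Fermat.Agent.S28x.Defs

set_option autoImplicit false
set_option linter.unusedSectionVars false

namespace Fermat.Agent.S28x

open ModularCurve TensorProduct

noncomputable section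

/-- non-zero natural numbers prime to `ℓ` are units of `ℤ_(ℓ)`. -/
theorem tp_exists_mul_eq_one (ℓ : ℕ) (d : ℕ) (hd0 : d ≠ 0) (hd : d.Coprime ℓ) :
    ∃ y : ZL ℓ, (d : ZL ℓ) * y = 1 := by
  refine ⟨⟨(d : ℚ)⁻¹, ?_⟩, ?_⟩
  · show ((d : ℚ)⁻¹).den.Coprime ℓ
    rw [Rat.inv_natCast_den, if_neg hd0]
    exact hd
  · apply Subtype.ext
    push_cast
    exact mul_inv_cancel₀ (Nat.cast_ne_zero.mpr hd0)

/-- ring homs out of `ℤ_(ℓ)` are unique. -/
theorem tp_ringHom_ext (ℓ : ℕ) {T : Type*} [CommRing T] (f g : ZL ℓ →+* T) : f = g := by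
  ext x
  set d : ℕ := (x : ℚ).den with hd
  set n : ℤ := (x : ℚ).num with hn
  have hx : (d : ZL ℓ) * x = (n : ZL ℓ) := by
    apply Subtype.ext
    push_cast
    rw [mul_comm]
    exact Rat.mul_den_eq_num (x : ℚ)
  obtain ⟨y, hy⟩ := tp_exists_mul_eq_one ℓ d (x : ℚ).den_nz x.2
  have hu : IsUnit (d : T) := by
    refine IsUnit.of_mul_eq_one (f y) ?_
    have := congrArg f hy
    simpa using this
  have h1 : (d : T) * f x = (n : T) := by
    have := congrArg f hx
    simpa using this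
  have h2 : (d : T) * g x = (n : T) := by
    have := congrArg g hx
    simpa using this
  exact hu.mul_left_cancel (h1.trans h2.symm)

section generic

variable (ℓ : ℕ) [Fact ℓ.Prime] (R : Type*) [CommRing R] [Algebra (ZL ℓ) R]
  (φ : R →+* LaurentSeries (ZMod ℓ))
  (K : Type*) [Field K] [CharP K ℓ] [Algebra (ZL ℓ) K]

/-- the structure map `ℤ_(ℓ) → K` factors through the residue field. -/
theorem tp_algebraMap_eq :
    algebraMap (ZL ℓ) K = (ZMod.castHom (dvd_refl ℓ) K).comp (resZL ℓ) :=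
  tp_ringHom_ext ℓ _ _

/-- a set-theoretic section of `resZL`. -/
def tp_lift (z : ZMod ℓ) : ZL ℓ := ((z.val : ℕ) : ZL ℓ)

theorem tp_resZL_lift (z : ZMod ℓ) : resZL ℓ (tp_lift ℓ z) = z := by
  have : NeZero ℓ := ⟨(Fact.out : ℓ.Prime).ne_zero⟩
  rw [tp_lift, map_natCast, ZMod.natCast_zmod_val]

theorem tp_lift_smul (z : ZMod ℓ) (k : K) :
    tp_lift ℓ z • k = (ZMod.castHom (dvd_refl ℓ) K z) * k := by
  rw [Algebra.smul_def, tp_algebraMap_eq ℓ K, RingHom.comp_apply, tp_resZL_lift]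

/-- the comparison map `R ⊗ K → K((q))`. -/
def tp_Psi : R ⊗[ZL ℓ] K →+* LaurentSeries K :=
  letI : Algebra (ZL ℓ) (LaurentSeries K) :=
    ((algebraMap K (LaurentSeries K)).comp (algebraMap (ZL ℓ) K)).toAlgebra
  (Algebra.TensorProduct.productMap
    ({ toRingHom := (coeffMap (ZMod.castHom (dvd_refl ℓ) K)).comp φ
       commutes' := fun a => RingHom.congr_fun
        (tp_ringHom_ext ℓ
          (((coeffMap (ZMod.castHom (dvd_refl ℓ) K)).comp φ).comp (algebraMap (ZL ℓ) R))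
          (algebraMap (ZL ℓ) (LaurentSeries K))) a } : R →ₐ[ZL ℓ] LaurentSeries K)
    ({ toRingHom := algebraMap K (LaurentSeries K)
       commutes' := fun _ => rfl } : K →ₐ[ZL ℓ] LaurentSeries K)).toRingHom

theorem tp_Psi_tmul (r : R) (k : K) :
    tp_Psi ℓ R φ K (r ⊗ₜ k) =
      coeffMap (ZMod.castHom (dvd_refl ℓ) K) (φ r) * algebraMap K (LaurentSeries K) k := by
  let _ : Algebra (ZL ℓ) (LaurentSeries K) :=
    ((algebraMap K (LaurentSeries K)).comp (algebraMap (ZL ℓ) K)).toAlgebra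
  exact Algebra.TensorProduct.productMap_apply_tmul _ _ r k

theorem tp_Psi_tmul_coeff (r : R) (k : K) (n : ℤ) :
    (tp_Psi ℓ R φ K (r ⊗ₜ k)).coeff n = ZMod.castHom (dvd_refl ℓ) K ((φ r).coeff n) * k := by
  rw [tp_Psi_tmul, algebraMap_laurentSeries_eq_single, HahnSeries.coeff_mul_single_zero,
    coeffMap_coeff]

theorem tp_Psi_injective (hφ : ∀ x : R, φ x = 0 → ∃ y : R, x = (ℓ : R) * y) :
    Function.Injective (tp_Psi ℓ R φ K) := by
  classical
  let _ : Algebra (ZMod ℓ) K := ZMod.algebra K ℓ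
  have hsmul : ∀ (z : ZMod ℓ) (k : K), z • k = ZMod.castHom (dvd_refl ℓ) K z * k :=
    fun z k => rfl
  let b := Module.Free.chooseBasis (ZMod ℓ) K
  set Θ : (Module.Free.ChooseBasisIndex (ZMod ℓ) K →₀ R) →ₗ[ZL ℓ] R ⊗[ZL ℓ] K :=
    Finsupp.lsum (ZL ℓ) (fun j => (TensorProduct.mk (ZL ℓ) R K).flip (b j)) with hΘ
  have hΘs : ∀ c, Θ c = c.sum fun j r => r ⊗ₜ[ZL ℓ] b j := by
    intro c
    rw [hΘ, Finsupp.lsum_apply]
    rfl
  have hΘsingle : ∀ j r, Θ (Finsupp.single j r) = r ⊗ₜ[ZL ℓ] b j := by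
    intro j r
    rw [hΘs, Finsupp.sum_single_index]
    exact TensorProduct.zero_tmul _ _
  have hsurj : ∀ t, ∃ c, Θ c = t := by
    intro t
    have htop := TensorProduct.span_tmul_eq_top (ZL ℓ) R K
    have hle : (⊤ : Submodule (ZL ℓ) (R ⊗[ZL ℓ] K)) ≤ LinearMap.range Θ := by
      rw [← htop, Submodule.span_le]
      rintro _ ⟨r, k, rfl⟩
      have hk := b.linearCombination_repr k
      rw [Finsupp.linearCombination_apply] at hk
      rw [← hk, Finsupp.sum, TensorProduct.tmul_sum]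
      refine Submodule.sum_mem _ (fun j _ => ?_)
      have : r ⊗ₜ[ZL ℓ] ((b.repr k j) • b j) =
          tp_lift ℓ (b.repr k j) • Θ (Finsupp.single j r) := by
        rw [hΘsingle, hsmul, ← tp_lift_smul, TensorProduct.tmul_smul]
      rw [this]
      exact Submodule.smul_mem _ _ (LinearMap.mem_range_self _ _)
    exact hle (Submodule.mem_top (x := t))
  rw [injective_iff_map_eq_zero]
  intro t ht
  obtain ⟨c, rfl⟩ := hsurj t
  -- all coefficients vanish
  have hcoef : ∀ n : ℤ, ∑ j ∈ c.support, ((φ (c j)).coeff n) • b j = 0 := by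
    intro n
    have h1 := congrArg (fun x => x.coeff n) ht
    simp only [HahnSeries.coeff_zero] at h1
    rw [hΘs, Finsupp.sum, map_sum, HahnSeries.coeff_sum] at h1
    rw [← h1]
    refine Finset.sum_congr rfl (fun j _ => ?_)
    rw [tp_Psi_tmul_coeff, hsmul]
  have hzero : ∀ j, φ (c j) = 0 := by
    intro j
    by_cases hj : j ∈ c.support
    · ext n
      have := linearIndependent_iff'.mp b.linearIndependent c.support
        (fun j => (φ (c j)).coeff n) (hcoef n) j hj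
      simpa using this
    · rw [Finsupp.notMem_support_iff.mp hj, map_zero]
  rw [hΘs, Finsupp.sum]
  refine Finset.sum_eq_zero (fun j _ => ?_)
  obtain ⟨y, hy⟩ := hφ (c j) (hzero j)
  have hℓ : ((ℓ : ZL ℓ) • b j : K) = 0 := by
    rw [Algebra.smul_def, map_natCast, CharP.cast_eq_zero K ℓ, zero_mul]
  have hy' : c j = (ℓ : ZL ℓ) • y := by
    rw [hy, Algebra.smul_def, map_natCast]
  rw [hy', TensorProduct.smul_tmul, hℓ, TensorProduct.tmul_zero]

/-- **Generic form of TP**: if `φ : R → 𝔽_ℓ((q))` is a ring hom with `ker φ ⊆ ℓ R` then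
`R ⊗_{ℤ_(ℓ)} K` is a domain for every field `K` of characteristic `ℓ`. -/
theorem tp_isDomain_of (hφ : ∀ x : R, φ x = 0 → ∃ y : R, x = (ℓ : R) * y) :
    IsDomain (R ⊗[ZL ℓ] K) :=
  (tp_Psi_injective ℓ R φ K hφ).isDomain (tp_Psi ℓ R φ K)

end generic

section chart

open ModularCurve.IgusaScheme

variable (N ℓ : ℕ) [NeZero N] [Fact ℓ.Prime] (S : Set ↥(modularFunctionFieldFull N))
  (hmem : ∀ x : chartAlg N ℓ S,
    ((x : ↥(modularFunctionFieldFull N)) : LaurentSeries ℚ) ∈ gaussRing ℓ)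

/-- the `q`-expansion map of a chart algebra into the Gauss ring `W` (given CH part 1). -/
def tp_toGauss : chartAlg N ℓ S →+* gaussRing ℓ where
  toFun x := ⟨((x : ↥(modularFunctionFieldFull N)) : LaurentSeries ℚ), hmem x⟩
  map_one' := Subtype.ext rfl
  map_zero' := Subtype.ext rfl
  map_add' _ _ := Subtype.ext rfl
  map_mul' _ _ := Subtype.ext rfl

theorem tp_toGauss_apply (x : chartAlg N ℓ S) :
    tp_toGauss N ℓ S hmem x =
      ⟨((x : ↥(modularFunctionFieldFull N)) : LaurentSeries ℚ), hmem x⟩ := rfl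

/-- **TP from CH**: `chart_tensor_isDomain` for a set `S`, with the two statements of module CH
(`chart_mem_gaussRing`, `chart_qep`) for this `S` as hypotheses. -/
theorem tp_chart_tensor_isDomain_of
    (hqep : ∀ x : chartAlg N ℓ S,
      rho ℓ ⟨((x : ↥(modularFunctionFieldFull N)) : LaurentSeries ℚ), hmem x⟩ = 0 →
        ∃ y : chartAlg N ℓ S, x = (ℓ : chartAlg N ℓ S) * y)
    (K : Type) [Field K] [CharP K ℓ] [Algebra ↥(GaloisRep.ratLocalizedAt ℓ) K] :
    IsDomain (TensorProduct ↥(GaloisRep.ratLocalizedAt ℓ) (chartAlg N ℓ S) K) :=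
  tp_isDomain_of ℓ (chartAlg N ℓ S) ((rho ℓ).comp (tp_toGauss N ℓ S hmem)) K
    (fun x hx => hqep x hx)

end chart

end

end Fermat.Agent.S28x
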