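/-
S28 project (Igusa), scheme-theoretic glue, part 1 (pure topology).  Prefix `glt_`.  (helper75)
-/
import Mathlib

set_option autoImplicit false

namespace Fermat.Agent.S28x

/-- A space covered by two irreducible open subsets with non-empty intersection is irreducible. -/
theorem glt_irreducibleSpace_of_cover {T : Type*} [TopologicalSpace T] {U V : Set T}
    (hU : IsOpen U) (hV : IsOpen V) (hcov : U ∪ V = Set.univ)
    (hUi : IsPreirreducible U) (hVi : IsPreirreducible V) (hne : (U ∩ V).Nonempty) :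
    IrreducibleSpace T := by
  -- every non-empty open set meets `U ∩ V`
  have key : ∀ A : Set T, IsOpen A → A.Nonempty → (A ∩ (U ∩ V)).Nonempty := by
    intro A hA ⟨a, ha⟩
    have : a ∈ U ∪ V := by rw [hcov]; trivial
    rcases this with haU | haV
    · obtain ⟨x, hxU, hxA, hxV⟩ := hUi A V hA hV ⟨a, haU, ha⟩
        (by obtain ⟨y, hyU, hyV⟩ := hne; exact ⟨y, hyU, hyV⟩)
      exact ⟨x, hxA, hxU, hxV⟩
    · obtain ⟨x, hxV, hxA, hxU⟩ := hVi A U hA hU ⟨a, haV, ha⟩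
        (by obtain ⟨y, hyU, hyV⟩ := hne; exact ⟨y, hyV, hyU⟩)
      exact ⟨x, hxA, hxU, hxV⟩
  have hpre : PreirreducibleSpace T := by
    refine ⟨?_⟩
    intro A B hA hB ⟨a, _, haA⟩ ⟨b, _, hbB⟩
    obtain ⟨x, hxA, hxU, hxV⟩ := key A hA ⟨a, haA⟩
    obtain ⟨y, hyB, hyU, hyV⟩ := key B hB ⟨b, hbB⟩
    obtain ⟨z, hzU, hzAV, hzBV⟩ := hUi (A ∩ V) (B ∩ V) (hA.inter hV) (hB.inter hV)
      ⟨x, hxU, hxA, hxV⟩ ⟨y, hyU, hyB, hyV⟩
    exact ⟨z, trivial, hzAV.1, hzBV.1⟩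
  obtain ⟨y, _⟩ := hne
  exact { toPreirreducibleSpace := hpre, toNonempty := ⟨y⟩ }

end Fermat.Agent.S28x
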