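/-
S28 project (Igusa), scheme-theoretic glue (REDUCTION 2).  Prefix `glue_`.  (helper75)

`glue_result`: the base change of the Igusa model to a field `K` is integral as soon as the three
rings `chartAlg{Fin,Inf,Mid} ⊗ K` are domains.
-/
import Mathlib
import Fermat.Prelude.Def_ModularCurve_IgusaScheme
import Fermat.Agent.S28x.GlueTop

set_option autoImplicit false
set_option linter.unusedSectionVars false

open AlgebraicGeometry CategoryTheory CategoryTheory.Limits ModularCurve ModularCurve.IgusaScheme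
open scoped TensorProduct

noncomputable section

namespace Fermat.Agent.S28x

/-- `ℤ_(ℓ)` -/
abbrev glue_Zl (ℓ : ℕ) [Fact ℓ.Prime] : Type := ↥(GaloisRep.ratLocalizedAt ℓ)

variable (N : ℕ) [NeZero N] (ℓ : ℕ) [Fact ℓ.Prime]
  (K : Type) [Field K] [Algebra (glue_Zl ℓ) K]

/-- the structure map `Spec K ⟶ Spec ℤ_(ℓ)` -/
abbrev glue_t : Spec (CommRingCat.of K) ⟶ Spec (CommRingCat.of (glue_Zl ℓ)) :=
  Spec.map (CommRingCat.ofHom (algebraMap (glue_Zl ℓ) K))

/-- the base change of the Igusa model -/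
abbrev glue_P : Scheme.{0} := pullback (igusaTo N ℓ) (glue_t ℓ K)

/-! ### a general chart `c : Spec R ⟶ IgusaScheme` -/

section Chart

variable {N ℓ}
variable (R : Type) [CommRing R] [Algebra (glue_Zl ℓ) R]
  (c : Spec (CommRingCat.of R) ⟶ ModularCurve.IgusaScheme N ℓ)
  (hc : c ≫ igusaTo N ℓ = Spec.map (CommRingCat.ofHom (algebraMap (glue_Zl ℓ) R)))

/-- the chart of the base change -/
abbrev glue_chart : Scheme.{0} := pullback (c ≫ igusaTo N ℓ) (glue_t ℓ K)

/-- the inclusion of the chart -/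
abbrev glue_chartMap : glue_chart K R c ⟶ glue_P N ℓ K :=
  pullback.map (c ≫ igusaTo N ℓ) (glue_t ℓ K) (igusaTo N ℓ) (glue_t ℓ K) c (𝟙 _) (𝟙 _)
    (by simp) (by simp)

/-- the chart is the spectrum of `R ⊗ K` -/
def glue_chartIso : glue_chart K R c ≅ Spec (CommRingCat.of (R ⊗[(glue_Zl ℓ)] K)) :=
  pullback.congrHom hc rfl ≪≫ pullbackSpecIso (glue_Zl ℓ) R K

theorem glue_range_chartMap :
    Set.range (glue_chartMap K R c).base =
      (pullback.fst (igusaTo N ℓ) (glue_t ℓ K)).base ⁻¹' Set.range c.base := by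
  have := Scheme.Pullback.range_map (c ≫ igusaTo N ℓ) (glue_t ℓ K) (igusaTo N ℓ) (glue_t ℓ K) c
    (𝟙 _) (𝟙 _) (by simp) (by simp)
  rw [this]
  simp

include hc in
theorem glue_chart_isIntegral [IsDomain (R ⊗[(glue_Zl ℓ)] K)] : IsIntegral (glue_chart K R c) := by
  have : IsDomain ↑(CommRingCat.of (R ⊗[(glue_Zl ℓ)] K)) := ‹_›
  have : IsIntegral (Spec (CommRingCat.of (R ⊗[(glue_Zl ℓ)] K))) := inferInstance
  have : Nonempty (glue_chart K R c) :=
    ⟨(glue_chartIso K R c hc).inv.base (Nonempty.some inferInstance)⟩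
  exact isIntegral_of_isOpenImmersion (glue_chartIso K R c hc).hom

include hc in
theorem glue_range_isIrreducible [IsDomain (R ⊗[(glue_Zl ℓ)] K)] :
    IsIrreducible (Set.range (glue_chartMap K R c).base) := by
  have := glue_chart_isIntegral K R c hc
  rw [← Set.image_univ]
  exact (IrreducibleSpace.isIrreducible_univ _).image _
    (glue_chartMap K R c).base.hom.continuous.continuousOn

end Chart

/-! ### the three charts -/

theorem glue_hcFin : ιFin N ℓ ≫ igusaTo N ℓ =
    Spec.map (CommRingCat.ofHom (algebraMap (glue_Zl ℓ) (chartAlgFin N ℓ))) := ιFin_igusaTo N ℓ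

theorem glue_hcInf : ιInf N ℓ ≫ igusaTo N ℓ =
    Spec.map (CommRingCat.ofHom (algebraMap (glue_Zl ℓ) (chartAlgInf N ℓ))) := ιInf_igusaTo N ℓ

/-- the middle chart `Spec R_mid ⟶ IgusaScheme` -/
abbrev glue_cMid : XMid N ℓ ⟶ ModularCurve.IgusaScheme N ℓ := fFin N ℓ ≫ ιFin N ℓ

theorem glue_hcMid : glue_cMid N ℓ ≫ igusaTo N ℓ =
    Spec.map (CommRingCat.ofHom (algebraMap (glue_Zl ℓ) (chartAlgMid N ℓ))) := by
  rw [Category.assoc, ιFin_igusaTo, ← Spec.map_comp, ← CommRingCat.ofHom_comp]
  congr 2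

theorem glue_range_cMid_subset :
    Set.range (glue_cMid N ℓ).base ⊆ Set.range (ιFin N ℓ).base ∩ Set.range (ιInf N ℓ).base := by
  rintro _ ⟨y, rfl⟩
  refine ⟨⟨(fFin N ℓ).base y, rfl⟩, ⟨(fInf N ℓ).base y, ?_⟩⟩
  have := glue_condition N ℓ
  show (fInf N ℓ ≫ ιInf N ℓ).base y = (fFin N ℓ ≫ ιFin N ℓ).base y
  rw [this]

/-- **REDUCTION 2** (scheme-theoretic glue for S28): the base change of the Igusa model to `K`
is integral as soon as `R_fin ⊗ K`, `R_inf ⊗ K` are domains and `R_mid ⊗ K` is non-trivial. -/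
theorem glue_result
    [IsDomain (chartAlgFin N ℓ ⊗[glue_Zl ℓ] K)] [IsDomain (chartAlgInf N ℓ ⊗[glue_Zl ℓ] K)]
    [Nontrivial (chartAlgMid N ℓ ⊗[glue_Zl ℓ] K)] :
    IsIntegral (glue_P N ℓ K) := by
  -- notation
  set jF := glue_chartMap K (chartAlgFin N ℓ) (ιFin N ℓ) with hjF
  set jI := glue_chartMap K (chartAlgInf N ℓ) (ιInf N ℓ) with hjI
  set jM := glue_chartMap K (chartAlgMid N ℓ) (glue_cMid N ℓ) with hjM
  have hintF := glue_chart_isIntegral K (chartAlgFin N ℓ) (ιFin N ℓ) (glue_hcFin N ℓ)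
  have hintI := glue_chart_isIntegral K (chartAlgInf N ℓ) (ιInf N ℓ) (glue_hcInf N ℓ)
  have hrF := glue_range_chartMap K (chartAlgFin N ℓ) (ιFin N ℓ)
  have hrI := glue_range_chartMap K (chartAlgInf N ℓ) (ιInf N ℓ)
  have hrM := glue_range_chartMap K (chartAlgMid N ℓ) (glue_cMid N ℓ)
  -- the two charts cover
  have hcov : Set.range jF.base ∪ Set.range jI.base = Set.univ := by
    rw [hrF, hrI, ← Set.preimage_union]
    apply Set.eq_univ_of_forall
    intro x
    exact mem_range_ιFin_or_mem_range_ιInf N ℓ _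
  -- reducedness
  have hred : IsReduced (glue_P N ℓ K) := by
    let 𝒰 : (glue_P N ℓ K).OpenCover :=
      Scheme.Cover.mkOfCovers Bool
        (fun b => Bool.rec (glue_chart K (chartAlgInf N ℓ) (ιInf N ℓ))
          (glue_chart K (chartAlgFin N ℓ) (ιFin N ℓ)) b)
        (fun b => match b with
          | true => jF
          | false => jI)
        (by
          intro x
          have hx : x ∈ Set.range jF.base ∪ Set.range jI.base := by rw [hcov]; trivial
          rcases hx with ⟨y, hy⟩ | ⟨y, hy⟩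
          · exact ⟨true, y, hy⟩
          · exact ⟨false, y, hy⟩)
        (by
          intro b
          cases b
          · show IsOpenImmersion jI
            infer_instance
          · show IsOpenImmersion jF
            infer_instance)
    have : ∀ i, IsReduced (𝒰.X i) := by
      intro b
      cases b
      · show IsReduced (glue_chart K (chartAlgInf N ℓ) (ιInf N ℓ))
        infer_instance
      · show IsReduced (glue_chart K (chartAlgFin N ℓ) (ιFin N ℓ))
        infer_instance
    exact IsReduced.of_openCover _ 𝒰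
  -- irreducibility
  have hirr : IrreducibleSpace (glue_P N ℓ K) := by
    refine glt_irreducibleSpace_of_cover (U := Set.range jF.base) (V := Set.range jI.base)
      jF.isOpenEmbedding.isOpen_range jI.isOpenEmbedding.isOpen_range hcov
      (glue_range_isIrreducible K _ _ (glue_hcFin N ℓ)).isPreirreducible
      (glue_range_isIrreducible K _ _ (glue_hcInf N ℓ)).isPreirreducible ?_
    -- the middle chart is non-empty and lands in the intersection
    have hne : Nonempty (glue_chart K (chartAlgMid N ℓ) (glue_cMid N ℓ)) := by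
      have : Nonempty (Spec (CommRingCat.of (chartAlgMid N ℓ ⊗[glue_Zl ℓ] K))) := by
        have : Nontrivial ↑(CommRingCat.of (chartAlgMid N ℓ ⊗[glue_Zl ℓ] K)) := ‹_›
        infer_instance
      exact ⟨(glue_chartIso K (chartAlgMid N ℓ) (glue_cMid N ℓ) (glue_hcMid N ℓ)).inv.base
        (Nonempty.some this)⟩
    obtain ⟨y⟩ := hne
    refine ⟨jM.base y, ?_, ?_⟩
    · rw [hrF]
      have : jM.base y ∈ Set.range jM.base := ⟨y, rfl⟩
      rw [hrM] at this
      exact (glue_range_cMid_subset N ℓ this).1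
    · rw [hrI]
      have : jM.base y ∈ Set.range jM.base := ⟨y, rfl⟩
      rw [hrM] at this
      exact (glue_range_cMid_subset N ℓ this).2
  exact isIntegral_of_irreducibleSpace_of_isReduced _

end Fermat.Agent.S28x

namespace Fermat.Agent.S28x

open scoped TensorProduct

/-- `glue_result` in the exact shape of the frozen statement S28 (conclusion), with the three
ring-theoretic inputs as hypotheses. -/
theorem glue_S28_of (N : ℕ) [NeZero N] (ℓ : ℕ) [Fact ℓ.Prime]
    (K : Type) [Field K] [Algebra ↥(GaloisRep.ratLocalizedAt ℓ) K]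
    (hFin : IsDomain (chartAlgFin N ℓ ⊗[↥(GaloisRep.ratLocalizedAt ℓ)] K))
    (hInf : IsDomain (chartAlgInf N ℓ ⊗[↥(GaloisRep.ratLocalizedAt ℓ)] K))
    (hMid : Nontrivial (chartAlgMid N ℓ ⊗[↥(GaloisRep.ratLocalizedAt ℓ)] K)) :
    IsIntegral ↑(pullback (igusaTo N ℓ)
      (Spec.map (CommRingCat.ofHom (algebraMap ↥(GaloisRep.ratLocalizedAt ℓ) K)))) :=
  glue_result N ℓ K

end Fermat.Agent.S28x
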