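/-
S28 project (Igusa), module GL "scheme glue": the EXACT Spec statement `glue`
(name + statement as in S28x/Spec.lean), as a thin wrapper around helper75's `glue_S28_of`
(S28x/Glue.lean, which proves it with the weaker middle hypothesis `Nontrivial`).
helper94's `glue_igusa_pullback` (S28x/GlueFibre.lean) is an independent second proof.
For the final S28.lean use `Fermat.Agent.S28x.glue`, `glue_S28_of` or `glue_igusa_pullback`.
-/
import Fermat.Agent.S28x.Glue

set_option autoImplicit false

noncomputable section

namespace Fermat.Agent.S28x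

open AlgebraicGeometry CategoryTheory CategoryTheory.Limits ModularCurve ModularCurve.IgusaScheme

/-- **GL.** If the three chart algebras stay domains after `⊗ K`, the fibre of the Igusa scheme
over `Spec K` is integral. -/
theorem glue (N ℓ : ℕ) [NeZero N] [Fact ℓ.Prime]
    (K : Type) [Field K] [CharP K ℓ] [Algebra ↥(GaloisRep.ratLocalizedAt ℓ) K]
    (hFin : IsDomain (TensorProduct ↥(GaloisRep.ratLocalizedAt ℓ) (chartAlgFin N ℓ) K))
    (hInf : IsDomain (TensorProduct ↥(GaloisRep.ratLocalizedAt ℓ) (chartAlgInf N ℓ) K))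
    (hMid : IsDomain (TensorProduct ↥(GaloisRep.ratLocalizedAt ℓ) (chartAlgMid N ℓ) K)) :
    IsIntegral ↑(pullback (igusaTo N ℓ)
      (Spec.map (CommRingCat.ofHom (algebraMap ↥(GaloisRep.ratLocalizedAt ℓ) K)))) :=
  glue_S28_of N ℓ K hFin hInf hMid.toNontrivial

end Fermat.Agent.S28x
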