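/-
S28 project, TOP-chain wiring check (helper54, prefix `tw54_`).
Proves the frozen S28 statement from the two statements of module CH (exact `Spec` shapes) as
hypotheses, through the REAL landed modules TP (`ChartTensorCore`) and GL (`GlueSpec`).
-/
import Fermat.Agent.S28x.ChartTensorCore
import Fermat.Agent.S28x.GlueSpec

set_option autoImplicit false

noncomputable section

namespace Fermat.Agent.S28x

open AlgebraicGeometry CategoryTheory CategoryTheory.Limits ModularCurve ModularCurve.IgusaScheme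

/-- the two statements of module CH (`Spec.chart_mem_gaussRing`, `Spec.chart_qep`), for all
`S ⊆ {j, j⁻¹}`, bundled. -/
def tw54_CH (N ℓ : ℕ) [NeZero N] [Fact ℓ.Prime] : Prop :=
  ∃ hmem : ∀ (S : Set ↥(modularFunctionFieldFull N)), S ⊆ {jFull N, (jFull N)⁻¹} →
      ∀ x : chartAlg N ℓ S,
        ((x : ↥(modularFunctionFieldFull N)) : LaurentSeries ℚ) ∈ gaussRing ℓ,
    ∀ (S : Set ↥(modularFunctionFieldFull N)) (hS : S ⊆ {jFull N, (jFull N)⁻¹})
      (x : chartAlg N ℓ S),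
      rho ℓ ⟨((x : ↥(modularFunctionFieldFull N)) : LaurentSeries ℚ), hmem S hS x⟩ = 0 →
        ∃ y : chartAlg N ℓ S, x = (ℓ : chartAlg N ℓ S) * y

/-- TP for every `S ⊆ {j, j⁻¹}` from CH. -/
theorem tw54_chart_tensor_isDomain (N ℓ : ℕ) [NeZero N] [Fact ℓ.Prime] (hCH : tw54_CH N ℓ)
    (S : Set ↥(modularFunctionFieldFull N)) (hS : S ⊆ {jFull N, (jFull N)⁻¹})
    (K : Type) [Field K] [CharP K ℓ] [Algebra ↥(GaloisRep.ratLocalizedAt ℓ) K] :
    IsDomain (TensorProduct ↥(GaloisRep.ratLocalizedAt ℓ) (chartAlg N ℓ S) K) := by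
  obtain ⟨hmem, hqep⟩ := hCH
  exact tp_chart_tensor_isDomain_of N ℓ S (hmem S hS) (hqep S hS) K

/-- **The frozen S28 statement from CH.** -/
theorem tw54_result_of_CH (N : ℕ) [NeZero N] (ℓ : ℕ) [Fact ℓ.Prime] (hCH : tw54_CH N ℓ)
    (K : Type) [Field K] [CharP K ℓ] [Algebra ↥(GaloisRep.ratLocalizedAt ℓ) K] :
    IsIntegral ↑(pullback (igusaTo N ℓ)
      (Spec.map (CommRingCat.ofHom (algebraMap ↥(GaloisRep.ratLocalizedAt ℓ) K)))) :=
  glue N ℓ K
    (tw54_chart_tensor_isDomain N ℓ hCH {jFull N} (by simp) K)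
    (tw54_chart_tensor_isDomain N ℓ hCH {(jFull N)⁻¹} (by simp) K)
    (tw54_chart_tensor_isDomain N ℓ hCH {jFull N, (jFull N)⁻¹} (le_refl _) K)

end Fermat.Agent.S28x
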