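/-
S28 project, module CH, insurance copy by helper21 (prefix `cq21_`).
The `q`-expansion principle for the chart algebras `chartAlg N ℓ S`, `S ⊆ {j, j⁻¹}`:

* `cq21_chart_mem_gaussRing` : chart algebras lie in `W` (unconditional);
* `cq21_chart_qep_of` : if every element of `F_N ∩ W` is integral over `V = gaussV ℓ` (`hV`), then
  `ρ x = 0 ⇒ x = ℓ y` inside the chart algebra;
* `cq21_CH_of_family`, `cq21_result_of_family` : the bundle `tw54_CH` and the frozen S28 statement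
  from a family of `ψ(N)` elements of `F_N ∩ W` with `𝔽_ℓ(j̃)`-independent residues.

Proof of `cq21_chart_qep_of`: `y = x/ℓ ∈ F_N ∩ W` is integral over `V` (`hV`) and over `ℚ[S']`;
both are integrally closed in `ℚ(j)` (`mem_gaussRing_of_isIntegral`, `ch_ic`), so `y` is integral
over `V ∩ ℚ[S'] ⊆ ℤ_(ℓ)[S']` (`ch_isIntegral_inf`, `gv_mem_adjoin_ZL_of_mem_gaussV`), i.e.
`y ∈ chartAlg N ℓ S` (`ct_mem_chartAlg_of_isIntegral`).
-/
import Fermat.Agent.S28x.ChartTransport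
import Fermat.Agent.S28x.ChartIC
import Fermat.Agent.S28x.GaussRing
import Fermat.Agent.S28x.RedInst
import Fermat.Agent.S28x.TraceWire54

set_option autoImplicit false
set_option linter.unusedSectionVars false

namespace Fermat.Agent.S28x

open ModularCurve ModularCurve.IgusaScheme Polynomial

noncomputable section

local notation "𝕃" => LaurentSeries ℚ

variable (N : ℕ) [NeZero N] (ℓ : ℕ) [Fact ℓ.Prime]

/-- **CH 1.** chart algebras lie in `W`. -/
theorem cq21_chart_mem_gaussRing {S : Set ↥(modularFunctionFieldFull N)}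
    (hS : S ⊆ {jFull N, (jFull N)⁻¹}) (x : chartAlg N ℓ S) :
    ((x : ↥(modularFunctionFieldFull N)) : 𝕃) ∈ gaussRing ℓ :=
  mem_gaussRing_of_isIntegral ℓ (exists_frac_of_mem_full ℓ N x.1.2)
    (ct_isIntegral_gaussRing N ℓ hS x)

/-- `V` is integrally closed in `ℚ(j)`. -/
theorem cq21_gaussV_ic (c : 𝕃) (hc : c ∈ Qj) (hint : IsIntegral (gaussV ℓ) c) : c ∈ gaussV ℓ := by
  refine ⟨?_, hc⟩
  exact mem_gaussRing_of_isIntegral ℓ (exists_frac_of_mem_full ℓ 1 (rb_Qj_le 1 hc))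
    (ct_isIntegral_of_le (gaussV_le_gaussRing ℓ) hint)

/-- `ℚ[S']` is integrally closed in `ℚ(j)` for `S' ⊆ {j, j⁻¹}`. -/
theorem cq21_adjoin_ic {S' : Set 𝕃} (hS' : S' ⊆ {jq, jq⁻¹}) (c : 𝕃) (hc : c ∈ Qj)
    (hint : IsIntegral (Algebra.adjoin ℚ S').toSubring c) : c ∈ (Algebra.adjoin ℚ S').toSubring :=
  ch_ic jq du_transcendental_jq S' hS' c hc hint

theorem cq21_adjoin_le_Qj {S' : Set 𝕃} (hS' : S' ⊆ {jq, jq⁻¹}) :
    (Algebra.adjoin ℚ S').toSubring ≤ Qj.toSubfield.toSubring := by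
  intro c hc
  have h : Algebra.adjoin ℚ S' ≤ Qj.toSubalgebra := by
    rw [Algebra.adjoin_le_iff]
    intro s hs
    rcases hS' hs with rfl | rfl
    · exact IntermediateField.mem_adjoin_simple_self ℚ jq
    · show jq⁻¹ ∈ Qj
      exact Qj.inv_mem (IntermediateField.mem_adjoin_simple_self ℚ jq)
  exact h hc

theorem cq21_gaussV_le_Qj : gaussV ℓ ≤ Qj.toSubfield.toSubring := fun _ hc => hc.2

/-- **CH 2 (hypothesis form).** -/
theorem cq21_chart_qep_of
    (hV : ∀ y : 𝕃, y ∈ modularFunctionFieldFull N → y ∈ gaussRing ℓ → IsIntegral (gaussV ℓ) y)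
    {S : Set ↥(modularFunctionFieldFull N)} (hS : S ⊆ {jFull N, (jFull N)⁻¹})
    (x : chartAlg N ℓ S)
    (hx : rho ℓ ⟨((x : ↥(modularFunctionFieldFull N)) : 𝕃),
      cq21_chart_mem_gaussRing N ℓ hS x⟩ = 0) :
    ∃ y : chartAlg N ℓ S, x = (ℓ : chartAlg N ℓ S) * y := by
  obtain ⟨w, hw⟩ := (rho_eq_zero_iff ℓ _).mp hx
  have hw' : ((x : ↥(modularFunctionFieldFull N)) : 𝕃) = (ℓ : 𝕃) * (w : 𝕃) := by
    have := congrArg (fun z : gaussRing ℓ => (z : 𝕃)) hw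
    simpa using this
  have hℓ0 : (ℓ : 𝕃) ≠ 0 := gv_natCast_ne_zero ℓ
  -- `y = x / ℓ ∈ F_N`
  set y : ↥(modularFunctionFieldFull N) :=
    (x : ↥(modularFunctionFieldFull N)) * ((ℓ : ↥(modularFunctionFieldFull N)))⁻¹ with hy
  have hyw : (y : 𝕃) = (w : 𝕃) := by
    have : (y : 𝕃) = ((x : ↥(modularFunctionFieldFull N)) : 𝕃) * ((ℓ : 𝕃))⁻¹ := by
      rw [hy]; push_cast; rfl
    rw [this, hw']
    field_simp
  have hS' := ct_img_subset N hS
  -- integrality over `V`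
  have h1 : IsIntegral (gaussV ℓ) (y : 𝕃) := hV _ y.2 (by rw [hyw]; exact w.2)
  -- integrality over `ℚ[S']`
  have h2 : IsIntegral (Algebra.adjoin ℚ (ct_img N S)).toSubring (y : 𝕃) := by
    have hx2 := ct_isIntegral_adjoin N ℓ S x
    have hc : ((ℓ : 𝕃))⁻¹ ∈ (Algebra.adjoin ℚ (ct_img N S)).toSubring := by
      have : ((ℓ : 𝕃))⁻¹ = algebraMap ℚ 𝕃 ((ℓ : ℚ)⁻¹) := by
        rw [map_inv₀, map_natCast]
      rw [this]
      exact Subalgebra.algebraMap_mem (Algebra.adjoin ℚ (ct_img N S)) _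
    have h3 : IsIntegral (Algebra.adjoin ℚ (ct_img N S)).toSubring ((ℓ : 𝕃))⁻¹ :=
      isIntegral_algebraMap (x := (⟨_, hc⟩ : (Algebra.adjoin ℚ (ct_img N S)).toSubring))
    have : (y : 𝕃) = ((x : ↥(modularFunctionFieldFull N)) : 𝕃) * ((ℓ : 𝕃))⁻¹ := by
      rw [hy]; push_cast; rfl
    rw [this]
    exact hx2.mul h3
  -- integrality over the intersection, hence over `T`
  have h3 := ch_isIntegral_inf Qj.toSubfield (gaussV ℓ) (Algebra.adjoin ℚ (ct_img N S)).toSubring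
    (cq21_gaussV_le_Qj ℓ) (cq21_adjoin_le_Qj hS') (cq21_gaussV_ic ℓ) (cq21_adjoin_ic hS')
    (y : 𝕃) h1 h2
  have hle : gaussV ℓ ⊓ (Algebra.adjoin ℚ (ct_img N S)).toSubring ≤ ct_T N ℓ S := by
    rintro c ⟨hc1, hc2⟩
    exact gv_mem_adjoin_ZL_of_mem_gaussV ℓ (ct_img N S) hS' hc1 hc2
  have hyS : y ∈ chartAlg N ℓ S :=
    ct_mem_chartAlg_of_isIntegral N ℓ S y (ct_isIntegral_of_le hle h3)
  refine ⟨⟨y, hyS⟩, ?_⟩
  apply Subtype.ext
  have hℓF : (ℓ : ↥(modularFunctionFieldFull N)) ≠ 0 := by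
    intro h
    apply hℓ0
    have := congrArg (fun z : ↥(modularFunctionFieldFull N) => (z : 𝕃)) h
    simpa using this
  show (x : ↥(modularFunctionFieldFull N)) =
    (((ℓ : chartAlg N ℓ S) * ⟨y, hyS⟩ : chartAlg N ℓ S) : ↥(modularFunctionFieldFull N))
  rw [MulMemClass.coe_mul]
  have : (((ℓ : chartAlg N ℓ S) : chartAlg N ℓ S) : ↥(modularFunctionFieldFull N)) =
      (ℓ : ↥(modularFunctionFieldFull N)) := by
    simp
  rw [this]
  show (x : ↥(modularFunctionFieldFull N)) = (ℓ : ↥(modularFunctionFieldFull N)) * y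
  rw [hy]
  field_simp

/-- **CH (bundle `tw54_CH`) from `hV`.** -/
theorem cq21_CH_of
    (hV : ∀ y : 𝕃, y ∈ modularFunctionFieldFull N → y ∈ gaussRing ℓ → IsIntegral (gaussV ℓ) y) :
    tw54_CH N ℓ :=
  ⟨fun _ hS x => cq21_chart_mem_gaussRing N ℓ hS x,
    fun _ hS x hx => cq21_chart_qep_of N ℓ hV hS x hx⟩

/-- **CH from a family** of `ψ(N)` elements of `F_N ∩ W` with `𝔽_ℓ(j̃)`-independent residues. -/
theorem cq21_CH_of_family (b : Fin (dedekindPsi N) → 𝕃)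
    (hbF : ∀ i, b i ∈ modularFunctionFieldFull N) (hbW : ∀ i, b i ∈ gaussRing ℓ)
    (hind : LinearIndependent (Kj ℓ) (fun i => rho ℓ ⟨b i, hbW i⟩)) : tw54_CH N ℓ :=
  cq21_CH_of N ℓ (rb_isIntegral_of_family N ℓ b hbF hbW hind)

open AlgebraicGeometry CategoryTheory CategoryTheory.Limits in
/-- **The frozen S28 statement from such a family.** -/
theorem cq21_result_of_family (b : Fin (dedekindPsi N) → 𝕃)
    (hbF : ∀ i, b i ∈ modularFunctionFieldFull N) (hbW : ∀ i, b i ∈ gaussRing ℓ)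
    (hind : LinearIndependent (Kj ℓ) (fun i => rho ℓ ⟨b i, hbW i⟩))
    (K : Type) [Field K] [CharP K ℓ] [Algebra ↥(GaloisRep.ratLocalizedAt ℓ) K] :
    IsIntegral ↑(pullback (igusaTo N ℓ)
      (Spec.map (CommRingCat.ofHom (algebraMap ↥(GaloisRep.ratLocalizedAt ℓ) K)))) :=
  tw54_result_of_CH N ℓ (cq21_CH_of_family N ℓ b hbF hbW hind) K

end

end Fermat.Agent.S28x
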