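/-
S28 project (Igusa), module CH, SECOND SQUAD (helper3; owner of CH = helper49, whose landed
`ChartIC.lean` supplies the generic commutative algebra used here).  Prefix `chb_`.

* `chb_chart_mem_gaussRing` : the chart algebras `R_S` (`S ⊆ {j, 1/j}`) lie in the Gauss ring `W`
  (shape of `Spec.chart_mem_gaussRing`, without the unused hypothesis `ℓ ∤ N`);
* `chb_chart_qep_of` : the `q`-expansion principle for `R_S` (conclusion of `Spec.chart_qep`) from
  the hypothesis `hV` "every element of `F_N ∩ W` is integral over `V`"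
  (= `rb_isIntegral_of_family`, RedInst.lean).

Proof of the second: `x = ℓ y`, `y ∈ F_N ∩ W` is integral over `V` and over `ℚ[S']`, both integrally
closed in `ℚ(j)`, so `y` is integral over `V ∩ ℚ[S'] = ℤ_(ℓ)[S']` (GaussV), i.e. `y ∈ R_S`.
-/
import Fermat.Agent.S28x.GaussRing
import Fermat.Agent.S28x.GaussV
import Fermat.Agent.S28x.ChartIC

set_option autoImplicit false
set_option linter.unusedSectionVars false

namespace Fermat.Agent.S28x

open ModularCurve ModularCurve.IgusaScheme Polynomial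

noncomputable section

variable (N ℓ : ℕ) [NeZero N] [Fact ℓ.Prime]

/-- the image of `S ⊆ F_N` in `ℚ((q))` -/
def chb_img (S : Set ↥(modularFunctionFieldFull N)) : Set (LaurentSeries ℚ) :=
  (fun y : ↥(modularFunctionFieldFull N) => (y : LaurentSeries ℚ)) '' S

/-- `ℤ_(ℓ)[S']` as a subring of `ℚ((q))` (the shape of `mem_adjoin_ZL_of_mem_gaussV`). -/
def chb_T (S : Set ↥(modularFunctionFieldFull N)) : Subring (LaurentSeries ℚ) :=
  Subring.closure (Set.range (algebraMap (ZL ℓ) (LaurentSeries ℚ)) ∪ chb_img N S)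

/-- the inclusion `F_N → ℚ((q))` as a bare ring hom (instance-free). -/
def chb_ι : ↥(modularFunctionFieldFull N) →+* LaurentSeries ℚ where
  toFun x := x
  map_one' := rfl
  map_mul' _ _ := rfl
  map_zero' := rfl
  map_add' _ _ := rfl

theorem chb_ι_injective : Function.Injective (chb_ι N) := fun _ _ h => Subtype.ext h

/-- `ℤ_(ℓ)[S] → ℚ((q))` -/
def chb_f (S : Set ↥(modularFunctionFieldFull N)) :
    ↥(Algebra.adjoin (ZL ℓ) S) →+* LaurentSeries ℚ :=
  (chb_ι N).comp (algebraMap ↥(Algebra.adjoin (ZL ℓ) S) ↥(modularFunctionFieldFull N))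

theorem chb_f_apply (S : Set ↥(modularFunctionFieldFull N)) (a : ↥(Algebra.adjoin (ZL ℓ) S)) :
    chb_f N ℓ S a = ((a : ↥(modularFunctionFieldFull N)) : LaurentSeries ℚ) := rfl

theorem chb_algebraMap_coe (a : ZL ℓ) :
    ((algebraMap (ZL ℓ) ↥(modularFunctionFieldFull N) a : ↥(modularFunctionFieldFull N)) :
      LaurentSeries ℚ) = algebraMap (ZL ℓ) (LaurentSeries ℚ) a := by
  rw [gv_algebraMap_ZL]
  show ((algebraMap ℚ ↥(modularFunctionFieldFull N) ((algebraMap (ZL ℓ) ℚ) a) :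
    ↥(modularFunctionFieldFull N)) : LaurentSeries ℚ) = _
  rw [eq_ratCast (algebraMap ℚ ↥(modularFunctionFieldFull N))]
  have h : ((algebraMap (ZL ℓ) ℚ) a) = (a : ℚ) := rfl
  rw [h, eq_ratCast (HahnSeries.C : ℚ →+* LaurentSeries ℚ)]
  norm_cast

theorem chb_img_subset {S : Set ↥(modularFunctionFieldFull N)}
    (hS : S ⊆ {jFull N, (jFull N)⁻¹}) : chb_img N S ⊆ {jq, jq⁻¹} := by
  rintro _ ⟨y, hy, rfl⟩
  rcases hS hy with rfl | h
  · left; rfl
  · rw [Set.mem_singleton_iff] at h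
    right
    rw [Set.mem_singleton_iff, h]
    rfl

/-- elements of `ℤ_(ℓ)[S] ⊆ F_N` have `q`-expansions in `T`. -/
theorem chb_coe_mem_T (S : Set ↥(modularFunctionFieldFull N)) (a : ↥(modularFunctionFieldFull N))
    (ha : a ∈ Algebra.adjoin (ZL ℓ) S) : (a : LaurentSeries ℚ) ∈ chb_T N ℓ S := by
  induction ha using Algebra.adjoin_induction with
  | mem y hy => exact Subring.subset_closure (Or.inr ⟨y, hy, rfl⟩)
  | algebraMap r =>
    rw [chb_algebraMap_coe]
    exact Subring.subset_closure (Or.inl ⟨r, rfl⟩)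
  | add y z _ _ hy hz => exact add_mem hy hz
  | mul y z _ _ hy hz => exact mul_mem hy hz

/-- conversely every element of `T` is the `q`-expansion of an element of `ℤ_(ℓ)[S]`. -/
theorem chb_exists_of_mem_T (S : Set ↥(modularFunctionFieldFull N)) (c : LaurentSeries ℚ)
    (hc : c ∈ chb_T N ℓ S) :
    ∃ a : ↥(modularFunctionFieldFull N), a ∈ Algebra.adjoin (ZL ℓ) S ∧ (a : LaurentSeries ℚ) = c := by
  induction hc using Subring.closure_induction with
  | mem x hx =>
    rcases hx with ⟨r, rfl⟩ | ⟨y, hy, rfl⟩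
    · exact ⟨algebraMap (ZL ℓ) _ r, Subalgebra.algebraMap_mem _ r, chb_algebraMap_coe N ℓ r⟩
    · exact ⟨y, Algebra.subset_adjoin hy, rfl⟩
  | zero => exact ⟨0, zero_mem _, rfl⟩
  | one => exact ⟨1, one_mem _, rfl⟩
  | add x y _ _ hx hy =>
    obtain ⟨a, ha, rfl⟩ := hx
    obtain ⟨b, hb, rfl⟩ := hy
    exact ⟨a + b, add_mem ha hb, rfl⟩
  | neg x _ hx =>
    obtain ⟨a, ha, rfl⟩ := hx
    exact ⟨-a, neg_mem ha, rfl⟩
  | mul x y _ _ hx hy =>
    obtain ⟨a, ha, rfl⟩ := hx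
    obtain ⟨b, hb, rfl⟩ := hy
    exact ⟨a * b, mul_mem ha hb, rfl⟩

/-- `T ⊆ W` -/
theorem chb_T_le_gaussRing {S : Set ↥(modularFunctionFieldFull N)}
    (hS : S ⊆ {jFull N, (jFull N)⁻¹}) : chb_T N ℓ S ≤ gaussRing ℓ := by
  rw [chb_T, Subring.closure_le]
  rintro x (⟨r, rfl⟩ | hx)
  · rw [gv_algebraMap_ZL]
    have : toQ ℓ (HahnSeries.C r) = HahnSeries.C (r : ℚ) := by
      rw [toQ, HahnSeries.C_apply, coeffMap_single, HahnSeries.C_apply]
      rfl
    rw [← this]
    exact toQ_mem_gaussRing ℓ _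
  · rcases chb_img_subset N hS hx with rfl | h
    · have := jqd_mem_gaussRing ℓ 1
      rwa [qExpand_one_apply] at this
    · rw [Set.mem_singleton_iff] at h
      rw [h, ← gv_toQ_Jinv ℓ]
      exact toQ_mem_gaussRing ℓ _

/-- `T ⊆ ℚ[S']` -/
theorem chb_T_le_adjoin (S : Set ↥(modularFunctionFieldFull N)) :
    chb_T N ℓ S ≤ (Algebra.adjoin ℚ (chb_img N S)).toSubring := by
  rw [chb_T, Subring.closure_le]
  rintro x (⟨r, rfl⟩ | hx)
  · rw [gv_algebraMap_ZL]
    have : (HahnSeries.C (r : ℚ) : LaurentSeries ℚ) = algebraMap ℚ (LaurentSeries ℚ) (r : ℚ) := by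
      rw [eq_ratCast (HahnSeries.C : ℚ →+* LaurentSeries ℚ), eq_ratCast (algebraMap ℚ _)]
    rw [this]
    exact Subalgebra.algebraMap_mem _ _
  · exact Algebra.subset_adjoin hx

/-! ## CH part 1: chart algebras lie in `W` -/

/-- a monic polynomial over `ℚ((q))` with coefficients in `T` killing the `q`-expansion of
`x ∈ R_S`. -/
theorem chb_exists_poly (S : Set ↥(modularFunctionFieldFull N)) (x : ↥(modularFunctionFieldFull N))
    (hx : x ∈ chartAlg N ℓ S) :
    ∃ Q : (LaurentSeries ℚ)[X], Q.Monic ∧ (∀ i, Q.coeff i ∈ chb_T N ℓ S) ∧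
      Q.eval (x : LaurentSeries ℚ) = 0 := by
  obtain ⟨p, hpm, hpx⟩ := (mem_chartAlg_iff N ℓ).mp hx
  refine ⟨p.map (chb_f N ℓ S), hpm.map _, ?_, ?_⟩
  · intro i
    rw [coeff_map, chb_f_apply]
    exact chb_coe_mem_T N ℓ S _ (p.coeff i).2
  · rw [eval_map]
    have h := congrArg (chb_ι N) hpx
    rw [Polynomial.hom_eval₂, map_zero] at h
    exact h

theorem chb_isIntegral_T (S : Set ↥(modularFunctionFieldFull N)) (x : ↥(modularFunctionFieldFull N))
    (hx : x ∈ chartAlg N ℓ S) : IsIntegral (chb_T N ℓ S) (x : LaurentSeries ℚ) := by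
  obtain ⟨Q, hQm, hQc, hQx⟩ := chb_exists_poly N ℓ S x hx
  exact ch_isIntegral_of_coeff_mem_subring (chb_T N ℓ S) Q hQm hQc _ hQx

/-- **CH part 1** (shape of `Spec.chart_mem_gaussRing`, without the unused `ℓ ∤ N`). -/
theorem chb_chart_mem_gaussRing (S : Set ↥(modularFunctionFieldFull N))
    (hS : S ⊆ {jFull N, (jFull N)⁻¹}) (x : chartAlg N ℓ S) :
    ((x : ↥(modularFunctionFieldFull N)) : LaurentSeries ℚ) ∈ gaussRing ℓ := by
  obtain ⟨Q, hQm, hQc, hQx⟩ := chb_exists_poly N ℓ S x x.2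
  apply mem_gaussRing_of_isIntegral ℓ (exists_frac_of_mem_full ℓ N (x : ↥(modularFunctionFieldFull N)).2)
  exact ch_isIntegral_of_coeff_mem_subring (gaussRing ℓ) Q hQm
    (fun i => chb_T_le_gaussRing N ℓ hS (hQc i)) _ hQx

/-! ## CH part 2: the `q`-expansion principle for chart algebras, from integrality over `V` -/

theorem chb_transcendental_jq : Transcendental ℚ jq := by
  rw [transcendental_iff]
  intro Q hQ
  by_contra hQ0
  exact gv_aeval_jqModC_ne_zero ℚ hQ0 hQ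

/-- change of subring for integrality (coefficientwise) -/
theorem chb_isIntegral_mono {L : Type*} [Field L] {R₁ R₂ : Subring L} (h : R₁ ≤ R₂) {z : L}
    (hz : IsIntegral R₁ z) : IsIntegral R₂ z := by
  obtain ⟨p, hpm, hpz⟩ := hz
  refine ch_isIntegral_of_coeff_mem_subring R₂ (p.map R₁.subtype) (hpm.map _) (fun i => ?_) z ?_
  · rw [coeff_map]
    exact h (p.coeff i).2
  · rw [eval_map]
    exact hpz

/-- `V` is integrally closed in `ℚ(j)` -/
theorem chb_gaussV_closed (c : LaurentSeries ℚ) (hc : c ∈ Qj) (hint : IsIntegral (gaussV ℓ) c) :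
    c ∈ gaussV ℓ := by
  refine ⟨?_, hc⟩
  have hcF : c ∈ modularFunctionFieldFull 1 :=
    (IntermediateField.adjoin_le_iff.mpr (Set.singleton_subset_iff.mpr
      (by simpa [qExpand_one_apply] using jqd_mem_full 1 (one_dvd 1)))) hc
  exact mem_gaussRing_of_isIntegral ℓ (exists_frac_of_mem_full ℓ 1 hcF)
    (chb_isIntegral_mono (gaussV_le_gaussRing ℓ) hint)

/-- **CH part 2, hypothesis form** (conclusion = `Spec.chart_qep`): if every element of `F_N ∩ W`
is integral over `V` (output of `rb_isIntegral_of_family`), then an element of the chart algebra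
`R_S` whose `q`-expansion vanishes mod `ℓ` is divisible by `ℓ` in `R_S`. -/
theorem chb_chart_qep_of (S : Set ↥(modularFunctionFieldFull N))
    (hS : S ⊆ {jFull N, (jFull N)⁻¹})
    (hV : ∀ y : LaurentSeries ℚ, y ∈ modularFunctionFieldFull N → y ∈ gaussRing ℓ →
      IsIntegral (gaussV ℓ) y)
    (x : chartAlg N ℓ S)
    (hx : rho ℓ ⟨((x : ↥(modularFunctionFieldFull N)) : LaurentSeries ℚ),
      chb_chart_mem_gaussRing N ℓ S hS x⟩ = 0) :
    ∃ y : chartAlg N ℓ S, x = (ℓ : chartAlg N ℓ S) * y := by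
  obtain ⟨y₀, hy₀⟩ := (rho_eq_zero_iff ℓ _).mp hx
  have hxy : ((x : ↥(modularFunctionFieldFull N)) : LaurentSeries ℚ) =
      (ℓ : LaurentSeries ℚ) * (y₀ : LaurentSeries ℚ) := by
    have := congrArg (fun w : gaussRing ℓ => (w : LaurentSeries ℚ)) hy₀
    simpa using this
  have hℓ0 : (ℓ : LaurentSeries ℚ) ≠ 0 := gr_natCast_ne_zero ℓ
  set y' : LaurentSeries ℚ := (y₀ : LaurentSeries ℚ) with hy'
  have hy'eq : y' = (ℓ : LaurentSeries ℚ)⁻¹ * ((x : ↥(modularFunctionFieldFull N)) : LaurentSeries ℚ) := by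
    rw [hxy, ← mul_assoc, inv_mul_cancel₀ hℓ0, one_mul]
  have hyF : y' ∈ modularFunctionFieldFull N := by
    rw [hy'eq]
    exact mul_mem (inv_mem (natCast_mem _ ℓ)) (x : ↥(modularFunctionFieldFull N)).2
  have hyW : y' ∈ gaussRing ℓ := y₀.2
  -- integrality over `V` and over `ℚ[S']`
  have hz₁ : IsIntegral (gaussV ℓ) y' := hV y' hyF hyW
  have hS' := chb_img_subset N hS
  have hz₂ : IsIntegral (Algebra.adjoin ℚ (chb_img N S)).toSubring y' := by
    rw [hy'eq]
    refine IsIntegral.mul ?_ (chb_isIntegral_mono (chb_T_le_adjoin N ℓ S) (chb_isIntegral_T N ℓ S _ x.2))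
    have hmem : (ℓ : LaurentSeries ℚ)⁻¹ ∈ (Algebra.adjoin ℚ (chb_img N S)).toSubring := by
      have : (ℓ : LaurentSeries ℚ)⁻¹ = algebraMap ℚ (LaurentSeries ℚ) ((ℓ : ℚ)⁻¹) := by
        rw [map_inv₀, map_natCast]
      rw [this]
      exact Subalgebra.algebraMap_mem _ _
    exact isIntegral_algebraMap (R := (Algebra.adjoin ℚ (chb_img N S)).toSubring)
      (x := (⟨_, hmem⟩ : (Algebra.adjoin ℚ (chb_img N S)).toSubring))
  -- both rings are integrally closed in `ℚ(j)`
  have h₁ : gaussV ℓ ≤ Qj.toSubfield.toSubring := fun c hc => hc.2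
  have h₂ : (Algebra.adjoin ℚ (chb_img N S)).toSubring ≤ Qj.toSubfield.toSubring := by
    intro c hc
    have hle : Algebra.adjoin ℚ (chb_img N S) ≤ Qj.toSubalgebra := by
      rw [Algebra.adjoin_le_iff]
      intro s hs
      rcases hS' hs with rfl | h
      · exact IntermediateField.mem_adjoin_simple_self ℚ jq
      · rw [Set.mem_singleton_iff] at h
        rw [h]
        show jq⁻¹ ∈ Qj
        exact inv_mem (IntermediateField.mem_adjoin_simple_self ℚ jq)
    exact hle hc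
  have ic₁ : ∀ c ∈ Qj.toSubfield, IsIntegral (gaussV ℓ) c → c ∈ gaussV ℓ :=
    fun c hc hint => chb_gaussV_closed ℓ c hc hint
  have ic₂ : ∀ c ∈ Qj.toSubfield, IsIntegral (Algebra.adjoin ℚ (chb_img N S)).toSubring c →
      c ∈ (Algebra.adjoin ℚ (chb_img N S)).toSubring := by
    intro c hc hint
    exact ch_ic (k := ℚ) jq chb_transcendental_jq (chb_img N S) hS' c hc hint
  have hint := ch_isIntegral_inf Qj.toSubfield (gaussV ℓ)
    (Algebra.adjoin ℚ (chb_img N S)).toSubring h₁ h₂ ic₁ ic₂ y' hz₁ hz₂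
  -- `V ∩ ℚ[S'] ⊆ T`
  have hle : (gaussV ℓ ⊓ (Algebra.adjoin ℚ (chb_img N S)).toSubring : Subring (LaurentSeries ℚ)) ≤
      chb_T N ℓ S := fun c hc => gv_mem_adjoin_ZL_of_mem_gaussV ℓ (chb_img N S) hS' hc.1 hc.2
  obtain ⟨Q, hQm, hQy⟩ := chb_isIntegral_mono hle hint
  -- descend the polynomial to `ℤ_(ℓ)[S] ⊆ F_N`
  set Q' : (LaurentSeries ℚ)[X] := Q.map (chb_T N ℓ S).subtype with hQ'
  have hQ'm : Q'.Monic := hQm.map _
  have hQ'y : Q'.eval y' = 0 := by rw [hQ', eval_map]; exact hQy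
  have hlifts : Q' ∈ Polynomial.lifts (chb_f N ℓ S) := by
    rw [Polynomial.lifts_iff_coeff_lifts]
    intro i
    obtain ⟨a, ha, hac⟩ := chb_exists_of_mem_T N ℓ S (Q'.coeff i)
      (by rw [hQ', coeff_map]; exact (Q.coeff i).2)
    exact ⟨⟨a, ha⟩, hac⟩
  obtain ⟨P, hPQ, -, hPm⟩ := Polynomial.lifts_and_natDegree_eq_and_monic hlifts hQ'm
  have hyS : (⟨y', hyF⟩ : ↥(modularFunctionFieldFull N)) ∈ chartAlg N ℓ S := by
    rw [mem_chartAlg_iff]
    refine ⟨P, hPm, ?_⟩
    apply chb_ι_injective N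
    rw [Polynomial.hom_eval₂, map_zero]
    show Polynomial.eval₂ (chb_f N ℓ S) y' P = 0
    rw [← Polynomial.eval_map, hPQ, hQ'y]
  refine ⟨⟨⟨y', hyF⟩, hyS⟩, ?_⟩
  apply Subtype.ext
  apply Subtype.ext
  show ((x : ↥(modularFunctionFieldFull N)) : LaurentSeries ℚ) = _
  rw [hxy]
  simp

end

end Fermat.Agent.S28x
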