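/-
S28 project, module CH helper (helper95, for helper49): translation between subalgebras of
`F_N = modularFunctionFieldFull N` over `ℤ_(ℓ)` (Prelude `igusaAlgebra`) and subrings of `ℚ((q))`.

* `cd95_algebraMap_apply` : `algebraMap (ZL ℓ) (LaurentSeries ℚ) a = HahnSeries.C a`
* `cd95_mem_adjoin_iff` : `x ∈ Algebra.adjoin ℤ_(ℓ) S ↔ (x : ℚ((q))) ∈ Subring.closure (range algebraMap ∪ coe '' S)`
* `cd95_image_subset` : `S ⊆ {jFull N, (jFull N)⁻¹} → coe '' S ⊆ {jq, jq⁻¹}`

All names are prefixed `cd95_`.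
-/
import Fermat.Agent.S28x.Defs

set_option autoImplicit false
set_option linter.unusedSectionVars false

namespace Fermat.Agent.S28x

open ModularCurve ModularCurve.IgusaScheme

noncomputable section

variable (N : ℕ) [NeZero N] (ℓ : ℕ) [Fact ℓ.Prime]

/-- value of the structure map `ℤ_(ℓ) → ℚ((q))` (the instance used in `Spec.lean`). -/
theorem cd95_algebraMap_apply (a : ZL ℓ) :
    algebraMap (ZL ℓ) (LaurentSeries ℚ) a = HahnSeries.C (a : ℚ) := by
  rw [HahnSeries.algebraMap_apply', PowerSeries.algebraMap_apply, HahnSeries.ofPowerSeries_C]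
  rfl

/-- the structure map `ℤ_(ℓ) → F_N` (Prelude `igusaAlgebra`), read in `ℚ((q))`. -/
theorem cd95_coe_algebraMap (a : ZL ℓ) :
    ((algebraMap (ZL ℓ) ↥(modularFunctionFieldFull N) a : ↥(modularFunctionFieldFull N)) :
      LaurentSeries ℚ) = algebraMap (ZL ℓ) (LaurentSeries ℚ) a := by
  rw [cd95_algebraMap_apply]
  rfl

/-- the inclusion `F_N → ℚ((q))` as a ring hom. -/
def cd95_val : ↥(modularFunctionFieldFull N) →+* LaurentSeries ℚ where
  toFun x := (x : LaurentSeries ℚ)
  map_one' := rfl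
  map_zero' := rfl
  map_add' _ _ := rfl
  map_mul' _ _ := rfl

theorem cd95_val_apply (x : ↥(modularFunctionFieldFull N)) :
    cd95_val N x = (x : LaurentSeries ℚ) := rfl

theorem cd95_val_injective : Function.Injective (cd95_val N) :=
  fun _ _ h => Subtype.ext h

/-- **translation lemma**: membership in `ℤ_(ℓ)[S] ⊆ F_N` read in `ℚ((q))`. -/
theorem cd95_mem_adjoin_iff (S : Set ↥(modularFunctionFieldFull N))
    (x : ↥(modularFunctionFieldFull N)) :
    x ∈ Algebra.adjoin ↥(GaloisRep.ratLocalizedAt ℓ) S ↔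
      (x : LaurentSeries ℚ) ∈ Subring.closure
        (Set.range (algebraMap (ZL ℓ) (LaurentSeries ℚ)) ∪
          (fun y : ↥(modularFunctionFieldFull N) => (y : LaurentSeries ℚ)) '' S) := by
  constructor
  · intro hx
    induction hx using Algebra.adjoin_induction with
    | mem y hy => exact Subring.subset_closure (Or.inr ⟨y, hy, rfl⟩)
    | algebraMap a =>
      rw [cd95_coe_algebraMap]
      exact Subring.subset_closure (Or.inl ⟨a, rfl⟩)
    | add y z _ _ hy hz => exact add_mem hy hz
    | mul y z _ _ hy hz => exact mul_mem hy hz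
  · intro hx
    have hle : Subring.closure
        (Set.range (algebraMap (ZL ℓ) (LaurentSeries ℚ)) ∪
          (fun y : ↥(modularFunctionFieldFull N) => (y : LaurentSeries ℚ)) '' S) ≤
        (Algebra.adjoin ↥(GaloisRep.ratLocalizedAt ℓ) S).toSubring.map (cd95_val N) := by
      rw [Subring.closure_le]
      rintro _ (⟨a, rfl⟩ | ⟨y, hy, rfl⟩)
      · refine ⟨algebraMap (ZL ℓ) ↥(modularFunctionFieldFull N) a, ?_, ?_⟩
        · exact Subalgebra.algebraMap_mem _ a
        · exact cd95_coe_algebraMap N ℓ a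
      · exact ⟨y, Algebra.subset_adjoin hy, rfl⟩
    obtain ⟨x', hx', hxx'⟩ := hle hx
    have : x' = x := cd95_val_injective N hxx'
    rw [← this]
    exact hx'

/-- the chart generators read in `ℚ((q))`. -/
theorem cd95_image_subset (S : Set ↥(modularFunctionFieldFull N))
    (hS : S ⊆ {jFull N, (jFull N)⁻¹}) :
    (fun y : ↥(modularFunctionFieldFull N) => (y : LaurentSeries ℚ)) '' S ⊆ {jq, jq⁻¹} := by
  rintro _ ⟨y, hy, rfl⟩
  rcases hS hy with rfl | rfl
  · left; rfl
  · right; rfl

/-- sanity check: `chartAlg` uses the same `Algebra.adjoin` as `cd95_mem_adjoin_iff`. -/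
theorem cd95_mem_chartAlg_iff (S : Set ↥(modularFunctionFieldFull N))
    (x : ↥(modularFunctionFieldFull N)) :
    x ∈ chartAlg N ℓ S ↔ IsIntegral (Algebra.adjoin ↥(GaloisRep.ratLocalizedAt ℓ) S) x :=
  mem_chartAlg_iff N ℓ

end

end Fermat.Agent.S28x
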