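/-
S28 units route, analytic toolbox (helper24): the twist `f(X) ↦ f(u · X ^ m)` of a convergent
Laurent series, `‖u‖ = 1`, in a *definition-agnostic* form: `g` is any Laurent series whose
coefficients are those of `f(u X^m)`.  Prefix `cvt_`.
-/
import Mathlib
import Fermat.Agent.S24x.ConvLaurent

set_option autoImplicit false

namespace Fermat.Agent.S28x

open HahnSeries Fermat.Agent.S24x

section Twist

variable {f g : LaurentSeries ℂ} {u : ℂ} {m : ℕ}

theorem cvt_lTerm_mul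
    (hcoeff : ∀ n : ℤ, g.coeff ((m : ℤ) * n) = u ^ n * f.coeff n) (x : ℂ) (n : ℤ) :
    lTerm g x ((m : ℤ) * n) = lTerm f (u * x ^ m) n := by
  unfold lTerm
  rw [hcoeff, zpow_mul, zpow_natCast, mul_zpow]
  ring

theorem cvt_lTerm_of_notMem_range
    (hzero : ∀ k : ℤ, ¬ (m : ℤ) ∣ k → g.coeff k = 0) (x : ℂ) {k : ℤ}
    (hk : k ∉ Set.range (fun n : ℤ => (m : ℤ) * n)) : lTerm g x k = 0 := by
  unfold lTerm
  rw [hzero k, zero_mul]
  rintro ⟨n, rfl⟩
  exact hk ⟨n, rfl⟩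

theorem cvt_injective (hm : 0 < m) : Function.Injective (fun n : ℤ => (m : ℤ) * n) :=
  mul_right_injective₀ (by exact_mod_cast hm.ne')

theorem cvt_norm_lt_one (hu : ‖u‖ = 1) (hm : 0 < m) {x : ℂ} (hx : ‖x‖ < 1) :
    ‖u * x ^ m‖ < 1 := by
  rw [norm_mul, hu, one_mul, norm_pow]
  exact pow_lt_one₀ (norm_nonneg _) hx hm.ne'

theorem cvt_ne_zero (hu : ‖u‖ = 1) {x : ℂ} (hx0 : x ≠ 0) : u * x ^ m ≠ 0 := by
  have hu0 : u ≠ 0 := by
    rintro rfl
    simp at hu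
  exact mul_ne_zero hu0 (pow_ne_zero _ hx0)

/-- **Twist, convergence.** -/
theorem cvt_lconv_of_coeff (hu : ‖u‖ = 1) (hm : 0 < m)
    (hcoeff : ∀ n : ℤ, g.coeff ((m : ℤ) * n) = u ^ n * f.coeff n)
    (hzero : ∀ k : ℤ, ¬ (m : ℤ) ∣ k → g.coeff k = 0) (hf : LConv f) : LConv g := by
  intro x hx0 hx
  have h := hf (u * x ^ m) (cvt_ne_zero hu hx0) (cvt_norm_lt_one hu hm hx)
  rw [← (cvt_injective hm).summable_iff]
  · refine h.congr fun n => ?_
    simp only [Function.comp_apply]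
    rw [cvt_lTerm_mul hcoeff]
  · intro k hk
    rw [cvt_lTerm_of_notMem_range hzero x hk, norm_zero]

/-- **Twist, value.** -/
theorem cvt_lEval_of_coeff (hm : 0 < m)
    (hcoeff : ∀ n : ℤ, g.coeff ((m : ℤ) * n) = u ^ n * f.coeff n)
    (hzero : ∀ k : ℤ, ¬ (m : ℤ) ∣ k → g.coeff k = 0) (x : ℂ) :
    lEval g x = lEval f (u * x ^ m) := by
  unfold lEval
  rw [← (cvt_injective hm).tsum_eq]
  · exact tsum_congr fun n => cvt_lTerm_mul hcoeff x n
  · intro k hk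
    by_contra h
    exact hk (cvt_lTerm_of_notMem_range hzero x h)

end Twist

/-! ### a concrete model of the twist -/

/-- `f(u · X)` for `u ≠ 0`: multiply the `n`-th coefficient by `u ^ n` -/
noncomputable def cvt_rescale (u : ℂ) (f : LaurentSeries ℂ) : LaurentSeries ℂ where
  coeff n := u ^ n * f.coeff n
  isPWO_support' := f.isPWO_support.mono fun n hn => by
    simp only [Function.mem_support, ne_eq] at hn ⊢
    exact fun h => hn (by rw [h, mul_zero])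

@[simp] theorem cvt_rescale_coeff (u : ℂ) (f : LaurentSeries ℂ) (n : ℤ) :
    (cvt_rescale u f).coeff n = u ^ n * f.coeff n := rfl

/-- `f(u · X ^ m)` -/
noncomputable def cvt_twist (u : ℂ) (m : ℕ) [NeZero m] (f : LaurentSeries ℂ) : LaurentSeries ℂ :=
  ModularCurve.qExpand ℂ m (cvt_rescale u f)

theorem cvt_twist_coeff_mul (u : ℂ) (m : ℕ) [NeZero m] (f : LaurentSeries ℂ) (n : ℤ) :
    (cvt_twist u m f).coeff ((m : ℤ) * n) = u ^ n * f.coeff n := by
  unfold cvt_twist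
  rw [ModularCurve.qExpand_coeff_mul, cvt_rescale_coeff]

theorem cvt_twist_coeff_of_not_dvd (u : ℂ) (m : ℕ) [NeZero m] (f : LaurentSeries ℂ) {k : ℤ}
    (hk : ¬ (m : ℤ) ∣ k) : (cvt_twist u m f).coeff k = 0 :=
  ModularCurve.qExpand_coeff_of_not_dvd m _ hk

theorem cvt_lconv_twist {u : ℂ} (hu : ‖u‖ = 1) (m : ℕ) [NeZero m] {f : LaurentSeries ℂ}
    (hf : LConv f) : LConv (cvt_twist u m f) :=
  cvt_lconv_of_coeff hu (Nat.pos_of_ne_zero (NeZero.ne m)) (cvt_twist_coeff_mul u m f)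
    (fun _ hk => cvt_twist_coeff_of_not_dvd u m f hk) hf

theorem cvt_lEval_twist (u : ℂ) (m : ℕ) [NeZero m] (f : LaurentSeries ℂ) (x : ℂ) :
    lEval (cvt_twist u m f) x = lEval f (u * x ^ m) :=
  cvt_lEval_of_coeff (Nat.pos_of_ne_zero (NeZero.ne m)) (cvt_twist_coeff_mul u m f)
    (fun _ hk => cvt_twist_coeff_of_not_dvd u m f hk) x

/-- two Laurent series with the twist coefficients agree -/
theorem cvt_eq_twist {f g : LaurentSeries ℂ} {u : ℂ} (m : ℕ) [NeZero m]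
    (hcoeff : ∀ n : ℤ, g.coeff ((m : ℤ) * n) = u ^ n * f.coeff n)
    (hzero : ∀ k : ℤ, ¬ (m : ℤ) ∣ k → g.coeff k = 0) : g = cvt_twist u m f := by
  ext k
  by_cases hk : (m : ℤ) ∣ k
  · obtain ⟨n, rfl⟩ := hk
    rw [hcoeff, cvt_twist_coeff_mul]
  · rw [hzero k hk, cvt_twist_coeff_of_not_dvd u m f hk]

end Fermat.Agent.S28x
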