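/-
S28 project: bridge from the trace route (`DEG ℓ N`) to the data consumed by `RedBasis.lean`
(`rb_isIntegral_gaussV`, helper21), in the names of `Defs.lean`.  Owner: helper19.  Prefix `db2_`.
-/
import Fermat.Agent.S28x.DegBridge

set_option autoImplicit false

namespace Fermat.Agent.S28x

open ModularCurve IntermediateField

noncomputable section

variable (ℓ : ℕ) [Fact ℓ.Prime]

/-- any `ψ(N) + 1` elements of `F_N` are linearly dependent over `ℚ(j)` (from module DU) -/
theorem db2_not_linearIndependent (N : ℕ) [NeZero N]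
    (hfd : FiniteDimensional Qj (IntermediateField.extendScalars (db_Qj_le_full N)))
    (hdu : IntermediateField.relfinrank Qj (modularFunctionFieldFull N) ≤ dedekindPsi N)
    (c : Fin (dedekindPsi N + 1) → LaurentSeries ℚ)
    (hc : ∀ i, c i ∈ modularFunctionFieldFull N) : ¬ LinearIndependent Qj c := by
  intro hcli
  set E' := IntermediateField.extendScalars (db_Qj_le_full N) with hE'
  let c' : Fin (dedekindPsi N + 1) → E' := fun i =>
    ⟨c i, (IntermediateField.mem_extendScalars (db_Qj_le_full N)).mpr (hc i)⟩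
  have hc'li : LinearIndependent Qj c' := by
    apply LinearIndependent.of_comp (E'.val.toLinearMap)
    exact hcli
  have h1 := hc'li.fintype_card_le_finrank
  rw [Fintype.card_fin, ← IntermediateField.relfinrank_eq_finrank_of_le (db_Qj_le_full N)] at h1
  omega

/-- From `DEG`: a family of `ψ(N)` elements of `W ∩ F_N` with `𝔽_ℓ(j̃)`-independent residues. -/
theorem db2_exists_family_of_DEG (N : ℕ) [NeZero N]
    (hlift : ∀ c : LaurentSeries (ZMod ℓ), c ∈ Ft ℓ N →
      ∃ (x : LaurentSeries ℚ) (hx : x ∈ gaussRing ℓ),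
        x ∈ modularFunctionFieldFull N ∧ rho ℓ ⟨x, hx⟩ = c)
    (h : DEG ℓ N) :
    ∃ (b : Fin (dedekindPsi N) → LaurentSeries ℚ) (hbW : ∀ i, b i ∈ gaussRing ℓ),
      (∀ i, b i ∈ modularFunctionFieldFull N) ∧
      LinearIndependent (Kj ℓ) (fun i => rho ℓ ⟨b i, hbW i⟩) := by
  classical
  set m := dedekindPsi N with hm
  have hle := db_Kj_le_Ft ℓ N
  rw [DEG, IntermediateField.relfinrank_eq_finrank_of_le hle] at h
  set E := IntermediateField.extendScalars hle with hE
  have hmpos : 0 < m := by
    rw [hm, dedekindPsi]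
    apply Finset.sum_pos'
    · intro _ _; exact Nat.zero_le _
    · refine ⟨1, ?_, ?_⟩
      · simp [NeZero.ne N]
      · simp [Nat.pos_of_ne_zero (NeZero.ne N)]
  have hfin : Module.Finite (Kj ℓ) E := Module.finite_of_finrank_pos (lt_of_lt_of_le hmpos h)
  let B := Module.finBasis (Kj ℓ) E
  let e : Fin m → E := fun i => B (Fin.castLE h i)
  have hli : LinearIndependent (Kj ℓ) e :=
    B.linearIndependent.comp _ (Fin.castLE_injective h)
  have hli' : LinearIndependent (Kj ℓ) (fun i => ((e i : E) : LaurentSeries (ZMod ℓ))) := by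
    have := hli.map' (E.val.toLinearMap) (LinearMap.ker_eq_bot.mpr E.val.injective)
    exact this
  have hmem : ∀ i, ((e i : E) : LaurentSeries (ZMod ℓ)) ∈ Ft ℓ N := fun i =>
    (IntermediateField.mem_extendScalars hle).mp (e i).2
  choose x hxW hxF hxρ using fun i => hlift _ (hmem i)
  refine ⟨x, hxW, hxF, ?_⟩
  have : (fun i => rho ℓ ⟨x i, hxW i⟩) =
      fun i => ((e i : E) : LaurentSeries (ZMod ℓ)) := by
    funext i
    rw [hxρ i]
  rw [this]
  exact hli'

end

end Fermat.Agent.S28x
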