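/-
S28 project, module LIFT (helper26): surjectivity of the reduction map `ρ : W ∩ F_N → F̃_N`.

`B := ρ(W ∩ F_N)` is a subring of `𝔽_ℓ((q))` containing `𝔽_ℓ(j̃)` (hypothesis `hKj`, module GaussV)
and every `j̃(q^d)`, `d ∣ N`.  It is a field: for `c = ρ x` the powers `1, c, …, c^n` (`n = ψ(N)`)
are `𝔽_ℓ(j̃)`-dependent, since otherwise the lifts `1, x, …, x^n ∈ W ∩ F_N` would be
`ℚ(j)`-independent (`rb_linearIndependent_Qj`), contradicting the rank bound `hrank` (module DU);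
so `c` is algebraic over `𝔽_ℓ(j̃)` and `c⁻¹ ∈ B`.  Hence `B ⊇ F̃_N`.
-/
import Fermat.Agent.S28x.RedBasis
import Fermat.Agent.S28x.GaussRing

set_option autoImplicit false

namespace Fermat.Agent.S28x

open ModularCurve IntermediateField

noncomputable section

local notation "𝕃" => LaurentSeries ℚ

/-- transcendental elements have linearly independent powers -/
theorem lift_linearIndependent_pow_of_transcendental {K L : Type*} [Field K] [Field L] [Algebra K L]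
    {c : L} (hc : Transcendental K c) (n : ℕ) :
    LinearIndependent K (fun i : Fin n => c ^ (i : ℕ)) := by
  have hinj : Function.Injective (Polynomial.aeval (R := K) c) := transcendental_iff_injective.mp hc
  have h1 : LinearIndependent K (fun i : ℕ => (Polynomial.basisMonomials K) i) :=
    (Polynomial.basisMonomials K).linearIndependent
  have h2 := h1.map' (Polynomial.aeval (R := K) c).toLinearMap (LinearMap.ker_eq_bot.mpr hinj)
  have h3 := h2.comp (fun i : Fin n => (i : ℕ)) Fin.val_injective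
  have heq : (fun i : Fin n => c ^ (i : ℕ)) =
      ((⇑(Polynomial.aeval (R := K) c).toLinearMap ∘ fun i => (Polynomial.basisMonomials K) i) ∘
        fun i : Fin n => (i : ℕ)) := by
    funext i
    simp [Polynomial.aeval_monomial]
  rw [heq]
  exact h3

variable {ℓ : ℕ} [Fact ℓ.Prime] (N : ℕ) [NeZero N]

theorem lift_rho_mul {x y : 𝕃} (hx : x ∈ gaussRing ℓ) (hy : y ∈ gaussRing ℓ) :
    rho ℓ ⟨x * y, mul_mem hx hy⟩ = rho ℓ ⟨x, hx⟩ * rho ℓ ⟨y, hy⟩ := by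
  rw [← map_mul]; rfl

theorem lift_rho_add {x y : 𝕃} (hx : x ∈ gaussRing ℓ) (hy : y ∈ gaussRing ℓ) :
    rho ℓ ⟨x + y, add_mem hx hy⟩ = rho ℓ ⟨x, hx⟩ + rho ℓ ⟨y, hy⟩ := by
  rw [← map_add]; rfl

theorem lift_rho_pow {x : 𝕃} (hx : x ∈ gaussRing ℓ) (n : ℕ) :
    rho ℓ ⟨x ^ n, pow_mem hx n⟩ = rho ℓ ⟨x, hx⟩ ^ n := by
  rw [← map_pow]; rfl

omit [NeZero N] in
/-- residues of elements of `W ∩ F_N` are algebraic over `𝔽_ℓ(j̃)` -/
theorem lift_isAlgebraic (H : rb_Hyp ℓ)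
    (hrank : ∀ c : Fin (dedekindPsi N + 1) → 𝕃,
      (∀ i, c i ∈ modularFunctionFieldFull N) → ¬ LinearIndependent Qj c)
    (x : 𝕃) (hx : x ∈ gaussRing ℓ) (hxF : x ∈ modularFunctionFieldFull N) :
    IsAlgebraic (Kj ℓ) (rho ℓ ⟨x, hx⟩) := by
  by_contra htr
  have hli := lift_linearIndependent_pow_of_transcendental (K := Kj ℓ) htr (dedekindPsi N + 1)
  set b : Fin (dedekindPsi N + 1) → 𝕃 := fun i => x ^ (i : ℕ) with hb
  have hbW : ∀ i, b i ∈ gaussRing ℓ := fun i => pow_mem hx _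
  have hind : LinearIndependent (Kj ℓ) (fun i => rho ℓ ⟨b i, hbW i⟩) := by
    have heq : (fun i => rho ℓ ⟨b i, hbW i⟩) = fun i : Fin (dedekindPsi N + 1) =>
        rho ℓ ⟨x, hx⟩ ^ (i : ℕ) := by
      funext i
      exact lift_rho_pow hx _
    rw [heq]
    exact hli
  exact hrank b (fun i => pow_mem hxF _) (rb_linearIndependent_Qj H b hbW hind)

/-- `B = ρ(W ∩ F_N)` as an `𝔽_ℓ(j̃)`-subalgebra of `𝔽_ℓ((q))` -/
def lift_B (ℓ : ℕ) [Fact ℓ.Prime] (N : ℕ) [NeZero N]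
    (hKj : ∀ c ∈ Kj ℓ, ∃ (y : 𝕃) (hy : y ∈ gaussV ℓ),
      rho ℓ ⟨y, gaussV_le_gaussRing ℓ hy⟩ = c) :
    Subalgebra (Kj ℓ) (LaurentSeries (ZMod ℓ)) where
  carrier := {c | ∃ (x : 𝕃) (hx : x ∈ gaussRing ℓ),
    x ∈ modularFunctionFieldFull N ∧ rho ℓ ⟨x, hx⟩ = c}
  mul_mem' := by
    rintro _ _ ⟨x, hx, hxF, rfl⟩ ⟨y, hy, hyF, rfl⟩
    exact ⟨x * y, mul_mem hx hy, mul_mem hxF hyF, lift_rho_mul hx hy⟩
  add_mem' := by
    rintro _ _ ⟨x, hx, hxF, rfl⟩ ⟨y, hy, hyF, rfl⟩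
    exact ⟨x + y, add_mem hx hy, add_mem hxF hyF, lift_rho_add hx hy⟩
  algebraMap_mem' := by
    intro r
    obtain ⟨y, hy, hr⟩ := hKj (r : LaurentSeries (ZMod ℓ)) r.2
    refine ⟨y, gaussV_le_gaussRing ℓ hy, rb_Qj_le N hy.2, ?_⟩
    rw [hr]; rfl

theorem mem_lift_B {hKj : ∀ c ∈ Kj ℓ, ∃ (y : 𝕃) (hy : y ∈ gaussV ℓ),
      rho ℓ ⟨y, gaussV_le_gaussRing ℓ hy⟩ = c} {c : LaurentSeries (ZMod ℓ)} :
    c ∈ lift_B ℓ N hKj ↔ ∃ (x : 𝕃) (hx : x ∈ gaussRing ℓ),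
      x ∈ modularFunctionFieldFull N ∧ rho ℓ ⟨x, hx⟩ = c := Iff.rfl

/-- **LIFT**: `ρ : W ∩ F_N → F̃_N` is surjective. -/
theorem lift_exists (ℓ N : ℕ) [Fact ℓ.Prime] [NeZero N] (H : rb_Hyp ℓ)
    (hrank : ∀ c : Fin (dedekindPsi N + 1) → LaurentSeries ℚ,
      (∀ i, c i ∈ modularFunctionFieldFull N) → ¬ LinearIndependent Qj c)
    (hKj : ∀ c ∈ Kj ℓ, ∃ (y : LaurentSeries ℚ) (hy : y ∈ gaussV ℓ),
      rho ℓ ⟨y, gaussV_le_gaussRing ℓ hy⟩ = c) :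
    ∀ c : LaurentSeries (ZMod ℓ), c ∈ Ft ℓ N →
      ∃ (x : LaurentSeries ℚ) (hx : x ∈ gaussRing ℓ),
        x ∈ modularFunctionFieldFull N ∧ rho ℓ ⟨x, hx⟩ = c := by
  set B := lift_B ℓ N hKj with hB
  have hinv : ∀ c ∈ B.restrictScalars (ZMod ℓ), c⁻¹ ∈ B.restrictScalars (ZMod ℓ) := by
    intro c hc
    have hc' : c ∈ B := hc
    obtain ⟨x, hx, hxF, rfl⟩ := hc'
    have halg := lift_isAlgebraic N H hrank x hx hxF
    have hmem : rho ℓ ⟨x, hx⟩ ∈ B := ⟨x, hx, hxF, rfl⟩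
    exact B.inv_mem_of_algebraic (x := ⟨_, hmem⟩) halg
  set B' : IntermediateField (ZMod ℓ) (LaurentSeries (ZMod ℓ)) :=
    Subalgebra.toIntermediateField (B.restrictScalars (ZMod ℓ)) hinv with hB'
  have hle : Ft ℓ N ≤ B' := by
    rw [Ft, modularFunctionFieldFullC, adjoin_le_iff]
    rintro _ ⟨d, hd0, hd, rfl⟩
    have := hd0
    exact ⟨qExpand ℚ d jq, jqd_mem_gaussRing ℓ d, jqd_mem_full N hd, rho_jqd ℓ d⟩
  intro c hc
  exact hle hc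

end

end Fermat.Agent.S28x
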