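/-
S28 / MP: final algebraic assembly (helper38, slice given by helper14).  Prefix `mpa_`.
From a monic `Θ ∈ ℤ((q))[X]` of degree `p + 1` whose coefficients are integer polynomials in `j`
and which satisfies the two modular relations, produce `Φ ∈ ℤ[Y][X]` as in `Spec.exists_modPoly`.
-/
import Mathlib
import Fermat.Prelude.Def_ModularCurve_X0
import Fermat.Prelude.Def_ModularCurve_LaurentCoeff
import Fermat.Prelude.Def_ModularCurve_JqCoeff
import Fermat.Prelude.Def_ModularCurve_X0ModL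

set_option autoImplicit false

open ModularCurve Polynomial

namespace Fermat.Agent.S28x

noncomputable section

/-- the ring hom `ℤ[Y] → ℤ((q))`, `Y ↦ j`. -/
def mpa_phi : Polynomial ℤ →+* LaurentSeries ℤ := (Polynomial.aeval (jqModC ℤ)).toRingHom

theorem mpa_aeval_jq_eq :
    (Polynomial.aeval (R := ℤ) jq).toRingHom =
      (coeffMap (Int.castRingHom ℚ)).comp mpa_phi := by
  apply Polynomial.ringHom_ext'
  · exact RingHom.ext_int _ _
  · simp only [AlgHom.toRingHom_eq_coe, RingHom.coe_coe, aeval_X, mpa_phi, RingHom.coe_comp,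
      Function.comp_apply]
    rw [coeffMap_jqModC]
    rfl

theorem mpa_aeval_qExpand_jq_eq (p : ℕ) [NeZero p] :
    (Polynomial.aeval (R := ℤ) (qExpand ℚ p jq)).toRingHom =
      (qExpand ℚ p).comp ((coeffMap (Int.castRingHom ℚ)).comp mpa_phi) := by
  apply Polynomial.ringHom_ext'
  · exact RingHom.ext_int _ _
  · simp only [AlgHom.toRingHom_eq_coe, RingHom.coe_coe, aeval_X, mpa_phi, RingHom.coe_comp,
      Function.comp_apply]
    rw [coeffMap_jqModC]
    rfl

theorem mpa_degree_sum_lt {R : Type*} [Semiring R] (n : ℕ) (a : ℕ → R) :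
    (∑ k ∈ Finset.range n, C (a k) * X ^ k).degree < (n : WithBot ℕ) := by
  refine lt_of_le_of_lt (Polynomial.degree_sum_le _ _) ?_
  apply (Finset.sup_lt_iff (WithBot.bot_lt_coe n)).mpr
  intro k hk
  refine lt_of_le_of_lt (Polynomial.degree_C_mul_X_pow_le k (a k)) ?_
  exact WithBot.coe_lt_coe.mpr (Finset.mem_range.mp hk)

theorem mpa_natDegree_X_pow_add {R : Type*} [Ring R] [Nontrivial R] (n : ℕ) (q : R[X])
    (h : q.degree < (n : WithBot ℕ)) : (X ^ n + q).natDegree = n := by
  have h1 : (X ^ n + q).degree = (n : WithBot ℕ) := by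
    rw [Polynomial.degree_add_eq_left_of_degree_lt (by rwa [Polynomial.degree_X_pow])]
    exact Polynomial.degree_X_pow n
  exact Polynomial.natDegree_eq_of_degree_eq_some h1

theorem mp_assemble (p : ℕ) [NeZero p] (Θ : Polynomial (LaurentSeries ℤ)) (hΘm : Θ.Monic)
    (hΘd : Θ.natDegree = p + 1)
    (hcoef : ∀ k, ∃ P : Polynomial ℤ, Polynomial.aeval (jqModC ℤ) P = Θ.coeff k)
    (h1 : (Θ.map (coeffMap (Int.castRingHom ℚ))).eval (qExpand ℚ p jq) = 0)
    (h2 : ((Θ.map (coeffMap (Int.castRingHom ℚ))).map (qExpand ℚ p)).eval jq = 0) :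
    ∃ Φ : Polynomial (Polynomial ℤ), Φ.Monic ∧ Φ.natDegree = p + 1 ∧
      Φ.eval₂ (Polynomial.aeval (R := ℤ) jq).toRingHom (qExpand ℚ p jq) = 0 ∧
      Φ.eval₂ (Polynomial.aeval (R := ℤ) (qExpand ℚ p jq)).toRingHom jq = 0 := by
  choose P hP using hcoef
  set Φ : Polynomial (Polynomial ℤ) :=
    X ^ (p + 1) + ∑ k ∈ Finset.range (p + 1), C (P k) * X ^ k with hΦ
  have hdeg := mpa_degree_sum_lt (p + 1) P
  have hmap : Φ.map mpa_phi = Θ := by
    rw [hΦ, Polynomial.map_add, Polynomial.map_pow, Polynomial.map_X, Polynomial.map_sum]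
    conv_rhs => rw [hΘm.as_sum, hΘd]
    congr 1
    apply Finset.sum_congr rfl
    intro k _
    rw [Polynomial.map_mul, Polynomial.map_pow, Polynomial.map_X, Polynomial.map_C]
    congr 2
    exact hP k
  refine ⟨Φ, Polynomial.monic_X_pow_add hdeg, mpa_natDegree_X_pow_add _ _ hdeg, ?_, ?_⟩
  · rw [mpa_aeval_jq_eq, Polynomial.eval₂_eq_eval_map, ← Polynomial.map_map, hmap]
    exact h1
  · rw [mpa_aeval_qExpand_jq_eq, Polynomial.eval₂_eq_eval_map, ← Polynomial.map_map,
      ← Polynomial.map_map, hmap]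
    exact h2

end

end Fermat.Agent.S28x
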