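/-
S28 project, module MP (modular polynomial), sub-lemma (T) "triangularity" (helper35).
`mp_exists_int_poly`: a complex polynomial `P` such that `P(j)` has an integral `q`-expansion has
integer coefficients (`j = q⁻¹ + 744 + …` is monic of order `-1` with integer coefficients; induction on
the degree, peeling off the leading coefficient).
Imports: Mathlib + Prelude only.  Prefix `mpt_`.
-/
import Mathlib
import Fermat.Prelude.Def_ModularCurve_X0ModL
import Fermat.Prelude.Thm_ModularCurve_coeff_jqModC_pow_self
import Fermat.Prelude.Thm_ModularCurve_coeff_jqModC_pow_of_lt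

set_option autoImplicit false

open ModularCurve Polynomial

namespace Fermat.Agent.S28x

noncomputable section

/-- scalar multiplication of the (power-series) algebra structure on Laurent series is
multiplication by the constant series. -/
theorem mpt_smul_eq (K : Type*) [Field K] (c : K) (x : LaurentSeries K) :
    (Algebra.toSMul : SMul K (LaurentSeries K)).smul c x = HahnSeries.C c * x := by
  have := Algebra.smul_def (A := LaurentSeries K) c x
  rw [HahnSeries.algebraMap_apply', PowerSeries.algebraMap_apply, Algebra.algebraMap_self_apply,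
    HahnSeries.ofPowerSeries_C] at this
  exact this

theorem mpt_coeff_smul (K : Type*) [Field K] (c : K) (x : LaurentSeries K) (k : ℤ) :
    ((Algebra.toSMul : SMul K (LaurentSeries K)).smul c x).coeff k = c * x.coeff k := by
  rw [mpt_smul_eq, HahnSeries.C_mul_eq_smul, HahnSeries.coeff_smul, smul_eq_mul]

/-- the coefficient of `q^(-n)` in `P(j)` is the coefficient of `X^n` of `P`, when
`natDegree P ≤ n`. -/
theorem mpt_coeff_aeval (K : Type*) [Field K] (P : Polynomial K) (n : ℕ) (hn : P.natDegree ≤ n) :
    (Polynomial.aeval (jqModC K) P).coeff (-(n : ℤ)) = P.coeff n := by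
  rw [Polynomial.aeval_eq_sum_range' (Nat.lt_succ_of_le hn), HahnSeries.coeff_sum]
  rw [Finset.sum_eq_single n]
  · exact (mpt_coeff_smul K _ _ _).trans (by rw [coeff_jqModC_pow_self, mul_one])
  · intro k hk hkn
    have hk' : k < n := lt_of_le_of_ne (Nat.lt_succ_iff.mp (Finset.mem_range.mp hk)) hkn
    refine (mpt_coeff_smul K _ _ _).trans ?_
    rw [coeff_jqModC_pow_of_lt K (by exact_mod_cast neg_lt_neg (by exact_mod_cast hk')), mul_zero]
  · intro h
    exact absurd (Finset.mem_range.mpr (Nat.lt_succ_self n)) h

theorem mpt_exists_int_poly_aux (n : ℕ) : ∀ (P : Polynomial ℂ) (d : LaurentSeries ℤ),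
    P.degree < n → Polynomial.aeval (jqModC ℂ) P = coeffMap (Int.castRingHom ℂ) d →
    ∃ P' : Polynomial ℤ, P'.map (Int.castRingHom ℂ) = P := by
  induction n with
  | zero =>
    intro P d hP _
    have : P = 0 := by
      rw [← Polynomial.degree_eq_bot]
      exact (Nat.WithBot.lt_zero_iff).mp (by simpa using hP)
    exact ⟨0, by rw [this, Polynomial.map_zero]⟩
  | succ n ih =>
    intro P d hP h
    by_cases hlt : P.degree < n
    · exact ih P d hlt h
    · have hP0 : P ≠ 0 := by
        intro h0
        apply hlt
        rw [h0, Polynomial.degree_zero]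
        exact WithBot.bot_lt_coe _
      have hnat : P.natDegree = n := by
        have h1 : P.natDegree < n + 1 := (Polynomial.natDegree_lt_iff_degree_lt hP0).mpr hP
        have h2 : ¬ P.natDegree < n := fun h' =>
          hlt ((Polynomial.natDegree_lt_iff_degree_lt hP0).mp h')
        omega
      have hdeg : P.degree = n := by
        rw [Polynomial.degree_eq_natDegree hP0, hnat]
      -- the leading coefficient is an integer
      have hlead : P.coeff n = ((d.coeff (-(n : ℤ)) : ℤ) : ℂ) := by
        rw [← mpt_coeff_aeval ℂ P n hnat.le, h, coeffMap_coeff]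
        rfl
      set m : ℤ := d.coeff (-(n : ℤ)) with hm
      -- peel off the leading term
      have hsplit : P.eraseLead + Polynomial.C (m : ℂ) * Polynomial.X ^ n = P := by
        have := Polynomial.eraseLead_add_C_mul_X_pow P
        rwa [Polynomial.leadingCoeff, hnat, hlead] at this
      have hQdeg : P.eraseLead.degree < n := by
        rw [← hdeg]
        exact Polynomial.degree_eraseLead_lt hP0
      have hC : Polynomial.aeval (jqModC ℂ) (Polynomial.C (m : ℂ)) =
          coeffMap (Int.castRingHom ℂ) (HahnSeries.C m) := by
        rw [Polynomial.aeval_C, HahnSeries.algebraMap_apply', PowerSeries.algebraMap_apply,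
          Algebra.algebraMap_self_apply, HahnSeries.ofPowerSeries_C]
        ext k
        rw [coeffMap_coeff, HahnSeries.C_apply, HahnSeries.C_apply, HahnSeries.coeff_single,
          HahnSeries.coeff_single, apply_ite (Int.castRingHom ℂ), map_zero]
        rfl
      have hQ : Polynomial.aeval (jqModC ℂ) P.eraseLead =
          coeffMap (Int.castRingHom ℂ) (d - HahnSeries.C m * (jqModC ℤ) ^ n) := by
        have h1 : Polynomial.aeval (jqModC ℂ) P.eraseLead =
            Polynomial.aeval (jqModC ℂ) P -
              Polynomial.aeval (jqModC ℂ) (Polynomial.C (m : ℂ) * Polynomial.X ^ n) := by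
          rw [← map_sub]
          congr 1
          rw [eq_sub_iff_add_eq]
          exact hsplit
        rw [h1, h, map_mul, map_pow, Polynomial.aeval_X, hC, map_sub, map_mul, map_pow,
          coeffMap_jqModC]
      obtain ⟨Q', hQ'⟩ := ih P.eraseLead _ hQdeg hQ
      refine ⟨Q' + Polynomial.C m * Polynomial.X ^ n, ?_⟩
      rw [Polynomial.map_add, Polynomial.map_mul, Polynomial.map_pow, Polynomial.map_X,
        Polynomial.map_C, hQ']
      exact hsplit

/-- A complex polynomial `P` such that `P(j)` has integer `q`-expansion has integer coefficients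
(`j = q⁻¹ + 744 + …` is monic of order `-1` with integer coefficients: induction on the degree). -/
theorem mp_exists_int_poly (P : Polynomial ℂ) (d : LaurentSeries ℤ)
    (h : Polynomial.aeval (jqModC ℂ) P = coeffMap (Int.castRingHom ℂ) d) :
    ∃ P' : Polynomial ℤ, P'.map (Int.castRingHom ℂ) = P :=
  mpt_exists_int_poly_aux (P.natDegree + 1) P d
    (lt_of_le_of_lt Polynomial.degree_le_natDegree (by exact_mod_cast Nat.lt_succ_self _)) h

end

end Fermat.Agent.S28x
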