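import Fermat.Agent.S24x.JqConv
import Fermat.Agent.S24x.LevelOneInvariant
import Fermat.Agent.S28x.Defs

/-!
# S28 / MP (modular polynomial `Φ_p`), owner helper14: SUB-INTERFACE (all `sorry`; NEVER imported
by real files).  Real proofs: `Fermat/Agent/S28x/ModPoly<Part>.lean`, namespace `Fermat.Agent.S28x`,
SAME names and statements (namespace `Fermat.Agent.S28x.MPSpec` is used only in this file).

Plan (integrality WITHOUT roots of unity in formal series): let `M ∈ Mat_p(ℤ((q)))` be the matrix of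
multiplication by `j(t)` on `ℤ((t))` over `ℤ((t^p))` (`q = t^p`, basis `1, t, …, t^{p-1}`), i.e.
`M i k = ∑_m a_{pm+i-k} q^m`.  `Φ_formal := (X - j(q^p)) · charpoly M ∈ ℤ((q))[X]`.
* formal (helper14, ModPolyFormal): `j(t) t^k = ∑_i t^i M_{ik}(t^p)`, hence `charpoly(M(t^p))(j(t)) = 0`.
* analytic: evaluating at `q = e^{2πiz}` and `t_b = e^{2πi(z+b)/p}`: the rows `(t_b^i)_i` are `p`
  independent left eigenvectors of `M(z)` with eigenvalues `j((z+b)/p)` ⇒ (V) `charpoly M(z) = ∏_b (X - j((z+b)/p))`.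
* (I): `∏_x (X - j_x(z))`, `j_∞ = j(pz)`, `j_b = j((z+b)/p)` is `SL₂(ℤ)`-invariant; (L): so each coefficient
  of `Φ_formal` is a polynomial in `j` (S24x `exists_polynomial_jFun` + identity theorem); (T): with
  integer coefficients.
-/

set_option autoImplicit false

open UpperHalfPlane ModularCurve Polynomial
open scoped MatrixGroups

namespace Fermat.Agent.S28x.MPSpec

open Fermat.Agent.S24x

noncomputable section

/-! ## (T) `ModPolyInt.lean` (prefix `mpt_`): triangularity.  Imports: Mathlib + Prelude only. -/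

/-- A complex polynomial `P` such that `P(j)` has integer `q`-expansion has integer coefficients
(`j = q⁻¹ + 744 + …` is monic of order `-1` with integer coefficients: induction on the degree). -/
theorem mp_exists_int_poly (P : Polynomial ℂ) (d : LaurentSeries ℤ)
    (h : Polynomial.aeval (jqModC ℂ) P = coeffMap (Int.castRingHom ℂ) d) :
    ∃ P' : Polynomial ℤ, P'.map (Int.castRingHom ℂ) = P := sorry

/-! ## (V) `ModPolyVdm.lean` (prefix `mpv_`): Vandermonde.  Imports: Mathlib only. -/

/-- If the rows `(t_b^i)_i` (`t` injective) are left eigenvectors of `A` with eigenvalues `μ_b`, then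
`charpoly A = ∏_b (X - μ_b)` (also when the `μ_b` are not distinct: `W A = D W` with `W` the
Vandermonde matrix, `det W ≠ 0`; compare `det (W (X - A)) = det ((X - D) W)` in `ℂ[X]`). -/
theorem mp_charpoly_eq_prod {n : ℕ} (A : Matrix (Fin n) (Fin n) ℂ) (t μ : Fin n → ℂ)
    (ht : Function.Injective t)
    (h : ∀ b k : Fin n, ∑ i : Fin n, t b ^ (i : ℕ) * A i k = μ b * t b ^ (k : ℕ)) :
    A.charpoly = ∏ b, (Polynomial.X - Polynomial.C (μ b)) := sorry

/-! ## (I) `ModPolyInv.lean` (prefix `mpi_`): the conjugates of `j(pz)` and their permutation.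
Imports: S24x/JqConv (`jFun`, `jFun_smul`, `jqc_mulPt`), S16x/CosetPerm (`cp_exists_perm`). -/

/-- the point `(z + b) / p` -/
def mp_pt (p : ℕ) [NeZero p] (b : ℕ) (z : ℍ) : ℍ :=
  ⟨((z : ℂ) + b) / p, by
    have hp : (0 : ℝ) < p := by exact_mod_cast Nat.pos_of_ne_zero (NeZero.ne p)
    have : (((z : ℂ) + b) / p).im = z.im / p := by
      rw [show ((z : ℂ) + b) / p = (((z : ℂ) + b) : ℂ) / ((p : ℝ) : ℂ) by norm_cast, Complex.div_ofReal_im]
      simp
    rw [this]
    exact div_pos z.im_pos hp⟩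

/-- the `p + 1` conjugates of `j(pz)`: `j_∞ = j(pz)`, `j_b = j((z+b)/p)` -/
def mp_conj (p : ℕ) [NeZero p] : Option (Fin p) → ℍ → ℂ
  | none, z => jFun (jqc_mulPt p z)
  | some b, z => jFun (mp_pt p (b : ℕ) z)

/-- `∏_x (X - j_x(z))` is `SL₂(ℤ)`-invariant (`j_x(z) = j(p · (γ_x z))` for the coset representatives
`γ_x = 1, S T^b` of `Γ₀(p) \ SL₂(ℤ)`, `z ↦ j(pz)` is `Γ₀(p)`-invariant, right multiplication permutes
the cosets). -/
theorem mp_prod_invariant (p : ℕ) [hp : Fact p.Prime] (γ : SL(2, ℤ)) (z : ℍ) :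
    haveI : NeZero p := ⟨hp.out.ne_zero⟩
    ∏ x : Option (Fin p), (Polynomial.X - Polynomial.C (mp_conj p x (γ • z))) =
      ∏ x : Option (Fin p), (Polynomial.X - Polynomial.C (mp_conj p x z)) := sorry

/-! ## (L) `ModPolyLevelOne.lean` (prefix `mpl_`): convergent + invariant ⇒ polynomial in `j`.
Imports: S24x/ConvLaurent, JqConv, LevelOneInvariant. -/

/-- A convergent Laurent series whose sum is `SL₂(ℤ)`-invariant on `ℍ` is a polynomial in `j`
(`exists_polynomial_jFun` with `m = max 0 (-order f)`: `q^m f(q)` is bounded near `q = 0`; then the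
identity theorem `LConv.eq_zero_of_forall_uhp`). -/
theorem mp_exists_poly_of_lconv (f : LaurentSeries ℂ) (hf : LConv f)
    (hinv : ∀ (γ : SL(2, ℤ)) (z : ℍ), lEval f (qOf (γ • z)) = lEval f (qOf z)) :
    ∃ P : Polynomial ℂ, f = Polynomial.aeval jqc_jqC P := sorry

end

end Fermat.Agent.S28x.MPSpec
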