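import Fermat.Agent.S28x.PrimeCaseSeries

/-!
# S28 project, step (P), part 3: the core contradiction in power series form

`pc_core`: for primes `ℓ ≠ p` and `A = ∑_{i ≤ p} c_i E₄^{3i} Δ^{p-i}` with `c_p = 1`, the congruence
`Δ^p V_p(E₄³) ≡ A V_p(Δ) mod ℓ` is impossible (level-one `T_p` + Sturm bound modulo `ℓ`).
-/

set_option autoImplicit false

noncomputable section

open Fermat.Agent.S16x

namespace Fermat.Agent.S28x
theorem pc_U_neg {R : Type*} [CommRing R] (p : ℕ) (P : PowerSeries R) : pc_U p (-P) = -pc_U p P := by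
  ext n; simp

theorem pc_U_sub {R : Type*} [CommRing R] (p : ℕ) (P Q : PowerSeries R) :
    pc_U p (P - Q) = pc_U p P - pc_U p Q := by
  ext n; simp

theorem pc_isLO_sum {k : ℕ} {ι : Type*} (s : Finset ι) (P : ι → PowerSeries ℤ)
    (h : ∀ i ∈ s, pc_IsLO k (P i)) : pc_IsLO k (∑ i ∈ s, P i) := by
  classical
  induction s using Finset.induction_on with
  | empty => simpa using pc_isLO_zero k
  | insert a s ha ih =>
    rw [Finset.sum_insert ha]
    exact pc_isLO_add (h a (Finset.mem_insert_self a s))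
      (ih fun i hi => h i (Finset.mem_insert_of_mem hi))

/-- `E₄³` -/
def pc_e : PowerSeries ℤ := lo_E4 ^ 3

theorem pc_isLO_e : pc_IsLO 12 pc_e := pc_isLO_cast (by norm_num) (pc_isLO_pow pc_isLO_E4 3)

theorem pc_constantCoeff_e : PowerSeries.constantCoeff pc_e = 1 := by
  simp [pc_e, lo_E4, lo_A]

theorem pc_constantCoeff_D : PowerSeries.constantCoeff lo_D = 0 := by
  rw [← PowerSeries.coeff_zero_eq_constantCoeff_apply]; exact lo_D_coeff_zero

/-- `A = ∑_{i ≤ p} c_i E₄^{3i} Δ^{p-i}`, the level-one form `f₀(j) Δ^p` of weight `12 p`. -/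
def pc_A (p : ℕ) (c : ℕ → ℤ) : PowerSeries ℤ :=
  ∑ i ∈ Finset.range (p + 1), PowerSeries.C (c i) * (pc_e ^ i * lo_D ^ (p - i))

theorem pc_isLO_A (p : ℕ) (c : ℕ → ℤ) : pc_IsLO (12 * p) (pc_A p c) := by
  refine pc_isLO_sum _ _ fun i hi => pc_isLO_C_mul _ ?_
  have hi' : i ≤ p := Nat.lt_succ_iff.mp (Finset.mem_range.mp hi)
  refine pc_isLO_cast ?_ (pc_isLO_mul (pc_isLO_pow pc_isLO_e i) (pc_isLO_pow pc_isLO_D (p - i)))
  have : i + (p - i) = p := by omega
  calc i * 12 + (p - i) * 12 = (i + (p - i)) * 12 := by ring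
    _ = 12 * p := by rw [this]; ring

theorem pc_constantCoeff_A (p : ℕ) (c : ℕ → ℤ) :
    PowerSeries.constantCoeff (pc_A p c) = c p := by
  rw [pc_A, map_sum, Finset.sum_eq_single p]
  · simp [pc_constantCoeff_e]
  · intro i hi hip
    have hi' : i < p := lt_of_le_of_ne (Nat.lt_succ_iff.mp (Finset.mem_range.mp hi)) hip
    have : p - i ≠ 0 := by omega
    simp [pc_constantCoeff_D, this]
  · intro h
    exact absurd (Finset.mem_range.mpr (Nat.lt_succ_self p)) h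

variable (p : ℕ) (hp0 : p ≠ 0) (c : ℕ → ℤ)

/-- `X = Δ^p V_p(E₄³) - A V_p(Δ)` -/
def pc_X : PowerSeries ℤ :=
  lo_D ^ p * PowerSeries.expand p hp0 pc_e - pc_A p c * PowerSeries.expand p hp0 lo_D

/-- `Y₀ = E₄³ V_p(Δ^p) - Δ V_p(A)` -/
def pc_Y0 : PowerSeries ℤ :=
  pc_e * PowerSeries.expand p hp0 (lo_D ^ p) - lo_D * PowerSeries.expand p hp0 (pc_A p c)

/-- the level-one form `p (E₄³ T_p(Δ^p G) - Δ T_p(A G))` of weight `12 p + w + 12` -/
def pc_Z (w : ℕ) (G : PowerSeries ℤ) : PowerSeries ℤ :=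
  PowerSeries.C (p : ℤ) * (pc_e * pc_T (12 * p + w) p (lo_D ^ p * G)
    - lo_D * pc_T (12 * p + w) p (pc_A p c * G))

theorem pc_isLO_Z (hp : p.Prime) {w : ℕ} {G : PowerSeries ℤ} (hG : pc_IsLO w G) :
    pc_IsLO (w + (12 * p + 12)) (pc_Z p c w G) := by
  have hk : 1 ≤ 12 * p + w := by have := hp.pos; omega
  refine pc_isLO_C_mul _ (pc_isLO_sub ?_ ?_)
  · refine pc_isLO_cast (by ring) (pc_isLO_mul pc_isLO_e (pc_isLO_T hk hp ?_))
    exact pc_isLO_cast (by ring) (pc_isLO_mul (pc_isLO_pow pc_isLO_D p) hG)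
  · refine pc_isLO_cast (by ring) (pc_isLO_mul pc_isLO_D (pc_isLO_T hk hp ?_))
    exact pc_isLO_mul (pc_isLO_A p c) hG

theorem pc_Z_eq (w : ℕ) (G : PowerSeries ℤ) (hk : 1 ≤ 12 * p + w) :
    pc_Z p c w G = PowerSeries.C (p : ℤ) * pc_U p (pc_X p hp0 c * G) +
      PowerSeries.C ((p : ℤ) ^ (12 * p + w)) * (PowerSeries.expand p hp0 G * pc_Y0 p hp0 c) := by
  rw [pc_Z, mul_sub, pc_trace_identity hk p hp0, pc_trace_identity hk p hp0, pc_X, pc_Y0]
  have h1 : pc_U p ((lo_D ^ p * PowerSeries.expand p hp0 pc_e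
      - pc_A p c * PowerSeries.expand p hp0 lo_D) * G) =
      pc_U p (lo_D ^ p * G * PowerSeries.expand p hp0 pc_e) -
        pc_U p (pc_A p c * G * PowerSeries.expand p hp0 lo_D) := by
    rw [← pc_U_sub]; congr 1; ring
  rw [h1, map_mul, map_mul]
  ring


/-! ### coefficients of `Y₀` -/

theorem pc_coeff_one_mul {R : Type*} [CommRing R] (f g : PowerSeries R) :
    PowerSeries.coeff 1 (f * g) =
      PowerSeries.coeff 1 f * PowerSeries.constantCoeff g +
        PowerSeries.constantCoeff f * PowerSeries.coeff 1 g := by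
  rw [PowerSeries.coeff_mul, show (1 : ℕ) = 0 + 1 from rfl, Finset.Nat.antidiagonal_succ]
  simp [add_comm]

theorem pc_constantCoeff_Y0 : PowerSeries.constantCoeff (pc_Y0 p hp0 c) = 0 := by
  rw [pc_Y0, map_sub, map_mul, map_mul, PowerSeries.constantCoeff_expand,
    PowerSeries.constantCoeff_expand, map_pow, pc_constantCoeff_D, zero_pow hp0]
  simp

theorem pc_coeff_one_Y0 (hp2 : 2 ≤ p) (hc : c p = 1) :
    PowerSeries.coeff 1 (pc_Y0 p hp0 c) = -1 := by
  have hnd : ¬ p ∣ 1 := by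
    intro h
    have := Nat.le_of_dvd one_pos h
    omega
  rw [pc_Y0, map_sub, pc_coeff_one_mul, pc_coeff_one_mul, PowerSeries.constantCoeff_expand,
    PowerSeries.constantCoeff_expand, PowerSeries.coeff_expand_of_not_dvd p hp0 _ hnd,
    PowerSeries.coeff_expand_of_not_dvd p hp0 _ hnd, map_pow, pc_constantCoeff_D, zero_pow hp0,
    pc_constantCoeff_A, hc, lo_D_coeff_one]
  simp

variable (ℓ : ℕ) [hℓ : Fact ℓ.Prime]

theorem pc_order_red_Y0 (hp2 : 2 ≤ p) (hc : c p = 1) :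
    (pc_red ℓ (pc_Y0 p hp0 c)).order = 1 := by
  have h : (pc_red ℓ (pc_Y0 p hp0 c)).order = ((1 : ℕ) : ℕ∞) := by
    rw [PowerSeries.order_eq_nat]
    constructor
    · rw [PowerSeries.coeff_map, pc_coeff_one_Y0 p hp0 c hp2 hc]
      simp
    · intro i hi
      have : i = 0 := by omega
      subst this
      rw [PowerSeries.coeff_map, PowerSeries.coeff_zero_eq_constantCoeff_apply,
        pc_constantCoeff_Y0]
      simp
  simpa using h

theorem pc_order_C_mul {K : Type*} [Field K] {a : K} (ha : a ≠ 0) (Q : PowerSeries K) :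
    (PowerSeries.C a * Q).order = Q.order := by
  rw [PowerSeries.order_mul, ← PowerSeries.monomial_zero_eq_C_apply,
    PowerSeries.order_monomial_of_ne_zero 0 a ha]
  simp

/-- the inductive step -/
theorem pc_step (hp : p.Prime) (hℓp : ℓ ≠ p) (hc : c p = 1)
    (hX : pc_red ℓ (pc_X p hp0 c) = 0) {w : ℕ} {G : PowerSeries ℤ} (hG : pc_IsLO w G)
    {s : ℕ} (hs : (pc_red ℓ G).order = (s : ℕ∞)) :
    pc_IsLO (w + (12 * p + 12)) (pc_Z p c w G) ∧
      (pc_red ℓ (pc_Z p c w G)).order = ((1 + p * s : ℕ) : ℕ∞) := by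
  refine ⟨pc_isLO_Z p c hp hG, ?_⟩
  have hk : 1 ≤ 12 * p + w := by have := hp.pos; omega
  have hu : ((p : ℤ) : ZMod ℓ) ≠ 0 := by
    rw [Ne, ZMod.intCast_zmod_eq_zero_iff_dvd]
    intro h
    have h' : ℓ ∣ p := by exact_mod_cast h
    exact hℓp ((Nat.prime_dvd_prime_iff_eq hℓ.out hp).mp h')
  rw [pc_Z_eq p hp0 c w G hk, map_add, map_mul, map_mul, pc_U_map, map_mul, hX, zero_mul, pc_U_zero,
    mul_zero, zero_add, PowerSeries.map_C, pc_order_C_mul, map_mul, PowerSeries.order_mul,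
    PowerSeries.map_expand, PowerSeries.order_expand, hs, pc_order_red_Y0 p hp0 c ℓ hp.two_le hc]
  · push_cast
    rw [add_comm]
    simp [nsmul_eq_mul]
  · rw [eq_intCast]
    push_cast
    exact pow_ne_zero _ (by simpa using hu)

theorem pc_ne_zero_of_order {K : Type*} [Field K] {Q : PowerSeries K} {s : ℕ}
    (h : Q.order = (s : ℕ∞)) : Q ≠ 0 := by
  intro h0
  rw [h0, PowerSeries.order_zero] at h
  exact ENat.top_ne_natCast s h

/-- **Step (P), power series form**: `Δ^p V_p(E₄³) ≡ A V_p(Δ) mod ℓ` is impossible for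
`A = ∑_{i ≤ p} c_i E₄^{3i} Δ^{p-i}` monic (`c_p = 1`), `ℓ ≠ p` primes. -/
theorem pc_core (hp : p.Prime) (hℓp : ℓ ≠ p) (hc : c p = 1)
    (hX : pc_red ℓ (pc_X p hp0 c) = 0) : False := by
  have h0 : (pc_red ℓ (1 : PowerSeries ℤ)).order = ((0 : ℕ) : ℕ∞) := by
    rw [map_one, PowerSeries.order_one]; rfl
  obtain ⟨hL1, ho1⟩ := pc_step p hp0 c ℓ hp hℓp hc hX pc_isLO_one h0
  obtain ⟨hL2, ho2⟩ := pc_step p hp0 c ℓ hp hℓp hc hX hL1 ho1
  obtain ⟨hL3, ho3⟩ := pc_step p hp0 c ℓ hp hℓp hc hX hL2 ho2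
  obtain ⟨hL4, ho4⟩ := pc_step p hp0 c ℓ hp hℓp hc hX hL3 ho3
  have b3 := pc_order_le ℓ hL3 (pc_ne_zero_of_order ho3)
  have b4 := pc_order_le ℓ hL4 (pc_ne_zero_of_order ho4)
  rw [ho3] at b3
  rw [ho4] at b4
  have b3' : 12 * (1 + p * (1 + p * (1 + p * 0))) ≤ 0 + (12 * p + 12) + (12 * p + 12) + (12 * p + 12) := by
    exact_mod_cast b3
  have b4' : 12 * (1 + p * (1 + p * (1 + p * (1 + p * 0)))) ≤
      0 + (12 * p + 12) + (12 * p + 12) + (12 * p + 12) + (12 * p + 12) := by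
    exact_mod_cast b4
  have hp2 := hp.two_le
  rcases Nat.lt_or_ge p 3 with h | h
  · have : p = 2 := by omega
    subst this
    omega
  · nlinarith

end Fermat.Agent.S28x
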