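import Mathlib
import Fermat.Agent.S16x.LevelOneSturmMod
import Fermat.Prelude.Def_ModularForm_HeckeOperatorForms
import Fermat.Prelude.Thm_ModularFormClass_qCoeff_heckeT

/-!
# S28 project, step (P), part 1: integral level-one forms

`pc_IsLO k P` : the integral power series `P` is the `q`-expansion of a level-one modular form of
weight `k`.  Closure under sums, integer multiples, products; `E₄`, `Δ`; the Hecke operator `T_p`
(`pc_T`); the Sturm bound modulo a prime `ℓ` (`pc_sturm`, `pc_order_le`).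
-/

set_option autoImplicit false

noncomputable section

open UpperHalfPlane ModularForm ModularFormClass MatrixGroups EisensteinSeries
open Fermat.Agent.S16x

namespace Fermat.Agent.S28x

/-- `P` is the `q`-expansion of a level-one modular form of weight `k`. -/
def pc_IsLO (k : ℕ) (P : PowerSeries ℤ) : Prop :=
  ∃ F : ModularForm 𝒮ℒ (k : ℤ), qExpansion 1 F = lo_map P

theorem pc_isLO_cast {k l : ℕ} (h : k = l) {P : PowerSeries ℤ} (hP : pc_IsLO k P) :
    pc_IsLO l P := h ▸ hP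

theorem pc_isLO_zero (k : ℕ) : pc_IsLO k 0 :=
  ⟨0, by simp [qExpansion_zero]⟩

theorem pc_isLO_add {k : ℕ} {P Q : PowerSeries ℤ} (hP : pc_IsLO k P) (hQ : pc_IsLO k Q) :
    pc_IsLO k (P + Q) := by
  obtain ⟨F, hF⟩ := hP
  obtain ⟨G, hG⟩ := hQ
  refine ⟨F + G, ?_⟩
  rw [FunLike.coe_add, ModularForm.qExpansion_add one_pos one_mem_strictPeriods_SL, hF, hG, map_add]

theorem pc_isLO_C_mul {k : ℕ} (c : ℤ) {P : PowerSeries ℤ} (hP : pc_IsLO k P) :
    pc_IsLO k (PowerSeries.C c * P) := by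
  obtain ⟨F, hF⟩ := hP
  refine ⟨(c : ℂ) • F, ?_⟩
  rw [FunLike.coe_smul, ModularForm.qExpansion_smul one_pos one_mem_strictPeriods_SL, hF, map_mul]
  ext n
  rw [PowerSeries.coeff_smul, PowerSeries.map_C, PowerSeries.coeff_C_mul, smul_eq_mul, eq_intCast]

theorem pc_isLO_neg {k : ℕ} {P : PowerSeries ℤ} (hP : pc_IsLO k P) : pc_IsLO k (-P) := by
  have := pc_isLO_C_mul (-1) hP
  simpa using this

theorem pc_isLO_sub {k : ℕ} {P Q : PowerSeries ℤ} (hP : pc_IsLO k P) (hQ : pc_IsLO k Q) :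
    pc_IsLO k (P - Q) := by
  rw [sub_eq_add_neg]
  exact pc_isLO_add hP (pc_isLO_neg hQ)

theorem pc_isLO_one : pc_IsLO 0 1 :=
  ⟨ModularForm.mcast (by norm_num) (1 : ModularForm 𝒮ℒ 0), by
    rw [ModularForm.qExpansion_mcast, ModularForm.qExpansion_one, map_one]⟩

theorem pc_isLO_mul {k l : ℕ} {P Q : PowerSeries ℤ} (hP : pc_IsLO k P) (hQ : pc_IsLO l Q) :
    pc_IsLO (k + l) (P * Q) := by
  obtain ⟨F, hF⟩ := hP
  obtain ⟨G, hG⟩ := hQ
  refine ⟨ModularForm.mcast (by push_cast; rfl) (F.mul G), ?_⟩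
  rw [ModularForm.qExpansion_mcast, ModularForm.qExpansion_mul one_pos one_mem_strictPeriods_SL,
    hF, hG, map_mul]

theorem pc_isLO_pow {k : ℕ} {P : PowerSeries ℤ} (hP : pc_IsLO k P) (n : ℕ) :
    pc_IsLO (n * k) (P ^ n) := by
  induction n with
  | zero => simpa using pc_isLO_one
  | succ n ih =>
    rw [pow_succ]
    exact pc_isLO_cast (by ring) (pc_isLO_mul ih hP)

theorem pc_isLO_E4 : pc_IsLO 4 lo_E4 :=
  ⟨ModularForm.mcast (by norm_num) E₄, by rw [ModularForm.qExpansion_mcast, lo_qExpansion_E4]⟩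

theorem pc_isLO_E6 : pc_IsLO 6 lo_E6 :=
  ⟨ModularForm.mcast (by norm_num) E₆, by rw [ModularForm.qExpansion_mcast, lo_qExpansion_E6]⟩

theorem pc_isLO_D : pc_IsLO 12 lo_D :=
  ⟨ModularForm.mcast (by norm_num) (CuspForm.discriminant : ModularForm 𝒮ℒ 12), by
    rw [ModularForm.qExpansion_mcast]
    exact lo_qExpansion_discriminant⟩


theorem pc_Gamma0_one :
    Subgroup.map (Matrix.SpecialLinearGroup.mapGL ℝ) (CongruenceSubgroup.Gamma0 1) = 𝒮ℒ := by
  have h : CongruenceSubgroup.Gamma0 1 = ⊤ := by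
    ext A
    simp only [CongruenceSubgroup.Gamma0_mem, Subgroup.mem_top, iff_true]
    exact Subsingleton.elim _ _
  rw [h, MonoidHom.range_eq_map]

def pc_heckeForm {k : ℤ} {p : ℕ} (hp : p.Prime) (F : ModularForm 𝒮ℒ k) : ModularForm 𝒮ℒ k :=
  ModularForm.mcast rfl
    (ModularForm.heckeTLin k hp (Nat.Prime.not_dvd_one hp) (ModularForm.mcast rfl F pc_Gamma0_one))
    pc_Gamma0_one.symm

theorem pc_coe_heckeForm {k : ℤ} {p : ℕ} (hp : p.Prime) (F : ModularForm 𝒮ℒ k) :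
    ⇑(pc_heckeForm hp F) = ModularForm.heckeT k p ⇑F := rfl

theorem pc_coeff_heckeForm {k : ℤ} {p : ℕ} (hp : p.Prime) (F : ModularForm 𝒮ℒ k) (n : ℕ) :
    PowerSeries.coeff n (qExpansion 1 (pc_heckeForm hp F)) =
      PowerSeries.coeff (n * p) (qExpansion 1 F) +
        if p ∣ n then (p : ℂ) ^ (k - 1) * PowerSeries.coeff (n / p) (qExpansion 1 F) else 0 := by
  have := ModularFormClass.qCoeff_heckeT F one_mem_strictPeriods_SL hp.ne_zero n
  rw [pc_coe_heckeForm]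
  exact this

/-- The formal Hecke operator `T_p` in weight `k` on integral power series. -/
def pc_T (k p : ℕ) (P : PowerSeries ℤ) : PowerSeries ℤ :=
  PowerSeries.mk fun n => PowerSeries.coeff (n * p) P +
    if p ∣ n then (p : ℤ) ^ (k - 1) * PowerSeries.coeff (n / p) P else 0

theorem pc_coeff_T (k p : ℕ) (P : PowerSeries ℤ) (n : ℕ) :
    PowerSeries.coeff n (pc_T k p P) = PowerSeries.coeff (n * p) P +
      if p ∣ n then (p : ℤ) ^ (k - 1) * PowerSeries.coeff (n / p) P else 0 := by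
  rw [pc_T, PowerSeries.coeff_mk]

theorem pc_isLO_T {k : ℕ} (hk : 1 ≤ k) {p : ℕ} (hp : p.Prime) {P : PowerSeries ℤ}
    (hP : pc_IsLO k P) : pc_IsLO k (pc_T k p P) := by
  obtain ⟨F, hF⟩ := hP
  refine ⟨pc_heckeForm hp F, ?_⟩
  ext n
  rw [pc_coeff_heckeForm, hF, PowerSeries.coeff_map, PowerSeries.coeff_map, PowerSeries.coeff_map,
    pc_coeff_T, eq_intCast, eq_intCast, eq_intCast]
  have hk' : ((k : ℤ) - 1) = ((k - 1 : ℕ) : ℤ) := by omega
  rw [hk', zpow_natCast]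
  split_ifs <;> push_cast <;> ring

/-- the additive subgroup `ℓ ℤ ⊆ ℂ` -/
def pc_J (ℓ : ℕ) : AddSubgroup ℂ := AddSubgroup.zmultiples (ℓ : ℂ)

theorem pc_mem_J_iff (ℓ : ℕ) (c : ℤ) : ((c : ℤ) : ℂ) ∈ pc_J ℓ ↔ (ℓ : ℤ) ∣ c := by
  rw [pc_J, AddSubgroup.mem_zmultiples_iff]
  constructor
  · rintro ⟨m, hm⟩
    refine ⟨m, ?_⟩
    have : ((m * ℓ : ℤ) : ℂ) = (c : ℂ) := by push_cast; rw [← hm]; simp
    have h2 : (m * ℓ : ℤ) = c := by exact_mod_cast this
    rw [← h2]; ring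
  · rintro ⟨m, rfl⟩
    exact ⟨m, by push_cast; simp [mul_comm]⟩

/-- Sturm bound modulo `ℓ` for integral level-one forms. -/
theorem pc_sturm (ℓ : ℕ) {k : ℕ} {P : PowerSeries ℤ} (hP : pc_IsLO k P)
    (h : ∀ n, 12 * n ≤ k → (ℓ : ℤ) ∣ PowerSeries.coeff n P) (n : ℕ) :
    (ℓ : ℤ) ∣ PowerSeries.coeff n P := by
  obtain ⟨F, hF⟩ := hP
  have key := lo_sturm_mod (pc_J ℓ) F (fun i hi => by
    rw [hF, PowerSeries.coeff_map, eq_intCast, pc_mem_J_iff]
    exact h i (by exact_mod_cast hi)) n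
  rwa [hF, PowerSeries.coeff_map, eq_intCast, pc_mem_J_iff] at key

/-- reduction of integral power series modulo `ℓ` -/
abbrev pc_red (ℓ : ℕ) : PowerSeries ℤ →+* PowerSeries (ZMod ℓ) :=
  PowerSeries.map (Int.castRingHom (ZMod ℓ))

theorem pc_coeff_red_eq_zero_iff (ℓ : ℕ) (P : PowerSeries ℤ) (n : ℕ) :
    PowerSeries.coeff n (pc_red ℓ P) = 0 ↔ (ℓ : ℤ) ∣ PowerSeries.coeff n P := by
  rw [PowerSeries.coeff_map, eq_intCast, ZMod.intCast_zmod_eq_zero_iff_dvd]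

/-- order form of the Sturm bound: a non-zero reduction has order `≤ k / 12`. -/
theorem pc_order_le (ℓ : ℕ) {k : ℕ} {P : PowerSeries ℤ} (hP : pc_IsLO k P)
    (hne : pc_red ℓ P ≠ 0) : 12 * (pc_red ℓ P).order ≤ (k : ℕ∞) := by
  by_contra hlt
  rw [not_le] at hlt
  apply hne
  ext n
  rw [map_zero, pc_coeff_red_eq_zero_iff]
  refine pc_sturm ℓ hP (fun i hi => ?_) n
  rw [← pc_coeff_red_eq_zero_iff]
  apply PowerSeries.coeff_of_lt_order
  by_contra hge
  rw [not_lt] at hge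
  have hik : (12 * (i : ℕ∞)) ≤ (k : ℕ∞) := by exact_mod_cast hi
  have : 12 * (pc_red ℓ P).order ≤ (k : ℕ∞) := le_trans (mul_le_mul_right hge 12) hik
  exact absurd this (not_le.mpr hlt)

end Fermat.Agent.S28x
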