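import Fermat.Agent.S28x.PrimeCaseLO

/-!
# S28 project, step (P), part 2: formal `U_p`, `V_p` and the trace identity
-/

set_option autoImplicit false

noncomputable section

open Fermat.Agent.S16x

namespace Fermat.Agent.S28x

section Series
variable {R : Type*} [CommRing R]

/-- the formal `U_p` operator -/
def pc_U (p : ℕ) (P : PowerSeries R) : PowerSeries R :=
  PowerSeries.mk fun n => PowerSeries.coeff (n * p) P

@[simp] theorem pc_coeff_U (p n : ℕ) (P : PowerSeries R) :
    PowerSeries.coeff n (pc_U p P) = PowerSeries.coeff (n * p) P := by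
  rw [pc_U, PowerSeries.coeff_mk]

theorem pc_U_add (p : ℕ) (P Q : PowerSeries R) : pc_U p (P + Q) = pc_U p P + pc_U p Q := by
  ext n; simp

theorem pc_U_zero (p : ℕ) : pc_U p (0 : PowerSeries R) = 0 := by
  ext n; simp

theorem pc_U_C_mul (p : ℕ) (c : R) (P : PowerSeries R) :
    pc_U p (PowerSeries.C c * P) = PowerSeries.C c * pc_U p P := by
  ext n; simp [PowerSeries.coeff_C_mul]

theorem pc_U_map {S : Type*} [CommRing S] (f : R →+* S) (p : ℕ) (P : PowerSeries R) :
    PowerSeries.map f (pc_U p P) = pc_U p (PowerSeries.map f P) := by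
  ext n; simp

/-- `U_p (A · V_p B) = U_p A · B`. -/
theorem pc_U_mul_expand (p : ℕ) (hp : p ≠ 0) (A B : PowerSeries R) :
    pc_U p (A * PowerSeries.expand p hp B) = pc_U p A * B := by
  ext n
  rw [pc_coeff_U, PowerSeries.coeff_mul, PowerSeries.coeff_mul]
  symm
  refine Finset.sum_of_injOn (fun x : ℕ × ℕ => (x.1 * p, p * x.2)) ?_ ?_ ?_ ?_
  · intro x _ y _ hxy
    simp only [Prod.mk.injEq] at hxy
    have h1 : x.1 = y.1 := Nat.eq_of_mul_eq_mul_right (Nat.pos_of_ne_zero hp) hxy.1
    have h2 : x.2 = y.2 := Nat.eq_of_mul_eq_mul_left (Nat.pos_of_ne_zero hp) hxy.2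
    exact Prod.ext h1 h2
  · intro x hx
    have hx' := Finset.HasAntidiagonal.mem_antidiagonal.mp (Finset.mem_coe.mp hx)
    refine Finset.mem_coe.mpr (Finset.HasAntidiagonal.mem_antidiagonal.mpr ?_)
    show x.1 * p + p * x.2 = n * p
    rw [← hx']; ring
  · intro x hx hnot
    have hx' := Finset.HasAntidiagonal.mem_antidiagonal.mp hx
    by_cases hdvd : p ∣ x.2
    · exfalso
      apply hnot
      obtain ⟨j, hj⟩ := hdvd
      have hj_le : j ≤ n := by
        have : p * j ≤ n * p := by rw [← hj, ← hx']; exact Nat.le_add_left _ _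
        rw [mul_comm n p] at this
        exact Nat.le_of_mul_le_mul_left this (Nat.pos_of_ne_zero hp)
      refine ⟨(n - j, j), ?_, ?_⟩
      · refine Finset.mem_coe.mpr (Finset.HasAntidiagonal.mem_antidiagonal.mpr ?_)
        show n - j + j = n
        omega
      · ext
        · simp only
          have : x.1 = n * p - p * j := by omega
          rw [this, Nat.sub_mul, mul_comm j p]
        · simp only
          exact hj.symm
    · rw [PowerSeries.coeff_expand_of_not_dvd p hp _ hdvd, mul_zero]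
  · intro x _
    simp only
    rw [pc_coeff_U, PowerSeries.coeff_expand_mul]

end Series

theorem pc_T_eq (k p : ℕ) (hp : p ≠ 0) (P : PowerSeries ℤ) :
    pc_T k p P = pc_U p P + PowerSeries.C ((p : ℤ) ^ (k - 1)) * PowerSeries.expand p hp P := by
  ext n
  rw [pc_coeff_T, map_add, pc_coeff_U, PowerSeries.coeff_C_mul, PowerSeries.coeff_expand]
  split_ifs <;> simp

/-- the trace identity: `p · B · T_p A = p · U_p (A · V_p B) + p^k · B · V_p A`. -/
theorem pc_trace_identity {k : ℕ} (hk : 1 ≤ k) (p : ℕ) (hp : p ≠ 0) (A B : PowerSeries ℤ) :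
    PowerSeries.C (p : ℤ) * (B * pc_T k p A) =
      PowerSeries.C (p : ℤ) * pc_U p (A * PowerSeries.expand p hp B) +
        PowerSeries.C ((p : ℤ) ^ k) * (B * PowerSeries.expand p hp A) := by
  rw [pc_T_eq k p hp, pc_U_mul_expand]
  have : ((p : ℤ) ^ k) = (p : ℤ) * (p : ℤ) ^ (k - 1) := by
    rw [← pow_succ']; congr 1; omega
  rw [this, map_mul]
  ring

end Fermat.Agent.S28x
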