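import Fermat.Agent.S28x.Defs

/-!
# S28 project: INTERFACE SPEC (all `sorry`; NEVER imported by final files)

Maths: doc `S28_blueprint_elementary_helper19` + `S28_plan_v2_helper19` (simplified: no Puiseux series).
Real proofs go to `Fermat/Agent/S28x/<Module>.lean`, namespace `Fermat.Agent.S28x`, SAME names and
statements as here (the namespace `Fermat.Agent.S28x.Spec` is used only in this file).  Table `s28_plan`.

Notation: `O = ℤ_(ℓ)((q))` (`LaurentSeries (ZL ℓ)`), `toQ : O → ℚ((q))`, `red : O → 𝔽_ℓ((q))`,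
`W = gaussRing ℓ ⊆ ℚ((q))`, `ρ = rho ℓ : W → 𝔽_ℓ((q))`, `V = gaussV ℓ = W ∩ ℚ(j)`,
`A_V(N) = AV ℓ N = V[j(q^d) : d ∣ N]`, `F_N = modularFunctionFieldFull N`,
`F̃_N = Ft ℓ N = 𝔽_ℓ(j̃(q^d) : d ∣ N)`, `Kj ℓ = 𝔽_ℓ(j̃)`, `V_n = qExpand _ n` (`q ↦ qⁿ`).
-/

set_option autoImplicit false

open ModularCurve ModularCurve.IgusaScheme
open AlgebraicGeometry CategoryTheory CategoryTheory.Limits

namespace Fermat.Agent.S28x.Spec

noncomputable section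

/-! ## GR `GaussRing.lean` (prefix `gr_`): algebra of `W`, `ρ`, `V` (pure algebra, Mathlib + Prelude) -/

/-- `ker ρ = ℓ W` -/
theorem rho_eq_zero_iff (ℓ : ℕ) [Fact ℓ.Prime] (x : gaussRing ℓ) :
    rho ℓ x = 0 ↔ ∃ y : gaussRing ℓ, x = (ℓ : gaussRing ℓ) * y := sorry

/-- `W` is stable under `q ↦ qⁿ` -/
theorem qExpand_mem_gaussRing (ℓ n : ℕ) [Fact ℓ.Prime] [NeZero n] {x : LaurentSeries ℚ}
    (hx : x ∈ gaussRing ℓ) : qExpand ℚ n x ∈ gaussRing ℓ := sorry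

/-- `ρ` commutes with `q ↦ qⁿ` -/
theorem rho_qExpand (ℓ n : ℕ) [Fact ℓ.Prime] [NeZero n] {x : LaurentSeries ℚ}
    (hx : x ∈ gaussRing ℓ) :
    rho ℓ ⟨qExpand ℚ n x, qExpand_mem_gaussRing ℓ n hx⟩ = qExpand (ZMod ℓ) n (rho ℓ ⟨x, hx⟩) := sorry

/-- `j(q^d) ∈ W` and `ρ(j(q^d)) = j̃(q^d)` -/
theorem jqd_mem_gaussRing (ℓ d : ℕ) [Fact ℓ.Prime] [NeZero d] : qExpand ℚ d jq ∈ gaussRing ℓ := sorry
theorem rho_jqd (ℓ d : ℕ) [Fact ℓ.Prime] [NeZero d] :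
    rho ℓ ⟨qExpand ℚ d jq, jqd_mem_gaussRing ℓ d⟩ = qExpand (ZMod ℓ) d (jqModC (ZMod ℓ)) := sorry

/-- `W` is a valuation ring of `Frac(ℤ_(ℓ)((q)))`: every non-zero quotient is `ℓ^m · (unit of W)`. -/
theorem exists_zpow_mul_unit (ℓ : ℕ) [Fact ℓ.Prime] {z : LaurentSeries ℚ} (hz : z ≠ 0)
    (hfrac : ∃ u v : LaurentSeries (ZL ℓ), u ≠ 0 ∧ toQ ℓ u * z = toQ ℓ v) :
    ∃ (m : ℤ) (y : LaurentSeries ℚ) (hy : y ∈ gaussRing ℓ), y⁻¹ ∈ gaussRing ℓ ∧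
      rho ℓ ⟨y, hy⟩ ≠ 0 ∧ z = (ℓ : LaurentSeries ℚ) ^ m * y := sorry

/-- `W` is integrally closed in `ℚ((q))` among quotients: a quotient of `ℓ`-integral series which is
integral over `W` lies in `W`. -/
theorem mem_gaussRing_of_isIntegral (ℓ : ℕ) [Fact ℓ.Prime] {z : LaurentSeries ℚ}
    (hfrac : ∃ u v : LaurentSeries (ZL ℓ), u ≠ 0 ∧ toQ ℓ u * z = toQ ℓ v)
    (hint : IsIntegral (gaussRing ℓ) z) : z ∈ gaussRing ℓ := sorry

/-- every element of `ℚ(j(q^d) : d ∣ N)` is a quotient of `ℓ`-integral series -/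
theorem exists_frac_of_mem_full (ℓ N : ℕ) [Fact ℓ.Prime] [NeZero N] {z : LaurentSeries ℚ}
    (hz : z ∈ modularFunctionFieldFull N) :
    ∃ u v : LaurentSeries (ZL ℓ), u ≠ 0 ∧ toQ ℓ u * z = toQ ℓ v := sorry

/-- `ρ(V) = 𝔽_ℓ(j̃)` -/
theorem rho_mem_Kj (ℓ : ℕ) [Fact ℓ.Prime] {y : LaurentSeries ℚ} (hy : y ∈ gaussV ℓ) :
    rho ℓ ⟨y, gaussV_le_gaussRing ℓ hy⟩ ∈ Kj ℓ := sorry
theorem exists_gaussV_rho_eq (ℓ : ℕ) [Fact ℓ.Prime] {c : LaurentSeries (ZMod ℓ)} (hc : c ∈ Kj ℓ) :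
    ∃ (y : LaurentSeries ℚ) (hy : y ∈ gaussV ℓ), rho ℓ ⟨y, gaussV_le_gaussRing ℓ hy⟩ = c := sorry

/-- polynomials in `j` with `ℓ`-integral coefficients: `V ∩ ℚ[j] = ℤ_(ℓ)[j]` (also for `1/j` and
`j, 1/j`): an element of `V` which is a `ℚ`-polynomial in the elements of `S ⊆ {j, 1/j}` is a
`ℤ_(ℓ)`-polynomial in them. -/
theorem mem_adjoin_ZL_of_mem_gaussV (ℓ : ℕ) [Fact ℓ.Prime] (S : Set (LaurentSeries ℚ))
    (hS : S ⊆ {jq, jq⁻¹}) {y : LaurentSeries ℚ} (hy : y ∈ gaussV ℓ)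
    (hyS : y ∈ Algebra.adjoin ℚ S) :
    y ∈ Subring.closure (Set.range (algebraMap (ZL ℓ) (LaurentSeries ℚ)) ∪ S) := sorry

/-! ## MP `ModPoly.lean` (prefix `mp_`): the modular polynomial `Φ_p` (analytic; uses S24x
`exists_polynomial_jFun`, the permutation of `{j(pz), j((z+b)/p)}` under `S, T`, integrality of the
`q`-expansion). -/

/-- `Φ_p ∈ ℤ[Y][X]`, monic of degree `p + 1` in `X`, `Φ_p(j(q^p), j(q)) = 0 = Φ_p(j(q), j(q^p))`. -/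
theorem exists_modPoly (p : ℕ) [Fact p.Prime] :
    haveI : NeZero p := ⟨(Fact.out : p.Prime).ne_zero⟩
    ∃ Φ : Polynomial (Polynomial ℤ), Φ.Monic ∧ Φ.natDegree = p + 1 ∧
      Φ.eval₂ (Polynomial.aeval (R := ℤ) jq).toRingHom (qExpand ℚ p jq) = 0 ∧
      Φ.eval₂ (Polynomial.aeval (R := ℤ) (qExpand ℚ p jq)).toRingHom jq = 0 := sorry

/-! ## FR `Fricke.lean` (prefix `fr_`): the Fricke substitution `z ↦ -1/(Nz)` on `F_N`
(analytic but easy: `P(j(dz))_d ≡ 0 ⇒ P(j(Nz/d))_d ≡ 0`; uses S24x `JqBridge/JqAnalytic`). -/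

theorem exists_fricke (N : ℕ) [NeZero N] :
    ∃ w : ↥(modularFunctionFieldFull N) →+* LaurentSeries ℚ,
      ∀ (d e : ℕ) (hd : NeZero d) (_ : NeZero e) (hde : d * e = N),
        w ⟨qExpand ℚ d jq, jqd_mem_full N (Dvd.intro e hde)⟩ = qExpand ℚ e jq := sorry

/-! ## DU `DegreeUpper.lean` (prefix `du_`): `[F_N : ℚ(j)] ≤ ψ(N)` (from S24 `cdeg_jBar` over `ℚ̄`
by descent of linear independence, S24x `LinDisjoint`). -/

theorem finiteDimensional_full (N : ℕ) [NeZero N] :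
    FiniteDimensional Qj (IntermediateField.extendScalars
      (show Qj ≤ modularFunctionFieldFull N from
        IntermediateField.adjoin_le_iff.mpr (Set.singleton_subset_iff.mpr
          (by simpa [qExpand_one_apply] using jqd_mem_full N (one_dvd N))))) := sorry

theorem relfinrank_full_le (N : ℕ) [NeZero N] :
    IntermediateField.relfinrank Qj (modularFunctionFieldFull N) ≤ dedekindPsi N := sorry

/-! ## PC `PrimeCase*.lean` (prefix `pc_`): THE NEW POINT.  `j̃(q^p) ∉ 𝔽_ℓ[j̃]` for `ℓ ≠ p`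
(level-one trace trick: Prelude `heckeT` at level one + S16x `lo_sturm_mod`). -/

theorem pc_main (ℓ p : ℕ) [Fact ℓ.Prime] [Fact p.Prime] (h : ℓ ≠ p) (f : Polynomial (ZMod ℓ)) :
    haveI : NeZero p := ⟨(Fact.out : p.Prime).ne_zero⟩
    qExpand (ZMod ℓ) p (jqModC (ZMod ℓ)) ≠ Polynomial.aeval (jqModC (ZMod ℓ)) f := sorry

/-! ## LF `LaurentField.lean` (prefix `lf_`): field theory of `k((q))` over `k((qⁿ))` -/

/-- If `ord_q x` is prime to the prime `p` then `1, x, …, x^{p-1}` are linearly independent over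
`k((q^p))`. -/
theorem lf_linearIndependent_pow {k : Type*} [Field k] (p : ℕ) [Fact p.Prime]
    (x : LaurentSeries k) (hx : x ≠ 0) (hord : ¬ (p : ℤ) ∣ x.order) :
    haveI : NeZero p := ⟨(Fact.out : p.Prime).ne_zero⟩
    LinearIndependent (qExpand k p).fieldRange (fun i : Fin p => x ^ (i : ℕ)) := sorry

/-- `[k((q)) : k((qⁿ))] = n` -/
theorem lf_finrank_fieldRange {k : Type*} [Field k] (n : ℕ) [NeZero n] :
    Module.finrank (qExpand k n).fieldRange (LaurentSeries k) = n := sorry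

/-- the substitution `q ↦ ζ q` -/
theorem lf_exists_rescale {k : Type*} [Field k] (ζ : k) (hζ : ζ ≠ 0) :
    ∃ R : LaurentSeries k →+* LaurentSeries k,
      ∀ (x : LaurentSeries k) (n : ℤ), (R x).coeff n = ζ ^ n * x.coeff n := sorry

/-! ## QD `QepOfDeg.lean` (prefix `qd_`): `DEG ⇒ QEP` (dimension count; uses MP for finiteness of
`A_V(N)` over `V`, DU, GR). -/

/-- `A_V(N) ⊆ W` -/
theorem AV_le_gaussRing (ℓ N : ℕ) [Fact ℓ.Prime] [NeZero N] {x : LaurentSeries ℚ}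
    (hx : x ∈ AV ℓ N) : x ∈ gaussRing ℓ := sorry

/-- `A_V(N) ⊆ F_N` -/
theorem AV_le_full (ℓ N : ℕ) [Fact ℓ.Prime] [NeZero N] {x : LaurentSeries ℚ}
    (hx : x ∈ AV ℓ N) : x ∈ modularFunctionFieldFull N := sorry

/-- `ρ(A_V(N)) = F̃_N` -/
theorem rho_AV_mem_Ft (ℓ N : ℕ) [Fact ℓ.Prime] [NeZero N] {x : LaurentSeries ℚ}
    (hx : x ∈ AV ℓ N) : rho ℓ ⟨x, AV_le_gaussRing ℓ N hx⟩ ∈ Ft ℓ N := sorry
theorem exists_AV_rho_eq (ℓ N : ℕ) [Fact ℓ.Prime] [NeZero N] {c : LaurentSeries (ZMod ℓ)}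
    (hc : c ∈ Ft ℓ N) :
    ∃ (x : LaurentSeries ℚ) (hx : x ∈ AV ℓ N), rho ℓ ⟨x, AV_le_gaussRing ℓ N hx⟩ = c := sorry

/-- the upper bound `[F̃_N : 𝔽_ℓ(j̃)] ≤ ψ(N)` (always) -/
theorem relfinrank_Ft_le (ℓ N : ℕ) [Fact ℓ.Prime] [NeZero N] :
    IntermediateField.relfinrank (Kj ℓ) (Ft ℓ N) ≤ dedekindPsi N := sorry

theorem qep_of_deg (ℓ N : ℕ) [Fact ℓ.Prime] [NeZero N] (h : DEG ℓ N) : QEP ℓ N := sorry

/-! ## SB `StepB.lean` (prefix `sb_`): `p ∣ M`, `DEG M ⇒ DEG (pM)`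
(`C = A_V(pM)/ℓ` has dimension `≤ p` over the field `L = A_V(M)/ℓ`; `φ = ρ ∘ w_{pM}` maps `L` into
`𝔽_ℓ((q^p))` and `j(q^{pM})` to `j̃`; LF ⇒ `dim_L φ(C) ≥ p` ⇒ `C` is a field ⇒ `ρ` injective on `C`). -/

theorem deg_step_dvd (ℓ p M : ℕ) [Fact ℓ.Prime] [NeZero M] (hp : p.Prime) (hpM : p ∣ M)
    (h : DEG ℓ M) : DEG ℓ (p * M) := sorry

/-! ## SA `StepA.lean` (prefix `sa_`): `p ∤ M`, `M` squarefree with all prime factors `< p`,
`DEG M ⇒ DEG (pM)` (`deg(j̃(q^p) / F̃_M) ∈ {1, p+1}` by MP + LF; degree `1` is excluded by PC and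
the count of the `M` embeddings `q ↦ ζ_M^c q` composed with the Fricke embedding of `F̃_M`). -/

theorem deg_step_coprime (ℓ p M : ℕ) [Fact ℓ.Prime] [NeZero M] (hp : p.Prime) (hℓp : ℓ ≠ p)
    (hℓM : ¬ ℓ ∣ M) (hsq : Squarefree M) (hlt : ∀ q ∈ M.primeFactors, q < p)
    (h : DEG ℓ M) : DEG ℓ (p * M) := sorry

/-! ## IND `Induction.lean` (prefix `ind_`): all levels prime to `ℓ` -/

theorem deg_one (ℓ : ℕ) [Fact ℓ.Prime] : DEG ℓ 1 := sorry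

theorem deg_all (ℓ N : ℕ) [Fact ℓ.Prime] [NeZero N] (hℓN : ¬ ℓ ∣ N) : DEG ℓ N := sorry

/-! ## DV `AVClosed.lean` (prefix `dv_`): under `QEP`, `A_V(N) = W ∩ F_N` -/

theorem mem_AV_of_mem_gaussRing (ℓ N : ℕ) [Fact ℓ.Prime] [NeZero N] (h : QEP ℓ N)
    {x : LaurentSeries ℚ} (hxF : x ∈ modularFunctionFieldFull N) (hxW : x ∈ gaussRing ℓ) :
    x ∈ AV ℓ N := sorry

/-! ## CH `ChartQEP.lean` (prefix `ch_`): the `q`-expansion principle for the three chart algebras -/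

/-- chart algebras lie in `W` -/
theorem chart_mem_gaussRing (N ℓ : ℕ) [NeZero N] [Fact ℓ.Prime] (hℓN : ¬ ℓ ∣ N)
    (S : Set ↥(modularFunctionFieldFull N)) (hS : S ⊆ {jFull N, (jFull N)⁻¹})
    (x : chartAlg N ℓ S) : ((x : ↥(modularFunctionFieldFull N)) : LaurentSeries ℚ) ∈ gaussRing ℓ := sorry

/-- if the `q`-expansion of `x` in a chart algebra vanishes mod `ℓ` then `x = ℓ y` in the chart algebra -/
theorem chart_qep (N ℓ : ℕ) [NeZero N] [Fact ℓ.Prime] (hℓN : ¬ ℓ ∣ N)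
    (S : Set ↥(modularFunctionFieldFull N)) (hS : S ⊆ {jFull N, (jFull N)⁻¹})
    (x : chartAlg N ℓ S)
    (hx : rho ℓ ⟨((x : ↥(modularFunctionFieldFull N)) : LaurentSeries ℚ),
      chart_mem_gaussRing N ℓ hℓN S hS x⟩ = 0) :
    ∃ y : chartAlg N ℓ S, x = (ℓ : chartAlg N ℓ S) * y := sorry

/-! ## TP `ChartTensor.lean` (prefix `tp_`): `R_S ⊗_{ℤ_(ℓ)} K` is a domain
(`R_S/ℓ ↪ 𝔽_ℓ((q))`, flat base change to `K`, `𝔽_ℓ((q)) ⊗ K ↪ K((q))`). -/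

theorem chart_tensor_isDomain (N ℓ : ℕ) [NeZero N] [Fact ℓ.Prime] (hℓN : ¬ ℓ ∣ N)
    (S : Set ↥(modularFunctionFieldFull N)) (hS : S ⊆ {jFull N, (jFull N)⁻¹})
    (K : Type) [Field K] [CharP K ℓ] [Algebra ↥(GaloisRep.ratLocalizedAt ℓ) K] :
    IsDomain (TensorProduct ↥(GaloisRep.ratLocalizedAt ℓ) (chartAlg N ℓ S) K) := sorry

/-! ## GL `Glue.lean` (prefix `gl_`): scheme glue.  From the three domains to the frozen statement. -/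

theorem glue (N ℓ : ℕ) [NeZero N] [Fact ℓ.Prime]
    (K : Type) [Field K] [CharP K ℓ] [Algebra ↥(GaloisRep.ratLocalizedAt ℓ) K]
    (hFin : IsDomain (TensorProduct ↥(GaloisRep.ratLocalizedAt ℓ) (chartAlgFin N ℓ) K))
    (hInf : IsDomain (TensorProduct ↥(GaloisRep.ratLocalizedAt ℓ) (chartAlgInf N ℓ) K))
    (hMid : IsDomain (TensorProduct ↥(GaloisRep.ratLocalizedAt ℓ) (chartAlgMid N ℓ) K)) :
    IsIntegral ↑(pullback (igusaTo N ℓ)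
      (Spec.map (CommRingCat.ofHom (algebraMap ↥(GaloisRep.ratLocalizedAt ℓ) K)))) := sorry

end

end Fermat.Agent.S28x.Spec
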