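/-
S28 project, row SB (`deg_step_dvd`), SECOND SQUAD (helper40): the unconditional statement.
`sbb_deg_step_dvd` has exactly the statement of `Spec.deg_step_dvd`; `sbb_ind_StepB : ind_StepB ℓ`.
-/
import Fermat.Agent.S28x.StepBbMain
import Fermat.Agent.S28x.QepOfDeg
import Fermat.Agent.S28x.Induction

set_option autoImplicit false

open ModularCurve

namespace Fermat.Agent.S28x

/-- **Step B**: `p ∣ M`, `DEG ℓ M ⇒ DEG ℓ (pM)` (statement of `Spec.deg_step_dvd`). -/
theorem sbb_deg_step_dvd (ℓ p M : ℕ) [Fact ℓ.Prime] [NeZero M] (hp : p.Prime) (hpM : p ∣ M)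
    (h : DEG ℓ M) : DEG ℓ (p * M) := by
  have : NeZero p := ⟨hp.ne_zero⟩
  exact sbb_deg_step_dvd_of (qd_input ℓ M) (qd_input ℓ (p * M)) hp hpM h

/-- Step B in the shape used by `Induction.lean`. -/
theorem sbb_ind_StepB (ℓ : ℕ) [Fact ℓ.Prime] : ind_StepB ℓ :=
  fun p M _ hp hpM h => sbb_deg_step_dvd ℓ p M hp hpM h

end Fermat.Agent.S28x
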