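/-
S28 project (Igusa), trace route, wiring module TRACE-HV (helper19, prefix `thv_`).

From the landed modules GR (`GaussRing`), GaussV, DU (`DegreeUpper`), RED (`RedBasis`, `RedHyp`),
LIFT (`Lift`) and the bridge `DegBridge2`:

* `thv_hyp ℓ : rb_Hyp ℓ` (unconditional);
* `thv_lift ℓ N` : `ρ : W ∩ F_N → F̃_N` is surjective (unconditional);
* `thv_hV_of_DEG ℓ N : DEG ℓ N → ∀ y ∈ F_N ∩ W, IsIntegral (gaussV ℓ) y`
  (the hypothesis `hV` of the chart module CH);
* `thv_hV_of_steps` : the same from the two induction steps `ind_StepA`, `ind_StepB`.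
-/
import Fermat.Agent.S28x.GaussRing
import Fermat.Agent.S28x.GaussV
import Fermat.Agent.S28x.DegreeUpper
import Fermat.Agent.S28x.RedHyp
import Fermat.Agent.S28x.Lift
import Fermat.Agent.S28x.DegBridge2
import Fermat.Agent.S28x.Induction

set_option autoImplicit false

namespace Fermat.Agent.S28x

open ModularCurve IntermediateField

noncomputable section

/-- the hypothesis structure of `RedBasis`, unconditionally -/
theorem thv_hyp (ℓ : ℕ) [Fact ℓ.Prime] : rb_Hyp ℓ :=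
  rb_hyp_of_rho_V ℓ (fun _ hy => gv_rho_mem_Kj ℓ hy)

/-- **LIFT**, unconditionally: `ρ : W ∩ F_N → F̃_N` is surjective. -/
theorem thv_lift (ℓ N : ℕ) [Fact ℓ.Prime] [NeZero N] :
    ∀ c : LaurentSeries (ZMod ℓ), c ∈ Ft ℓ N →
      ∃ (x : LaurentSeries ℚ) (hx : x ∈ gaussRing ℓ),
        x ∈ modularFunctionFieldFull N ∧ rho ℓ ⟨x, hx⟩ = c :=
  lift_exists ℓ N (thv_hyp ℓ) (du_not_linearIndependent N)
    (fun _ hc => gv_exists_gaussV_rho_eq ℓ hc)

/-- `DEG ℓ N` implies that every element of `W ∩ F_N` is integral over `V`. -/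
theorem thv_hV_of_DEG (ℓ N : ℕ) [Fact ℓ.Prime] [NeZero N] (h : DEG ℓ N) :
    ∀ y : LaurentSeries ℚ, y ∈ modularFunctionFieldFull N → y ∈ gaussRing ℓ →
      IsIntegral (gaussV ℓ) y := by
  obtain ⟨b, hbW, hbF, hind⟩ := db2_exists_family_of_DEG (ℓ := ℓ) N (thv_lift ℓ N) h
  intro y hyF hyW
  exact rb_isIntegral_gaussV (thv_hyp ℓ) N b hbF hbW hind (du_not_linearIndependent N) y hyF hyW

/-- the same from the two induction steps -/
theorem thv_hV_of_steps (ℓ N : ℕ) [Fact ℓ.Prime] [NeZero N] (hℓN : ¬ ℓ ∣ N)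
    (hA : ind_StepA ℓ) (hB : ind_StepB ℓ) :
    ∀ y : LaurentSeries ℚ, y ∈ modularFunctionFieldFull N → y ∈ gaussRing ℓ →
      IsIntegral (gaussV ℓ) y :=
  thv_hV_of_DEG ℓ N (ind_deg_all ℓ N hA hB hℓN)

end

end Fermat.Agent.S28x
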