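/-
S28 units route (helper24): **AN-MAIN** `ud_ANMain N`, assembled from
* helper79's abstract symmetric-function theorem `uc_exists_poly_unit_qOf` (`UnitSym/UnitSymQ`),
* helper83's conjugates `uf2_conj` (`UnitFun/UnitFunQ`: holomorphic, permuted by `SL₂(ℤ)`, no zeros),
* the analytic bridge `ue_lconv_Gr / ue_lEval_Gr` (`UnitExp`).
-/
import Mathlib
import Fermat.Agent.S28x.UnitsDefs
import Fermat.Agent.S28x.UnitFunQ
import Fermat.Agent.S28x.UnitSymQ
import Fermat.Agent.S28x.UnitExp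

set_option autoImplicit false

namespace Fermat.Agent.S28x

open HahnSeries Fermat.Agent.S24x UpperHalfPlane ModularCurve

/-- **AN-MAIN** of the units route. -/
theorem ue_ANMain (N : ℕ) [NeZero N] : ud_ANMain N := by
  intro r
  exact uc_exists_poly_unit_qOf N (fun i => uf2_conj N (fun d => (r d : ℤ)) i)
    (fun i => uf2_conj_mdiff N _ i) (fun δ => uf2_conj_perm N _ δ)
    (fun i τ => uf2_conj_ne_zero N _ i τ)
    (fun γ => ud_Gr ℂ (ud_familyQ N) (ud_zetaC N) ((N : ℂ)⁻¹) r γ)
    (fun γ => ue_lconv_Gr (ud_familyQ N) _ r γ)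
    (fun i z τ hτ => (ue_lEval_Gr N r i z τ hτ).symm)

end Fermat.Agent.S28x
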