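/-
S28 (Igusa) project, module M6 = step (U4) of docs.S28_blueprint_units_helper94 (helper6).

ABSTRACT, Mathlib-only.  `k` a field, `J : LaurentSeries k` of negative order (think `j̄(X^N)`),
`G : Q → LaurentSeries k` the reductions of the conjugates of a modular unit.  If the
"characteristic polynomial" `∏ γ, (T - G γ)` has coefficients in `k[J]` and a nonzero CONSTANT
constant term, and if the only subset `U ∋ e` of `Q` with `∑ γ ∈ U, order (G γ) = 0` is the whole
of `Q`, then `G e` has degree `≥ card Q` over `k(J)`; stated division-free: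
every nonzero `f ∈ k[Y][T]` with `f(J, G e) = 0` has `T`-degree `≥ card Q`.
-/
import Mathlib

set_option autoImplicit false

namespace Fermat.Agent.S28x

open Polynomial

section Multiset

/-- a sub-multiset of an image multiset is the image of a sub-multiset -/
theorem uf_exists_le_map {α β : Type*} (f : α → β) (s : Multiset α) :
    ∀ t : Multiset β, t ≤ s.map f → ∃ u ≤ s, u.map f = t := by
  classical
  induction s using Multiset.induction_on with
  | empty =>
    intro t ht
    refine ⟨0, le_rfl, ?_⟩
    simp only [Multiset.map_zero, Multiset.le_zero] at ht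
    simp [ht]
  | cons a s ih =>
    intro t ht
    rw [Multiset.map_cons] at ht
    by_cases hat : f a ∈ t
    · obtain ⟨t', rfl⟩ := Multiset.exists_cons_of_mem hat
      rw [Multiset.cons_le_cons_iff] at ht
      obtain ⟨u, hu, hut⟩ := ih t' ht
      exact ⟨a ::ₘ u, (Multiset.cons_le_cons_iff a).mpr hu, by rw [Multiset.map_cons, hut]⟩
    · rw [Multiset.le_cons_of_notMem hat] at ht
      obtain ⟨u, hu, hut⟩ := ih t ht
      exact ⟨u, hu.trans (Multiset.le_cons_self s a), hut⟩

end Multiset

section Abstract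

variable {A L : Type*} [CommRing A] [IsDomain A] [IsIntegrallyClosed A] [Field L]
  {Q : Type*} [Fintype Q] [DecidableEq Q]

/-- Gauss-lemma core: if `∏ γ, (T - G γ)` descends to a polynomial `PA` over the integrally closed
domain `A ⊆ L`, there is a monic `mA ∈ A[T]` dividing `PA` whose image is a sub-product
`∏ γ ∈ U, (T - G γ)` with `e ∈ U`, and which divides every `f ∈ A[T]` vanishing at `G e`. -/
theorem uf_exists_subset_abstract (φ : A →+* L) (hφ : Function.Injective φ) (e : Q) (G : Q → L)
    (PA : A[X]) (hPA : PA.map φ = ∏ γ, (X - C (G γ))) :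
    ∃ (mA : A[X]) (U : Finset Q), mA.Monic ∧ e ∈ U ∧ mA ∣ PA ∧
      mA.map φ = ∏ γ ∈ U, (X - C (G γ)) ∧
      ∀ f : A[X], (f.map φ).eval (G e) = 0 → mA ∣ f := by
  classical
  let _ : Algebra A L := φ.toAlgebra
  have halg : algebraMap A L = φ := rfl
  have : FaithfulSMul A L := (faithfulSMul_iff_algebraMap_injective A L).mpr hφ
  -- `PA` is monic
  have hPAmonic : PA.Monic := by
    have h1 : (PA.map φ).Monic := by
      rw [hPA]
      exact monic_prod_of_monic _ _ fun γ _ => monic_X_sub_C (G γ)
    exact monic_of_injective hφ h1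
  have hPAroot : aeval (G e) PA = 0 := by
    rw [aeval_def, halg, ← eval_map, hPA, eval_prod]
    exact Finset.prod_eq_zero (Finset.mem_univ e) (by simp)
  have hint : IsIntegral A (G e) := ⟨PA, hPAmonic, by rwa [aeval_def] at hPAroot⟩
  refine ⟨minpoly A (G e), ?_⟩
  have hm_monic := minpoly.monic hint
  have hm_dvd : minpoly A (G e) ∣ PA := minpoly.isIntegrallyClosed_dvd hint hPAroot
  -- roots
  have hdvdL : (minpoly A (G e)).map φ ∣ ∏ γ, (X - C (G γ)) := by
    rw [← hPA]
    exact Polynomial.map_dvd φ hm_dvd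
  have hprod_ne : (∏ γ, (X - C (G γ)) : L[X]) ≠ 0 :=
    (monic_prod_of_monic _ _ fun γ _ => monic_X_sub_C (G γ)).ne_zero
  have hroots_univ : (∏ γ, (X - C (G γ)) : L[X]).roots = (Finset.univ : Finset Q).val.map G := by
    have h1 : (∏ γ, (X - C (G γ)) : L[X]) =
        (((Finset.univ : Finset Q).val.map G).map fun a => X - C a).prod := by
      rw [Multiset.map_map]
      rfl
    rw [h1, roots_multiset_prod_X_sub_C]
  have hroots_le : ((minpoly A (G e)).map φ).roots ≤ (Finset.univ : Finset Q).val.map G := by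
    rw [← hroots_univ]
    exact roots.le_of_dvd hprod_ne hdvdL
  have hsplits : ((minpoly A (G e)).map φ).Splits := by
    refine Splits.of_dvd ?_ hprod_ne hdvdL
    exact Splits.prod fun γ _ => Splits.X_sub_C (G γ)
  have hmL_monic : ((minpoly A (G e)).map φ).Monic := hm_monic.map φ
  have hmL_eq : (minpoly A (G e)).map φ = (((minpoly A (G e)).map φ).roots.map fun a => X - C a).prod :=
    (hsplits.eq_prod_roots_of_monic hmL_monic)
  -- `G e` is a root
  have hGe_root : G e ∈ ((minpoly A (G e)).map φ).roots := by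
    rw [mem_roots hmL_monic.ne_zero, IsRoot.def, eval_map, ← halg, ← aeval_def]
    exact minpoly.aeval A (G e)
  obtain ⟨rest, hrest⟩ := Multiset.exists_cons_of_mem hGe_root
  have huniv : (Finset.univ : Finset Q).val = e ::ₘ (Finset.univ.erase e).val := by
    rw [Finset.erase_val, Multiset.cons_erase (Finset.mem_univ_val e)]
  have hrest_le : rest ≤ (Finset.univ.erase e).val.map G := by
    rw [hrest, huniv, Multiset.map_cons, Multiset.cons_le_cons_iff] at hroots_le
    exact hroots_le
  obtain ⟨u, hu_le, hu_map⟩ := uf_exists_le_map G _ rest hrest_le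
  have hu_nodup : u.Nodup := Multiset.nodup_of_le hu_le (Finset.univ.erase e).nodup
  have he_notin : e ∉ u := fun h => by
    have := Multiset.mem_of_le hu_le h
    rw [← Finset.mem_def] at this
    exact (Finset.notMem_erase e _) this
  refine ⟨insert e (⟨u, hu_nodup⟩ : Finset Q), hm_monic, Finset.mem_insert_self _ _, hm_dvd, ?_, ?_⟩
  · rw [hmL_eq, hrest, Finset.prod_insert (by simpa using he_notin), Multiset.map_cons,
      Multiset.prod_cons, ← hu_map, Multiset.map_map]
    rfl
  · intro f hf
    refine minpoly.isIntegrallyClosed_dvd hint ?_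
    rw [aeval_def, halg, ← eval_map]
    exact hf

end Abstract

section Laurent

variable {k : Type*} [Field k] {Q : Type*}

/-- order of a finite product of nonzero Laurent series -/
theorem uf_order_prod (G : Q → LaurentSeries k) (U : Finset Q) (hG : ∀ γ ∈ U, G γ ≠ 0) :
    (∏ γ ∈ U, G γ).order = ∑ γ ∈ U, (G γ).order := by
  classical
  induction U using Finset.induction_on with
  | empty => simp [HahnSeries.order_one]
  | insert a s ha ih =>
    rw [Finset.prod_insert ha, Finset.sum_insert ha]
    have h1 : G a ≠ 0 := hG a (Finset.mem_insert_self a s)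
    have h2 : ∏ γ ∈ s, G γ ≠ 0 :=
      Finset.prod_ne_zero_iff.mpr fun γ hγ => hG γ (Finset.mem_insert_of_mem hγ)
    rw [HahnSeries.order_mul h1 h2, ih fun γ hγ => hG γ (Finset.mem_insert_of_mem hγ)]

/-- constant coefficient (in `T`) of `∏ (T - G γ)` -/
theorem uf_coeff_zero_prod (G : Q → LaurentSeries k) (U : Finset Q) :
    (∏ γ ∈ U, (X - C (G γ)) : (LaurentSeries k)[X]).coeff 0 = (-1) ^ U.card * ∏ γ ∈ U, G γ := by
  classical
  rw [coeff_zero_eq_eval_zero, eval_prod]
  simp only [eval_sub, eval_X, eval_C, zero_sub]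
  rw [Finset.prod_neg, ]

/-- the ring hom `k[Y] → k((X))`, `Y ↦ J` (instance-free spelling of `aeval J`). -/
noncomputable def ufEval (J : LaurentSeries k) : k[X] →+* LaurentSeries k :=
  eval₂RingHom (HahnSeries.C : k →+* LaurentSeries k) J

@[simp] theorem ufEval_C (J : LaurentSeries k) (a : k) : ufEval J (C a) = HahnSeries.C a := by
  simp [ufEval]

@[simp] theorem ufEval_X (J : LaurentSeries k) : ufEval J X = J := by
  simp [ufEval]

/-- a Laurent series of negative order is transcendental over the coefficient field: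
`Y ↦ J` is injective on `k[Y]`. -/
theorem uf_eval_injective (J : LaurentSeries k) (hJ : J.order < 0) :
    Function.Injective (ufEval J) := by
  classical
  rw [injective_iff_map_eq_zero]
  intro p hp
  by_contra hne
  have hJ0 : J ≠ 0 := by
    rintro rfl
    simp at hJ
  set n := p.natDegree with hn
  set v := HahnSeries.addVal ℤ k with hv
  have hlead : p.coeff n ≠ 0 := by
    rw [hn]
    exact fun h => hne (leadingCoeff_eq_zero.mp h)
  have hsum : ufEval J p =
      (∑ i ∈ Finset.range n, HahnSeries.C (p.coeff i) * J ^ i) + HahnSeries.C (p.coeff n) * J ^ n := by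
    simp only [ufEval, coe_eval₂RingHom]
    rw [eval₂_eq_sum_range, Finset.sum_range_succ]
  have hvterm : ∀ i : ℕ, p.coeff i ≠ 0 →
      v (HahnSeries.C (p.coeff i) * J ^ i) = (((i : ℤ) * J.order : ℤ) : WithTop ℤ) := by
    intro i hi
    have h1 : (HahnSeries.C (p.coeff i) : LaurentSeries k) ≠ 0 := HahnSeries.C_ne_zero hi
    have h2 : J ^ i ≠ 0 := pow_ne_zero _ hJ0
    rw [hv, HahnSeries.addVal_apply_of_ne (mul_ne_zero h1 h2), HahnSeries.order_mul h1 h2,
      HahnSeries.order_C, zero_add, HahnSeries.order_pow, nsmul_eq_mul]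
  have hrest : (((n : ℤ) * J.order : ℤ) : WithTop ℤ) <
      v (∑ i ∈ Finset.range n, HahnSeries.C (p.coeff i) * J ^ i) := by
    refine AddValuation.map_lt_sum v (WithTop.coe_ne_top) ?_
    intro i hi
    by_cases h0 : p.coeff i = 0
    · rw [h0, map_zero, zero_mul, AddValuation.map_zero]
      exact WithTop.coe_lt_top _
    · rw [hvterm i h0, WithTop.coe_lt_coe]
      have hin : (i : ℤ) < n := by exact_mod_cast Finset.mem_range.mp hi
      exact mul_lt_mul_of_neg_right hin hJ
  have hval : v (ufEval J p) = (((n : ℤ) * J.order : ℤ) : WithTop ℤ) := by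
    rw [hsum, AddValuation.map_add_eq_of_lt_right v (by rw [hvterm n hlead]; exact hrest),
      hvterm n hlead]
  rw [hp, AddValuation.map_zero] at hval
  exact WithTop.coe_ne_top hval.symm

variable [Fintype Q] [DecidableEq Q]

/-- **(U4)**, with the injectivity of `Y ↦ J` (transcendence of `J`) as a hypothesis. -/
theorem uf_card_le_natDegree' (e : Q) (J : LaurentSeries k)
    (hφ : Function.Injective (ufEval J))
    (G : Q → LaurentSeries k) (PA : (k[X])[X])
    (hPA : PA.map (ufEval J) = ∏ γ, (X - C (G γ)))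
    (c : k) (hc : c ≠ 0) (hconst : ∏ γ, G γ = HahnSeries.C c)
    (hU : ∀ U : Finset Q, e ∈ U → ∑ γ ∈ U, (G γ).order = 0 → U = Finset.univ)
    (f : (k[X])[X]) (hf : f ≠ 0)
    (hroot : (f.map (ufEval J)).eval (G e) = 0) :
    Fintype.card Q ≤ f.natDegree := by
  classical
  set φ : k[X] →+* LaurentSeries k := ufEval J with hφdef
  have hφC : ∀ a : k, φ (C a) = HahnSeries.C a := fun a => ufEval_C J a
  obtain ⟨mA, U, hmon, heU, hdvd, hmap, hmin⟩ := uf_exists_subset_abstract φ hφ e G PA hPA
  -- all `G γ` are nonzero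
  have hGne : ∀ γ : Q, G γ ≠ 0 := by
    intro γ hγ
    have : (∏ γ, G γ) = 0 := Finset.prod_eq_zero (Finset.mem_univ γ) hγ
    rw [hconst] at this
    exact HahnSeries.C_ne_zero hc this
  -- the constant term of `PA` is a unit of `k[X]`
  have hPA0 : PA.coeff 0 = C ((-1) ^ Fintype.card Q * c) := by
    apply hφ
    have h1 : φ (PA.coeff 0) = (PA.map φ).coeff 0 := (coeff_map φ 0).symm
    rw [h1, hPA, uf_coeff_zero_prod, hconst, hφC, Finset.card_univ, map_mul, map_pow, map_neg,
      map_one]
  have hunitPA : IsUnit (PA.coeff 0) := by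
    rw [hPA0]
    exact isUnit_C.mpr (IsUnit.mk0 _ (mul_ne_zero (pow_ne_zero _ (by simp)) hc))
  obtain ⟨nA, hnA⟩ := hdvd
  have hunit_m : IsUnit (mA.coeff 0) := by
    have h2 : PA.coeff 0 = mA.coeff 0 * nA.coeff 0 := by rw [hnA, mul_coeff_zero]
    rw [h2] at hunitPA
    exact isUnit_of_mul_isUnit_left hunitPA
  obtain ⟨u, hu, hmu⟩ := Polynomial.isUnit_iff.mp hunit_m
  have hu0 : u ≠ 0 := hu.ne_zero
  -- hence the product over `U` is a nonzero constant
  have hprodU : ∏ γ ∈ U, G γ = HahnSeries.C ((-1) ^ U.card * u) := by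
    have h1 : φ (mA.coeff 0) = (mA.map φ).coeff 0 := (coeff_map φ 0).symm
    rw [hmap, uf_coeff_zero_prod, ← hmu, hφC] at h1
    have h3 : ((-1 : LaurentSeries k) ^ U.card) * ((-1) ^ U.card * ∏ γ ∈ U, G γ) =
        ∏ γ ∈ U, G γ := by
      rw [← mul_assoc, ← pow_add, ← two_mul, pow_mul]
      simp
    rw [← h3, ← h1, map_mul, map_pow, map_neg, map_one]
  have hord : ∑ γ ∈ U, (G γ).order = 0 := by
    rw [← uf_order_prod G U fun γ _ => hGne γ, hprodU, HahnSeries.order_C]
  have hUuniv : U = Finset.univ := hU U heU hord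
  -- degrees
  have hdeg_m : mA.natDegree = Fintype.card Q := by
    have h1 : (mA.map φ).natDegree = mA.natDegree := natDegree_map_eq_of_injective hφ mA
    rw [← h1, hmap, hUuniv, natDegree_prod_of_monic _ _ fun γ _ => monic_X_sub_C (G γ)]
    simp
  have hmf : mA ∣ f := hmin f hroot
  calc Fintype.card Q = mA.natDegree := hdeg_m.symm
    _ ≤ f.natDegree := natDegree_le_of_dvd hmf hf

/-- **(U4)**: `J` of negative order, `∏ γ, (T - G γ) ∈ k[J][T]` with nonzero constant constant
term, and only the full index set containing `e` has order sum `0`: then every nonzero relation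
`f(J, G e) = 0` has `T`-degree at least `card Q`. -/
theorem uf_card_le_natDegree (e : Q) (J : LaurentSeries k) (hJ : J.order < 0)
    (G : Q → LaurentSeries k) (PA : (k[X])[X])
    (hPA : PA.map (ufEval J) = ∏ γ, (X - C (G γ)))
    (c : k) (hc : c ≠ 0) (hconst : ∏ γ, G γ = HahnSeries.C c)
    (hU : ∀ U : Finset Q, e ∈ U → ∑ γ ∈ U, (G γ).order = 0 → U = Finset.univ)
    (f : (k[X])[X]) (hf : f ≠ 0)
    (hroot : (f.map (ufEval J)).eval (G e) = 0) :
    Fintype.card Q ≤ f.natDegree :=
  uf_card_le_natDegree' e J (uf_eval_injective J hJ) G PA hPA c hc hconst hU f hf hroot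

end Laurent

end Fermat.Agent.S28x
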