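/-
S28 project (Igusa), UNITS ROUTE, row UC (owner helper96): the ring `O = ℤ[ζ_N, 1/N] ⊆ ℂ`,
a residue field of characteristic `ℓ ∤ N`, and the TRIANGULAR DESCENT
`p ∈ R[Y], p(J) ∈ S((X)) ⇒ p ∈ S[Y]` for `J = X^(-n)(1 + …)`, with its consequences for
factorisations `PA(J, T) = ∏_γ (T - G γ)` (descent from `ℂ` to `O`, reduction from `O` to `k`).
All names are prefixed `uro_`.
-/
import Mathlib
import Fermat.Prelude.Def_ModularCurve_LaurentCoeff
import Fermat.Prelude.Def_ModularCurve_X0ModL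
import Fermat.Agent.S28x.UnitsDefs

set_option autoImplicit false

namespace Fermat.Agent.S28x

open ModularCurve Polynomial

noncomputable section

/-! ## Part A: leading terms and the triangular descent -/

/-- `x` has "pole order exactly `a` with leading coefficient `1`". -/
def uro_Lead {R : Type*} [CommRing R] (a : ℕ) (x : LaurentSeries R) : Prop :=
  x.coeff (-(a : ℤ)) = 1 ∧ ∀ m : ℤ, m < -(a : ℤ) → x.coeff m = 0

theorem uro_Lead_one {R : Type*} [CommRing R] : uro_Lead 0 (1 : LaurentSeries R) := by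
  refine ⟨by simp, fun m hm => ?_⟩
  rw [HahnSeries.coeff_one, if_neg]
  simp at hm
  omega

theorem uro_coeff_mul_of_lt {R : Type*} [CommRing R] {a b : ℕ} {x y : LaurentSeries R}
    (hx : ∀ m : ℤ, m < -(a : ℤ) → x.coeff m = 0) (hy : ∀ m : ℤ, m < -(b : ℤ) → y.coeff m = 0)
    (m : ℤ) (hm : m < -((a + b : ℕ) : ℤ)) : (x * y).coeff m = 0 := by
  rw [HahnSeries.coeff_mul]
  apply Finset.sum_eq_zero
  rintro ⟨i, j⟩ hij
  rw [Finset.mem_antidiagonal] at hij
  obtain ⟨hi, hj, hsum⟩ := hij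
  simp only at hi hj hsum
  exfalso
  by_cases h1 : i < -(a : ℤ)
  · exact hi (hx i h1)
  · by_cases h2 : j < -(b : ℤ)
    · exact hj (hy j h2)
    · push_cast at hm; omega

theorem uro_coeff_mul_lead {R : Type*} [CommRing R] {a b : ℕ} {x y : LaurentSeries R}
    (hx : ∀ m : ℤ, m < -(a : ℤ) → x.coeff m = 0) (hy : ∀ m : ℤ, m < -(b : ℤ) → y.coeff m = 0) :
    (x * y).coeff (-((a + b : ℕ) : ℤ)) = x.coeff (-(a : ℤ)) * y.coeff (-(b : ℤ)) := by
  rw [HahnSeries.coeff_mul]
  rw [Finset.sum_eq_single (⟨-(a : ℤ), -(b : ℤ)⟩ : ℤ × ℤ)]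
  · rintro ⟨i, j⟩ hij hne
    rw [Finset.mem_antidiagonal] at hij
    obtain ⟨hi, hj, hsum⟩ := hij
    simp only at hi hj hsum
    exfalso
    by_cases h1 : i < -(a : ℤ)
    · exact hi (hx i h1)
    · by_cases h2 : j < -(b : ℤ)
      · exact hj (hy j h2)
      · apply hne
        push_cast at hsum
        ext <;> simp only <;> omega
  · intro hnot
    rw [Finset.mem_antidiagonal] at hnot
    simp only [HahnSeries.mem_support, ne_eq, not_and] at hnot
    by_cases h1 : x.coeff (-(a : ℤ)) = 0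
    · rw [h1, zero_mul]
    · by_cases h2 : y.coeff (-(b : ℤ)) = 0
      · rw [h2, mul_zero]
      · exact absurd (by push_cast; ring) (hnot h1 h2)

theorem uro_Lead_mul {R : Type*} [CommRing R] {a b : ℕ} {x y : LaurentSeries R}
    (hx : uro_Lead a x) (hy : uro_Lead b y) : uro_Lead (a + b) (x * y) := by
  constructor
  · rw [uro_coeff_mul_lead hx.2 hy.2, hx.1, hy.1, one_mul]
  · exact uro_coeff_mul_of_lt hx.2 hy.2

theorem uro_Lead_pow {R : Type*} [CommRing R] {a : ℕ} {x : LaurentSeries R}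
    (hx : uro_Lead a x) (i : ℕ) : uro_Lead (a * i) (x ^ i) := by
  induction i with
  | zero => simpa using uro_Lead_one
  | succ i ih =>
    rw [pow_succ, Nat.mul_succ]
    exact uro_Lead_mul ih hx

theorem uro_Lead_coeffMap {R S : Type*} [CommRing R] [CommRing S] (f : R →+* S) {a : ℕ}
    {x : LaurentSeries R} (hx : uro_Lead a x) : uro_Lead a (coeffMap f x) := by
  constructor
  · rw [coeffMap_coeff, hx.1, map_one]
  · intro m hm
    rw [coeffMap_coeff, hx.2 m hm, map_zero]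

theorem uro_algebraMap_eq {R : Type*} [CommRing R] (a : R) :
    (algebraMap R (LaurentSeries R)) a = HahnSeries.C a := by
  rw [HahnSeries.algebraMap_apply', PowerSeries.algebraMap_apply, Algebra.algebraMap_self_apply,
    HahnSeries.ofPowerSeries_C]

theorem uro_coeff_algebra_smul {R : Type*} [CommRing R] (a : R) (x : LaurentSeries R) (m : ℤ) :
    (@HSMul.hSMul R (LaurentSeries R) (LaurentSeries R)
      (@instHSMul R (LaurentSeries R) Algebra.toSMul) a x).coeff m = a * x.coeff m := by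
  rw [Algebra.smul_def, uro_algebraMap_eq, HahnSeries.C_mul_eq_smul, HahnSeries.coeff_smul,
    smul_eq_mul]

/-- The coefficient of `X^(-n d)` in `p(J)` is the coefficient of `Y^d` in `p`, when
`deg p ≤ d` and `J = X^(-n) (1 + …)`, `n > 0`. -/
theorem uro_coeff_aeval {R : Type*} [CommRing R] {n : ℕ} (hn : 0 < n) {J : LaurentSeries R}
    (hJ : uro_Lead n J) (d : ℕ) (p : R[X]) (hp : p.natDegree ≤ d) :
    (aeval J p).coeff (-((n * d : ℕ) : ℤ)) = p.coeff d := by
  rw [aeval_eq_sum_range' (Nat.lt_succ_of_le hp)]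
  rw [HahnSeries.coeff_sum]
  rw [Finset.sum_eq_single d]
  · rw [uro_coeff_algebra_smul, (uro_Lead_pow hJ d).1, mul_one]
  · intro i hi hne
    rw [uro_coeff_algebra_smul, (uro_Lead_pow hJ i).2, mul_zero]
    have : i < d := lt_of_le_of_ne (Nat.lt_succ_iff.mp (Finset.mem_range.mp hi)) hne
    have : n * i < n * d := Nat.mul_lt_mul_of_pos_left this hn
    push_cast
    have : ((n * i : ℕ) : ℤ) < ((n * d : ℕ) : ℤ) := by exact_mod_cast this
    push_cast at this
    omega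
  · intro h
    exact absurd (Finset.mem_range.mpr (Nat.lt_succ_self d)) h

theorem uro_coeffMap_C {R S : Type*} [CommRing R] [CommRing S] (f : R →+* S) (a : R) :
    coeffMap f (HahnSeries.C a) = HahnSeries.C (f a) := by
  rw [HahnSeries.C_apply, coeffMap_single, HahnSeries.C_apply]

theorem uro_coeff_top_mem {S R : Type*} [CommRing S] [CommRing R] (φ : S →+* R) {n : ℕ}
    (hn : 0 < n) {JS : LaurentSeries S} (hJ : uro_Lead n JS) (d : ℕ) (p : R[X])
    (hd : p.natDegree ≤ d) (hp : aeval (coeffMap φ JS) p ∈ (coeffMap φ).range) :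
    p.coeff d ∈ φ.range := by
  obtain ⟨y, hy⟩ := hp
  refine ⟨y.coeff (-((n * d : ℕ) : ℤ)), ?_⟩
  rw [← coeffMap_coeff, hy, uro_coeff_aeval hn (uro_Lead_coeffMap φ hJ) d p hd]

/-- **Triangular descent**: if `J = X^(-n)(1 + …)` (`n > 0`) has coefficients in (the image of)
`S` and `p(J)` has coefficients in `S`, then `p` has coefficients in `S`. -/
theorem uro_tri_descent {S R : Type*} [CommRing S] [CommRing R] (φ : S →+* R) {n : ℕ}
    (hn : 0 < n) {JS : LaurentSeries S} (hJ : uro_Lead n JS) (p : R[X])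
    (hp : aeval (coeffMap φ JS) p ∈ (coeffMap φ).range) : p ∈ (mapRingHom φ).range := by
  suffices h : ∀ (d : ℕ) (p : R[X]), p.natDegree ≤ d →
      aeval (coeffMap φ JS) p ∈ (coeffMap φ).range → p ∈ (mapRingHom φ).range from
    h p.natDegree p le_rfl hp
  intro d
  induction d with
  | zero =>
    intro p hd hp
    obtain ⟨b, hb⟩ := uro_coeff_top_mem φ hn hJ 0 p hd hp
    refine ⟨C b, ?_⟩
    rw [coe_mapRingHom, map_C, hb]
    exact (eq_C_of_natDegree_le_zero hd).symm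
  | succ d ih =>
    intro p hd hp
    obtain ⟨b, hb⟩ := uro_coeff_top_mem φ hn hJ (d + 1) p hd hp
    have hq : (p - C (φ b) * X ^ (d + 1)).natDegree ≤ d := by
      rw [natDegree_le_iff_coeff_eq_zero]
      intro N hN
      rw [coeff_sub, coeff_C_mul, coeff_X_pow]
      by_cases hN1 : N = d + 1
      · rw [if_pos hN1, mul_one, hN1, hb, sub_self]
      · rw [if_neg hN1, mul_zero, sub_zero]
        exact coeff_eq_zero_of_natDegree_lt (by omega)
    have hq2 : aeval (coeffMap φ JS) (p - C (φ b) * X ^ (d + 1)) ∈ (coeffMap φ).range := by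
      rw [map_sub]
      refine Subring.sub_mem _ hp ?_
      refine ⟨HahnSeries.C b * JS ^ (d + 1), ?_⟩
      rw [map_mul, map_pow, uro_coeffMap_C, map_mul, map_pow, aeval_X, aeval_C, uro_algebraMap_eq]
    obtain ⟨q', hq'⟩ := ih _ hq hq2
    refine ⟨q' + C b * X ^ (d + 1), ?_⟩
    rw [map_add, hq', coe_mapRingHom, Polynomial.map_mul, Polynomial.map_pow, map_C, map_X]
    ring

/-- Two-variable version of the triangular descent. -/
theorem uro_tri_descent₂ {S R : Type*} [CommRing S] [CommRing R] (φ : S →+* R) {n : ℕ}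
    (hn : 0 < n) {JS : LaurentSeries S} (hJ : uro_Lead n JS) (PA : Polynomial (Polynomial R))
    (hPA : PA.map (aeval (coeffMap φ JS)).toRingHom ∈ (mapRingHom (coeffMap φ)).range) :
    PA ∈ (mapRingHom (mapRingHom φ)).range := by
  rw [mem_map_range] at hPA ⊢
  intro i
  apply uro_tri_descent φ hn hJ
  have := hPA i
  rwa [coeff_map] at this

/-! ### Naturality of `p ↦ p(J)` in the coefficient ring -/

theorem uro_coeffMap_aeval {S R : Type*} [CommRing S] [CommRing R] (f : S →+* R)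
    (J : LaurentSeries S) (p : S[X]) :
    coeffMap f (aeval J p) = aeval (coeffMap f J) (p.map f) := by
  rw [aeval_def, aeval_def, hom_eval₂, eval₂_map]
  congr 1
  ext a
  simp only [RingHom.comp_apply, uro_algebraMap_eq, uro_coeffMap_C]

theorem uro_coeffMap_comp_aeval {S R : Type*} [CommRing S] [CommRing R] (f : S →+* R)
    (J : LaurentSeries S) :
    (coeffMap f).comp (aeval J).toRingHom =
      ((aeval (coeffMap f J)).toRingHom).comp (mapRingHom f) := by
  ext p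
  · simp only [RingHom.comp_apply, AlgHom.toRingHom_eq_coe, RingHom.coe_coe, coe_mapRingHom]
    rw [uro_coeffMap_aeval]
  · simp only [RingHom.comp_apply, AlgHom.toRingHom_eq_coe, RingHom.coe_coe, coe_mapRingHom]
    rw [uro_coeffMap_aeval]

theorem uro_map_map_aeval {S R : Type*} [CommRing S] [CommRing R] (f : S →+* R)
    (J : LaurentSeries S) (PS : Polynomial (Polynomial S)) :
    (PS.map (aeval J).toRingHom).map (coeffMap f) =
      (PS.map (mapRingHom f)).map (aeval (coeffMap f J)).toRingHom := by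
  rw [Polynomial.map_map, Polynomial.map_map, uro_coeffMap_comp_aeval]

theorem uro_coeffMap_injective {S R : Type*} [CommRing S] [CommRing R] (f : S →+* R)
    (hf : Function.Injective f) : Function.Injective (coeffMap f) := by
  intro x y h
  ext m
  apply hf
  rw [← coeffMap_coeff, ← coeffMap_coeff, h]

/-- Reduction of a factorisation `P(J, T) = ∏ (T - G γ)` along a ring hom `ψ`. -/
theorem uro_reduce_prod {S k : Type*} [CommRing S] [CommRing k] (ψ : S →+* k)
    (JS : LaurentSeries S) {ι : Type*} (s : Finset ι) (G : ι → LaurentSeries S)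
    (PS : Polynomial (Polynomial S))
    (h : PS.map (aeval JS).toRingHom = ∏ γ ∈ s, (X - C (G γ))) :
    (PS.map (mapRingHom ψ)).map (aeval (coeffMap ψ JS)).toRingHom =
      ∏ γ ∈ s, (X - C (coeffMap ψ (G γ))) := by
  rw [← uro_map_map_aeval, h, Polynomial.map_prod]
  refine Finset.prod_congr rfl fun γ _ => ?_
  rw [Polynomial.map_sub, map_X, map_C]

/-- **Descent of a factorisation**: if `PA ∈ R[Y][T]` satisfies `PA(J, T) = ∏ (T - G γ)` with
`J = X^(-n)(1+…)` and all `G γ` having coefficients in the subring `S` (via the injective `φ`), then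
`PA` comes from `PS ∈ S[Y][T]`, and the factorisation already holds over `S`. -/
theorem uro_descend_prod {S R : Type*} [CommRing S] [CommRing R] (φ : S →+* R)
    (hφ : Function.Injective φ) {n : ℕ} (hn : 0 < n) {JS : LaurentSeries S} (hJ : uro_Lead n JS)
    {ι : Type*} (s : Finset ι) (G : ι → LaurentSeries S) (PA : Polynomial (Polynomial R))
    (hPA : PA.map (aeval (coeffMap φ JS)).toRingHom = ∏ γ ∈ s, (X - C (coeffMap φ (G γ)))) :
    ∃ PS : Polynomial (Polynomial S), PS.map (mapRingHom φ) = PA ∧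
      PS.map (aeval JS).toRingHom = ∏ γ ∈ s, (X - C (G γ)) := by
  have hprod : (∏ γ ∈ s, (X - C (G γ)) : Polynomial (LaurentSeries S)).map (coeffMap φ) =
      ∏ γ ∈ s, (X - C (coeffMap φ (G γ))) := by
    rw [Polynomial.map_prod]
    refine Finset.prod_congr rfl fun γ _ => ?_
    rw [Polynomial.map_sub, map_X, map_C]
  obtain ⟨PS, hPS⟩ := uro_tri_descent₂ φ hn hJ PA (by
    rw [hPA, ← hprod]
    exact ⟨_, rfl⟩)
  rw [coe_mapRingHom] at hPS
  refine ⟨PS, hPS, ?_⟩
  apply Polynomial.map_injective (coeffMap φ) (uro_coeffMap_injective φ hφ)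
  rw [uro_map_map_aeval, hPS, hPA, hprod]

theorem uro_monic_of_map {S R : Type*} [CommRing S] [CommRing R] (φ : S →+* R)
    (hφ : Function.Injective φ) (PS : Polynomial (Polynomial S))
    (h : (PS.map (mapRingHom φ)).Monic) : PS.Monic :=
  monic_of_injective (Polynomial.map_injective φ hφ) h

theorem uro_natDegree_of_map {S R : Type*} [CommRing S] [CommRing R] (φ : S →+* R)
    (hφ : Function.Injective φ) (PS : Polynomial (Polynomial S)) :
    (PS.map (mapRingHom φ)).natDegree = PS.natDegree :=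
  natDegree_map_eq_of_injective (Polynomial.map_injective φ hφ) PS

/-! ## Part B: the ring `ℤ[ζ, 1/N]` and its residue fields -/

/-- Every element of `ℤ[ζ, 1/N] ⊆ ℂ` (`ζ` an algebraic integer) becomes an algebraic integer after
multiplication by a power of `N`. -/
theorem uro_exists_pow_mul_isIntegral (N : ℕ) (ζ : ℂ) (hζ : IsIntegral ℤ ζ)
    (hN : N ≠ 0) (x : ℂ) (hx : x ∈ Algebra.adjoin ℤ ({ζ, (N : ℂ)⁻¹} : Set ℂ)) :
    ∃ k : ℕ, IsIntegral ℤ ((N : ℂ) ^ k * x) := by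
  have hNC : (N : ℂ) ≠ 0 := by exact_mod_cast hN
  induction hx using Algebra.adjoin_induction with
  | mem x hx =>
    rcases hx with rfl | rfl
    · exact ⟨0, by simpa using hζ⟩
    · refine ⟨1, ?_⟩
      rw [pow_one, mul_inv_cancel₀ hNC]
      exact isIntegral_one
  | algebraMap r =>
    refine ⟨0, ?_⟩
    rw [pow_zero, one_mul]
    exact isIntegral_algebraMap
  | add x y _ _ hx hy =>
    obtain ⟨k1, h1⟩ := hx
    obtain ⟨k2, h2⟩ := hy
    refine ⟨k1 + k2, ?_⟩
    have hNi : IsIntegral ℤ (N : ℂ) := by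
      have := isIntegral_algebraMap (R := ℤ) (A := ℂ) (x := (N : ℤ))
      simpa using this
    have hN1 : IsIntegral ℤ ((N : ℂ) ^ k1) := hNi.pow k1
    have hN2 : IsIntegral ℤ ((N : ℂ) ^ k2) := hNi.pow k2
    have : (N : ℂ) ^ (k1 + k2) * (x + y) =
        (N : ℂ) ^ k2 * ((N : ℂ) ^ k1 * x) + (N : ℂ) ^ k1 * ((N : ℂ) ^ k2 * y) := by
      rw [pow_add]; ring
    rw [this]
    exact (hN2.mul h1).add (hN1.mul h2)
  | mul x y _ _ hx hy =>
    obtain ⟨k1, h1⟩ := hx
    obtain ⟨k2, h2⟩ := hy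
    refine ⟨k1 + k2, ?_⟩
    have : (N : ℂ) ^ (k1 + k2) * (x * y) = ((N : ℂ) ^ k1 * x) * ((N : ℂ) ^ k2 * y) := by
      rw [pow_add]; ring
    rw [this]
    exact h1.mul h2

/-- `1/ℓ ∉ ℤ[ζ, 1/N]` for a prime `ℓ ∤ N`. -/
theorem uro_inv_prime_not_mem (N l : ℕ) (ζ : ℂ) (hζ : IsIntegral ℤ ζ) (hN : N ≠ 0)
    (hl : l.Prime) (hlN : ¬ l ∣ N) : ((l : ℂ))⁻¹ ∉ Algebra.adjoin ℤ ({ζ, (N : ℂ)⁻¹} : Set ℂ) := by
  intro hmem
  obtain ⟨k, hk⟩ := uro_exists_pow_mul_isIntegral N ζ hζ hN _ hmem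
  have hq : (N : ℂ) ^ k * ((l : ℂ))⁻¹ = algebraMap ℚ ℂ ((N : ℚ) ^ k * ((l : ℚ))⁻¹) := by
    simp
  rw [hq, isIntegral_algebraMap_iff (algebraMap ℚ ℂ).injective] at hk
  obtain ⟨z, hz⟩ := IsIntegrallyClosed.isIntegral_iff.mp hk
  have hl0 : (l : ℚ) ≠ 0 := by exact_mod_cast hl.ne_zero
  have h1 : (z : ℚ) * l = (N : ℚ) ^ k := by
    have : (algebraMap ℤ ℚ z) = (z : ℚ) := rfl
    rw [this] at hz
    rw [hz]
    field_simp
  have h2 : z * (l : ℤ) = (N : ℤ) ^ k := by exact_mod_cast h1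
  have h3 : (l : ℤ) ∣ (N : ℤ) ^ k := ⟨z, by rw [← h2]; ring⟩
  have h4 : l ∣ N ^ k := by exact_mod_cast h3
  exact hlN (hl.dvd_of_dvd_pow h4)

/-- `ℓ` is not a unit of `ℤ[ζ, 1/N]` for a prime `ℓ ∤ N`. -/
theorem uro_not_isUnit_prime (N l : ℕ) (ζ : ℂ) (hζ : IsIntegral ℤ ζ) (hN : N ≠ 0)
    (hl : l.Prime) (hlN : ¬ l ∣ N) :
    ¬ IsUnit ((l : ℕ) : Algebra.adjoin ℤ ({ζ, (N : ℂ)⁻¹} : Set ℂ)) := by
  intro hu
  obtain ⟨u, hu⟩ := hu.exists_right_inv
  apply uro_inv_prime_not_mem N l ζ hζ hN hl hlN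
  have h1 : ((l : ℂ)) * (u : ℂ) = 1 := by
    have := congrArg (Subtype.val) hu
    simpa using this
  have hl0 : (l : ℂ) ≠ 0 := by exact_mod_cast hl.ne_zero
  have h2 : (u : ℂ) = ((l : ℂ))⁻¹ := by
    field_simp
    rw [mul_comm]; exact h1
  rw [← h2]
  exact u.2

/-- For `E ∣ N`, `E` is a unit of `ℤ[ζ, 1/N]`. -/
theorem uro_isUnit_of_dvd (N : ℕ) (ζ : ℂ) (hN : N ≠ 0) (E : ℕ) (hE : E ∣ N) :
    IsUnit ((E : ℕ) : Algebra.adjoin ℤ ({ζ, (N : ℂ)⁻¹} : Set ℂ)) := by
  obtain ⟨E', rfl⟩ := hE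
  have hNC : ((E * E' : ℕ) : ℂ) ≠ 0 := by exact_mod_cast hN
  have hmem : (((E * E' : ℕ) : ℂ))⁻¹ ∈ Algebra.adjoin ℤ ({ζ, ((E * E' : ℕ) : ℂ)⁻¹} : Set ℂ) :=
    Algebra.subset_adjoin (by simp)
  refine IsUnit.of_mul_eq_one ((E' : ℕ) * ⟨_, hmem⟩) ?_
  apply Subtype.ext
  push_cast
  push_cast at hNC
  field_simp
  exact div_self hNC

theorem uro_zeta_mem (N : ℕ) (ζ : ℂ) : ζ ∈ Algebra.adjoin ℤ ({ζ, (N : ℂ)⁻¹} : Set ℂ) :=
  Algebra.subset_adjoin (by simp)

/-- Characteristic of a residue field at a maximal ideal containing the prime `ℓ`. -/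
theorem uro_charP_quotient {O : Type*} [CommRing O] (I : Ideal O) [I.IsMaximal] (l : ℕ)
    (hl : l.Prime) (hmem : ((l : ℕ) : O) ∈ I) : CharP (O ⧸ I) l := by
  have h0 : ((l : ℕ) : O ⧸ I) = 0 := by
    have := Ideal.Quotient.eq_zero_iff_mem.mpr hmem
    simpa using this
  have : Nontrivial (O ⧸ I) := Ideal.Quotient.nontrivial_iff.mpr (Ideal.IsMaximal.ne_top ‹_›)
  obtain ⟨c, hc⟩ := CharP.exists (O ⧸ I)
  have hdvd : c ∣ l := (CharP.cast_eq_zero_iff (O ⧸ I) c l).mp h0
  rcases (Nat.dvd_prime hl).mp hdvd with h1 | h1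
  · exfalso
    subst h1
    exact CharP.char_ne_one (O ⧸ I) 1 rfl
  · rw [← h1]; exact hc

/-- **The residue field of `O = ℤ[ζ, 1/N]` at a prime above `ℓ ∤ N`.** -/
theorem uro_exists_maximal (N l : ℕ) (ζ : ℂ) (hζ : IsIntegral ℤ ζ) (hN : N ≠ 0)
    (hl : l.Prime) (hlN : ¬ l ∣ N) :
    ∃ I : Ideal (Algebra.adjoin ℤ ({ζ, (N : ℂ)⁻¹} : Set ℂ)), I.IsMaximal ∧
      ((l : ℕ) : Algebra.adjoin ℤ ({ζ, (N : ℂ)⁻¹} : Set ℂ)) ∈ I := by
  have hne : Ideal.span {((l : ℕ) : Algebra.adjoin ℤ ({ζ, (N : ℂ)⁻¹} : Set ℂ))} ≠ ⊤ := by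
    rw [Ne, Ideal.span_singleton_eq_top]
    exact uro_not_isUnit_prime N l ζ hζ hN hl hlN
  obtain ⟨I, hI, hle⟩ := Ideal.exists_le_maximal _ hne
  exact ⟨I, hI, hle (Ideal.subset_span rfl)⟩

/-- Packaged form: a field `k` of characteristic `ℓ` with a surjective ring hom `O → k`. -/
theorem uro_exists_residue_field (N l : ℕ) (ζ : ℂ) (hζ : IsIntegral ℤ ζ) (hN : N ≠ 0)
    (hl : l.Prime) (hlN : ¬ l ∣ N) :
    ∃ (k : Type) (_ : Field k) (_ : CharP k l)
      (ψ : Algebra.adjoin ℤ ({ζ, (N : ℂ)⁻¹} : Set ℂ) →+* k), Function.Surjective ψ := by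
  obtain ⟨I, hI, hmem⟩ := uro_exists_maximal N l ζ hζ hN hl hlN
  let _inst : Field (Algebra.adjoin ℤ ({ζ, (N : ℂ)⁻¹} : Set ℂ) ⧸ I) := Ideal.Quotient.field I
  exact ⟨_, inferInstance, uro_charP_quotient I l hl hmem, Ideal.Quotient.mk I,
    Ideal.Quotient.mk_surjective⟩

/-! ## Part C: `aeval` versus `ud_evalJ`; the leading term of `j(X^N)` -/

theorem uro_aeval_eq_evalJ {R : Type*} [CommRing R] (J : LaurentSeries R) (p : R[X]) :
    aeval J p = ud_evalJ J p := by
  rw [aeval_def, ud_evalJ, coe_eval₂RingHom]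
  congr 1
  refine RingHom.ext fun a => ?_
  exact uro_algebraMap_eq a

theorem uro_aeval_toRingHom_eq {R : Type*} [CommRing R] (J : LaurentSeries R) :
    (aeval J).toRingHom = ud_evalJ J := by
  refine RingHom.ext fun p => ?_
  exact uro_aeval_eq_evalJ J p

theorem uro_Lead_jqModC (R : Type*) [CommRing R] : uro_Lead 1 (jqModC R) := by
  have key : ∀ k : ℤ, (jqModC R).coeff k =
      (HahnSeries.ofPowerSeries ℤ R (jNum.map (Int.castRingHom R))).coeff (k + 1) := by
    intro k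
    have h := HahnSeries.coeff_single_mul_add (r := (1 : R))
      (x := HahnSeries.ofPowerSeries ℤ R (jNum.map (Int.castRingHom R))) (a := k + 1) (b := (-1 : ℤ))
    rw [one_mul] at h
    rw [← h, jqModC]
    congr 1
    ring
  constructor
  · rw [key]
    have : (-((1 : ℕ) : ℤ) + 1) = ((0 : ℕ) : ℤ) := by simp
    rw [this, HahnSeries.ofPowerSeries_apply_coeff, PowerSeries.coeff_map,
      PowerSeries.coeff_zero_eq_constantCoeff_apply, constantCoeff_jNum]
    simp
  · intro m hm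
    rw [key]
    apply ofPowerSeries_coeff_of_neg
    push_cast at hm
    omega

theorem uro_Lead_jqNModC (R : Type*) [CommRing R] (N : ℕ) [NeZero N] :
    uro_Lead N (jqNModC R N) := by
  constructor
  · have : (-(N : ℤ)) = (N : ℤ) * (-1) := by ring
    rw [jqNModC, this, qExpand_coeff_mul]
    exact (uro_Lead_jqModC R).1
  · intro m hm
    by_cases hdvd : (N : ℤ) ∣ m
    · obtain ⟨k, rfl⟩ := hdvd
      rw [jqNModC, qExpand_coeff_mul]
      apply (uro_Lead_jqModC R).2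
      have hN : (0 : ℤ) < N := by exact_mod_cast NeZero.pos N
      by_contra hk
      rw [not_lt] at hk
      have : (N : ℤ) * (-((1 : ℕ) : ℤ)) ≤ (N : ℤ) * k := mul_le_mul_of_nonneg_left hk hN.le
      push_cast at this
      linarith
    · exact qExpand_coeff_of_not_dvd N _ hdvd

/-! ## Part D: the same statements for `ud_evalJ` and `J = jqNModC` -/

/-- Descent of a factorisation, `ud_evalJ` form, general `J`. -/
theorem uro_descend_prod_evalJ {S R : Type*} [CommRing S] [CommRing R] (φ : S →+* R)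
    (hφ : Function.Injective φ) {n : ℕ} (hn : 0 < n) {JS : LaurentSeries S} (hJ : uro_Lead n JS)
    {ι : Type*} (s : Finset ι) (G : ι → LaurentSeries S) (PA : Polynomial (Polynomial R))
    (hPA : PA.map (ud_evalJ (coeffMap φ JS)) = ∏ γ ∈ s, (X - C (coeffMap φ (G γ)))) :
    ∃ PS : Polynomial (Polynomial S), PS.map (mapRingHom φ) = PA ∧
      PS.map (ud_evalJ JS) = ∏ γ ∈ s, (X - C (G γ)) := by
  rw [← uro_aeval_toRingHom_eq] at hPA
  obtain ⟨PS, h1, h2⟩ := uro_descend_prod φ hφ hn hJ s G PA hPA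
  rw [uro_aeval_toRingHom_eq] at h2
  exact ⟨PS, h1, h2⟩

/-- Reduction of a factorisation, `ud_evalJ` form, general `J`. -/
theorem uro_reduce_prod_evalJ {S k : Type*} [CommRing S] [CommRing k] (ψ : S →+* k)
    (JS : LaurentSeries S) {ι : Type*} (s : Finset ι) (G : ι → LaurentSeries S)
    (PS : Polynomial (Polynomial S))
    (h : PS.map (ud_evalJ JS) = ∏ γ ∈ s, (X - C (G γ))) :
    (PS.map (mapRingHom ψ)).map (ud_evalJ (coeffMap ψ JS)) =
      ∏ γ ∈ s, (X - C (coeffMap ψ (G γ))) := by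
  rw [← uro_aeval_toRingHom_eq] at h ⊢
  exact uro_reduce_prod ψ JS s G PS h

/-- **Descent for `J = j(X^N)`**: a polynomial `PA ∈ R[Y][T]` with
`PA(j(X^N), T) = ∏_γ (T - G γ)`, all `G γ` with coefficients in `S ⊆ R`, comes from `S[Y][T]`. -/
theorem uro_descend_prod_jqN {S R : Type*} [CommRing S] [CommRing R] (φ : S →+* R)
    (hφ : Function.Injective φ) (N : ℕ) [NeZero N]
    {ι : Type*} (s : Finset ι) (G : ι → LaurentSeries S) (PA : Polynomial (Polynomial R))
    (hPA : PA.map (ud_evalJ (jqNModC R N)) = ∏ γ ∈ s, (X - C (coeffMap φ (G γ)))) :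
    ∃ PS : Polynomial (Polynomial S), PS.map (mapRingHom φ) = PA ∧
      PS.map (ud_evalJ (jqNModC S N)) = ∏ γ ∈ s, (X - C (G γ)) := by
  rw [← coeffMap_jqNModC φ N] at hPA
  exact uro_descend_prod_evalJ φ hφ (NeZero.pos N) (uro_Lead_jqNModC S N) s G PA hPA

/-- **Reduction for `J = j(X^N)`**. -/
theorem uro_reduce_prod_jqN {S k : Type*} [CommRing S] [CommRing k] (ψ : S →+* k)
    (N : ℕ) [NeZero N] {ι : Type*} (s : Finset ι) (G : ι → LaurentSeries S)
    (PS : Polynomial (Polynomial S))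
    (h : PS.map (ud_evalJ (jqNModC S N)) = ∏ γ ∈ s, (X - C (G γ))) :
    (PS.map (mapRingHom ψ)).map (ud_evalJ (jqNModC k N)) =
      ∏ γ ∈ s, (X - C (coeffMap ψ (G γ))) := by
  rw [← coeffMap_jqNModC ψ N]
  exact uro_reduce_prod_evalJ ψ _ s G PS h

/-- the constant term descends. -/
theorem uro_coeff_zero_of_map {S R : Type*} [CommRing S] [CommRing R] (φ : S →+* R)
    (hφ : Function.Injective φ) (PS : Polynomial (Polynomial S)) (c : R)
    (h : (PS.map (mapRingHom φ)).coeff 0 = C c) :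
    ∃ c' : S, φ c' = c ∧ PS.coeff 0 = C c' := by
  rw [coeff_map, coe_mapRingHom] at h
  refine ⟨(PS.coeff 0).coeff 0, ?_, ?_⟩
  · have := congrArg (fun p => p.coeff 0) h
    simpa using this
  · ext i
    rcases Nat.eq_zero_or_pos i with rfl | hi
    · simp
    · apply hφ
      have := congrArg (fun p => p.coeff i) h
      simp only [coeff_map, coeff_C, hi.ne', if_false] at this
      rw [this, coeff_C, if_neg hi.ne', map_zero]

/-! ## Part E: the concrete ring `O_N = ℤ[ζ_N, 1/N]` -/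

theorem uro_zetaC_pow (N : ℕ) (hN : N ≠ 0) : ud_zetaC N ^ N = 1 := by
  have hNC : (N : ℂ) ≠ 0 := by exact_mod_cast hN
  rw [ud_zetaC, ← Complex.exp_nat_mul]
  have : (N : ℂ) * (2 * Real.pi * Complex.I / N) = 2 * Real.pi * Complex.I := by
    field_simp
  rw [this, Complex.exp_two_pi_mul_I]

theorem uro_isIntegral_zetaC (N : ℕ) (hN : N ≠ 0) : IsIntegral ℤ (ud_zetaC N) := by
  refine ⟨X ^ N - 1, monic_X_pow_sub_C 1 hN, ?_⟩
  simp [uro_zetaC_pow N hN]

/-- `O_N = ℤ[ζ_N, 1/N] ⊆ ℂ`. -/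
abbrev uro_O (N : ℕ) : Subalgebra ℤ ℂ := Algebra.adjoin ℤ ({ud_zetaC N, (N : ℂ)⁻¹} : Set ℂ)

/-- `ζ_N` as an element of `O_N`. -/
def uro_zetaO (N : ℕ) : uro_O N := ⟨ud_zetaC N, Algebra.subset_adjoin (by simp)⟩

/-- `1/N` as an element of `O_N`. -/
def uro_ninvO (N : ℕ) : uro_O N := ⟨(N : ℂ)⁻¹, Algebra.subset_adjoin (by simp)⟩

/-- the inclusion `O_N → ℂ` as a ring hom. -/
def uro_val (N : ℕ) : uro_O N →+* ℂ := (uro_O N).val.toRingHom

theorem uro_val_injective (N : ℕ) : Function.Injective (uro_val N) := Subtype.val_injective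

@[simp] theorem uro_val_zetaO (N : ℕ) : uro_val N (uro_zetaO N) = ud_zetaC N := rfl

@[simp] theorem uro_val_ninvO (N : ℕ) : uro_val N (uro_ninvO N) = (N : ℂ)⁻¹ := rfl

theorem uro_natCast_mul_ninvO (N : ℕ) (hN : N ≠ 0) : ((N : ℕ) : uro_O N) * uro_ninvO N = 1 := by
  apply uro_val_injective
  rw [map_mul, uro_val_ninvO, map_natCast, map_one]
  exact mul_inv_cancel₀ (by exact_mod_cast hN)

theorem uro_zetaO_pow (N : ℕ) (hN : N ≠ 0) : uro_zetaO N ^ N = 1 := by
  apply uro_val_injective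
  rw [map_pow, uro_val_zetaO, map_one, uro_zetaC_pow N hN]

/-- **UC main (ring part)**: for a prime `ℓ ∤ N` there is a field `k` of characteristic `ℓ` and a
surjective ring hom `O_N → k`. -/
theorem uro_exists_residue_field_O (N l : ℕ) (hN : N ≠ 0) (hl : l.Prime) (hlN : ¬ l ∣ N) :
    ∃ (k : Type) (_ : Field k) (_ : CharP k l) (ψ : uro_O N →+* k), Function.Surjective ψ :=
  uro_exists_residue_field N l (ud_zetaC N) (uro_isIntegral_zetaC N hN) hN hl hlN

/-- **UC main (descent part)** for `O_N ⊆ ℂ`. -/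
theorem uro_descend_prod_O (N : ℕ) [NeZero N] {ι : Type*} (s : Finset ι)
    (G : ι → LaurentSeries (uro_O N)) (PA : Polynomial (Polynomial ℂ))
    (hPA : PA.map (ud_evalJ (jqNModC ℂ N)) = ∏ γ ∈ s, (X - C (coeffMap (uro_val N) (G γ)))) :
    ∃ PO : Polynomial (Polynomial (uro_O N)), PO.map (mapRingHom (uro_val N)) = PA ∧
      PO.map (ud_evalJ (jqNModC (uro_O N) N)) = ∏ γ ∈ s, (X - C (G γ)) :=
  uro_descend_prod_jqN (uro_val N) (uro_val_injective N) N s G PA hPA

end

end Fermat.Agent.S28x
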