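/-
S28 (Igusa) project, units route, row UR (helper6):
  `ud_ANMain N → ud_ClsFacts N → ud_Reduced N ℓ`   (for `ℓ ∤ N`)
in HYPOTHESIS FORM `ur_reduced_of`: the ring data `O ⊆ ℂ`, `O → k` (UC, helper96), the formal facts
about `ud_Gr` (UB, helper86) and the natural-exponent Smith lemma (M7, helper55) are taken as
hypotheses in the shapes announced by their owners; the final wiring is a few lines once they land.
-/
import Fermat.Prelude.Thm_ModularCurve_coeff_jqModC_neg_one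
import Fermat.Prelude.Thm_ModularCurve_coeff_jqModC_pow_of_lt
import Fermat.Agent.S28x.UnitsDefs
import Fermat.Agent.S28x.UnitFactor
import Fermat.Agent.S28x.UnitsRingO

set_option autoImplicit false

namespace Fermat.Agent.S28x

open Polynomial ModularCurve Fermat.Agent.S24x

/-- the weight `Σ_d r_d ((N/d) gcd(d,c)² - N)` = the `X`-order of `ud_Gr … r γ` for `cls γ = c`. -/
def ur_w (N : ℕ) (r : ℕ → ℕ) (c : ℕ) : ℤ :=
  ∑ d ∈ N.divisors, (r d : ℤ) * (((N / d : ℕ) : ℤ) * (((Nat.gcd d c : ℕ) : ℤ)) ^ 2 - (N : ℤ))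

theorem ur_evalJ_eq' {k : Type*} [Field k] (J : LaurentSeries k) : ud_evalJ J = ufEval J := rfl

/-- constant coefficient (in `T`) of `∏ γ ∈ s, (T - G γ)` over a commutative ring. -/
theorem ur_coeff_zero_prod {R : Type*} [CommRing R] {ι : Type*} (s : Finset ι)
    (G : ι → LaurentSeries R) :
    (∏ γ ∈ s, (X - C (G γ)) : (LaurentSeries R)[X]).coeff 0 = (-1) ^ s.card * ∏ γ ∈ s, G γ := by
  rw [coeff_zero_eq_eval_zero, eval_prod]
  simp only [eval_sub, eval_X, eval_C, zero_sub]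
  rw [Finset.prod_neg]

theorem ur_neg_one_pow_mul_self {R : Type*} [CommRing R] (n : ℕ) (x : R) :
    (-1) ^ n * ((-1) ^ n * x) = x := by
  rw [← mul_assoc, ← pow_add, ← two_mul, pow_mul]
  simp

/-- from `P(J,T) = ∏ (T - G γ)` and `P(J,0) = c` (a constant): `∏ G γ = ± c`. -/
theorem ur_prod_eq_C {R : Type*} [CommRing R] {ι : Type*} (s : Finset ι)
    (G : ι → LaurentSeries R) (J : LaurentSeries R) (P : (R[X])[X]) (c : R)
    (hP : P.map (ud_evalJ J) = ∏ γ ∈ s, (X - C (G γ))) (hc : P.coeff 0 = C c) :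
    ∏ γ ∈ s, G γ = HahnSeries.C ((-1) ^ s.card * c) := by
  have h1 : ud_evalJ J (P.coeff 0) = (P.map (ud_evalJ J)).coeff 0 := (coeff_map _ 0).symm
  rw [hP, ur_coeff_zero_prod, hc] at h1
  have h2 : ud_evalJ J (C c) = HahnSeries.C c := by simp [ud_evalJ]
  rw [h2] at h1
  rw [map_mul, map_pow, map_neg, map_one, h1, ur_neg_one_pow_mul_self]

section Main

variable (N : ℕ) [NeZero N]

/-- **hbal** from AN-MAIN: the `X`-orders of the conjugates of `Δ(q^d)/Δ(q)` sum to zero. -/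
theorem ur_hbal
    (hord : ∀ (ζ ninv : ℂ), (N : ℂ) * ninv = 1 → ζ ^ N = 1 → ∀ (r : ℕ → ℕ) (γ : Q N),
      ud_Gr ℂ (ud_familyQ N) ζ ninv r γ ≠ 0 ∧
      (ud_Gr ℂ (ud_familyQ N) ζ ninv r γ).order = ur_w N r (ud_cls N γ))
    (hAN : ud_ANMain N) (d : ℕ) (hd : d ∈ N.divisors) :
    ∑ γ : Q N, (((N / d : ℕ) : ℤ) * (((Nat.gcd d (ud_cls N γ) : ℕ) : ℤ)) ^ 2 - (N : ℤ)) = 0 := by
  classical
  have hN0 : N ≠ 0 := NeZero.ne N
  have hNC : (N : ℂ) * (N : ℂ)⁻¹ = 1 := mul_inv_cancel₀ (by exact_mod_cast hN0)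
  set r : ℕ → ℕ := fun d' => if d' = d then 1 else 0 with hr
  obtain ⟨PA, c, -, -, hc0, hcoeff, hPA⟩ := hAN r
  have hprod := ur_prod_eq_C Finset.univ _ _ PA c hPA hcoeff
  have hO := hord (ud_zetaC N) ((N : ℂ)⁻¹) hNC (uro_zetaC_pow N hN0) r
  have h1 : (∏ γ : Q N, ud_Gr ℂ (ud_familyQ N) (ud_zetaC N) ((N : ℂ)⁻¹) r γ).order =
      ∑ γ : Q N, ur_w N r (ud_cls N γ) := by
    rw [uf_order_prod _ _ fun γ _ => (hO γ).1]
    exact Finset.sum_congr rfl fun γ _ => (hO γ).2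
  rw [hprod, HahnSeries.order_C] at h1
  rw [h1]
  refine Finset.sum_congr rfl fun γ _ => ?_
  rw [ur_w, Finset.sum_eq_single d]
  · simp [hr]
  · intro b _ hb
    simp [hr, hb]
  · intro h
    exact absurd hd h

/-- **UR in hypothesis form**: `ud_ANMain N → ud_ClsFacts N → ud_Reduced N ℓ` for `ℓ ∤ N`, given
the formal facts UB about `ud_Gr` and the natural-exponent Smith lemma. -/
theorem ur_reduced_of (ℓ : ℕ) [Fact ℓ.Prime] (hℓN : ¬ ℓ ∣ N)
    (hfunO : ∀ (R' : Type) [CommRing R'] (f : uro_O N →+* R') (r : ℕ → ℕ) (γ : Q N),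
      coeffMap f (ud_Gr (uro_O N) (ud_familyQ N) (uro_zetaO N) (uro_ninvO N) r γ) =
        ud_Gr R' (ud_familyQ N) (f (uro_zetaO N)) (f (uro_ninvO N)) r γ)
    (hord : ∀ (R : Type) [Field R] (ζ ninv : R), (N : R) * ninv = 1 → ζ ^ N = 1 →
      ∀ (r : ℕ → ℕ) (γ : Q N), ud_Gr R (ud_familyQ N) ζ ninv r γ ≠ 0 ∧
        (ud_Gr R (ud_familyQ N) ζ ninv r γ).order =
          ∑ d ∈ N.divisors, (r d : ℤ) *
            (((N / d : ℕ) : ℤ) * (((Nat.gcd d (ud_cls N γ) : ℕ) : ℤ)) ^ 2 - (N : ℤ)))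
    (hid : ∀ (R : Type) [Field R] (ζ ninv : R), (N : R) * ninv = 1 → ∀ (r : ℕ → ℕ) (γ : Q N),
      ud_cls N γ = N → ud_Gr R (ud_familyQ N) ζ ninv r γ = qExpand R N (ud_gr R N r))
    (hsmith : (∀ d ∈ N.divisors,
        ∑ γ : Q N, (((N / d : ℕ) : ℤ) * (((Nat.gcd d (ud_cls N γ) : ℕ) : ℤ)) ^ 2 - (N : ℤ)) = 0) →
      ∃ r : ℕ → ℕ, ∀ U : Finset (Q N), ud_e N ∈ U →
        ∑ γ ∈ U, ∑ d ∈ N.divisors, (r d : ℤ) *
          (((N / d : ℕ) : ℤ) * (((Nat.gcd d (ud_cls N γ) : ℕ) : ℤ)) ^ 2 - (N : ℤ)) = 0 →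
        U = Finset.univ)
    (hAN : ud_ANMain N) (hcls : ud_ClsFacts N) : ud_Reduced N ℓ := by
  classical
  have hN0 : N ≠ 0 := NeZero.ne N
  have hℓ : ℓ.Prime := Fact.out
  -- the exponent vector
  obtain ⟨r, hr⟩ := hsmith (ur_hbal N (fun ζ ninv h1 h2 r γ => hord ℂ ζ ninv h1 h2 r γ) hAN)
  -- the residue field
  obtain ⟨k, hkF, hkC, ψ, -⟩ := uro_exists_residue_field_O N ℓ hN0 hℓ hℓN
  let _ : Field k := hkF
  have : CharP k ℓ := hkC
  let _ : Algebra (ZMod ℓ) k := ZMod.algebra k ℓ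
  -- AN-MAIN for `r`, descended to `O`
  obtain ⟨PA, c, -, -, hc0, hcoeff, hPA⟩ := hAN r
  set GO : Q N → LaurentSeries (uro_O N) :=
    fun γ => ud_Gr (uro_O N) (ud_familyQ N) (uro_zetaO N) (uro_ninvO N) r γ with hGO
  have hGOC : ∀ γ, coeffMap (uro_val N) (GO γ) =
      ud_Gr ℂ (ud_familyQ N) (ud_zetaC N) ((N : ℂ)⁻¹) r γ := by
    intro γ
    rw [hGO, hfunO ℂ (uro_val N) r γ, uro_val_zetaO, uro_val_ninvO]
  have hPA' : PA.map (ud_evalJ (jqNModC ℂ N)) =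
      ∏ γ ∈ (Finset.univ : Finset (Q N)), (X - C (coeffMap (uro_val N) (GO γ))) := by
    rw [hPA]
    exact Finset.prod_congr rfl fun γ _ => by rw [hGOC γ]
  obtain ⟨PO, hPO1, hPO2⟩ := uro_descend_prod_O N Finset.univ GO PA hPA'
  obtain ⟨cO, hcO1, hcO2⟩ := uro_coeff_zero_of_map (uro_val N) (uro_val_injective N) PO c
    (by rw [hPO1]; exact hcoeff)
  -- reduction to `k`
  set G : Q N → LaurentSeries k :=
    fun γ => ud_Gr k (ud_familyQ N) (ψ (uro_zetaO N)) (ψ (uro_ninvO N)) r γ with hG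
  have hGk : ∀ γ, coeffMap ψ (GO γ) = G γ := fun γ => hfunO k ψ r γ
  have hPk : (PO.map (mapRingHom ψ)).map (ud_evalJ (jqNModC k N)) =
      ∏ γ : Q N, (X - C (G γ)) := by
    rw [uro_reduce_prod_jqN ψ N Finset.univ GO PO hPO2]
    exact Finset.prod_congr rfl fun γ _ => by rw [hGk γ]
  have hk1 : (N : k) * ψ (uro_ninvO N) = 1 := by
    rw [← map_natCast ψ, ← map_mul, uro_natCast_mul_ninvO N hN0, map_one]
  have hk2 : ψ (uro_zetaO N) ^ N = 1 := by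
    rw [← map_pow, uro_zetaO_pow N hN0, map_one]
  have hordk := hord k (ψ (uro_zetaO N)) (ψ (uro_ninvO N)) hk1 hk2 r
  -- the constant term
  have hprodO : ∏ γ : Q N, GO γ = HahnSeries.C ((-1) ^ (Finset.univ : Finset (Q N)).card * cO) :=
    ur_prod_eq_C Finset.univ GO _ PO cO hPO2 hcO2
  have hprodk : ∏ γ : Q N, G γ =
      HahnSeries.C (ψ ((-1) ^ (Finset.univ : Finset (Q N)).card * cO)) := by
    have h1 := congrArg (coeffMap ψ) hprodO
    rw [map_prod, uro_coeffMap_C] at h1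
    rw [← h1]
    exact Finset.prod_congr rfl fun γ _ => (hGk γ).symm
  have hck : ψ ((-1) ^ (Finset.univ : Finset (Q N)).card * cO) ≠ 0 := by
    intro h0
    rw [h0, map_zero] at hprodk
    exact (Finset.prod_ne_zero_iff.mpr fun γ _ => (hordk γ).1) hprodk
  refine ⟨r, k, hkF, ZMod.algebra k ℓ, G, PO.map (mapRingHom ψ), _, hPk, hck, hprodk, ?_, ?_⟩
  · intro U hU hsum
    apply hr U hU
    rw [← hsum]
    exact Finset.sum_congr rfl fun γ _ => ((hordk γ).2).symm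
  · exact hid k _ _ hk1 r (ud_e N) ((hcls (ud_e N)).mpr rfl)

end Main

end Fermat.Agent.S28x
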