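/-
S28 (Igusa) project, units route, row UR (helper6), FINAL WIRING:
  `ur_reduced : ¬ ℓ ∣ N → ud_ANMain N → ud_ClsFacts N → ud_Reduced N ℓ`
= `ur_reduced_of` (S28x/UnitReduce.lean) fed with helper86's `UnitsFormal` (UB) and helper55's
`SmithNat` (natural-exponent Smith lemma).
-/
import Fermat.Agent.S28x.UnitReduce
import Fermat.Agent.S28x.UnitsFormal
import Fermat.Agent.S28x.SmithNat

set_option autoImplicit false

namespace Fermat.Agent.S28x

open Polynomial ModularCurve Fermat.Agent.S24x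

/-- **UR**: the reduced form of the units route from AN-MAIN and the index facts. -/
theorem ur_reduced (N : ℕ) [NeZero N] (ℓ : ℕ) [Fact ℓ.Prime] (hℓN : ¬ ℓ ∣ N)
    (hAN : ud_ANMain N) (hcls : ud_ClsFacts N) : ud_Reduced N ℓ :=
  ur_reduced_of N ℓ hℓN
    (fun _ _ f r γ => ub_coeffMap_Gr (ud_familyQ N) f _ _ r γ)
    (fun _ _ ζ ninv h1 h2 r γ =>
      ⟨ub_Gr_ne_zero (ud_familyQ N) ζ ninv h1 h2 r γ,
        ub_Gr_order (ud_familyQ N) ζ ninv h1 h2 r γ⟩)
    (fun _ _ ζ ninv h1 r _ hγ => ub_Gr_of_cls_eq (ud_familyQ N) ζ ninv h1 r hγ)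
    (fun hbal => by
      classical
      exact sm_generic_ord_nat N (NeZero.ne N) (ud_cls N)
        (fun x => (ud_familyQ N).cls_dvd x) (ud_e N) hcls hbal)
    hAN hcls

end Fermat.Agent.S28x
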