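/-
S28 project (Igusa), units route, FINAL ASSEMBLY part 1 (helper94, prefix `ufin_`).

From the hypotheses of `uf_card_le_natDegree` over a field `k ⊇ k₀` in the variable `X = q^(1/n)`,
deduce that `1, g₀, …, g₀^(m-1)` (`m = card Q`) are linearly independent over `k₀(j₀) ⊆ k₀((q))`,
where `G e = θ g₀`, `θ = (q ↦ X^n) ∘ (coefficients k₀ → k)`.
-/
import Mathlib
import Fermat.Prelude.Def_ModularCurve_LaurentCoeff
import Fermat.Prelude.Def_ModularCurve_X0
import Fermat.Agent.S28x.UnitFactor

set_option autoImplicit false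

noncomputable section

namespace Fermat.Agent.S28x

open Polynomial ModularCurve IntermediateField

section

variable {k₀ k : Type*} [Field k₀] [Field k] [Algebra k₀ k] (n : ℕ) [NeZero n]

/-- `θ : k₀((q)) → k((X))`, `q ↦ X^n`, coefficients through `k₀ → k`. -/
def ufin_theta : LaurentSeries k₀ →+* LaurentSeries k :=
  (qExpand k n).comp (coeffMap (algebraMap k₀ k))

theorem ufin_theta_C (a : k₀) :
    ufin_theta (k := k) n (HahnSeries.C a) = HahnSeries.C (algebraMap k₀ k a) := by
  unfold ufin_theta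
  rw [RingHom.comp_apply]
  have h1 : coeffMap (algebraMap k₀ k) (HahnSeries.C a) = HahnSeries.C (algebraMap k₀ k a) := by
    rw [HahnSeries.C_apply, coeffMap_single, HahnSeries.C_apply]
  rw [h1, qExpand_C]

theorem ufin_theta_injective : Function.Injective (ufin_theta (k₀ := k₀) (k := k) n) :=
  (ufin_theta (k₀ := k₀) (k := k) n).injective

/-- `θ ∘ (Y ↦ j₀) = (Y ↦ θ j₀) ∘ (coefficients k₀ → k)` on `k₀[Y]`. -/
theorem ufin_theta_ufEval (j₀ : LaurentSeries k₀) (p : k₀[X]) :
    ufin_theta (k := k) n (ufEval j₀ p) =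
      ufEval (ufin_theta (k := k) n j₀) (p.map (algebraMap k₀ k)) := by
  have h : (ufin_theta (k := k) n).comp (ufEval j₀) =
      (ufEval (ufin_theta (k := k) n j₀)).comp (mapRingHom (algebraMap k₀ k)) := by
    apply Polynomial.ringHom_ext
    · intro a
      simp only [RingHom.comp_apply, ufEval_C, coe_mapRingHom, map_C, ufin_theta_C]
    · simp only [RingHom.comp_apply, ufEval_X, coe_mapRingHom, map_X]
  exact congrArg (fun φ : k₀[X] →+* LaurentSeries k => φ p) h

/-- two-variable version: `θ (f(j₀, g₀)) = f'(θ j₀, θ g₀)`. -/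
theorem ufin_theta_eval₂ (j₀ g₀ : LaurentSeries k₀) (f : (k₀[X])[X]) :
    ufin_theta (k := k) n ((f.map (ufEval j₀)).eval g₀) =
      ((f.map (mapRingHom (algebraMap k₀ k))).map (ufEval (ufin_theta (k := k) n j₀))).eval
        (ufin_theta (k := k) n g₀) := by
  rw [Polynomial.map_map, eval_map, eval_map, Polynomial.hom_eval₂]
  congr 1
  refine RingHom.ext fun p => ?_
  simp only [RingHom.comp_apply, coe_mapRingHom]
  exact ufin_theta_ufEval n j₀ p

variable {Q : Type*} [Fintype Q] [DecidableEq Q]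

/-- **division-free degree bound over `k₀`**: every nonzero `f ∈ k₀[Y][T]` with `f(j₀, g₀) = 0`
has `T`-degree `≥ card Q`. -/
theorem ufin_card_le_natDegree (e : Q) (j₀ g₀ : LaurentSeries k₀)
    (hJ : (ufin_theta (k := k) n j₀).order < 0)
    (G : Q → LaurentSeries k) (PA : (k[X])[X])
    (hPA : PA.map (ufEval (ufin_theta (k := k) n j₀)) = ∏ γ, (X - C (G γ)))
    (c : k) (hc : c ≠ 0) (hconst : ∏ γ, G γ = HahnSeries.C c)
    (hU : ∀ U : Finset Q, e ∈ U → ∑ γ ∈ U, (G γ).order = 0 → U = Finset.univ)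
    (hGe : G e = ufin_theta (k := k) n g₀)
    (f : (k₀[X])[X]) (hf : f ≠ 0) (hroot : (f.map (ufEval j₀)).eval g₀ = 0) :
    Fintype.card Q ≤ f.natDegree := by
  have hinj : Function.Injective (mapRingHom (algebraMap k₀ k)) :=
    Polynomial.map_injective _ (algebraMap k₀ k).injective
  have hf' : f.map (mapRingHom (algebraMap k₀ k)) ≠ 0 :=
    (Polynomial.map_ne_zero_iff hinj).mpr hf
  have hroot' : ((f.map (mapRingHom (algebraMap k₀ k))).map
      (ufEval (ufin_theta (k := k) n j₀))).eval (G e) = 0 := by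
    rw [hGe, ← ufin_theta_eval₂, hroot, map_zero]
  have := uf_card_le_natDegree e (ufin_theta (k := k) n j₀) hJ G PA hPA c hc hconst hU _ hf' hroot'
  rwa [Polynomial.natDegree_map_eq_of_injective hinj] at this

/-- `aeval j₀ = ufEval j₀` for the algebra instance used by `IntermediateField.adjoin`. -/
theorem ufin_aeval_eq (j₀ : LaurentSeries k₀) (p : k₀[X]) : aeval j₀ p = ufEval j₀ p := by
  rw [ufEval, coe_eval₂RingHom, aeval_def]
  congr 1
  ext a m
  simp [HahnSeries.algebraMap_apply']

/-- **linear independence of the powers of `g₀` over `k₀(j₀)`**. -/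
theorem ufin_linearIndependent (e : Q) (j₀ g₀ : LaurentSeries k₀)
    (hJ : (ufin_theta (k := k) n j₀).order < 0)
    (G : Q → LaurentSeries k) (PA : (k[X])[X])
    (hPA : PA.map (ufEval (ufin_theta (k := k) n j₀)) = ∏ γ, (X - C (G γ)))
    (c : k) (hc : c ≠ 0) (hconst : ∏ γ, G γ = HahnSeries.C c)
    (hU : ∀ U : Finset Q, e ∈ U → ∑ γ ∈ U, (G γ).order = 0 → U = Finset.univ)
    (hGe : G e = ufin_theta (k := k) n g₀) :
    LinearIndependent ↥(IntermediateField.adjoin k₀ {j₀})
      (fun i : Fin (Fintype.card Q) => g₀ ^ (i : ℕ)) := by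
  classical
  rw [Fintype.linearIndependent_iff]
  intro a ha
  -- write `a i = r i (j₀) / s i (j₀)` with `s i (j₀) ≠ 0`
  have hrs : ∀ i, ∃ r s : k₀[X], ufEval j₀ s ≠ 0 ∧
      ((a i : IntermediateField.adjoin k₀ {j₀}) : LaurentSeries k₀) = ufEval j₀ r / ufEval j₀ s := by
    intro i
    obtain ⟨r, s, h⟩ := (IntermediateField.mem_adjoin_simple_iff k₀ _).mp (a i).2
    rw [ufin_aeval_eq, ufin_aeval_eq] at h
    by_cases hs : ufEval j₀ s = 0
    · refine ⟨0, 1, by simp, ?_⟩
      rw [h, hs, div_zero, map_zero, zero_div]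
    · exact ⟨r, s, hs, h⟩
  choose r s hs hrs using hrs
  -- common denominator
  set S : k₀[X] := ∏ i, s i with hS
  have hS0 : ufEval j₀ S ≠ 0 := by
    rw [hS, map_prod]
    exact Finset.prod_ne_zero_iff.mpr fun i _ => hs i
  set cf : Fin (Fintype.card Q) → k₀[X] := fun i => r i * ∏ l ∈ Finset.univ.erase i, s l with hcf
  have hcf_eval : ∀ i, ufEval j₀ (cf i) =
      ((a i : IntermediateField.adjoin k₀ {j₀}) : LaurentSeries k₀) * ufEval j₀ S := by
    intro i
    rw [hcf, hS, map_mul, hrs i, ← Finset.mul_prod_erase Finset.univ s (Finset.mem_univ i), map_mul]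
    field_simp [hs i]
  set f : (k₀[X])[X] := ∑ i : Fin (Fintype.card Q), C (cf i) * X ^ (i : ℕ) with hf
  have hfroot : (f.map (ufEval j₀)).eval g₀ = 0 := by
    rw [hf, Polynomial.map_sum, eval_finsetSum]
    have : ∀ i : Fin (Fintype.card Q),
        ((C (cf i) * X ^ (i : ℕ) : (k₀[X])[X]).map (ufEval j₀)).eval g₀ =
          ufEval j₀ S * (a i • g₀ ^ (i : ℕ)) := by
      intro i
      rw [Polynomial.map_mul, Polynomial.map_pow, map_C, map_X, eval_mul, eval_C, eval_pow, eval_X,
        hcf_eval i, IntermediateField.smul_def, smul_eq_mul]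
      ring
    rw [Finset.sum_congr rfl fun i _ => this i, ← Finset.mul_sum, ha, mul_zero]
  have hfdeg : f.natDegree < Fintype.card Q ∨ f = 0 := by
    by_cases hf0 : f = 0
    · exact Or.inr hf0
    · left
      rw [hf]
      have hle : (∑ i : Fin (Fintype.card Q), C (cf i) * X ^ (i : ℕ) : (k₀[X])[X]).natDegree ≤
          Fintype.card Q - 1 := by
        apply Polynomial.natDegree_sum_le_of_forall_le
        intro i _
        refine (natDegree_C_mul_X_pow_le _ _).trans ?_
        have := i.2
        omega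
      have hpos : 0 < Fintype.card Q := Fintype.card_pos_iff.mpr ⟨e⟩
      omega
  have hf0 : f = 0 := by
    rcases hfdeg with hlt | h0
    · by_contra hne
      have := ufin_card_le_natDegree n e j₀ g₀ hJ G PA hPA c hc hconst hU hGe f hne hfroot
      omega
    · exact h0
  -- all coefficients vanish
  intro i
  have hci : cf i = 0 := by
    have := congrArg (fun p : (k₀[X])[X] => p.coeff (i : ℕ)) hf0
    simp only [hf, finsetSum_coeff, coeff_C_mul, coeff_X_pow, coeff_zero] at this
    rw [Finset.sum_eq_single i] at this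
    · simpa using this
    · intro b _ hb
      have : (i : ℕ) ≠ (b : ℕ) := fun h => hb (Fin.ext h.symm)
      simp [this]
    · intro h; exact absurd (Finset.mem_univ i) h
  have : ((a i : IntermediateField.adjoin k₀ {j₀}) : LaurentSeries k₀) = 0 := by
    have h1 := hcf_eval i
    rw [hci, map_zero] at h1
    exact (mul_eq_zero.mp h1.symm).resolve_right hS0
  exact_mod_cast this

end

end Fermat.Agent.S28x
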