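/-
S28 units route, module UB (helper86): the UB deliverables in the EXACT hypothesis shapes consumed by
helper6's `ur_reduced_of` (`UnitReduce.lean`): `[UB-a] hfunO`, `[UB-b] hord`, `[UB-c] hid`
for the concrete Hermite family `ud_familyQ N` on `Q N`.
-/
import Fermat.Agent.S28x.UnitsFormal
import Fermat.Agent.S28x.UnitsRingO

set_option autoImplicit false

namespace Fermat.Agent.S28x

open ModularCurve Fermat.Agent.S24x

noncomputable section

/-- `[UB-a]`: functoriality of the conjugates under any ring hom out of `O_N`. -/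
theorem ub_hfunO (N : ℕ) [NeZero N] :
    ∀ (R' : Type) [CommRing R'] (f : uro_O N →+* R') (r : ℕ → ℕ) (γ : Q N),
      coeffMap f (ud_Gr (uro_O N) (ud_familyQ N) (uro_zetaO N) (uro_ninvO N) r γ) =
        ud_Gr R' (ud_familyQ N) (f (uro_zetaO N)) (f (uro_ninvO N)) r γ :=
  fun _ _ f r γ => ub_coeffMap_Gr (ud_familyQ N) f (uro_zetaO N) (uro_ninvO N) r γ

/-- general functoriality for the concrete family (any source ring). -/
theorem ub_hfun (N : ℕ) [NeZero N] {R R' : Type*} [CommRing R] [CommRing R'] (f : R →+* R')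
    (ζ ninv : R) (r : ℕ → ℕ) (γ : Q N) :
    coeffMap f (ud_Gr R (ud_familyQ N) ζ ninv r γ) =
      ud_Gr R' (ud_familyQ N) (f ζ) (f ninv) r γ :=
  ub_coeffMap_Gr (ud_familyQ N) f ζ ninv r γ

/-- `[UB-b]`: non-vanishing and the order formula over any field. -/
theorem ub_hord (N : ℕ) [NeZero N] :
    ∀ (R : Type) [Field R] (ζ ninv : R), (N : R) * ninv = 1 → ζ ^ N = 1 →
      ∀ (r : ℕ → ℕ) (γ : Q N), ud_Gr R (ud_familyQ N) ζ ninv r γ ≠ 0 ∧
        (ud_Gr R (ud_familyQ N) ζ ninv r γ).order =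
          ∑ d ∈ N.divisors, (r d : ℤ) *
            (((N / d : ℕ) : ℤ) * (((Nat.gcd d (ud_cls N γ) : ℕ) : ℤ)) ^ 2 - (N : ℤ)) :=
  fun _ _ ζ ninv hN hζ r γ =>
    ⟨ub_Gr_ne_zero (ud_familyQ N) ζ ninv hN hζ r γ, ub_Gr_order (ud_familyQ N) ζ ninv hN hζ r γ⟩

/-- the same over any nontrivial commutative ring (e.g. over `O_N` itself). -/
theorem ub_hord_ring (N : ℕ) [NeZero N] {R : Type*} [CommRing R] [Nontrivial R] (ζ ninv : R)
    (hN : (N : R) * ninv = 1) (hζ : ζ ^ N = 1) (r : ℕ → ℕ) (γ : Q N) :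
    ud_Gr R (ud_familyQ N) ζ ninv r γ ≠ 0 ∧
      (ud_Gr R (ud_familyQ N) ζ ninv r γ).order =
        ∑ d ∈ N.divisors, (r d : ℤ) *
          (((N / d : ℕ) : ℤ) * (((Nat.gcd d (ud_cls N γ) : ℕ) : ℤ)) ^ 2 - (N : ℤ)) :=
  ⟨ub_Gr_ne_zero (ud_familyQ N) ζ ninv hN hζ r γ, ub_Gr_order (ud_familyQ N) ζ ninv hN hζ r γ⟩

/-- `[UB-c]`: the conjugate at a coset of class `N` is `g^r(X^N)`. -/
theorem ub_hid (N : ℕ) [NeZero N] :
    ∀ (R : Type) [Field R] (ζ ninv : R), (N : R) * ninv = 1 → ∀ (r : ℕ → ℕ) (γ : Q N),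
      ud_cls N γ = N → ud_Gr R (ud_familyQ N) ζ ninv r γ = qExpand R N (ud_gr R N r) :=
  fun _ _ ζ ninv hN r _ hγ => ub_Gr_of_cls_eq (ud_familyQ N) ζ ninv hN r hγ

/-- the leading coefficient of every conjugate over `O_N` is a unit of `O_N`. -/
theorem ub_GrLead_isUnit_O (N : ℕ) [NeZero N] (r : ℕ → ℕ) (γ : Q N) :
    IsUnit (ub_GrLead (ud_familyQ N) (uro_zetaO N) (uro_ninvO N) r γ) :=
  ub_GrLead_isUnit (ud_familyQ N) (uro_zetaO N) (uro_ninvO N)
    (uro_natCast_mul_ninvO N (NeZero.ne N)) (uro_zetaO_pow N (NeZero.ne N)) r γ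

/-- over `ℂ`, the conjugates are the images of the conjugates over `O_N`. -/
theorem ub_Gr_complex_eq (N : ℕ) [NeZero N] (r : ℕ → ℕ) (γ : Q N) :
    ud_Gr ℂ (ud_familyQ N) (ud_zetaC N) ((N : ℂ)⁻¹) r γ =
      coeffMap (uro_val N)
        (ud_Gr (uro_O N) (ud_familyQ N) (uro_zetaO N) (uro_ninvO N) r γ) := by
  rw [ub_coeffMap_Gr, uro_val_zetaO, uro_val_ninvO]

end

end Fermat.Agent.S28x
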