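/-
S28 units route, module UB (helper86): generic "leading term" calculus for Laurent series over an
arbitrary commutative ring.  `ub_IsLead f n c` means `f = c X^n + (higher order terms)`.
Mathlib + Prelude (`qExpand`, `coeffMap`) only.
-/
import Mathlib
import Fermat.Prelude.Def_ModularCurve_X0
import Fermat.Prelude.Def_ModularCurve_LaurentCoeff

set_option autoImplicit false

namespace Fermat.Agent.S28x

open ModularCurve

noncomputable section

variable {R : Type*} [CommRing R]

/-- `f = c X^n + higher order terms`, in the normal form `f = X^n * F(X)` with `F(0) = c`. -/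
def ub_IsLead (f : LaurentSeries R) (n : ℤ) (c : R) : Prop :=
  ∃ F : PowerSeries R, PowerSeries.constantCoeff F = c ∧
    f = HahnSeries.single n (1 : R) * HahnSeries.ofPowerSeries ℤ R F

theorem ub_ofPowerSeries_coeff_of_neg (F : PowerSeries R) {k : ℤ} (hk : k < 0) :
    (HahnSeries.ofPowerSeries ℤ R F).coeff k = 0 :=
  ModularCurve.ofPowerSeries_coeff_of_neg F hk

theorem ub_ofPowerSeries_coeff_natCast (F : PowerSeries R) (m : ℕ) :
    (HahnSeries.ofPowerSeries ℤ R F).coeff (m : ℤ) = PowerSeries.coeff m F :=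
  HahnSeries.ofPowerSeries_apply_coeff F m

theorem ub_coeff_single_one_mul (n k : ℤ) (g : LaurentSeries R) :
    (HahnSeries.single n (1 : R) * g).coeff k = g.coeff (k - n) := by
  rw [HahnSeries.coeff_single_mul, one_mul]

/-- coefficient characterisation of `ub_IsLead` -/
theorem ub_isLead_iff_coeff {f : LaurentSeries R} {n : ℤ} {c : R} :
    ub_IsLead f n c ↔ f.coeff n = c ∧ ∀ k : ℤ, k < n → f.coeff k = 0 := by
  constructor
  · rintro ⟨F, hF, rfl⟩
    refine ⟨?_, ?_⟩
    · rw [ub_coeff_single_one_mul, sub_self, show (0 : ℤ) = ((0 : ℕ) : ℤ) from rfl,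
        ub_ofPowerSeries_coeff_natCast, PowerSeries.coeff_zero_eq_constantCoeff, hF]
    · intro k hk
      rw [ub_coeff_single_one_mul]
      exact ub_ofPowerSeries_coeff_of_neg F (by omega)
  · rintro ⟨hc, hlt⟩
    refine ⟨PowerSeries.mk fun m => f.coeff (n + m), ?_, ?_⟩
    · rw [← PowerSeries.coeff_zero_eq_constantCoeff, PowerSeries.coeff_mk]
      simpa using hc
    · ext k
      rw [ub_coeff_single_one_mul]
      rcases lt_or_ge k n with h | h
      · rw [hlt k h, ub_ofPowerSeries_coeff_of_neg _ (by omega)]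
      · obtain ⟨m, hm⟩ := Int.eq_ofNat_of_zero_le (sub_nonneg.mpr h)
        rw [hm, ub_ofPowerSeries_coeff_natCast, PowerSeries.coeff_mk, ← hm]
        congr 1
        ring

namespace ub_IsLead

theorem coeff_self {f : LaurentSeries R} {n : ℤ} {c : R} (h : ub_IsLead f n c) : f.coeff n = c :=
  (ub_isLead_iff_coeff.mp h).1

theorem coeff_of_lt {f : LaurentSeries R} {n : ℤ} {c : R} (h : ub_IsLead f n c) {k : ℤ}
    (hk : k < n) : f.coeff k = 0 :=
  (ub_isLead_iff_coeff.mp h).2 k hk

theorem ne_zero {f : LaurentSeries R} {n : ℤ} {c : R} (h : ub_IsLead f n c) (hc : c ≠ 0) :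
    f ≠ 0 := by
  intro h0
  apply hc
  rw [← h.coeff_self, h0]
  rfl

theorem order_eq {f : LaurentSeries R} {n : ℤ} {c : R} (h : ub_IsLead f n c) (hc : c ≠ 0) :
    f.order = n := by
  have hne : f.coeff n ≠ 0 := by rw [h.coeff_self]; exact hc
  refine le_antisymm (HahnSeries.order_le_of_coeff_ne_zero hne) ?_
  by_contra hlt
  rw [not_le] at hlt
  exact h.ne_zero hc (HahnSeries.coeff_order_eq_zero.mp (h.coeff_of_lt hlt))

theorem leadingCoeff_eq {f : LaurentSeries R} {n : ℤ} {c : R} (h : ub_IsLead f n c)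
    (hc : c ≠ 0) : f.leadingCoeff = c := by
  rw [HahnSeries.leadingCoeff_eq, h.order_eq hc, h.coeff_self]

/-- every series has its `order`/`leadingCoeff` as leading term (which is `0, 0` for `f = 0`) -/
theorem of_order (f : LaurentSeries R) : ub_IsLead f f.order f.leadingCoeff := by
  rw [ub_isLead_iff_coeff]
  exact ⟨HahnSeries.leadingCoeff_eq.symm, fun k hk => HahnSeries.coeff_eq_zero_of_lt_order hk⟩

theorem unique {f : LaurentSeries R} {n n' : ℤ} {c c' : R} (h : ub_IsLead f n c)
    (h' : ub_IsLead f n' c') (hc : c ≠ 0) (hc' : c' ≠ 0) : n = n' ∧ c = c' := by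
  have e : n = n' := by rw [← h.order_eq hc, ← h'.order_eq hc']
  subst e
  exact ⟨rfl, by rw [← h.coeff_self, ← h'.coeff_self]⟩

theorem single (n : ℤ) (c : R) : ub_IsLead (HahnSeries.single n c) n c := by
  rw [ub_isLead_iff_coeff]
  refine ⟨HahnSeries.coeff_single_same n c, fun k hk => HahnSeries.coeff_single_of_ne (ne_of_lt hk)⟩

theorem const (c : R) : ub_IsLead (HahnSeries.C c : LaurentSeries R) 0 c := single 0 c

theorem one : ub_IsLead (1 : LaurentSeries R) 0 1 := single 0 1

theorem ofPowerSeries (F : PowerSeries R) :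
    ub_IsLead (HahnSeries.ofPowerSeries ℤ R F) 0 (PowerSeries.constantCoeff F) :=
  ⟨F, rfl, by
    rw [show (HahnSeries.single (0 : ℤ) (1 : R)) = 1 from rfl, one_mul]⟩

theorem mul {f g : LaurentSeries R} {n m : ℤ} {c d : R} (hf : ub_IsLead f n c)
    (hg : ub_IsLead g m d) : ub_IsLead (f * g) (n + m) (c * d) := by
  obtain ⟨F, hF, rfl⟩ := hf
  obtain ⟨G, hG, rfl⟩ := hg
  refine ⟨F * G, by rw [map_mul, hF, hG], ?_⟩
  rw [map_mul, ← mul_one (1 : R), ← HahnSeries.single_mul_single, mul_one]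
  ring

theorem pow {f : LaurentSeries R} {n : ℤ} {c : R} (hf : ub_IsLead f n c) (k : ℕ) :
    ub_IsLead (f ^ k) (k * n) (c ^ k) := by
  induction k with
  | zero => simpa using (one : ub_IsLead (1 : LaurentSeries R) 0 1)
  | succ k ih =>
    have h := ih.mul hf
    rw [← pow_succ, ← pow_succ] at h
    convert h using 1
    push_cast
    ring

theorem prod {ι : Type*} (s : Finset ι) {f : ι → LaurentSeries R} {n : ι → ℤ} {c : ι → R}
    (h : ∀ i ∈ s, ub_IsLead (f i) (n i) (c i)) :
    ub_IsLead (∏ i ∈ s, f i) (∑ i ∈ s, n i) (∏ i ∈ s, c i) := by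
  classical
  induction s using Finset.induction_on with
  | empty => simpa using (one : ub_IsLead (1 : LaurentSeries R) 0 1)
  | insert a s ha ih =>
    rw [Finset.prod_insert ha, Finset.sum_insert ha, Finset.prod_insert ha]
    exact (h a (Finset.mem_insert_self a s)).mul
      (ih fun i hi => h i (Finset.mem_insert_of_mem hi))

theorem const_mul {f : LaurentSeries R} {n : ℤ} {c : R} (a : R) (hf : ub_IsLead f n c) :
    ub_IsLead (HahnSeries.C a * f) n (a * c) := by
  have h := (const a).mul hf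
  rwa [zero_add] at h

theorem coeffMap {S : Type*} [CommRing S] (φ : R →+* S) {f : LaurentSeries R} {n : ℤ} {c : R}
    (hf : ub_IsLead f n c) : ub_IsLead (coeffMap φ f) n (φ c) := by
  rw [ub_isLead_iff_coeff] at hf ⊢
  refine ⟨by rw [coeffMap_coeff, hf.1], fun k hk => by rw [coeffMap_coeff, hf.2 k hk, map_zero]⟩

theorem qExpand (N : ℕ) [NeZero N] {f : LaurentSeries R} {n : ℤ} {c : R}
    (hf : ub_IsLead f n c) : ub_IsLead (qExpand R N f) ((N : ℤ) * n) c := by
  rw [ub_isLead_iff_coeff] at hf ⊢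
  refine ⟨by rw [qExpand_coeff_mul, hf.1], fun k hk => ?_⟩
  by_cases hdvd : (N : ℤ) ∣ k
  · obtain ⟨j, rfl⟩ := hdvd
    rw [qExpand_coeff_mul]
    have hp : (0 : ℤ) < (N : ℤ) := by exact_mod_cast Nat.pos_of_ne_zero (NeZero.ne N)
    exact hf.2 j (lt_of_mul_lt_mul_left hk hp.le)
  · exact qExpand_coeff_of_not_dvd N f hdvd

/-- a series with unit leading coefficient is invertible, with the expected leading term -/
theorem exists_inv {f : LaurentSeries R} {n : ℤ} {c : R} (hf : ub_IsLead f n c) (u : Rˣ)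
    (hu : (u : R) = c) :
    ∃ g : LaurentSeries R, f * g = 1 ∧ ub_IsLead g (-n) ((u⁻¹ : Rˣ) : R) := by
  obtain ⟨F, hF, rfl⟩ := hf
  refine ⟨HahnSeries.single (-n) (1 : R) * HahnSeries.ofPowerSeries ℤ R (F.invOfUnit u), ?_,
    ⟨F.invOfUnit u, PowerSeries.constantCoeff_invOfUnit F u, rfl⟩⟩
  have h1 : F * F.invOfUnit u = 1 := PowerSeries.mul_invOfUnit F u (by rw [hF, hu])
  calc HahnSeries.single n (1 : R) * HahnSeries.ofPowerSeries ℤ R F *
        (HahnSeries.single (-n) (1 : R) * HahnSeries.ofPowerSeries ℤ R (F.invOfUnit u))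
      = (HahnSeries.single n (1 : R) * HahnSeries.single (-n) (1 : R)) *
        (HahnSeries.ofPowerSeries ℤ R F * HahnSeries.ofPowerSeries ℤ R (F.invOfUnit u)) := by
        ring
    _ = 1 := by
        rw [← map_mul (HahnSeries.ofPowerSeries ℤ R), h1, map_one (HahnSeries.ofPowerSeries ℤ R),
          HahnSeries.single_mul_single, add_neg_cancel, mul_one, mul_one]
        rfl

end ub_IsLead

/-! ### over a field -/

section Field

variable {K : Type*} [Field K]

namespace ub_IsLead

theorem inv {f : LaurentSeries K} {n : ℤ} {c : K} (hf : ub_IsLead f n c) (hc : c ≠ 0) :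
    ub_IsLead f⁻¹ (-n) c⁻¹ := by
  obtain ⟨g, hfg, hg⟩ := hf.exists_inv (Units.mk0 c hc) rfl
  have : f⁻¹ = g := by
    rw [inv_eq_iff_eq_inv]
    exact eq_inv_of_mul_eq_one_left hfg
  rw [this]
  simpa using hg

theorem zpow {f : LaurentSeries K} {n : ℤ} {c : K} (hf : ub_IsLead f n c) (hc : c ≠ 0) (z : ℤ) :
    ub_IsLead (f ^ z) (z * n) (c ^ z) := by
  cases z with
  | ofNat k =>
    simpa using hf.pow k
  | negSucc k =>
    rw [zpow_negSucc, zpow_negSucc]
    have h := (hf.pow (k + 1)).inv (pow_ne_zero _ hc)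
    convert h using 1
    push_cast
    rw [Int.negSucc_eq]
    ring

theorem div {f g : LaurentSeries K} {n m : ℤ} {c d : K} (hf : ub_IsLead f n c)
    (hg : ub_IsLead g m d) (hd : d ≠ 0) : ub_IsLead (f / g) (n - m) (c / d) := by
  rw [div_eq_mul_inv, sub_eq_add_neg, div_eq_mul_inv]
  exact hf.mul (hg.inv hd)

end ub_IsLead

end Field

end

end Fermat.Agent.S28x
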