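/-
S28 units route, module UB (helper86): the formal twist `F(u X^m)` of a power series, the formal
discriminant `Δ(u X^m)`, the one-divisor units `C ε * Δ(u X^m) / Δ(X^N)` over an arbitrary
commutative ring, their leading terms and their functoriality under ring homomorphisms.
Mathlib + Prelude + `UnitsLead` only.
-/
import Fermat.Agent.S28x.UnitsLead
import Fermat.Prelude.Def_ModularCurve_ModularUnit

set_option autoImplicit false

namespace Fermat.Agent.S28x

open ModularCurve

noncomputable section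

variable {R : Type*} [CommRing R] {S : Type*} [CommRing S]

/-! ### compatibility of `coeffMap` with the basic constructions -/

theorem ub_coeffMap_ofPowerSeries (φ : R →+* S) (F : PowerSeries R) :
    coeffMap φ (HahnSeries.ofPowerSeries ℤ R F) = HahnSeries.ofPowerSeries ℤ S (F.map φ) := by
  ext k
  rw [coeffMap_coeff]
  rcases lt_or_ge k 0 with h | h
  · rw [ub_ofPowerSeries_coeff_of_neg F h, ub_ofPowerSeries_coeff_of_neg _ h, map_zero]
  · obtain ⟨m, rfl⟩ := Int.eq_ofNat_of_zero_le h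
    rw [ub_ofPowerSeries_coeff_natCast, ub_ofPowerSeries_coeff_natCast, PowerSeries.coeff_map]

theorem ub_coeffMap_qExpand (φ : R →+* S) (m : ℕ) [NeZero m] (f : LaurentSeries R) :
    coeffMap φ (qExpand R m f) = qExpand S m (coeffMap φ f) := by
  ext k
  rw [coeffMap_coeff]
  by_cases hk : (m : ℤ) ∣ k
  · obtain ⟨j, rfl⟩ := hk
    rw [qExpand_coeff_mul, qExpand_coeff_mul, coeffMap_coeff]
  · rw [qExpand_coeff_of_not_dvd m f hk, qExpand_coeff_of_not_dvd m _ hk, map_zero]

theorem ub_coeffMap_C (φ : R →+* S) (a : R) :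
    coeffMap φ (HahnSeries.C a : LaurentSeries R) = HahnSeries.C (φ a) :=
  coeffMap_single φ 0 a

theorem ub_coeffMap_injective (φ : R →+* S) (hφ : Function.Injective φ) :
    Function.Injective (coeffMap φ) := by
  intro x y h
  ext k
  apply hφ
  rw [← coeffMap_coeff, ← coeffMap_coeff, h]

/-! ### the twist `F ↦ F(u X^m)` -/

/-- `F(u X^m)` for a power series `F`. -/
def ub_tw (u : R) (m : ℕ) [NeZero m] : PowerSeries R →+* LaurentSeries R :=
  (qExpand R m).comp ((HahnSeries.ofPowerSeries ℤ R : PowerSeries R →+* LaurentSeries R).comp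
    (PowerSeries.rescale u))

theorem ub_tw_apply (u : R) (m : ℕ) [NeZero m] (F : PowerSeries R) :
    ub_tw u m F = qExpand R m (HahnSeries.ofPowerSeries ℤ R (PowerSeries.rescale u F)) := rfl

theorem ub_tw_coeff_mul (u : R) (m : ℕ) [NeZero m] (F : PowerSeries R) (k : ℕ) :
    (ub_tw u m F).coeff ((m : ℤ) * k) = u ^ k * PowerSeries.coeff k F := by
  rw [ub_tw_apply, qExpand_coeff_mul, ub_ofPowerSeries_coeff_natCast, PowerSeries.coeff_rescale]

theorem ub_tw_coeff_of_not_dvd (u : R) (m : ℕ) [NeZero m] (F : PowerSeries R) {k : ℤ}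
    (hk : ¬ (m : ℤ) ∣ k) : (ub_tw u m F).coeff k = 0 :=
  qExpand_coeff_of_not_dvd m _ hk

theorem ub_tw_coeff_of_neg (u : R) (m : ℕ) [NeZero m] (F : PowerSeries R) {k : ℤ}
    (hk : k < 0) : (ub_tw u m F).coeff k = 0 := by
  by_cases hdvd : (m : ℤ) ∣ k
  · obtain ⟨j, rfl⟩ := hdvd
    rw [ub_tw_apply, qExpand_coeff_mul]
    have hp : (0 : ℤ) < (m : ℤ) := by exact_mod_cast Nat.pos_of_ne_zero (NeZero.ne m)
    exact ub_ofPowerSeries_coeff_of_neg _ (by
      by_contra h
      rw [not_lt] at h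
      exact absurd hk (not_lt.mpr (mul_nonneg hp.le h)))
  · exact ub_tw_coeff_of_not_dvd u m F hdvd

theorem ub_tw_isLead (u : R) (m : ℕ) [NeZero m] (F : PowerSeries R) :
    ub_IsLead (ub_tw u m F) 0 (PowerSeries.constantCoeff F) := by
  have h := (ub_IsLead.ofPowerSeries (PowerSeries.rescale u F)).qExpand m
  rw [mul_zero] at h
  have hc : PowerSeries.constantCoeff (PowerSeries.rescale u F) = PowerSeries.constantCoeff F := by
    rw [← PowerSeries.coeff_zero_eq_constantCoeff_apply,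
      ← PowerSeries.coeff_zero_eq_constantCoeff_apply,
      PowerSeries.coeff_rescale, pow_zero, one_mul]
  rwa [hc] at h

theorem ub_coeffMap_tw (φ : R →+* S) (u : R) (m : ℕ) [NeZero m] (F : PowerSeries R) :
    coeffMap φ (ub_tw u m F) = ub_tw (φ u) m (F.map φ) := by
  rw [ub_tw_apply, ub_tw_apply, ub_coeffMap_qExpand, ub_coeffMap_ofPowerSeries,
    PowerSeries.rescale_map]

theorem ub_tw_one (m : ℕ) [NeZero m] (F : PowerSeries R) :
    ub_tw (1 : R) m F = qExpand R m (HahnSeries.ofPowerSeries ℤ R F) := by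
  rw [ub_tw_apply, PowerSeries.rescale_one, RingHom.id_apply]

/-! ### the formal discriminant and its twists -/

/-- `∏ (1 - q^n)^24` over `R`. -/
def ub_eta (R : Type*) [CommRing R] : PowerSeries R := dedekindEtaUnit.map (Int.castRingHom R)

/-- `∏ (1 - q^n)^(-24)` over `R`. -/
def ub_etaInv (R : Type*) [CommRing R] : PowerSeries R :=
  dedekindEtaUnitInv.map (Int.castRingHom R)

theorem ub_eta_mul_etaInv (R : Type*) [CommRing R] : ub_eta R * ub_etaInv R = 1 := by
  rw [ub_eta, ub_etaInv, ← map_mul, dedekindEtaUnit_mul_inv, map_one]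

theorem ub_constantCoeff_eta (R : Type*) [CommRing R] :
    PowerSeries.constantCoeff (ub_eta R) = 1 := by
  rw [← PowerSeries.coeff_zero_eq_constantCoeff, ub_eta, PowerSeries.coeff_map,
    PowerSeries.coeff_zero_eq_constantCoeff, constantCoeff_dedekindEtaUnit]
  simp

theorem ub_constantCoeff_etaInv (R : Type*) [CommRing R] :
    PowerSeries.constantCoeff (ub_etaInv R) = 1 := by
  rw [← PowerSeries.coeff_zero_eq_constantCoeff, ub_etaInv, PowerSeries.coeff_map,
    PowerSeries.coeff_zero_eq_constantCoeff, constantCoeff_dedekindEtaUnitInv]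
  simp

theorem ub_map_eta (φ : R →+* S) : (ub_eta R).map φ = ub_eta S := by
  rw [ub_eta, ub_eta]
  ext n
  simp [PowerSeries.coeff_map]

theorem ub_map_etaInv (φ : R →+* S) : (ub_etaInv R).map φ = ub_etaInv S := by
  rw [ub_etaInv, ub_etaInv]
  ext n
  simp [PowerSeries.coeff_map]

/-- the formal discriminant `Δ = q ∏ (1 - q^n)^24` over `R`. -/
def ub_delta (R : Type*) [CommRing R] : LaurentSeries R :=
  HahnSeries.single (1 : ℤ) (1 : R) * HahnSeries.ofPowerSeries ℤ R (ub_eta R)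

/-- `Δ(u X^m) = u X^m ∏ (1 - u^n X^(mn))^24`. -/
def ub_deltaTw (u : R) (m : ℕ) [NeZero m] : LaurentSeries R :=
  HahnSeries.single (m : ℤ) u * ub_tw u m (ub_eta R)

/-- the inverse of `Δ(u X^m)` for a unit `u`. -/
def ub_deltaTwInv (u : Rˣ) (m : ℕ) [NeZero m] : LaurentSeries R :=
  HahnSeries.single (-(m : ℤ)) ((u⁻¹ : Rˣ) : R) * ub_tw (u : R) m (ub_etaInv R)

theorem ub_deltaTw_mul_inv (u : Rˣ) (m : ℕ) [NeZero m] :
    ub_deltaTw (u : R) m * ub_deltaTwInv u m = 1 := by
  rw [ub_deltaTw, ub_deltaTwInv]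
  calc HahnSeries.single (m : ℤ) (u : R) * ub_tw (u : R) m (ub_eta R) *
        (HahnSeries.single (-(m : ℤ)) ((u⁻¹ : Rˣ) : R) * ub_tw (u : R) m (ub_etaInv R))
      = (HahnSeries.single (m : ℤ) (u : R) * HahnSeries.single (-(m : ℤ)) ((u⁻¹ : Rˣ) : R)) *
        (ub_tw (u : R) m (ub_eta R) * ub_tw (u : R) m (ub_etaInv R)) := by ring
    _ = 1 := by
        rw [← map_mul (ub_tw (u : R) m), ub_eta_mul_etaInv, map_one (ub_tw (u : R) m),
          HahnSeries.single_mul_single, add_neg_cancel, Units.mul_inv, mul_one]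
        rfl

theorem ub_deltaTw_isLead (u : R) (m : ℕ) [NeZero m] : ub_IsLead (ub_deltaTw u m) m u := by
  have h := (ub_IsLead.single (m : ℤ) u).mul (ub_tw_isLead u m (ub_eta R))
  rwa [add_zero, ub_constantCoeff_eta, mul_one] at h

theorem ub_deltaTwInv_isLead (u : Rˣ) (m : ℕ) [NeZero m] :
    ub_IsLead (ub_deltaTwInv u m) (-(m : ℤ)) ((u⁻¹ : Rˣ) : R) := by
  have h := (ub_IsLead.single (-(m : ℤ)) ((u⁻¹ : Rˣ) : R)).mul
    (ub_tw_isLead (u : R) m (ub_etaInv R))
  rwa [add_zero, ub_constantCoeff_etaInv, mul_one] at h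

theorem ub_delta_isLead (R : Type*) [CommRing R] : ub_IsLead (ub_delta R) 1 1 := by
  have h := (ub_IsLead.single (1 : ℤ) (1 : R)).mul (ub_IsLead.ofPowerSeries (ub_eta R))
  rwa [add_zero, ub_constantCoeff_eta, mul_one] at h

/-- `Δ(1 · X^m)` is `Δ(q)` with `q = X^m`. -/
theorem ub_deltaTw_one (m : ℕ) [NeZero m] : ub_deltaTw (1 : R) m = qExpand R m (ub_delta R) := by
  rw [ub_deltaTw, ub_tw_one, ub_delta, map_mul, qExpand_single, mul_one]

theorem ub_coeffMap_delta (φ : R →+* S) : coeffMap φ (ub_delta R) = ub_delta S := by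
  rw [ub_delta, ub_delta, map_mul, coeffMap_single, map_one, ub_coeffMap_ofPowerSeries, ub_map_eta]

theorem ub_coeffMap_deltaTw (φ : R →+* S) (u : R) (m : ℕ) [NeZero m] :
    coeffMap φ (ub_deltaTw u m) = ub_deltaTw (φ u) m := by
  rw [ub_deltaTw, ub_deltaTw, map_mul, coeffMap_single, ub_coeffMap_tw, ub_map_eta]

theorem ub_coeffMap_deltaTwInv (φ : R →+* S) (u : Rˣ) (m : ℕ) [NeZero m] :
    coeffMap φ (ub_deltaTwInv u m) = ub_deltaTwInv (Units.map (φ : R →* S) u) m := by
  rw [ub_deltaTwInv, ub_deltaTwInv, map_mul, coeffMap_single, ub_coeffMap_tw, ub_map_etaInv]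
  rfl

/-- over `ℚ` the formal discriminant is the Prelude's `deltaSeries` -/
theorem ub_delta_rat : ub_delta ℚ = deltaSeries := rfl

end

end Fermat.Agent.S28x
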